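/-
T4-V0 (helper8): two inertia levels `H₂ ≤ H₁ ≤ 𝔓.I`.

* `t4cyInc 𝔓 h : L_{H₁} →ₐ[ℚ] L_{H₂}` (`L_H = tbFix 𝔓 H`), the local instance
  `t4cyAlgebra 𝔓 h : Algebra L_{H₁} L_{H₂}`, compatibility with the valuation rings `tbFixO` and the
  residue maps `tbFixRes` (`t4cyIncO`, `tbFixRes_t4cyIncO`);
* for `H₂` normal in `𝔓.I` and `σ ∈ H₁`: the restriction `t4cyTau 𝔓 h σ hσ : L_{H₂} ≃ₐ[L_{H₁}] L_{H₂}`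
  of `σ`; it preserves `O_{H₂}` (`t4cyTauO`) and induces the identity on the residue field
  (`tbFixRes_t4cyTauO`).
-/
import Fermat.Agent.Lib.T1.Core.InertiaDVR

set_option autoImplicit false
set_option linter.style.haveILetI false
set_option linter.unusedSectionVars false

namespace Fermat.Agent.T4

noncomputable section

open Fermat.Agent.T1 Fermat.Agent.TW Fermat.Agent.S05Lib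

local notation "Qb" => AlgebraicClosure ℚ
local notation "GQ" => (AlgebraicClosure ℚ ≃ₐ[ℚ] AlgebraicClosure ℚ)

variable (𝔓 : FFPlace) {H₁ H₂ : Subgroup 𝔓.I}

theorem t4cy_tbFix_mono (h : H₂ ≤ H₁) : tbFix 𝔓 H₁ ≤ tbFix 𝔓 H₂ := by
  intro z hz
  rw [mem_tbFix] at hz ⊢
  exact fun σ hσ => hz σ (h hσ)

/-- the inclusion `L_{H₁} → L_{H₂}` for `H₂ ≤ H₁` -/
def t4cyInc (h : H₂ ≤ H₁) : ↥(tbFix 𝔓 H₁) →ₐ[ℚ] ↥(tbFix 𝔓 H₂) :=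
  IntermediateField.inclusion (t4cy_tbFix_mono 𝔓 h)

@[simp] theorem coe_t4cyInc (h : H₂ ≤ H₁) (x : ↥(tbFix 𝔓 H₁)) :
    ((t4cyInc 𝔓 h x : ↥(tbFix 𝔓 H₂)) : Qb) = (x : Qb) := rfl

/-- `L_{H₂}` as an algebra over `L_{H₁}` (local instance) -/
@[reducible] def t4cyAlgebra (h : H₂ ≤ H₁) : Algebra ↥(tbFix 𝔓 H₁) ↥(tbFix 𝔓 H₂) :=
  (t4cyInc 𝔓 h).toRingHom.toAlgebra

theorem t4cy_algebraMap_eq (h : H₂ ≤ H₁) (x : ↥(tbFix 𝔓 H₁)) :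
    letI := t4cyAlgebra 𝔓 h
    algebraMap ↥(tbFix 𝔓 H₁) ↥(tbFix 𝔓 H₂) x = t4cyInc 𝔓 h x := rfl

theorem coe_t4cy_algebraMap (h : H₂ ≤ H₁) (x : ↥(tbFix 𝔓 H₁)) :
    letI := t4cyAlgebra 𝔓 h
    ((algebraMap ↥(tbFix 𝔓 H₁) ↥(tbFix 𝔓 H₂) x : ↥(tbFix 𝔓 H₂)) : Qb) = (x : Qb) := rfl

theorem t4cy_isScalarTower (h : H₂ ≤ H₁) :
    letI := t4cyAlgebra 𝔓 h
    IsScalarTower ↥(tbFix 𝔓 H₁) ↥(tbFix 𝔓 H₂) Qb := by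
  letI := t4cyAlgebra 𝔓 h
  refine IsScalarTower.of_algebraMap_eq (fun x => ?_)
  rfl

theorem t4cyInc_mem_tbFixO (h : H₂ ≤ H₁) (x : ↥(tbFix 𝔓 H₁)) :
    t4cyInc 𝔓 h x ∈ tbFixO 𝔓 H₂ ↔ x ∈ tbFixO 𝔓 H₁ := by
  rw [mem_tbFixO, mem_tbFixO, coe_t4cyInc]

/-- the inclusion `O_{H₁} → O_{H₂}` -/
def t4cyIncO (h : H₂ ≤ H₁) : ↥(tbFixO 𝔓 H₁) →+* ↥(tbFixO 𝔓 H₂) :=
  ((t4cyInc 𝔓 h).toRingHom.comp (tbFixO 𝔓 H₁).subtype).codRestrict (tbFixO 𝔓 H₂).toSubring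
    (fun x => (t4cyInc_mem_tbFixO 𝔓 h _).mpr x.2)

@[simp] theorem coe_t4cyIncO (h : H₂ ≤ H₁) (x : ↥(tbFixO 𝔓 H₁)) :
    ((t4cyIncO 𝔓 h x : ↥(tbFixO 𝔓 H₂)) : ↥(tbFix 𝔓 H₂)) = t4cyInc 𝔓 h (x : ↥(tbFix 𝔓 H₁)) := rfl

theorem tbFixRes_t4cyIncO (h : H₂ ≤ H₁) (x : ↥(tbFixO 𝔓 H₁)) :
    tbFixRes 𝔓 H₂ (t4cyIncO 𝔓 h x) = tbFixRes 𝔓 H₁ x := rfl

/-! ### Restriction of inertia elements to `L_{H₂}`, `H₂` normal -/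

theorem t4cy_map_mem_tbFix [H₂.Normal] (σ : 𝔓.I) {z : Qb} (hz : z ∈ tbFix 𝔓 H₂) :
    ((σ : 𝔓.I) : GQ) z ∈ tbFix 𝔓 H₂ := by
  rw [mem_tbFix] at hz ⊢
  intro τ hτ
  have h1 : σ⁻¹ * τ * σ ∈ H₂ := by
    have := Subgroup.Normal.conj_mem (inferInstance : H₂.Normal) τ hτ σ⁻¹
    rwa [inv_inv] at this
  have h2 := hz _ h1
  have h3 : ((τ : 𝔓.I) : GQ) (((σ : 𝔓.I) : GQ) z)
      = ((σ : 𝔓.I) : GQ) ((((σ⁻¹ * τ * σ : 𝔓.I) : 𝔓.I) : GQ) z) := by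
    simp only [Subgroup.coe_mul, Subgroup.coe_inv, AlgEquiv.mul_apply]
    rw [AlgEquiv.aut_inv, AlgEquiv.apply_symm_apply]
  rw [h3, h2]

/-- the restriction of `σ ∈ H₁ ≤ I` to `L_{H₂}` (`H₂ ≤ H₁` normal in `I`), an automorphism over
`L_{H₁}` -/
def t4cyTau (h : H₂ ≤ H₁) [H₂.Normal] (σ : 𝔓.I) (hσ : σ ∈ H₁) :
    letI := t4cyAlgebra 𝔓 h
    ↥(tbFix 𝔓 H₂) ≃ₐ[↥(tbFix 𝔓 H₁)] ↥(tbFix 𝔓 H₂) :=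
  letI := t4cyAlgebra 𝔓 h
  { toFun := fun x => ⟨((σ : 𝔓.I) : GQ) x, t4cy_map_mem_tbFix 𝔓 σ x.2⟩
    invFun := fun x => ⟨((σ⁻¹ : 𝔓.I) : GQ) x, t4cy_map_mem_tbFix 𝔓 σ⁻¹ x.2⟩
    left_inv := fun x => by
      apply Subtype.ext
      show ((σ⁻¹ : 𝔓.I) : GQ) (((σ : 𝔓.I) : GQ) x) = x
      simp only [Subgroup.coe_inv]
      rw [AlgEquiv.aut_inv, AlgEquiv.symm_apply_apply]
    right_inv := fun x => by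
      apply Subtype.ext
      show ((σ : 𝔓.I) : GQ) (((σ⁻¹ : 𝔓.I) : GQ) x) = x
      simp only [Subgroup.coe_inv]
      rw [AlgEquiv.aut_inv, AlgEquiv.apply_symm_apply]
    map_mul' := fun x y => by
      apply Subtype.ext
      show ((σ : 𝔓.I) : GQ) ((x : Qb) * (y : Qb)) = _
      rw [map_mul]; rfl
    map_add' := fun x y => by
      apply Subtype.ext
      show ((σ : 𝔓.I) : GQ) ((x : Qb) + (y : Qb)) = _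
      rw [map_add]; rfl
    commutes' := fun c => by
      apply Subtype.ext
      show ((σ : 𝔓.I) : GQ) (c : Qb) = (c : Qb)
      exact (mem_tbFix 𝔓 H₁ _).mp c.2 σ hσ }

@[simp] theorem coe_t4cyTau (h : H₂ ≤ H₁) [H₂.Normal] (σ : 𝔓.I) (hσ : σ ∈ H₁)
    (x : ↥(tbFix 𝔓 H₂)) :
    ((t4cyTau 𝔓 h σ hσ x : ↥(tbFix 𝔓 H₂)) : Qb) = ((σ : 𝔓.I) : GQ) (x : Qb) := rfl

theorem t4cyTau_mem_tbFixO (h : H₂ ≤ H₁) [H₂.Normal] (σ : 𝔓.I) (hσ : σ ∈ H₁)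
    (x : ↥(tbFix 𝔓 H₂)) : t4cyTau 𝔓 h σ hσ x ∈ tbFixO 𝔓 H₂ ↔ x ∈ tbFixO 𝔓 H₂ := by
  rw [mem_tbFixO, mem_tbFixO, coe_t4cyTau]
  constructor
  · intro hx
    have := 𝔓.ge_D (𝔓.I_le_D (σ⁻¹ : 𝔓.I).2) hx
    simp only [Subgroup.coe_inv] at this
    rwa [AlgEquiv.aut_inv, AlgEquiv.symm_apply_apply] at this
  · exact fun hx => 𝔓.ge_D (𝔓.I_le_D σ.2) hx

/-- `τ_σ` on `O_{H₂}` -/
def t4cyTauO (h : H₂ ≤ H₁) [H₂.Normal] (σ : 𝔓.I) (hσ : σ ∈ H₁) :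
    ↥(tbFixO 𝔓 H₂) →+* ↥(tbFixO 𝔓 H₂) :=
  (((t4cyTau 𝔓 h σ hσ : ↥(tbFix 𝔓 H₂) ≃+* ↥(tbFix 𝔓 H₂)) : ↥(tbFix 𝔓 H₂) →+* ↥(tbFix 𝔓 H₂)).comp
    (tbFixO 𝔓 H₂).subtype).codRestrict (tbFixO 𝔓 H₂).toSubring
    (fun x => (t4cyTau_mem_tbFixO 𝔓 h σ hσ _).mpr x.2)

@[simp] theorem coe_t4cyTauO (h : H₂ ≤ H₁) [H₂.Normal] (σ : 𝔓.I) (hσ : σ ∈ H₁)
    (x : ↥(tbFixO 𝔓 H₂)) :
    ((t4cyTauO 𝔓 h σ hσ x : ↥(tbFixO 𝔓 H₂)) : ↥(tbFix 𝔓 H₂)) =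
      t4cyTau 𝔓 h σ hσ (x : ↥(tbFix 𝔓 H₂)) := rfl

/-- inertia acts trivially on the residue field -/
theorem tbFixRes_t4cyTauO (h : H₂ ≤ H₁) [H₂.Normal] (σ : 𝔓.I) (hσ : σ ∈ H₁)
    (x : ↥(tbFixO 𝔓 H₂)) : tbFixRes 𝔓 H₂ (t4cyTauO 𝔓 h σ hσ x) = tbFixRes 𝔓 H₂ x := by
  show IsLocalRing.residue ↥𝔓.P (tbFixIncl 𝔓 H₂ _) = IsLocalRing.residue ↥𝔓.P (tbFixIncl 𝔓 H₂ x)
  rw [← sub_eq_zero, ← map_sub, IsLocalRing.residue_eq_zero_iff, tb_mem_maximalIdeal_iff]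
  have hx : 𝔓.v.Ge (((x : ↥(tbFix 𝔓 H₂)) : Qb)) 0 := (mem_tbFixO 𝔓 H₂ _).mp x.2
  exact 𝔓.gt_I_sub σ.2 hx

end

end Fermat.Agent.T4
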