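/-
T4-V2 (lead), part 3: the Atkin–Lehner involution `w_Q` (`N = N' Q`, `gcd(Q, N') = 1`) commutes with the
arithmetic Galois action, restricts to the finite levels `F_H = tbLevF 𝔓 N H`, and — for `Q = q²` —
gives the Atkin–Lehner data `T4iAL` of level `N' * q * q`:  `w (a0 f) = a2 f`, `w (a1 f) = a1 f`, `w ∘ w = id`
(`a0 = α∘α`, `a1 = α∘β`, `a2 = β∘β` the three degeneracy maps `F_{N'} → F_{N' q q}`).
-/
import Mathlib
import Fermat.Agent.Lib.T4.Inst.ALMain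
import Fermat.Agent.Lib.T2.AL.Level

set_option autoImplicit false
set_option linter.unusedSectionVars false
set_option linter.style.haveILetI false
set_option linter.unusedVariables false
set_option synthInstance.maxHeartbeats 400000

namespace Fermat.Agent.T4

open Fermat.Agent.S24Lib Fermat.Agent.T1 Fermat.Agent.T1.KMod Fermat.Agent.T2
open ModularCurve HahnSeries Fermat.Agent.TW Fermat.Agent.S05Lib

local notation "Qb" => AlgebraicClosure ℚ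
local notation "GQ" => (AlgebraicClosure ℚ ≃ₐ[ℚ] AlgebraicClosure ℚ)

/-! ### Galois equivariance over an algebraically closed field -/

section Comm

variable (𝕜 : Type) [Field 𝕜] [IsAlgClosed 𝕜] [Algebra 𝕜 ℂ] [Algebra ℚ 𝕜]
variable (N N' Q : ℕ) [NeZero N] (hN : N = N' * Q) (hcop : Nat.Coprime Q N')

/-- **`w_Q` commutes with the arithmetic Galois action** -/
theorem t4w_comm (σ : 𝕜 ≃ₐ[ℚ] 𝕜) (x : barField 𝕜 N) :
    t4w 𝕜 N N' Q hN hcop (arithmeticRingAut (modularFunctionFieldFull N) σ x)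
      = arithmeticRingAut (modularFunctionFieldFull N) σ (t4w 𝕜 N N' Q hN hcop x) := by
  have key : (((t4w 𝕜 N N' Q hN hcop : barField 𝕜 N ≃ₐ[𝕜] barField 𝕜 N) :
        barField 𝕜 N →+* barField 𝕜 N).comp
        ((arithmeticRingAut (modularFunctionFieldFull N) σ : barField 𝕜 N ≃+* barField 𝕜 N) :
          barField 𝕜 N →+* barField 𝕜 N))
      = ((arithmeticRingAut (modularFunctionFieldFull N) σ : barField 𝕜 N ≃+* barField 𝕜 N) :
          barField 𝕜 N →+* barField 𝕜 N).comp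
        ((t4w 𝕜 N N' Q hN hcop : barField 𝕜 N ≃ₐ[𝕜] barField 𝕜 N) :
          barField 𝕜 N →+* barField 𝕜 N) := by
    apply t2w_ringHom_ext
    · intro c
      show t4w 𝕜 N N' Q hN hcop (arithmeticRingAut _ σ (algebraMap 𝕜 _ c))
        = arithmeticRingAut _ σ (t4w 𝕜 N N' Q hN hcop (algebraMap 𝕜 _ c))
      rw [arithmeticRingAut_algebraMap, AlgEquiv.commutes, AlgEquiv.commutes,
        arithmeticRingAut_algebraMap]
    · intro D hD
      show t4w 𝕜 N N' Q hN hcop (arithmeticRingAut _ σ (t2wJd 𝕜 N D hD))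
        = arithmeticRingAut _ σ (t4w 𝕜 N N' Q hN hcop (t2wJd 𝕜 N D hD))
      rw [t2w_arith_jd]
      obtain ⟨d, e, e', hd, he, rfl⟩ := t4w_dvd_cases N N' Q hN hD
      rw [t4w_jd 𝕜 N N' Q hN hcop hd he, t2w_arith_jd]
  exact RingHom.congr_fun key x

end Comm

/-! ### Restriction to the finite levels -/

section Lev

variable (𝔓 : FFPlace) (H : Subgroup 𝔓.I)
variable (N N' Q : ℕ) [NeZero N] (hN : N = N' * Q) (hcop : Nat.Coprime Q N')

theorem t4w_exists_lev (f : tbLevF 𝔓 N H) :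
    ∃ f' : tbLevF 𝔓 N H, tbPhiF 𝔓 N H f' = t4w Qb N N' Q hN hcop (tbPhiF 𝔓 N H f) := by
  apply t2w_exists_tbPhiF_eq
  intro σ hσ
  rw [← t4w_comm, t2w_arith_tbPhiF 𝔓 N H σ hσ]

/-- the underlying function of the Atkin–Lehner involution at level `H` -/
noncomputable def t4wLevFun (f : tbLevF 𝔓 N H) : tbLevF 𝔓 N H :=
  (t4w_exists_lev 𝔓 H N N' Q hN hcop f).choose

theorem tbPhiF_t4wLevFun (f : tbLevF 𝔓 N H) :
    tbPhiF 𝔓 N H (t4wLevFun 𝔓 H N N' Q hN hcop f) = t4w Qb N N' Q hN hcop (tbPhiF 𝔓 N H f) :=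
  (t4w_exists_lev 𝔓 H N N' Q hN hcop f).choose_spec

theorem t4wLevFun_eq_iff (f f' : tbLevF 𝔓 N H) :
    t4wLevFun 𝔓 H N N' Q hN hcop f = f'
      ↔ tbPhiF 𝔓 N H f' = t4w Qb N N' Q hN hcop (tbPhiF 𝔓 N H f) := by
  constructor
  · rintro rfl
    exact tbPhiF_t4wLevFun 𝔓 H N N' Q hN hcop f
  · intro hf
    apply tbPhiF_injective 𝔓 N H
    rw [tbPhiF_t4wLevFun, hf]

/-- the Atkin–Lehner involution at level `H` as an algebra endomorphism -/
noncomputable def t4wLevHom : tbLevF 𝔓 N H →ₐ[↥(tbFix 𝔓 H)] tbLevF 𝔓 N H where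
  toFun := t4wLevFun 𝔓 H N N' Q hN hcop
  map_one' := by rw [t4wLevFun_eq_iff]; simp
  map_mul' a b := by
    rw [t4wLevFun_eq_iff, map_mul, map_mul, map_mul, tbPhiF_t4wLevFun, tbPhiF_t4wLevFun]
  map_zero' := by rw [t4wLevFun_eq_iff]; simp
  map_add' a b := by
    rw [t4wLevFun_eq_iff, map_add, map_add, map_add, tbPhiF_t4wLevFun, tbPhiF_t4wLevFun]
  commutes' c := by
    rw [t4wLevFun_eq_iff, tbPhiF_algebraMap, AlgEquiv.commutes]

theorem tbPhiF_t4wLevHom (f : tbLevF 𝔓 N H) :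
    tbPhiF 𝔓 N H (t4wLevHom 𝔓 H N N' Q hN hcop f) = t4w Qb N N' Q hN hcop (tbPhiF 𝔓 N H f) :=
  tbPhiF_t4wLevFun 𝔓 H N N' Q hN hcop f

theorem t4wLevHom_t4wLevHom (f : tbLevF 𝔓 N H) :
    t4wLevHom 𝔓 H N N' Q hN hcop (t4wLevHom 𝔓 H N N' Q hN hcop f) = f := by
  apply tbPhiF_injective 𝔓 N H
  rw [tbPhiF_t4wLevHom, tbPhiF_t4wLevHom, t4w_t4w]

/-- **the Atkin–Lehner involution `w_Q` of the function field of `X₀(N' Q)` over `L_H`** -/
noncomputable def t4wLev : tbLevF 𝔓 N H ≃ₐ[↥(tbFix 𝔓 H)] tbLevF 𝔓 N H :=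
  AlgEquiv.ofAlgHom (t4wLevHom 𝔓 H N N' Q hN hcop) (t4wLevHom 𝔓 H N N' Q hN hcop)
    (AlgHom.ext (t4wLevHom_t4wLevHom 𝔓 H N N' Q hN hcop))
    (AlgHom.ext (t4wLevHom_t4wLevHom 𝔓 H N N' Q hN hcop))

/-- compatibility with the involution over `ℚ̄` -/
theorem tbPhiF_t4wLev (f : tbLevF 𝔓 N H) :
    tbPhiF 𝔓 N H (t4wLev 𝔓 H N N' Q hN hcop f) = t4w Qb N N' Q hN hcop (tbPhiF 𝔓 N H f) :=
  tbPhiF_t4wLevFun 𝔓 H N N' Q hN hcop f

theorem t4wLev_t4wLev (f : tbLevF 𝔓 N H) :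
    t4wLev 𝔓 H N N' Q hN hcop (t4wLev 𝔓 H N N' Q hN hcop f) = f :=
  t4wLevHom_t4wLevHom 𝔓 H N N' Q hN hcop f

theorem t4wLev_symm : (t4wLev 𝔓 H N N' Q hN hcop).symm = t4wLev 𝔓 H N N' Q hN hcop := by
  ext x
  rfl

/-- the generators at level `H` and over `ℚ̄` correspond -/
theorem t4w_tbPhiF_jd (D : ℕ) (hD : D ∣ N) :
    tbPhiF 𝔓 N H (t2wJd ↥(tbFix 𝔓 H) N D hD) = t2wJd Qb N D hD := by
  haveI : NeZero D := t2w_neZero_of_dvd N hD
  apply Subtype.ext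
  rw [coe_tbPhiF, coe_t2wJd' _ N D hD, coe_t2wJd' _ N D hD]
  exact tbd_coeffMap_coeffEmb _

/-- `w_Q (j(q^{d e})) = j(q^{d e'})` at level `H` -/
theorem t4wLev_jd {d e e' : ℕ} (hd : d ∣ N') (he : e * e' = Q) :
    t4wLev 𝔓 H N N' Q hN hcop (t2wJd ↥(tbFix 𝔓 H) N (d * e) (t4w_dvd N N' Q hN hd he))
      = t2wJd ↥(tbFix 𝔓 H) N (d * e') (t4w_dvd' N N' Q hN hd he) := by
  apply tbPhiF_injective 𝔓 N H
  rw [tbPhiF_t4wLev, t4w_tbPhiF_jd, t4w_tbPhiF_jd, t4w_jd Qb N N' Q hN hcop hd he]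

/-- compatibility with the coefficientwise Galois action -/
theorem t4wLev_sigma (σ : GQ) (f f' : tbLevF 𝔓 N H)
    (hff' : tbPhiF 𝔓 N H f'
      = arithmeticRingAut (modularFunctionFieldFull N) σ (tbPhiF 𝔓 N H f)) :
    tbPhiF 𝔓 N H (t4wLev 𝔓 H N N' Q hN hcop f')
      = arithmeticRingAut (modularFunctionFieldFull N) σ
          (tbPhiF 𝔓 N H (t4wLev 𝔓 H N N' Q hN hcop f)) := by
  rw [tbPhiF_t4wLev, hff', t4w_comm, tbPhiF_t4wLev]

end Lev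

end Fermat.Agent.T4
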