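/-
T4-V2 (lead), part 4: the Atkin–Lehner data `T4iAL L N' q` of level `N' * q * q` (`q ∤ N'`):
an involution `w` of `F = TaF L (N' * q * q)` with `w ∘ (α∘α) = β∘β` and `w ∘ (α∘β) = α∘β`, where
`α = heckeAlphaBar` (inclusion of `q`-expansions) and `β = heckeBetaBar` (`qExpand q`), i.e. in the notation of
the T4 brief `w (a0 f) = a2 f`, `w (a1 f) = a1 f`;  instance `t4iALFix` over the level fields `L_H = tbFix 𝔓 H`.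
-/
import Mathlib
import Fermat.Agent.Lib.T4.Inst.ALLevel
import Fermat.Agent.Lib.T1.GoodRed.Level

set_option autoImplicit false
set_option linter.unusedSectionVars false
set_option linter.style.haveILetI false
set_option linter.unusedVariables false
set_option synthInstance.maxHeartbeats 400000

namespace Fermat.Agent.T4

open Fermat.Agent.S24Lib Fermat.Agent.T1 Fermat.Agent.T1.KMod Fermat.Agent.T2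
open ModularCurve HahnSeries Fermat.Agent.TW Fermat.Agent.S05Lib

theorem t4w_qExpand_congr {R : Type*} [CommRing R] (a b : ℕ) [NeZero a] [NeZero b] (h : a = b)
    (f : LaurentSeries R) : qExpand R a f = qExpand R b f := by
  subst h
  rfl

/-- the Atkin–Lehner data at level `N' * q * q` (supplied by `t4iALFix`) -/
structure T4iAL (L : Type*) [Field L] [Algebra ℚ L] (N' q : ℕ) [NeZero N'] [NeZero q] where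
  /-- the involution `w_{q²}` -/
  w : ↥(TaF L (N' * q * q)) ≃ₐ[L] ↥(TaF L (N' * q * q))
  /-- `w (a0 f) = a2 f` -/
  w_aa : ∀ f : ↥(TaF L N'),
    w (heckeAlphaBar L (N' * q) q (heckeAlphaBar L N' q f))
      = heckeBetaBar L (N' * q) q (heckeBetaBar L N' q f)
  /-- `w (a1 f) = a1 f` -/
  w_ab : ∀ f : ↥(TaF L N'),
    w (heckeAlphaBar L (N' * q) q (heckeBetaBar L N' q f))
      = heckeAlphaBar L (N' * q) q (heckeBetaBar L N' q f)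
  w_w : ∀ f : ↥(TaF L (N' * q * q)), w (w f) = f

variable {L : Type*} [Field L] [Algebra ℚ L] {N' q : ℕ} [NeZero N'] [NeZero q]

theorem T4iAL.w_bb (W : T4iAL L N' q) (f : ↥(TaF L N')) :
    W.w (heckeBetaBar L (N' * q) q (heckeBetaBar L N' q f))
      = heckeAlphaBar L (N' * q) q (heckeAlphaBar L N' q f) := by
  rw [← W.w_aa, W.w_w]

/-- `α ∘ β = β ∘ α` (the middle degeneracy map `a1`) -/
theorem t4w_alpha_beta (L : Type*) [Field L] [Algebra ℚ L] (N' q : ℕ) [NeZero N'] [NeZero q]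
    (f : ↥(TaF L N')) :
    heckeAlphaBar L (N' * q) q (heckeBetaBar L N' q f)
      = heckeBetaBar L (N' * q) q (heckeAlphaBar L N' q f) := by
  apply Subtype.ext
  rw [coe_heckeAlphaBar, coe_heckeBetaBar, coe_heckeBetaBar, coe_heckeAlphaBar]

section Fix

local notation "Qb" => AlgebraicClosure ℚ

variable (𝔓 : FFPlace) (H : Subgroup 𝔓.I) (N' : ℕ) [NeZero N'] (h : ¬ 𝔓.p ∣ N')

instance t4w_neZero_p : NeZero 𝔓.p := ⟨𝔓.hp.ne_zero⟩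

theorem t4w_level_eq : N' * 𝔓.p * 𝔓.p = N' * (𝔓.p * 𝔓.p) := mul_assoc _ _ _

include h in
theorem t4w_coprime_sq : Nat.Coprime (𝔓.p * 𝔓.p) N' := by
  have h1 : Nat.Coprime 𝔓.p N' := (Nat.Prime.coprime_iff_not_dvd 𝔓.hp).mpr h
  exact Nat.Coprime.mul_left h1 h1

/-- **`w_{q²}` at level `H`**, `q = 𝔓.p` -/
noncomputable def t4wSq :
    tbLevF 𝔓 (N' * 𝔓.p * 𝔓.p) H ≃ₐ[↥(tbFix 𝔓 H)] tbLevF 𝔓 (N' * 𝔓.p * 𝔓.p) H :=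
  t4wLev 𝔓 H (N' * 𝔓.p * 𝔓.p) N' (𝔓.p * 𝔓.p) (t4w_level_eq 𝔓 N') (t4w_coprime_sq 𝔓 N' h)

theorem t4wSq_t4wSq (f : tbLevF 𝔓 (N' * 𝔓.p * 𝔓.p) H) :
    t4wSq 𝔓 H N' h (t4wSq 𝔓 H N' h f) = f :=
  t4wLev_t4wLev 𝔓 H _ _ _ _ _ f

/-- `w_{q²} (j(q^{d e})) = j(q^{d e'})` for `d ∣ N'`, `e e' = q²` -/
theorem t4wSq_jd {d e e' : ℕ} (hd : d ∣ N') (he : e * e' = 𝔓.p * 𝔓.p) :
    t4wSq 𝔓 H N' h (t2wJd ↥(tbFix 𝔓 H) (N' * 𝔓.p * 𝔓.p) (d * e)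
        (t4w_dvd _ N' (𝔓.p * 𝔓.p) (t4w_level_eq 𝔓 N') hd he))
      = t2wJd ↥(tbFix 𝔓 H) (N' * 𝔓.p * 𝔓.p) (d * e')
        (t4w_dvd' _ N' (𝔓.p * 𝔓.p) (t4w_level_eq 𝔓 N') hd he) :=
  t4wLev_jd 𝔓 H _ _ _ _ _ hd he

/-- `w_{q²}` and the ring hom underlying it agree (bookkeeping) -/
theorem t4wSq_ringHom_ext
    (φ ψ : ↥(TaF ↥(tbFix 𝔓 H) N') →+* ↥(tbLevF 𝔓 (N' * 𝔓.p * 𝔓.p) H))
    (hc : ∀ c : ↥(tbFix 𝔓 H), φ (algebraMap _ _ c) = ψ (algebraMap _ _ c))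
    (hg : ∀ (d : ℕ) (hd : d ∣ N'), φ (t2wJd ↥(tbFix 𝔓 H) N' d hd)
      = ψ (t2wJd ↥(tbFix 𝔓 H) N' d hd)) : φ = ψ :=
  t2w_ringHom_ext ↥(tbFix 𝔓 H) N' φ ψ hc hg

/-- `w_{q²} ∘ α ∘ α = β ∘ β` at level `H` -/
theorem t4wSq_aa (f : ↥(TaF ↥(tbFix 𝔓 H) N')) :
    t4wSq 𝔓 H N' h (heckeAlphaBar ↥(tbFix 𝔓 H) (N' * 𝔓.p) 𝔓.p
        (heckeAlphaBar ↥(tbFix 𝔓 H) N' 𝔓.p f))
      = heckeBetaBar ↥(tbFix 𝔓 H) (N' * 𝔓.p) 𝔓.p (heckeBetaBar ↥(tbFix 𝔓 H) N' 𝔓.p f) := by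
  have key :
      (((t4wSq 𝔓 H N' h : tbLevF 𝔓 (N' * 𝔓.p * 𝔓.p) H ≃ₐ[↥(tbFix 𝔓 H)] _) :
          tbLevF 𝔓 (N' * 𝔓.p * 𝔓.p) H →+* tbLevF 𝔓 (N' * 𝔓.p * 𝔓.p) H).comp
        (((heckeAlphaBar ↥(tbFix 𝔓 H) (N' * 𝔓.p) 𝔓.p).comp
          (heckeAlphaBar ↥(tbFix 𝔓 H) N' 𝔓.p) :
            ↥(TaF ↥(tbFix 𝔓 H) N') →ₐ[↥(tbFix 𝔓 H)] _) :
          ↥(TaF ↥(tbFix 𝔓 H) N') →+* tbLevF 𝔓 (N' * 𝔓.p * 𝔓.p) H))
      = (((heckeBetaBar ↥(tbFix 𝔓 H) (N' * 𝔓.p) 𝔓.p).comp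
          (heckeBetaBar ↥(tbFix 𝔓 H) N' 𝔓.p) :
            ↥(TaF ↥(tbFix 𝔓 H) N') →ₐ[↥(tbFix 𝔓 H)] _) :
          ↥(TaF ↥(tbFix 𝔓 H) N') →+* tbLevF 𝔓 (N' * 𝔓.p * 𝔓.p) H) := by
    apply t4wSq_ringHom_ext
    · intro c
      simp
    · intro d hd
      haveI : NeZero d := t2w_neZero_of_dvd N' hd
      show t4wSq 𝔓 H N' h (heckeAlphaBar _ (N' * 𝔓.p) 𝔓.p (heckeAlphaBar _ N' 𝔓.p
          (t2wJd ↥(tbFix 𝔓 H) N' d hd)))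
        = heckeBetaBar _ (N' * 𝔓.p) 𝔓.p (heckeBetaBar _ N' 𝔓.p (t2wJd ↥(tbFix 𝔓 H) N' d hd))
      have he : 1 * (𝔓.p * 𝔓.p) = 𝔓.p * 𝔓.p := one_mul _
      have h1 : heckeAlphaBar _ (N' * 𝔓.p) 𝔓.p (heckeAlphaBar _ N' 𝔓.p
          (t2wJd ↥(tbFix 𝔓 H) N' d hd))
          = t2wJd ↥(tbFix 𝔓 H) (N' * 𝔓.p * 𝔓.p) (d * 1)
              (t4w_dvd _ N' (𝔓.p * 𝔓.p) (t4w_level_eq 𝔓 N') hd he) := by
        apply Subtype.ext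
        haveI : NeZero (d * 1) := ⟨by rw [mul_one]; exact NeZero.ne d⟩
        rw [coe_heckeAlphaBar, coe_heckeAlphaBar, coe_t2wJd _ N' d hd, coe_t2wJd _ _ (d * 1)]
        simp only [mul_one]
      rw [h1, t4wSq_jd 𝔓 H N' h hd he]
      apply Subtype.ext
      haveI : NeZero (d * (𝔓.p * 𝔓.p)) :=
        ⟨Nat.mul_ne_zero (NeZero.ne d) (Nat.mul_ne_zero 𝔓.hp.ne_zero 𝔓.hp.ne_zero)⟩
      rw [coe_heckeBetaBar, coe_heckeBetaBar, coe_t2wJd _ N' d hd, coe_t2wJd _ _ (d * (𝔓.p * 𝔓.p)),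
        qExpand_qExpand, qExpand_qExpand]
      exact t4w_qExpand_congr _ _ (by ring) _
  exact RingHom.congr_fun key f

/-- `w_{q²} ∘ α ∘ β = α ∘ β` at level `H` -/
theorem t4wSq_ab (f : ↥(TaF ↥(tbFix 𝔓 H) N')) :
    t4wSq 𝔓 H N' h (heckeAlphaBar ↥(tbFix 𝔓 H) (N' * 𝔓.p) 𝔓.p
        (heckeBetaBar ↥(tbFix 𝔓 H) N' 𝔓.p f))
      = heckeAlphaBar ↥(tbFix 𝔓 H) (N' * 𝔓.p) 𝔓.p (heckeBetaBar ↥(tbFix 𝔓 H) N' 𝔓.p f) := by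
  have key :
      (((t4wSq 𝔓 H N' h : tbLevF 𝔓 (N' * 𝔓.p * 𝔓.p) H ≃ₐ[↥(tbFix 𝔓 H)] _) :
          tbLevF 𝔓 (N' * 𝔓.p * 𝔓.p) H →+* tbLevF 𝔓 (N' * 𝔓.p * 𝔓.p) H).comp
        (((heckeAlphaBar ↥(tbFix 𝔓 H) (N' * 𝔓.p) 𝔓.p).comp
          (heckeBetaBar ↥(tbFix 𝔓 H) N' 𝔓.p) :
            ↥(TaF ↥(tbFix 𝔓 H) N') →ₐ[↥(tbFix 𝔓 H)] _) :
          ↥(TaF ↥(tbFix 𝔓 H) N') →+* tbLevF 𝔓 (N' * 𝔓.p * 𝔓.p) H))
      = (((heckeAlphaBar ↥(tbFix 𝔓 H) (N' * 𝔓.p) 𝔓.p).comp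
          (heckeBetaBar ↥(tbFix 𝔓 H) N' 𝔓.p) :
            ↥(TaF ↥(tbFix 𝔓 H) N') →ₐ[↥(tbFix 𝔓 H)] _) :
          ↥(TaF ↥(tbFix 𝔓 H) N') →+* tbLevF 𝔓 (N' * 𝔓.p * 𝔓.p) H) := by
    apply t4wSq_ringHom_ext
    · intro c
      simp
    · intro d hd
      haveI : NeZero d := t2w_neZero_of_dvd N' hd
      show t4wSq 𝔓 H N' h (heckeAlphaBar _ (N' * 𝔓.p) 𝔓.p (heckeBetaBar _ N' 𝔓.p
          (t2wJd ↥(tbFix 𝔓 H) N' d hd)))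
        = heckeAlphaBar _ (N' * 𝔓.p) 𝔓.p (heckeBetaBar _ N' 𝔓.p (t2wJd ↥(tbFix 𝔓 H) N' d hd))
      have he : 𝔓.p * 𝔓.p = 𝔓.p * 𝔓.p := rfl
      have h1 : heckeAlphaBar _ (N' * 𝔓.p) 𝔓.p (heckeBetaBar _ N' 𝔓.p
          (t2wJd ↥(tbFix 𝔓 H) N' d hd))
          = t2wJd ↥(tbFix 𝔓 H) (N' * 𝔓.p * 𝔓.p) (d * 𝔓.p)
              (t4w_dvd _ N' (𝔓.p * 𝔓.p) (t4w_level_eq 𝔓 N') hd he) := by
        apply Subtype.ext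
        haveI : NeZero (d * 𝔓.p) := ⟨Nat.mul_ne_zero (NeZero.ne d) 𝔓.hp.ne_zero⟩
        rw [coe_heckeAlphaBar, coe_heckeBetaBar, coe_t2wJd _ N' d hd, coe_t2wJd _ _ (d * 𝔓.p),
          qExpand_qExpand]
        exact t4w_qExpand_congr _ _ (by ring) _
      rw [h1, t4wSq_jd 𝔓 H N' h hd he]
  exact RingHom.congr_fun key f

/-- **the Atkin–Lehner data of level `N' * q * q` over `L_H`** -/
noncomputable def t4iALFix : T4iAL ↥(tbFix 𝔓 H) N' 𝔓.p where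
  w := t4wSq 𝔓 H N' h
  w_aa := t4wSq_aa 𝔓 H N' h
  w_ab := t4wSq_ab 𝔓 H N' h
  w_w := t4wSq_t4wSq 𝔓 H N' h

/-- compatibility with the involution `t4w` over `ℚ̄` (for the Galois action / `tkrSig`) -/
theorem tbPhiF_t4wSq (f : tbLevF 𝔓 (N' * 𝔓.p * 𝔓.p) H) :
    tbPhiF 𝔓 (N' * 𝔓.p * 𝔓.p) H (t4wSq 𝔓 H N' h f)
      = t4w Qb (N' * 𝔓.p * 𝔓.p) N' (𝔓.p * 𝔓.p) (t4w_level_eq 𝔓 N') (t4w_coprime_sq 𝔓 N' h)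
          (tbPhiF 𝔓 (N' * 𝔓.p * 𝔓.p) H f) :=
  tbPhiF_t4wLev 𝔓 H _ _ _ _ _ f

end Fix

end Fermat.Agent.T4
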