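/-
T4-V (helper9): operations on Laurent series used for the middle valuation of `X₀(N' q²)`.

* `t4vSig u` (`u` a unit): the substitution `𝔮 ↦ u 𝔮`, coefficientwise `a_n ↦ u^n a_n`, a ring
  endomorphism of `R((𝔮))`;
* `t4vTheta`: the derivation `θ = 𝔮 d/d𝔮`, `a_n ↦ n a_n`;
* `t4vDel u`: the divided difference `(σ_u x - x) / (u - 1)`, coefficientwise `a_n ↦ [n]_u a_n`
  with `[n]_u = (u^n - 1)/(u - 1)`; it reduces to `θ` modulo `u - 1`.
-/
import Mathlib
import Fermat.Prelude.Def_ModularCurve_X0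
import Fermat.Prelude.Def_ModularCurve_LaurentCoeff

set_option autoImplicit false
set_option linter.unusedSectionVars false
set_option linter.style.haveILetI false

open HahnSeries ModularCurve

noncomputable section

namespace Fermat.Agent.T4

variable {R : Type*} [CommRing R]

/-! ### Coefficientwise multiplication by a multiplicative weight -/

/-- multiply the `n`-th coefficient by `c n` -/
def t4vWt (c : ℤ → R) (x : LaurentSeries R) : LaurentSeries R where
  coeff n := c n * x.coeff n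
  isPWO_support' := x.isPWO_support.mono (fun n hn => by
    simp only [Function.mem_support, ne_eq] at hn ⊢
    intro h
    exact hn (by rw [h, mul_zero]))

@[simp] theorem t4vWt_coeff (c : ℤ → R) (x : LaurentSeries R) (n : ℤ) :
    (t4vWt c x).coeff n = c n * x.coeff n := rfl

theorem t4vWt_add (c : ℤ → R) (x y : LaurentSeries R) :
    t4vWt c (x + y) = t4vWt c x + t4vWt c y := by
  ext n
  simp [mul_add]

theorem t4vWt_zero (c : ℤ → R) : t4vWt c (0 : LaurentSeries R) = 0 := by
  ext n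
  simp

/-- the coefficient of a product as a sum over an arbitrary pair of PWO supersets of the supports -/
theorem t4v_coeff_mul_of_subset (x y : LaurentSeries R) {s t : Set ℤ} (hs : s.IsPWO) (ht : t.IsPWO)
    (hxs : x.support ⊆ s) (hyt : y.support ⊆ t) (n : ℤ) :
    (x * y).coeff n = ∑ ij ∈ Finset.antidiagonal hs ht n, x.coeff ij.1 * y.coeff ij.2 := by
  rw [HahnSeries.coeff_mul]
  apply Finset.sum_subset
  · intro ij hij
    rw [Finset.mem_antidiagonal] at hij ⊢
    exact ⟨hxs hij.1, hyt hij.2.1, hij.2.2⟩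
  · intro ij hij hnot
    rw [Finset.mem_antidiagonal] at hij hnot
    by_cases hx : x.coeff ij.1 = 0
    · rw [hx, zero_mul]
    · by_cases hy : y.coeff ij.2 = 0
      · rw [hy, mul_zero]
      · exact absurd ⟨hx, hy, hij.2.2⟩ hnot

/-- a multiplicative weight gives a multiplicative map -/
theorem t4vWt_mul (c : ℤ → R) (hc : ∀ i j, c (i + j) = c i * c j) (x y : LaurentSeries R) :
    t4vWt c (x * y) = t4vWt c x * t4vWt c y := by
  ext n
  have hxs : (t4vWt c x).support ⊆ x.support := fun n hn => by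
    simp only [HahnSeries.mem_support, t4vWt_coeff, ne_eq] at hn ⊢
    intro h
    exact hn (by rw [h, mul_zero])
  have hys : (t4vWt c y).support ⊆ y.support := fun n hn => by
    simp only [HahnSeries.mem_support, t4vWt_coeff, ne_eq] at hn ⊢
    intro h
    exact hn (by rw [h, mul_zero])
  rw [t4v_coeff_mul_of_subset _ _ x.isPWO_support y.isPWO_support hxs hys, t4vWt_coeff,
    HahnSeries.coeff_mul, Finset.mul_sum]
  refine Finset.sum_congr rfl fun ij hij => ?_
  rw [Finset.mem_antidiagonal] at hij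
  rw [t4vWt_coeff, t4vWt_coeff, ← hij.2.2, hc]
  ring

/-! ### The substitution `𝔮 ↦ u 𝔮` -/

/-- the substitution `𝔮 ↦ u 𝔮` on Laurent series (`u` a unit) -/
def t4vSig (u : Rˣ) : LaurentSeries R →+* LaurentSeries R where
  toFun := t4vWt (fun n => ((u ^ n : Rˣ) : R))
  map_zero' := t4vWt_zero _
  map_add' := t4vWt_add _
  map_one' := by
    ext n
    rw [t4vWt_coeff, HahnSeries.coeff_one]
    split_ifs with h
    · subst h
      simp
    · rw [mul_zero]
  map_mul' := t4vWt_mul _ (fun i j => by rw [zpow_add, Units.val_mul])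

@[simp] theorem t4vSig_coeff (u : Rˣ) (x : LaurentSeries R) (n : ℤ) :
    (t4vSig u x).coeff n = ((u ^ n : Rˣ) : R) * x.coeff n := rfl

theorem t4vSig_C (u : Rˣ) (r : R) : t4vSig u (HahnSeries.C r) = HahnSeries.C r := by
  ext n
  rw [t4vSig_coeff, HahnSeries.C_apply, HahnSeries.coeff_single]
  split_ifs with h
  · subst h
    simp
  · rw [mul_zero]

theorem t4vSig_one (x : LaurentSeries R) : t4vSig (1 : Rˣ) x = x := by
  ext n
  simp

theorem t4vSig_t4vSig (u v : Rˣ) (x : LaurentSeries R) :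
    t4vSig u (t4vSig v x) = t4vSig (u * v) x := by
  ext n
  rw [t4vSig_coeff, t4vSig_coeff, t4vSig_coeff, mul_zpow, Units.val_mul, mul_assoc]

theorem t4vSig_injective (u : Rˣ) : Function.Injective (t4vSig u) := by
  intro x y h
  have h1 := congrArg (t4vSig u⁻¹) h
  rwa [t4vSig_t4vSig, t4vSig_t4vSig, inv_mul_cancel, t4vSig_one, t4vSig_one] at h1

/-- `σ_u (x(𝔮^N)) = (σ_{u^N} x)(𝔮^N)` -/
theorem t4vSig_qExpand (u : Rˣ) (N : ℕ) [NeZero N] (x : LaurentSeries R) :
    t4vSig u (qExpand R N x) = qExpand R N (t4vSig (u ^ N) x) := by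
  ext n
  by_cases hn : (N : ℤ) ∣ n
  · obtain ⟨m, rfl⟩ := hn
    rw [t4vSig_coeff, qExpand_coeff_mul, qExpand_coeff_mul, t4vSig_coeff, ← zpow_natCast,
      ← zpow_mul]
  · rw [t4vSig_coeff, qExpand_coeff_of_not_dvd N _ hn, qExpand_coeff_of_not_dvd N _ hn, mul_zero]

/-- a root of unity of order dividing `N` acts trivially on series in `𝔮^N` -/
theorem t4vSig_qExpand_of_pow_eq_one (u : Rˣ) (N : ℕ) [NeZero N] (hu : u ^ N = 1)
    (x : LaurentSeries R) : t4vSig u (qExpand R N x) = qExpand R N x := by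
  rw [t4vSig_qExpand, hu, t4vSig_one]

theorem coeffMap_t4vSig {S : Type*} [CommRing S] (φ : R →+* S) (u : Rˣ) (x : LaurentSeries R) :
    coeffMap φ (t4vSig u x) = t4vSig (Units.map (φ : R →* S) u) (coeffMap φ x) := by
  ext n
  rw [coeffMap_coeff, t4vSig_coeff, t4vSig_coeff, coeffMap_coeff, map_mul, ← map_zpow]
  rfl

/-! ### The derivation `θ = 𝔮 d/d𝔮` -/

/-- `θ = 𝔮 d/d𝔮` -/
def t4vTheta : LaurentSeries R →+ LaurentSeries R where
  toFun := t4vWt (fun n => (n : R))
  map_zero' := t4vWt_zero _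
  map_add' := t4vWt_add _

@[simp] theorem t4vTheta_coeff (x : LaurentSeries R) (n : ℤ) :
    (t4vTheta x).coeff n = (n : R) * x.coeff n := rfl

/-- the Leibniz rule -/
theorem t4vTheta_mul (x y : LaurentSeries R) :
    t4vTheta (x * y) = t4vTheta x * y + x * t4vTheta y := by
  ext n
  have hxs : (t4vTheta x).support ⊆ x.support := fun n hn => by
    simp only [HahnSeries.mem_support, t4vTheta_coeff, ne_eq] at hn ⊢
    intro h
    exact hn (by rw [h, mul_zero])
  have hys : (t4vTheta y).support ⊆ y.support := fun n hn => by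
    simp only [HahnSeries.mem_support, t4vTheta_coeff, ne_eq] at hn ⊢
    intro h
    exact hn (by rw [h, mul_zero])
  rw [HahnSeries.coeff_add,
    t4v_coeff_mul_of_subset _ _ x.isPWO_support y.isPWO_support hxs (le_refl _),
    t4v_coeff_mul_of_subset _ _ x.isPWO_support y.isPWO_support (le_refl _) hys,
    t4vTheta_coeff, HahnSeries.coeff_mul, Finset.mul_sum, ← Finset.sum_add_distrib]
  refine Finset.sum_congr rfl fun ij hij => ?_
  rw [Finset.mem_antidiagonal] at hij
  rw [t4vTheta_coeff, t4vTheta_coeff, ← hij.2.2]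
  push_cast
  ring

theorem t4vTheta_C (r : R) : t4vTheta (HahnSeries.C r) = 0 := by
  ext n
  rw [t4vTheta_coeff, HahnSeries.C_apply, HahnSeries.coeff_single]
  split_ifs with h
  · subst h
    simp
  · simp

theorem coeffMap_t4vTheta {S : Type*} [CommRing S] (φ : R →+* S) (x : LaurentSeries R) :
    coeffMap φ (t4vTheta x) = t4vTheta (coeffMap φ x) := by
  ext n
  rw [coeffMap_coeff, t4vTheta_coeff, t4vTheta_coeff, coeffMap_coeff, map_mul, map_intCast]

/-- `θ (x(𝔮^N)) = N (θ x)(𝔮^N)` -/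
theorem t4vTheta_qExpand (N : ℕ) [NeZero N] (x : LaurentSeries R) :
    t4vTheta (qExpand R N x) = (N : LaurentSeries R) * qExpand R N (t4vTheta x) := by
  have hN : (N : LaurentSeries R) = HahnSeries.C (N : R) := by
    rw [map_natCast]
  ext n
  rw [hN, HahnSeries.C_apply, HahnSeries.coeff_single_zero_mul]
  by_cases hn : (N : ℤ) ∣ n
  · obtain ⟨m, rfl⟩ := hn
    rw [t4vTheta_coeff, qExpand_coeff_mul, qExpand_coeff_mul, t4vTheta_coeff]
    push_cast
    ring
  · rw [t4vTheta_coeff, qExpand_coeff_of_not_dvd N _ hn, qExpand_coeff_of_not_dvd N _ hn,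
      mul_zero, mul_zero]

/-- quotient rule, in the form `θ(f) h² = θ(g) h - g θ(h)` for `f h = g` -/
theorem t4vTheta_div {f g h : LaurentSeries R} (e : f * h = g) :
    t4vTheta f * (h * h) = t4vTheta g * h - g * t4vTheta h := by
  have h1 := congrArg t4vTheta e
  rw [t4vTheta_mul] at h1
  rw [← h1, ← e]
  ring

/-! ### The divided difference -/

/-- `[n]_u = (u^n - 1)/(u - 1)` for `n : ℤ` -/
def t4vQInt (u : Rˣ) (n : ℤ) : R :=
  if 0 ≤ n then ∑ i ∈ Finset.range n.toNat, (u : R) ^ i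
  else -(((u ^ n : Rˣ) : R) * ∑ i ∈ Finset.range (-n).toNat, (u : R) ^ i)

theorem t4vQInt_mul (u : Rˣ) (n : ℤ) : ((u : R) - 1) * t4vQInt u n = ((u ^ n : Rˣ) : R) - 1 := by
  unfold t4vQInt
  split_ifs with h
  · obtain ⟨m, rfl⟩ := Int.eq_ofNat_of_zero_le h
    rw [Int.toNat_natCast, mul_comm, geom_sum_mul, zpow_natCast, Units.val_pow_eq_pow_val]
  · push Not at h
    obtain ⟨m, hm⟩ := Int.eq_ofNat_of_zero_le (by omega : 0 ≤ -n)
    have hn : n = -(m : ℤ) := by omega
    rw [hm, Int.toNat_natCast]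
    have h1 : ((u : R) - 1) * ∑ i ∈ Finset.range m, (u : R) ^ i = (u : R) ^ m - 1 := by
      rw [mul_comm, geom_sum_mul]
    have h2 : ((u ^ n : Rˣ) : R) * (u : R) ^ m = 1 := by
      rw [hn, ← Units.val_pow_eq_pow_val, ← Units.val_mul, zpow_neg, zpow_natCast, inv_mul_cancel,
        Units.val_one]
    calc ((u : R) - 1) * -(((u ^ n : Rˣ) : R) * ∑ i ∈ Finset.range m, (u : R) ^ i)
        = -(((u ^ n : Rˣ) : R) * (((u : R) - 1) * ∑ i ∈ Finset.range m, (u : R) ^ i)) := by ring
      _ = -(((u ^ n : Rˣ) : R) * ((u : R) ^ m - 1)) := by rw [h1]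
      _ = ((u ^ n : Rˣ) : R) - ((u ^ n : Rˣ) : R) * (u : R) ^ m := by ring
      _ = ((u ^ n : Rˣ) : R) - 1 := by rw [h2]

/-- `[n]_u ≡ n` modulo `u - 1` -/
theorem t4vQInt_map {S : Type*} [CommRing S] (φ : R →+* S) (u : Rˣ) (hu : φ (u : R) = 1) (n : ℤ) :
    φ (t4vQInt u n) = (n : S) := by
  have hun : φ ((u ^ n : Rˣ) : R) = 1 := by
    have h1 : Units.map (φ : R →* S) u = 1 := Units.ext hu
    have h2 : φ ((u ^ n : Rˣ) : R) = ((Units.map (φ : R →* S) (u ^ n) : Sˣ) : S) := rfl
    rw [h2, map_zpow, h1, one_zpow, Units.val_one]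
  unfold t4vQInt
  split_ifs with h
  · obtain ⟨m, rfl⟩ := Int.eq_ofNat_of_zero_le h
    rw [Int.toNat_natCast, map_sum]
    simp [hu]
  · push Not at h
    obtain ⟨m, hm⟩ := Int.eq_ofNat_of_zero_le (by omega : 0 ≤ -n)
    have hn : n = -(m : ℤ) := by omega
    rw [hm, Int.toNat_natCast, map_neg, map_mul, hun, one_mul, map_sum]
    simp [hu, hn]

/-- the divided difference `(σ_u x - x)/(u - 1)` -/
def t4vDel (u : Rˣ) : LaurentSeries R →+ LaurentSeries R where
  toFun := t4vWt (t4vQInt u)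
  map_zero' := t4vWt_zero _
  map_add' := t4vWt_add _

@[simp] theorem t4vDel_coeff (u : Rˣ) (x : LaurentSeries R) (n : ℤ) :
    (t4vDel u x).coeff n = t4vQInt u n * x.coeff n := rfl

theorem t4vSig_sub_self (u : Rˣ) (x : LaurentSeries R) :
    t4vSig u x - x = HahnSeries.C ((u : R) - 1) * t4vDel u x := by
  ext n
  rw [HahnSeries.coeff_sub, t4vSig_coeff, HahnSeries.C_apply, HahnSeries.coeff_single_zero_mul,
    t4vDel_coeff, ← mul_assoc, t4vQInt_mul]
  ring

/-- the divided difference reduces to `θ` modulo `u - 1` -/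
theorem coeffMap_t4vDel {S : Type*} [CommRing S] (φ : R →+* S) (u : Rˣ) (hu : φ (u : R) = 1)
    (x : LaurentSeries R) : coeffMap φ (t4vDel u x) = t4vTheta (coeffMap φ x) := by
  ext n
  rw [coeffMap_coeff, t4vDel_coeff, t4vTheta_coeff, coeffMap_coeff, map_mul, t4vQInt_map φ u hu]

/-- `σ_u` reduces to the identity modulo `u - 1` -/
theorem coeffMap_t4vSig_of_map_eq_one {S : Type*} [CommRing S] (φ : R →+* S) (u : Rˣ)
    (hu : φ (u : R) = 1) (x : LaurentSeries R) : coeffMap φ (t4vSig u x) = coeffMap φ x := by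
  rw [coeffMap_t4vSig]
  have h1 : Units.map (φ : R →* S) u = 1 := Units.ext hu
  rw [h1, t4vSig_one]

end Fermat.Agent.T4
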