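/-
T4-V (helper9): the tower `F' ⊆ F1 ⊆ F` (levels `N'`, `N' q`, `N' q q`), the three degeneracy maps
`a0 = α∘α`, `a1 = α∘β = β∘α`, `a2 = β∘β : F' → F`, and the INTERFACE STRUCTURES of the middle
valuation:

* `T4iCyc O O' π π' q`: the cyclotomic level data — `(L', O', π')` above `(L, O, π)` with a primitive
  `q`-th root of unity `ζ ∈ L'`, uniformiser `1 - ζ` of `O'`, same residue field, and automorphisms
  `τ b` of `L' / L` with `τ b ζ = ζ^b` preserving `O'` and inducing the identity on the residue field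
  (supplied at the levels `tbFix 𝔓 ⊤ ⊆ tbFix 𝔓 H'`, `H'` the stabiliser of `ζ_q` in inertia);
* `T4iMid L L' N' q ζ`: the embedding `ι_mid : F → L'((𝔮))` ("`q`-expansion at the cusp `1/q`") with
  `ι (a0 f) = f(𝔮)`, `ι (a1 f) = f(𝔮^q)`, `ι (a2 f) = f(ζ 𝔮)`.
-/
import Fermat.Agent.Lib.T4.Inst.Series
import Fermat.Agent.Lib.T4.Inst.ALData
import Fermat.Agent.Lib.T2.Inst.KronH

set_option autoImplicit false
set_option linter.unusedSectionVars false
set_option linter.unusedVariables false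
set_option linter.style.haveILetI false
set_option synthInstance.maxHeartbeats 400000

open HahnSeries ModularCurve Fermat.Agent.T1 Fermat.Agent.T2

noncomputable section

namespace Fermat.Agent.T4

/-! ### The three degeneracy maps -/

section Tower

variable (L : Type*) [Field L] [Algebra ℚ L] (N' q : ℕ) [NeZero N'] [NeZero q]

/-- `a0 = α ∘ α`, `f ↦ f(𝔮)` -/
def t4vA0 : ↥(TaF L N') →ₐ[L] ↥(TaF L (N' * q * q)) :=
  (heckeAlphaBar L (N' * q) q).comp (heckeAlphaBar L N' q)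

/-- `a1 = α ∘ β`, `f ↦ f(𝔮^q)` -/
def t4vA1 : ↥(TaF L N') →ₐ[L] ↥(TaF L (N' * q * q)) :=
  (heckeAlphaBar L (N' * q) q).comp (heckeBetaBar L N' q)

/-- `a2 = β ∘ β`, `f ↦ f(𝔮^{q²})` -/
def t4vA2 : ↥(TaF L N') →ₐ[L] ↥(TaF L (N' * q * q)) :=
  (heckeBetaBar L (N' * q) q).comp (heckeBetaBar L N' q)

variable {L N' q}

theorem t4vA0_apply (f : ↥(TaF L N')) :
    t4vA0 L N' q f = heckeAlphaBar L (N' * q) q (heckeAlphaBar L N' q f) := rfl

theorem t4vA1_apply (f : ↥(TaF L N')) :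
    t4vA1 L N' q f = heckeAlphaBar L (N' * q) q (heckeBetaBar L N' q f) := rfl

theorem t4vA1_apply' (f : ↥(TaF L N')) :
    t4vA1 L N' q f = heckeBetaBar L (N' * q) q (heckeAlphaBar L N' q f) :=
  t4w_alpha_beta L N' q f

theorem t4vA2_apply (f : ↥(TaF L N')) :
    t4vA2 L N' q f = heckeBetaBar L (N' * q) q (heckeBetaBar L N' q f) := rfl

@[simp] theorem coe_t4vA0 (f : ↥(TaF L N')) :
    ((t4vA0 L N' q f : ↥(TaF L (N' * q * q))) : LaurentSeries L) = (f : LaurentSeries L) := by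
  rw [t4vA0_apply, coe_heckeAlphaBar, coe_heckeAlphaBar]

@[simp] theorem coe_t4vA1 (f : ↥(TaF L N')) :
    ((t4vA1 L N' q f : ↥(TaF L (N' * q * q))) : LaurentSeries L) =
      qExpand L q (f : LaurentSeries L) := by
  rw [t4vA1_apply, coe_heckeAlphaBar, coe_heckeBetaBar]

@[simp] theorem coe_t4vA2 (f : ↥(TaF L N')) :
    ((t4vA2 L N' q f : ↥(TaF L (N' * q * q))) : LaurentSeries L) =
      qExpand L q (qExpand L q (f : LaurentSeries L)) := by
  rw [t4vA2_apply, coe_heckeBetaBar, coe_heckeBetaBar]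

theorem T4iAL.w_a0 (W : T4iAL L N' q) (f : ↥(TaF L N')) : W.w (t4vA0 L N' q f) = t4vA2 L N' q f :=
  W.w_aa f

theorem T4iAL.w_a1 (W : T4iAL L N' q) (f : ↥(TaF L N')) : W.w (t4vA1 L N' q f) = t4vA1 L N' q f :=
  W.w_ab f

theorem T4iAL.w_a2 (W : T4iAL L N' q) (f : ↥(TaF L N')) : W.w (t4vA2 L N' q f) = t4vA0 L N' q f :=
  W.w_bb f

end Tower

/-! ### The cyclotomic level data -/

/-- the cyclotomic level data: `(L', O', π')` above `(L, O, π)`, a primitive `q`-th root of unity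
`ζ ∈ L'` with `1 - ζ` a uniformiser of `O'`, and the Galois automorphisms `τ b : ζ ↦ ζ^b` -/
structure T4iCyc {L L' : Type*} [Field L] [Field L'] [Algebra L L'] (O : ValuationSubring L)
    (O' : ValuationSubring L') {k : Type*} [Field k] (π : ↥O →+* k) (π' : ↥O' →+* k) (q : ℕ) where
  /-- the root of unity -/
  ζ : L'ˣ
  ζ_pow : ζ ^ q = 1
  ζ_ne : ζ ≠ 1
  map_mem : ∀ a : ↥O, algebraMap L L' (a : L) ∈ O'
  π_map : ∀ a : ↥O, π' ⟨algebraMap L L' (a : L), map_mem a⟩ = π a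
  /-- the uniformiser `λ = 1 - ζ` -/
  lam : ↥O'
  lam_eq : ((lam : ↥O') : L') = 1 - (ζ : L')
  unif : Irreducible lam
  /-- the Galois automorphisms `ζ ↦ ζ^b` (used for `b` prime to `q`) -/
  τ : ℕ → (L' ≃ₐ[L] L')
  τ_ζ : ∀ b : ℕ, ¬ q ∣ b → τ b (ζ : L') = (ζ : L') ^ b
  τ_mem : ∀ (b : ℕ) (x : L'), x ∈ O' → τ b x ∈ O'
  π_τ : ∀ (b : ℕ) (x : ↥O'), π' ⟨τ b (x : L'), τ_mem b _ x.2⟩ = π' x

/-! ### The middle embedding -/

/-- the middle embedding `ι_mid : F → L'((𝔮))` ("`q`-expansion at the cusp `1/q`") -/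
structure T4iMid (L L' : Type*) [Field L] [Algebra ℚ L] [Field L'] [Algebra L L'] (N' q : ℕ)
    [NeZero N'] [NeZero q] (ζ : L'ˣ) where
  /-- the embedding -/
  ι : ↥(TaF L (N' * q * q)) →+* LaurentSeries L'
  /-- `ι (a0 f) = f(𝔮)` -/
  ι_aa : ∀ f : ↥(TaF L N'),
    ι (heckeAlphaBar L (N' * q) q (heckeAlphaBar L N' q f)) =
      coeffMap (algebraMap L L') (f : LaurentSeries L)
  /-- `ι (a1 f) = f(𝔮^q)` -/
  ι_ab : ∀ f : ↥(TaF L N'),
    ι (heckeAlphaBar L (N' * q) q (heckeBetaBar L N' q f)) =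
      coeffMap (algebraMap L L') (qExpand L q (f : LaurentSeries L))
  /-- `ι (a2 f) = f(ζ𝔮)` -/
  ι_bb : ∀ f : ↥(TaF L N'),
    ι (heckeBetaBar L (N' * q) q (heckeBetaBar L N' q f)) =
      t4vSig ζ (coeffMap (algebraMap L L') (f : LaurentSeries L))

section Mid

variable {L L' : Type*} [Field L] [Algebra ℚ L] [Field L'] [Algebra L L'] {N' q : ℕ}
  [NeZero N'] [NeZero q] {ζ : L'ˣ} (M : T4iMid L L' N' q ζ)

theorem T4iMid.ι_a0 (f : ↥(TaF L N')) :
    M.ι (t4vA0 L N' q f) = coeffMap (algebraMap L L') (f : LaurentSeries L) := M.ι_aa f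

theorem T4iMid.ι_a1 (f : ↥(TaF L N')) :
    M.ι (t4vA1 L N' q f) = coeffMap (algebraMap L L') (qExpand L q (f : LaurentSeries L)) :=
  M.ι_ab f

theorem T4iMid.ι_a2 (f : ↥(TaF L N')) :
    M.ι (t4vA2 L N' q f) = t4vSig ζ (coeffMap (algebraMap L L') (f : LaurentSeries L)) :=
  M.ι_bb f

/-- `ι (a2 f - a0 f) = (ζ - 1) Δ_ζ f` -/
theorem T4iMid.ι_a2_sub_a0 (f : ↥(TaF L N')) :
    M.ι (t4vA2 L N' q f - t4vA0 L N' q f) =
      HahnSeries.C ((ζ : L') - 1) * t4vDel ζ (coeffMap (algebraMap L L') (f : LaurentSeries L)) := by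
  rw [map_sub, M.ι_a2, M.ι_a0, t4vSig_sub_self]

end Mid

end Fermat.Agent.T4
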