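/-
T4-V0 (helper8): generic consequences of the cyclotomic level data `T4iCyc`.

`ζ` is a primitive `q`-th root of unity, `π'` is surjective with kernel the maximal ideal of `O'`,
`π' λ = 0`, `π' ζ = 1`, and **`q = λ^{q-1} · u` with `u ∈ O'ˣ`, `π' u = -1`** (Wilson).
-/
import Fermat.Agent.Lib.T4.Inst.Mid

set_option autoImplicit false
set_option linter.style.haveILetI false
set_option linter.unusedSectionVars false

namespace Fermat.Agent.T4

noncomputable section

namespace T4iCyc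

variable {L L' : Type*} [Field L] [Field L'] [Algebra L L'] {O : ValuationSubring L}
  {O' : ValuationSubring L'} {k : Type*} [Field k] {π : ↥O →+* k} {π' : ↥O' →+* k} {q : ℕ}

theorem isPrimitiveRoot (C : T4iCyc O O' π π' q) (hq : q.Prime) : IsPrimitiveRoot ((C.ζ : L'ˣ) : L') q := by
  haveI : Fact q.Prime := ⟨hq⟩
  have h1 : orderOf (C.ζ : L'ˣ) = q := orderOf_eq_prime C.ζ_pow C.ζ_ne
  have h2 := IsPrimitiveRoot.orderOf (C.ζ : L'ˣ)
  rw [h1] at h2
  exact h2.map_of_injective (f := Units.coeHom L') Units.val_injective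

theorem π'_surjective (C : T4iCyc O O' π π' q) (hπ : Function.Surjective π) : Function.Surjective π' := by
  intro t
  obtain ⟨a, rfl⟩ := hπ t
  exact ⟨_, C.π_map a⟩

theorem π'_eq_zero_iff (C : T4iCyc O O' π π' q) (hπ : Function.Surjective π) (x : ↥O') : π' x = 0 ↔ ¬ IsUnit x := by
  constructor
  · intro h hu
    have := hu.map π'
    rw [h] at this
    exact not_isUnit_zero this
  · intro hx
    have hmax : (RingHom.ker π').IsMaximal := RingHom.ker_isMaximal_of_surjective π' (C.π'_surjective hπ)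
    have h1 : RingHom.ker π' = IsLocalRing.maximalIdeal ↥O' := IsLocalRing.eq_maximalIdeal hmax
    have h2 : x ∈ IsLocalRing.maximalIdeal ↥O' := (IsLocalRing.mem_maximalIdeal x).mpr hx
    rw [← h1] at h2
    exact h2

theorem π'_lam (C : T4iCyc O O' π π' q) (hπ : Function.Surjective π) : π' C.lam = 0 :=
  (C.π'_eq_zero_iff hπ _).mpr C.unif.not_isUnit

theorem ζ_mem (C : T4iCyc O O' π π' q) : ((C.ζ : L'ˣ) : L') ∈ O' := by
  have h : ((C.ζ : L'ˣ) : L') = 1 - ((C.lam : ↥O') : L') := by rw [C.lam_eq]; ring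
  rw [h]
  exact sub_mem (one_mem _) C.lam.2

theorem π'_ζ (C : T4iCyc O O' π π' q) (hπ : Function.Surjective π) : π' ⟨((C.ζ : L'ˣ) : L'), C.ζ_mem⟩ = 1 := by
  have h : (⟨((C.ζ : L'ˣ) : L'), C.ζ_mem⟩ : ↥O') = 1 - C.lam := by
    apply Subtype.ext
    show ((C.ζ : L'ˣ) : L') = 1 - ((C.lam : ↥O') : L')
    rw [C.lam_eq]; ring
  rw [h, map_sub, map_one, C.π'_lam hπ, sub_zero]

/-- `q = λ^{q-1} · u` with `u ≡ -1` (Wilson) -/
theorem exists_wilson (C : T4iCyc O O' π π' q) (hq : q.Prime) [CharP k q] (hπ : Function.Surjective π) :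
    ∃ u : ↥O', IsUnit u ∧ ((q : ℕ) : ↥O') = C.lam ^ (q - 1) * u ∧ π' u = -1 := by
  haveI : Fact q.Prime := ⟨hq⟩
  set z : ↥O' := ⟨((C.ζ : L'ˣ) : L'), C.ζ_mem⟩ with hz
  have hz1 : π' z = 1 := C.π'_ζ hπ
  have hlam : C.lam = 1 - z := by
    apply Subtype.ext
    show ((C.lam : ↥O') : L') = 1 - ((C.ζ : L'ˣ) : L')
    exact C.lam_eq
  have hzprim : IsPrimitiveRoot z ((q - 1) + 1) := by
    rw [Nat.sub_add_cancel hq.one_lt.le]
    refine IsPrimitiveRoot.of_map_of_injective (f := O'.subtype) ?_ Subtype.val_injective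
    exact C.isPrimitiveRoot hq
  have h1 := hzprim.prod_one_sub_pow_eq_order
  suffices h : ∃ u : ↥O', ((q : ℕ) : ↥O') = C.lam ^ (q - 1) * u ∧ π' u = -1 by
    obtain ⟨u, hu1, hu2⟩ := h
    refine ⟨u, ?_, hu1, hu2⟩
    by_contra hnu
    have := (C.π'_eq_zero_iff hπ u).mpr hnu
    rw [hu2] at this
    exact one_ne_zero (neg_eq_zero.mp this)
  refine ⟨∏ j ∈ Finset.range (q - 1), ∑ i ∈ Finset.range (j + 1), z ^ i, ?_, ?_⟩
  · have h2 : ∀ j ∈ Finset.range (q - 1), (1 - z ^ (j + 1)) =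
        C.lam * ∑ i ∈ Finset.range (j + 1), z ^ i := by
      intro j _
      rw [hlam, mul_neg_geom_sum]
    rw [Finset.prod_congr rfl h2, Finset.prod_mul_distrib, Finset.prod_const, Finset.card_range]
      at h1
    rw [h1]
    have : ((q - 1 : ℕ) : ↥O') + 1 = ((q : ℕ) : ↥O') := by
      have := Nat.sub_add_cancel hq.one_lt.le
      exact_mod_cast congrArg (fun n : ℕ => (n : ↥O')) this
    exact this.symm
  · rw [map_prod]
    have h3 : ∀ j ∈ Finset.range (q - 1),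
        π' (∑ i ∈ Finset.range (j + 1), z ^ i) = ((j + 1 : ℕ) : k) := by
      intro j _
      rw [map_sum]
      simp only [map_pow, hz1, one_pow, Finset.sum_const, Finset.card_range, nsmul_eq_mul, mul_one]
    rw [Finset.prod_congr rfl h3, ← Nat.cast_prod, Finset.prod_range_add_one_eq_factorial]
    have hw := ZMod.wilsons_lemma (p := q)
    have := congrArg (ZMod.castHom (dvd_refl q) k) hw
    rw [map_natCast, map_neg, map_one] at this
    exact this

/-- `q = λ^{q-1} · u` in `L'` -/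
theorem exists_wilson' (C : T4iCyc O O' π π' q) (hq : q.Prime) [CharP k q]
    (hπ : Function.Surjective π) :
    ∃ u : ↥O', IsUnit u ∧ ((q : ℕ) : L') = ((C.lam : ↥O') : L') ^ (q - 1) * (u : L') ∧ π' u = -1 := by
  obtain ⟨u, hu, h1, h2⟩ := C.exists_wilson hq hπ
  refine ⟨u, hu, ?_, h2⟩
  have := congrArg (fun x : ↥O' => (x : L')) h1
  simpa using this

/-- `1 - ζ^b = λ · u` with `u ∈ O'`, `π' u = b` -/
theorem one_sub_zeta_pow (C : T4iCyc O O' π π' q) (hπ : Function.Surjective π) (b : ℕ) :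
    ∃ u : ↥O', (1 : L') - ((C.ζ : L'ˣ) : L') ^ b = ((C.lam : ↥O') : L') * (u : L') ∧
      π' u = (b : k) := by
  set z : ↥O' := ⟨((C.ζ : L'ˣ) : L'), C.ζ_mem⟩ with hz
  have hz1 : π' z = 1 := C.π'_ζ hπ
  refine ⟨∑ i ∈ Finset.range b, z ^ i, ?_, ?_⟩
  · rw [C.lam_eq]
    have : ((∑ i ∈ Finset.range b, z ^ i : ↥O') : L') =
        ∑ i ∈ Finset.range b, ((C.ζ : L'ˣ) : L') ^ i := by
      simp [hz]
    rw [this, mul_neg_geom_sum]
  · rw [map_sum]
    simp only [map_pow, hz1, one_pow, Finset.sum_const, Finset.card_range, nsmul_eq_mul, mul_one]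

/-- `1 - ζ^b = λ · u` with `u ∈ O'ˣ`, `π' u = b`, for `b` prime to `q` -/
theorem one_sub_zeta_pow_unit (C : T4iCyc O O' π π' q) [CharP k q]
    (hπ : Function.Surjective π) (b : ℕ) (hb : ¬ q ∣ b) :
    ∃ u : ↥O', IsUnit u ∧ (1 : L') - ((C.ζ : L'ˣ) : L') ^ b = ((C.lam : ↥O') : L') * (u : L') ∧
      π' u = (b : k) := by
  obtain ⟨u, h1, h2⟩ := C.one_sub_zeta_pow hπ b
  refine ⟨u, ?_, h1, h2⟩
  by_contra hnu
  have := (C.π'_eq_zero_iff hπ u).mpr hnu
  rw [h2] at this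
  exact hb ((CharP.cast_eq_zero_iff k q b).mp this)

end T4iCyc

end

end Fermat.Agent.T4
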