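/-
T4-V (helper9): the Gauss valuation under extension of the coefficient field `(L, O, π) ⊆ (L', O', π')`
and under the substitution `𝔮 ↦ ζ 𝔮` (`ζ ∈ O'ˣ` with `π' ζ = 1`).

* `t4v_taGauss_coeffMap`, `t4v_taRhoFun_coeffMap`: `coeffMap (L → L')` preserves the Gauss ring and
  the reduction;
* `t4v_taGauss_sig`, `t4v_taRhoFun_sig`: `σ_ζ` preserves the Gauss ring of `L'((𝔮))` and acts
  trivially on reductions;
* `t4v_taGauss_del`, `t4v_taRhoFun_del`: the divided difference `Δ_ζ` maps the Gauss ring to itself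
  and reduces to `θ = 𝔮 d/d𝔮`.
-/
import Fermat.Agent.Lib.T4.Inst.Series
import Fermat.Agent.Lib.T1.GoodRed.Gauss

set_option autoImplicit false
set_option linter.unusedSectionVars false
set_option linter.unusedVariables false
set_option linter.style.haveILetI false

open HahnSeries ModularCurve Fermat.Agent.T1

noncomputable section

namespace Fermat.Agent.T4

/-! ### Extension of the coefficient field -/

section Ext

variable {L L' : Type*} [Field L] [Field L'] [Algebra L L'] (O : ValuationSubring L)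
  (O' : ValuationSubring L') {k : Type*} [Field k] (π : ↥O →+* k) (π' : ↥O' →+* k)
  (hmap : ∀ a : ↥O, algebraMap L L' (a : L) ∈ O')
  (hπ : ∀ a : ↥O, π' ⟨algebraMap L L' (a : L), hmap a⟩ = π a)

/-- `O → O'` -/
def t4vLift : ↥O →+* ↥O' := ((algebraMap L L').comp O.subtype).codRestrict O' hmap

theorem coe_t4vLift (a : ↥O) : ((t4vLift O O' hmap a : ↥O') : L') = algebraMap L L' (a : L) := rfl

theorem t4v_coeffMap_taInc (s : LaurentSeries ↥O) :
    coeffMap (algebraMap L L') (taInc O s) = taInc O' (coeffMap (t4vLift O O' hmap) s) := by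
  ext n
  rw [coeffMap_coeff, taInc_coeff, taInc_coeff, coeffMap_coeff]
  rfl

include hπ in
theorem t4v_taRed_lift (s : LaurentSeries ↥O) :
    taRed π' (coeffMap (t4vLift O O' hmap) s) = taRed π s := by
  ext n
  rw [taRed_coeff, coeffMap_coeff, taRed_coeff]
  exact hπ _

include hπ in
theorem t4v_taGauss_coeffMap {f : LaurentSeries L} (hf : TaGauss O π f) :
    TaGauss O' π' (coeffMap (algebraMap L L') f) := by
  obtain ⟨g, h, hh, e⟩ := hf
  refine ⟨coeffMap (t4vLift O O' hmap) g, coeffMap (t4vLift O O' hmap) h, ?_, ?_⟩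
  · rw [t4v_taRed_lift O O' π π' hmap hπ]
    exact hh
  · rw [← t4v_coeffMap_taInc, ← t4v_coeffMap_taInc, ← map_mul, e]

include hπ in
theorem t4v_taRhoFun_coeffMap {f : LaurentSeries L} (hf : TaGauss O π f) :
    taRhoFun O' π' (coeffMap (algebraMap L L') f) = taRhoFun O π f := by
  obtain ⟨g, h, hh, e⟩ := hf
  have hh' : taRed π' (coeffMap (t4vLift O O' hmap) h) ≠ 0 := by
    rw [t4v_taRed_lift O O' π π' hmap hπ]
    exact hh
  have e' : coeffMap (algebraMap L L') f * taInc O' (coeffMap (t4vLift O O' hmap) h) =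
      taInc O' (coeffMap (t4vLift O O' hmap) g) := by
    rw [← t4v_coeffMap_taInc, ← t4v_coeffMap_taInc, ← map_mul, e]
  rw [taRhoFun_eq O' π' hh' e', taRhoFun_eq O π hh e, t4v_taRed_lift O O' π π' hmap hπ,
    t4v_taRed_lift O O' π π' hmap hπ]

include hmap in
theorem t4v_taFrac_coeffMap {f : LaurentSeries L} (hf : TaFrac O f) :
    TaFrac O' (coeffMap (algebraMap L L') f) := by
  obtain ⟨g, h, hh, e⟩ := hf
  refine ⟨coeffMap (t4vLift O O' hmap) g, coeffMap (t4vLift O O' hmap) h, ?_, ?_⟩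
  · intro h0
    apply hh
    have h1 : taInc O' (coeffMap (t4vLift O O' hmap) h) = 0 := by rw [h0, map_zero]
    rw [← t4v_coeffMap_taInc] at h1
    have hinj : Function.Injective (coeffMap (algebraMap L L')) := by
      intro x y hxy
      ext n
      have := congrArg (fun z : LaurentSeries L' => z.coeff n) hxy
      simp only [coeffMap_coeff] at this
      exact (algebraMap L L').injective this
    have h2 : taInc O h = 0 := hinj (by rw [h1, map_zero])
    exact taInc_injective O (by rw [h2, map_zero])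
  · rw [← t4v_coeffMap_taInc, ← t4v_coeffMap_taInc, ← map_mul, e]

end Ext

/-! ### The substitution `𝔮 ↦ ζ 𝔮` and the divided difference -/

section Sig

variable {L' : Type*} [Field L'] (O' : ValuationSubring L') {k : Type*} [Field k]
  (π' : ↥O' →+* k) (ζ : L'ˣ) (ζO : (↥O')ˣ) (hζ : ((ζO : ↥O') : L') = (ζ : L'))

include hζ in
theorem t4v_units_map_subtype : Units.map (O'.subtype : ↥O' →* L') ζO = ζ :=
  Units.ext hζ

include hζ in
theorem t4vSig_taInc (s : LaurentSeries ↥O') :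
    t4vSig ζ (taInc O' s) = taInc O' (t4vSig ζO s) := by
  rw [taInc, coeffMap_t4vSig, ← t4v_units_map_subtype O' ζ ζO hζ]

theorem t4v_qInt_map {R S : Type*} [CommRing R] [CommRing S] (φ : R →+* S) (u : Rˣ) (n : ℤ) :
    φ (t4vQInt u n) = t4vQInt (Units.map (φ : R →* S) u) n := by
  have hun : ∀ m : ℤ, φ ((u ^ m : Rˣ) : R) = (((Units.map (φ : R →* S) u) ^ m : Sˣ) : S) := by
    intro m
    rw [← map_zpow]
    rfl
  unfold t4vQInt
  split_ifs with h
  · rw [map_sum]
    refine Finset.sum_congr rfl fun i _ => ?_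
    rw [map_pow]
    rfl
  · rw [map_neg, map_mul, hun, map_sum]
    congr 2
    refine Finset.sum_congr rfl fun i _ => ?_
    rw [map_pow]
    rfl

theorem coeffMap_t4vDel' {R S : Type*} [CommRing R] [CommRing S] (φ : R →+* S) (u : Rˣ)
    (x : LaurentSeries R) :
    coeffMap φ (t4vDel u x) = t4vDel (Units.map (φ : R →* S) u) (coeffMap φ x) := by
  ext n
  rw [coeffMap_coeff, t4vDel_coeff, t4vDel_coeff, coeffMap_coeff, map_mul, t4v_qInt_map]

include hζ in
theorem t4vDel_taInc (s : LaurentSeries ↥O') :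
    t4vDel ζ (taInc O' s) = taInc O' (t4vDel ζO s) := by
  rw [taInc, coeffMap_t4vDel', ← t4v_units_map_subtype O' ζ ζO hζ]

variable (hπζ : π' (ζO : ↥O') = 1)

include hπζ in
theorem taRed_t4vSig (s : LaurentSeries ↥O') : taRed π' (t4vSig ζO s) = taRed π' s :=
  coeffMap_t4vSig_of_map_eq_one π' ζO hπζ s

include hπζ in
theorem taRed_t4vDel (s : LaurentSeries ↥O') : taRed π' (t4vDel ζO s) = t4vTheta (taRed π' s) :=
  coeffMap_t4vDel π' ζO hπζ s

include hζ hπζ in
theorem t4v_taGauss_sig {f : LaurentSeries L'} (hf : TaGauss O' π' f) :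
    TaGauss O' π' (t4vSig ζ f) := by
  obtain ⟨g, h, hh, e⟩ := hf
  refine ⟨t4vSig ζO g, t4vSig ζO h, ?_, ?_⟩
  · rw [taRed_t4vSig O' π' ζO hπζ]
    exact hh
  · rw [← t4vSig_taInc O' ζ ζO hζ, ← t4vSig_taInc O' ζ ζO hζ, ← map_mul, e]

include hζ hπζ in
theorem t4v_taRhoFun_sig {f : LaurentSeries L'} (hf : TaGauss O' π' f) :
    taRhoFun O' π' (t4vSig ζ f) = taRhoFun O' π' f := by
  obtain ⟨g, h, hh, e⟩ := hf
  have hh' : taRed π' (t4vSig ζO h) ≠ 0 := by
    rw [taRed_t4vSig O' π' ζO hπζ]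
    exact hh
  have e' : t4vSig ζ f * taInc O' (t4vSig ζO h) = taInc O' (t4vSig ζO g) := by
    rw [← t4vSig_taInc O' ζ ζO hζ, ← t4vSig_taInc O' ζ ζO hζ, ← map_mul, e]
  rw [taRhoFun_eq O' π' hh' e', taRhoFun_eq O' π' hh e, taRed_t4vSig O' π' ζO hπζ,
    taRed_t4vSig O' π' ζO hπζ]

/-- the twisted Leibniz rule for the divided difference, over a field -/
theorem t4vDel_mul (hζ1 : (ζ : L') ≠ 1) (x y : LaurentSeries L') :
    t4vDel ζ (x * y) = t4vDel ζ x * y + t4vSig ζ x * t4vDel ζ y := by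
  have hC : (HahnSeries.C ((ζ : L') - 1) : LaurentSeries L') ≠ 0 := by
    intro h0
    have := congrArg (fun z : LaurentSeries L' => z.coeff 0) h0
    simp only [HahnSeries.C_apply, HahnSeries.coeff_single_same, HahnSeries.coeff_zero] at this
    exact hζ1 (sub_eq_zero.mp this)
  apply mul_left_cancel₀ hC
  have h1 := t4vSig_sub_self ζ (x * y)
  have h2 := t4vSig_sub_self ζ x
  have h3 := t4vSig_sub_self ζ y
  rw [map_mul] at h1
  rw [← h1, mul_add, ← mul_assoc, ← h2, mul_left_comm, ← h3]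
  ring

include hζ hπζ in
/-- `Δ_ζ` preserves the Gauss ring -/
theorem t4v_taGauss_del (hζ1 : (ζ : L') ≠ 1) {f : LaurentSeries L'} (hf : TaGauss O' π' f) :
    TaGauss O' π' (t4vDel ζ f) := by
  have hσ := t4v_taGauss_sig O' π' ζ ζO hζ hπζ hf
  obtain ⟨g, h, hh, e⟩ := hf
  -- `Δ f · h = Δ g - σ f · Δ h`
  have h1 : t4vDel ζ f * taInc O' h = taInc O' (t4vDel ζO g) - t4vSig ζ f * taInc O' (t4vDel ζO h) := by
    have h2 := t4vDel_mul ζ hζ1 f (taInc O' h)
    rw [e, t4vDel_taInc O' ζ ζO hζ, t4vDel_taInc O' ζ ζO hζ] at h2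
    rw [h2]
    ring
  have hA : TaGauss O' π' (taInc O' (t4vDel ζO g) - t4vSig ζ f * taInc O' (t4vDel ζO h)) :=
    (taGaussSubring O' π').sub_mem (taGauss_taInc O' π' _)
      ((taGaussSubring O' π').mul_mem hσ (taGauss_taInc O' π' _))
  obtain ⟨g₁, h₁, hh₁, e₁⟩ := hA
  refine ⟨g₁, h * h₁, by rw [map_mul]; exact mul_ne_zero hh hh₁, ?_⟩
  rw [map_mul, ← mul_assoc, h1, e₁]

include hζ hπζ in
/-- `Δ_ζ` reduces to `θ` -/
theorem t4v_taRhoFun_del (hζ1 : (ζ : L') ≠ 1) {f : LaurentSeries L'} (hf : TaGauss O' π' f) :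
    taRhoFun O' π' (t4vDel ζ f) = t4vTheta (taRhoFun O' π' f) := by
  have hσ := t4v_taGauss_sig O' π' ζ ζO hζ hπζ hf
  have hσr := t4v_taRhoFun_sig O' π' ζ ζO hζ hπζ hf
  have hΔ := t4v_taGauss_del O' π' ζ ζO hζ hπζ hζ1 hf
  obtain ⟨g, h, hh, e⟩ := hf
  have h1 : t4vDel ζ f * taInc O' h = taInc O' (t4vDel ζO g) - t4vSig ζ f * taInc O' (t4vDel ζO h) := by
    have h2 := t4vDel_mul ζ hζ1 f (taInc O' h)
    rw [e, t4vDel_taInc O' ζ ζO hζ, t4vDel_taInc O' ζ ζO hζ] at h2
    rw [h2]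
    ring
  -- apply the ring homomorphism `taRho`
  have hf' : TaGauss O' π' f := ⟨g, h, hh, e⟩
  have key : taRho O' π' ⟨_, hΔ⟩ * taRho O' π' ⟨_, taGauss_taInc O' π' h⟩ =
      taRho O' π' ⟨_, taGauss_taInc O' π' (t4vDel ζO g)⟩ -
        taRho O' π' ⟨_, hσ⟩ * taRho O' π' ⟨_, taGauss_taInc O' π' (t4vDel ζO h)⟩ := by
    rw [← map_mul, ← map_mul, ← map_sub]
    congr 1
    exact Subtype.ext h1
  rw [taRho_taInc, taRho_taInc, taRho_taInc, taRed_t4vDel O' π' ζO hπζ,
    taRed_t4vDel O' π' ζO hπζ] at key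
  have hρσ : taRho O' π' ⟨_, hσ⟩ = taRhoFun O' π' f := hσr
  have hρf : taRhoFun O' π' f = taRed π' g / taRed π' h := taRhoFun_eq O' π' hh e
  rw [hρσ] at key
  show taRho O' π' ⟨_, hΔ⟩ = _
  have hg : taRed π' g = taRhoFun O' π' f * taRed π' h := by
    rw [hρf, div_mul_cancel₀ _ hh]
  have h5 : t4vTheta (taRed π' g) =
      t4vTheta (taRhoFun O' π' f) * taRed π' h + taRhoFun O' π' f * t4vTheta (taRed π' h) := by
    rw [hg, t4vTheta_mul]
  rw [h5] at key
  have h6 : taRho O' π' ⟨_, hΔ⟩ * taRed π' h = t4vTheta (taRhoFun O' π' f) * taRed π' h := by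
    rw [key]
    ring
  exact mul_right_cancel₀ hh h6

end Sig

end Fermat.Agent.T4
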