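/-
T4-V (helper9): the generic THREE-valuation base ("second Kronecker step").

Input (`T4kInput`): a base `d1` of `F1` (in the application the two-valuation base of `F_{N'q}` with
its two reductions `r1 = ρ¹_inf`, `r2 = ρ¹_0`), whose valuation ring `A` has the uniformiser `p`
(unramified level: `p = q`); an extension `F / F1` of degree `≤ q` generated by `Z`; two Gauss rings
`Ginf, G0 ⊆ F` with reductions `ρinf, ρ0` and a ring embedding `ι : F → Om'` ("expansion at the cusp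
`1/q`") into a domain with a Gauss ring `G' ⊆ Om'`, reduction `ρ'`, uniformiser `lam` with
`p = lam^(q-1) · unit`, such that `Z - J = lam · ϑ` with `ρ' ϑ ≠ 0` (`J ∈ 𝒪¹`), `ρinf Z ≠ r1 J` and
`1, t0, …, t0^(q-1)` (`t0 = ρ0 Z`) are independent over `Φ(Om)`.

Output: `𝒪 := Ginf ∩ G0 ∩ ι⁻¹ G' = ⊕_{i<q} 𝒪¹ Z^i` (`T4kInput.decomp`), `[F : F1] = q`, and
`T4kInput.base : T2Base L F k (𝒪 ⧸ (p))`.
-/
import Fermat.Agent.Lib.T2.Inst.Kron

set_option autoImplicit false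
set_option linter.unusedSectionVars false
set_option linter.unusedVariables false
set_option linter.style.haveILetI false

open Polynomial Fermat.Agent.T2

noncomputable section

namespace Fermat.Agent.T4

/-! ### A lemma on polynomials over a "ramified" domain -/

section Alg

variable {G Om : Type*} [CommRing G] [IsDomain G] [CommRing Om] [IsDomain Om]

/-- if `lam^n ∣ D(lam ϑ)`, `ρ ϑ ≠ 0`, `ker ρ = (lam)` and every coefficient of `D` with zero
reduction is divisible by `lam^n`, then the first `n` coefficients of `D` have zero reduction -/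
theorem t4k_coeff_eq_zero (ρ : G →+* Om) {lam : G} (hlam : lam ≠ 0) (hρlam : ρ lam = 0)
    (hker : ∀ x : G, ρ x = 0 → lam ∣ x) {ϑ : G} (hϑ : ρ ϑ ≠ 0) (n : ℕ) (D : G[X])
    (hD : ∀ k, ρ (D.coeff k) = 0 → lam ^ n ∣ D.coeff k) (h : lam ^ n ∣ D.eval (lam * ϑ)) :
    ∀ k < n, ρ (D.coeff k) = 0 := by
  intro k
  induction k using Nat.strong_induction_on with
  | _ k ih =>
    intro hk
    have hterm : ∀ i ∈ Finset.range (D.natDegree + 1), i ≠ k →
        lam ^ (k + 1) ∣ D.coeff i * (lam * ϑ) ^ i := by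
      intro i _ hik
      rcases lt_or_gt_of_ne hik with hlt | hgt
      · have h1 := hD i (ih i hlt (hlt.trans hk))
        exact Dvd.dvd.mul_right ((pow_dvd_pow lam (by omega)).trans h1) _
      · rw [mul_pow]
        exact Dvd.dvd.mul_left (Dvd.dvd.mul_right (pow_dvd_pow lam (by omega)) _) _
    have htot : lam ^ (k + 1) ∣ D.eval (lam * ϑ) := (pow_dvd_pow lam (by omega)).trans h
    have hk' : lam ^ (k + 1) ∣ D.coeff k * (lam * ϑ) ^ k := by
      by_cases hkd : k ∈ Finset.range (D.natDegree + 1)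
      · rw [Polynomial.eval_eq_sum_range, ← Finset.add_sum_erase _ _ hkd] at htot
        refine (dvd_add_left ?_).mp htot
        refine Finset.dvd_sum fun i hi => ?_
        exact hterm i (Finset.mem_of_mem_erase hi) (Finset.ne_of_mem_erase hi)
      · rw [Finset.mem_range, not_lt] at hkd
        rw [Polynomial.coeff_eq_zero_of_natDegree_lt (by omega), zero_mul]
        exact dvd_zero _
    rw [mul_pow, ← mul_assoc, mul_comm (D.coeff k), mul_assoc, pow_succ] at hk'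
    have h2 : lam ∣ D.coeff k * ϑ ^ k :=
      (mul_dvd_mul_iff_left (pow_ne_zero k hlam)).mp (by rwa [mul_comm (lam ^ k) lam] at hk' ⊢)
    obtain ⟨y, hy⟩ := h2
    have h3 := congrArg ρ hy
    rw [map_mul, map_pow, map_mul, hρlam, zero_mul] at h3
    exact (mul_eq_zero.mp h3).resolve_right (pow_ne_zero k hϑ)

end Alg

section Field

variable {Om : Type*} [Field Om]

/-- a polynomial of degree `< n + 1` whose Taylor expansion at `t` starts in degree `n` and which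
vanishes at a point `z ≠ t` is zero -/
theorem t4k_poly_eq_zero (P : Om[X]) (n : ℕ) (hdeg : P.natDegree < n + 1) (t z : Om) (hz : z ≠ t)
    (hT : ∀ k < n, (taylor t P).coeff k = 0) (hPz : P.eval z = 0) : P = 0 := by
  have hX : (X : Om[X]) ^ n ∣ taylor t P := (Polynomial.X_pow_dvd_iff).mpr hT
  obtain ⟨R, hR⟩ := hX
  by_contra hP
  have hT0 : taylor t P ≠ 0 := by rwa [Ne, taylor_eq_zero]
  have hR0 : R ≠ 0 := by
    rintro rfl
    rw [mul_zero] at hR
    exact hT0 hR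
  have hdegR : R.natDegree = 0 := by
    have h1 : (taylor t P).natDegree = n + R.natDegree := by
      rw [hR, natDegree_mul (pow_ne_zero n X_ne_zero) hR0, natDegree_X_pow]
    rw [natDegree_taylor] at h1
    omega
  obtain ⟨c, hc⟩ := natDegree_eq_zero.mp hdegR
  have h2 : P.eval z = (taylor t P).eval (z - t) := by rw [taylor_eval, sub_add_cancel]
  rw [hPz, hR, ← hc, eval_mul, eval_pow, eval_X, eval_C] at h2
  have h3 : c = 0 := by
    rcases mul_eq_zero.mp h2.symm with h | h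
    · exact absurd (pow_eq_zero_iff'.mp h).1 (sub_ne_zero.mpr hz)
    · exact h
  apply hR0
  rw [← hc, h3, C_0]

end Field


/-! ### The input -/

/-- the input of the generic three-valuation base -/
structure T4kInput (L F1 F k Om Om' Fb1 : Type*) [Field L] [Field F1] [Field F] [Algebra L F1]
    [Algebra L F] [Algebra F1 F] [IsScalarTower L F1 F] [Field k] [Field Om]
    [CommRing Om'] [IsDomain Om'] [CommRing Fb1] [Algebra k Fb1] where
  /-- the base of the lower level -/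
  d1 : T2Base L F1 k Fb1
  /-- the first reduction of the lower level -/
  r1 : ↥d1.Ov →+* Om
  /-- the second reduction of the lower level -/
  r2 : ↥d1.Ov →+* Om
  res1_eq_zero : ∀ b : ↥d1.Ov, d1.res b = 0 ↔ r1 b = 0 ∧ r2 b = 0
  /-- the uniformiser of the base -/
  p : ↥d1.A
  hp : ∀ a : ↥d1.A, d1.resA a = 0 → p ∣ a
  hp0 : d1.resA p = 0
  /-- the Gauss ring at `∞` -/
  Ginf : Subring F
  /-- the Gauss ring at `0` -/
  G0 : Subring F
  /-- the reduction at `∞` -/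
  ρinf : ↥Ginf →+* Om
  /-- the reduction at `0` -/
  ρ0 : ↥G0 →+* Om
  /-- the middle embedding -/
  ι : F →+* Om'
  /-- the Gauss ring of the target of the middle embedding -/
  G' : Subring Om'
  /-- its reduction -/
  ρ' : ↥G' →+* Om
  /-- the Frobenius-type endomorphism -/
  Φ : Om →+* Om
  α_inf : ∀ b : ↥d1.Ov, algebraMap F1 F (b : F1) ∈ Ginf
  ρinf_α : ∀ b : ↥d1.Ov, ρinf ⟨algebraMap F1 F (b : F1), α_inf b⟩ = r1 b
  α_0 : ∀ b : ↥d1.Ov, algebraMap F1 F (b : F1) ∈ G0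
  ρ0_α : ∀ b : ↥d1.Ov, ρ0 ⟨algebraMap F1 F (b : F1), α_0 b⟩ = Φ (r2 b)
  α_mid : ∀ b : ↥d1.Ov, ι (algebraMap F1 F (b : F1)) ∈ G'
  ρ'_α : ∀ b : ↥d1.Ov, ρ' ⟨ι (algebraMap F1 F (b : F1)), α_mid b⟩ = r1 b
  /-- the degree -/
  q : ℕ
  hq : 2 ≤ q
  /-- the generator -/
  Z : F
  /-- the element `J` of the lower level with `Z ≡ J` at the middle valuation -/
  J : ↥d1.Ov
  Z_inf : Z ∈ Ginf
  Z_0 : Z ∈ G0
  Z_mid : ι Z ∈ G'
  ρinf_Z_ne : ρinf ⟨Z, Z_inf⟩ ≠ r1 J
  /-- the reduction of `Z` at `0` -/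
  t0 : Om
  ρ0_Z : ρ0 ⟨Z, Z_0⟩ = t0
  kron0 : ∀ c : Fin q → Om, ∑ i, Φ (c i) * t0 ^ (i : ℕ) = 0 → ∀ i, c i = 0
  /-- the uniformiser of the middle Gauss ring -/
  lam : ↥G'
  lam_ne : lam ≠ 0
  ρ'_lam : ρ' lam = 0
  ker_ρ' : ∀ x : ↥G', ρ' x = 0 → lam ∣ x
  /-- `p = lam ^ (q - 1) * u` -/
  u : ↥G'
  ι_p : ι (algebraMap L F (p : L)) = ((lam ^ (q - 1) * u : ↥G') : Om')
  /-- `Z - J = lam * ϑ` -/
  ϑ : ↥G'
  ι_ϖ : ι (Z - algebraMap F1 F (J : F1)) = ((lam * ϑ : ↥G') : Om')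
  ρ'_ϑ : ρ' ϑ ≠ 0
  /-- elements of the lower level with zero first reduction are divisible by `p` at the middle
  valuation -/
  mid_of_r1 : ∀ b : ↥d1.Ov, r1 b = 0 →
    ∃ x : ↥G', ι (algebraMap F1 F (b : F1)) = ι (algebraMap L F (p : L)) * (x : Om')
  fin : Module.Finite F1 F
  deg_le : Module.finrank F1 F ≤ q

namespace T4kInput

variable {L F1 F k Om Om' Fb1 : Type*} [Field L] [Field F1] [Field F] [Algebra L F1]
  [Algebra L F] [Algebra F1 F] [IsScalarTower L F1 F] [Field k] [Field Om]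
  [CommRing Om'] [IsDomain Om'] [CommRing Fb1] [Algebra k Fb1]
  (I : T4kInput L F1 F k Om Om' Fb1)

/-- `𝒪 = Ginf ∩ G0 ∩ ι⁻¹ G'` -/
def Ov : Subring F := I.Ginf ⊓ I.G0 ⊓ I.G'.comap I.ι

theorem mem_Ov {f : F} : f ∈ I.Ov ↔ f ∈ I.Ginf ∧ f ∈ I.G0 ∧ I.ι f ∈ I.G' := by
  unfold Ov
  rw [Subring.mem_inf, Subring.mem_inf, Subring.mem_comap, and_assoc]

/-- the reduction at `∞` on `𝒪` -/
def ρ₁ : ↥I.Ov →+* Om := I.ρinf.comp (Subring.inclusion (inf_le_left.trans inf_le_left))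

/-- the reduction at `0` on `𝒪` -/
def ρ₃ : ↥I.Ov →+* Om := I.ρ0.comp (Subring.inclusion (inf_le_left.trans inf_le_right))

/-- the middle embedding on `𝒪`, with values in `G'` -/
def ιO : ↥I.Ov →+* ↥I.G' :=
  (I.ι.comp I.Ov.subtype).codRestrict I.G' (fun f => (I.mem_Ov.mp f.2).2.2)

/-- the middle reduction on `𝒪` -/
def ρ₂ : ↥I.Ov →+* Om := I.ρ'.comp I.ιO

theorem ρ₁_apply (f : ↥I.Ov) : I.ρ₁ f = I.ρinf ⟨(f : F), (I.mem_Ov.mp f.2).1⟩ := rfl

theorem ρ₃_apply (f : ↥I.Ov) : I.ρ₃ f = I.ρ0 ⟨(f : F), (I.mem_Ov.mp f.2).2.1⟩ := rfl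

theorem coe_ιO (f : ↥I.Ov) : ((I.ιO f : ↥I.G') : Om') = I.ι (f : F) := rfl

theorem ρ₂_apply (f : ↥I.Ov) : I.ρ₂ f = I.ρ' (I.ιO f) := rfl

theorem α_mem_Ov (b : ↥I.d1.Ov) : algebraMap F1 F (b : F1) ∈ I.Ov :=
  I.mem_Ov.mpr ⟨I.α_inf b, I.α_0 b, I.α_mid b⟩

/-- `𝒪¹ → 𝒪` -/
def αO : ↥I.d1.Ov →+* ↥I.Ov :=
  ((algebraMap F1 F).comp I.d1.Ov.subtype).codRestrict I.Ov I.α_mem_Ov

theorem coe_αO (b : ↥I.d1.Ov) : ((I.αO b : ↥I.Ov) : F) = algebraMap F1 F (b : F1) := rfl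

theorem ρ₁_α (b : ↥I.d1.Ov) : I.ρ₁ (I.αO b) = I.r1 b := I.ρinf_α b

theorem ρ₃_α (b : ↥I.d1.Ov) : I.ρ₃ (I.αO b) = I.Φ (I.r2 b) := I.ρ0_α b

theorem ρ₂_α (b : ↥I.d1.Ov) : I.ρ₂ (I.αO b) = I.r1 b := I.ρ'_α b

theorem Z_mem_Ov : I.Z ∈ I.Ov := I.mem_Ov.mpr ⟨I.Z_inf, I.Z_0, I.Z_mid⟩

/-- `Z` as an element of `𝒪` -/
def ZO : ↥I.Ov := ⟨I.Z, I.Z_mem_Ov⟩

theorem ρ₃_Z : I.ρ₃ I.ZO = I.t0 := I.ρ0_Z

theorem ρ₁_Z_ne : I.ρ₁ I.ZO ≠ I.r1 I.J := I.ρinf_Z_ne

/-- constants -/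
theorem algebraMap_eq (a : ↥I.d1.A) :
    algebraMap F1 F ((I.d1.toOv a : ↥I.d1.Ov) : F1) = algebraMap L F (a : L) := by
  rw [T2Base.coe_toOv, ← IsScalarTower.algebraMap_apply]

theorem algebraMap_mem_Ov (a : ↥I.d1.A) : algebraMap L F (a : L) ∈ I.Ov := by
  rw [← I.algebraMap_eq a]
  exact I.α_mem_Ov _

/-- `A → 𝒪` -/
def toOv : ↥I.d1.A →+* ↥I.Ov := I.αO.comp I.d1.toOv

theorem coe_toOv (a : ↥I.d1.A) : ((I.toOv a : ↥I.Ov) : F) = algebraMap L F (a : L) :=
  I.algebraMap_eq a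

/-- the uniformiser as an element of `𝒪` -/
def pO : ↥I.Ov := I.toOv I.p

theorem coe_pO : ((I.pO : ↥I.Ov) : F) = algebraMap L F (I.p : L) := I.coe_toOv I.p

theorem r1_p : I.r1 (I.d1.toOv I.p) = 0 := by
  have h : I.d1.res (I.d1.toOv I.p) = 0 := by rw [I.d1.res_toOv, I.hp0, map_zero]
  exact ((I.res1_eq_zero _).mp h).1

theorem r2_p : I.r2 (I.d1.toOv I.p) = 0 := by
  have h : I.d1.res (I.d1.toOv I.p) = 0 := by rw [I.d1.res_toOv, I.hp0, map_zero]
  exact ((I.res1_eq_zero _).mp h).2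

theorem ρ₁_pO : I.ρ₁ I.pO = 0 := by
  show I.ρ₁ (I.αO (I.d1.toOv I.p)) = 0
  rw [I.ρ₁_α, I.r1_p]

theorem ρ₃_pO : I.ρ₃ I.pO = 0 := by
  show I.ρ₃ (I.αO (I.d1.toOv I.p)) = 0
  rw [I.ρ₃_α, I.r2_p, map_zero]

theorem ιO_pO : I.ιO I.pO = I.lam ^ (I.q - 1) * I.u := by
  apply Subtype.ext
  rw [I.coe_ιO, I.coe_pO, I.ι_p]

/-- the ideal `(p)` of `𝒪` -/
def pIdeal : Ideal ↥I.Ov := Ideal.span {I.pO}

/-- `∑ α(b_i) Z^i` as an element of `𝒪` -/
def comb (b : Fin I.q → ↥I.d1.Ov) : ↥I.Ov := ∑ i, I.αO (b i) * I.ZO ^ (i : ℕ)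

theorem coe_comb (b : Fin I.q → ↥I.d1.Ov) :
    ((I.comb b : ↥I.Ov) : F) = ∑ i, algebraMap F1 F (b i : F1) * I.Z ^ (i : ℕ) := by
  rw [comb, AddSubmonoidClass.coe_finsetSum]
  rfl

/-- the polynomial with coefficient vector `b` -/
def poly (b : Fin I.q → ↥I.d1.Ov) : (↥I.d1.Ov)[X] := ∑ i : Fin I.q, Polynomial.monomial (i : ℕ) (b i)

theorem poly_coeff (b : Fin I.q → ↥I.d1.Ov) (i : Fin I.q) : (I.poly b).coeff (i : ℕ) = b i := by
  rw [poly, Polynomial.finsetSum_coeff, Finset.sum_eq_single i]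
  · rw [Polynomial.coeff_monomial, if_pos rfl]
  · intro j _ hji
    rw [Polynomial.coeff_monomial, if_neg]
    exact fun h => hji (Fin.ext h)
  · intro h
    exact absurd (Finset.mem_univ i) h

theorem poly_natDegree_lt (b : Fin I.q → ↥I.d1.Ov) : (I.poly b).natDegree < I.q := by
  have h1 : (I.poly b).natDegree ≤ I.q - 1 := by
    refine Polynomial.natDegree_sum_le_of_forall_le _ _ (fun i _ => ?_)
    refine (Polynomial.natDegree_monomial_le _).trans ?_
    have := i.2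
    omega
  have := I.hq
  omega

theorem comb_eq_eval₂ (b : Fin I.q → ↥I.d1.Ov) :
    I.comb b = (I.poly b).eval₂ I.αO I.ZO := by
  rw [poly, Polynomial.eval₂_finsetSum, comb]
  refine Finset.sum_congr rfl fun i _ => ?_
  rw [Polynomial.eval₂_monomial]

theorem ρ₃_comb (b : Fin I.q → ↥I.d1.Ov) :
    I.ρ₃ (I.comb b) = ∑ i, I.Φ (I.r2 (b i)) * I.t0 ^ (i : ℕ) := by
  rw [comb, map_sum]
  refine Finset.sum_congr rfl fun i _ => ?_
  rw [map_mul, map_pow, I.ρ₃_α, I.ρ₃_Z]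

theorem ρ₁_comb (b : Fin I.q → ↥I.d1.Ov) :
    I.ρ₁ (I.comb b) = ((I.poly b).map I.r1).eval (I.ρ₁ I.ZO) := by
  rw [comb_eq_eval₂, Polynomial.hom_eval₂, Polynomial.eval_map]
  congr 1
  ext b
  exact I.ρ₁_α b

/-- `𝒪¹ → G'` -/
def η : ↥I.d1.Ov →+* ↥I.G' := I.ιO.comp I.αO

theorem ρ'_η (b : ↥I.d1.Ov) : I.ρ' (I.η b) = I.r1 b := I.ρ₂_α b

theorem ιO_Z : I.ιO I.ZO = I.lam * I.ϑ + I.η I.J := by
  apply Subtype.ext
  have h := I.ι_ϖ
  rw [map_sub] at h
  show I.ι I.Z = ((I.lam * I.ϑ + I.η I.J : ↥I.G') : Om')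
  rw [Subring.coe_add, ← h]
  show I.ι I.Z = I.ι I.Z - I.ι (algebraMap F1 F (I.J : F1)) + I.ι (algebraMap F1 F (I.J : F1))
  ring

theorem ιO_comb (b : Fin I.q → ↥I.d1.Ov) :
    I.ιO (I.comb b) = (taylor (I.η I.J) ((I.poly b).map I.η)).eval (I.lam * I.ϑ) := by
  rw [comb_eq_eval₂, Polynomial.hom_eval₂, taylor_eval, ← I.ιO_Z, Polynomial.eval_map]
  rfl

/-- **the key step**: if `∑ α(b_i) Z^i ∈ p 𝒪` then all `b_i` have zero reduction -/
theorem res_eq_zero_of_comb_mem (b : Fin I.q → ↥I.d1.Ov) (h : I.comb b ∈ I.pIdeal) :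
    ∀ i, I.d1.res (b i) = 0 := by
  obtain ⟨g, hg⟩ := Ideal.mem_span_singleton.mp h
  -- the reduction at `0`
  have h3 : I.ρ₃ (I.comb b) = 0 := by rw [hg, map_mul, I.ρ₃_pO, zero_mul]
  rw [I.ρ₃_comb] at h3
  have hr2 : ∀ i, I.r2 (b i) = 0 := I.kron0 (fun i => I.r2 (b i)) h3
  -- the reductions at `∞` and in the middle
  have h1 : I.ρ₁ (I.comb b) = 0 := by rw [hg, map_mul, I.ρ₁_pO, zero_mul]
  have h2 : I.lam ^ (I.q - 1) ∣ I.ιO (I.comb b) := by
    rw [hg, map_mul, I.ιO_pO, mul_assoc]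
    exact dvd_mul_right _ _
  rw [I.ιO_comb] at h2
  set D : (↥I.G')[X] := taylor (I.η I.J) ((I.poly b).map I.η) with hD
  have hDcoeff : ∀ k, D.coeff k = I.η ((taylor I.J (I.poly b)).coeff k) := by
    intro k
    rw [hD, ← Polynomial.map_taylor, Polynomial.coeff_map]
  have hDdiv : ∀ k, I.ρ' (D.coeff k) = 0 → I.lam ^ (I.q - 1) ∣ D.coeff k := by
    intro k hk
    rw [hDcoeff, I.ρ'_η] at hk
    obtain ⟨x, hx⟩ := I.mid_of_r1 _ hk
    rw [hDcoeff]
    refine ⟨I.u * x, Subtype.ext ?_⟩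
    refine hx.trans ?_
    rw [I.ι_p]
    push_cast
    ring
  have hcoef := t4k_coeff_eq_zero I.ρ' I.lam_ne I.ρ'_lam I.ker_ρ' I.ρ'_ϑ (I.q - 1) D hDdiv h2
  set P : Om[X] := (I.poly b).map I.r1 with hP
  have hT : ∀ k < I.q - 1, (taylor (I.r1 I.J) P).coeff k = 0 := by
    intro k hk
    have := hcoef k hk
    rw [hDcoeff, I.ρ'_η] at this
    rw [hP, ← Polynomial.map_taylor, Polynomial.coeff_map]
    exact this
  have hP0 : P = 0 := by
    refine t4k_poly_eq_zero P (I.q - 1) ?_ (I.r1 I.J) (I.ρ₁ I.ZO) I.ρ₁_Z_ne hT ?_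
    · have h4 := I.poly_natDegree_lt b
      have h5 : P.natDegree ≤ (I.poly b).natDegree := Polynomial.natDegree_map_le
      have := I.hq
      omega
    · rw [← I.ρ₁_comb]
      exact h1
  intro i
  rw [I.res1_eq_zero]
  refine ⟨?_, hr2 i⟩
  have h6 := congrArg (fun Q : Om[X] => Q.coeff (i : ℕ)) hP0
  simp only [hP, Polynomial.coeff_map, Polynomial.coeff_zero] at h6
  rw [I.poly_coeff] at h6
  exact h6


/-- a non-zero coefficient vector can be scaled so that the combination lies in `𝒪` but not in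
`p 𝒪` -/
theorem exists_scale_comb (a : Fin I.q → F1) (ha : ∃ l, a l ≠ 0) :
    ∃ c : L, c ≠ 0 ∧ ∃ b : Fin I.q → ↥I.d1.Ov, (∀ l, (b l : F1) = c • a l) ∧
      I.comb b ∉ I.pIdeal := by
  obtain ⟨c, hc0, hmem, l₀, hl₀⟩ := I.d1.exists_scale_vec a ha
  refine ⟨c, hc0, fun l => ⟨c • a l, hmem l⟩, fun _ => rfl, ?_⟩
  intro h
  exact hl₀ (I.res_eq_zero_of_comb_mem _ h l₀)

theorem coe_comb_smul {a : Fin I.q → F1} {c : L} {b : Fin I.q → ↥I.d1.Ov}
    (hb : ∀ l, (b l : F1) = c • a l) :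
    ((I.comb b : ↥I.Ov) : F) = c • ∑ l, algebraMap F1 F (a l) * I.Z ^ (l : ℕ) := by
  rw [I.coe_comb, Finset.smul_sum]
  refine Finset.sum_congr rfl fun l _ => ?_
  rw [hb l, Algebra.smul_def, Algebra.smul_def, map_mul, ← IsScalarTower.algebraMap_apply,
    mul_assoc]

/-- the powers `1, Z, …, Z^(q-1)` are linearly independent over `F1` -/
theorem eq_zero_of_sum_eq_zero (a : Fin I.q → F1)
    (h : ∑ l, algebraMap F1 F (a l) * I.Z ^ (l : ℕ) = 0) : ∀ l, a l = 0 := by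
  by_contra hne
  push Not at hne
  obtain ⟨c, hc0, b, hb, hres⟩ := I.exists_scale_comb a hne
  apply hres
  have h0 : I.comb b = 0 := by
    apply Subtype.ext
    rw [I.coe_comb_smul hb, h, smul_zero]
    rfl
  rw [h0]
  exact zero_mem _

theorem linearIndependent_pow :
    LinearIndependent F1 (fun l : Fin I.q => I.Z ^ (l : ℕ)) := by
  rw [Fintype.linearIndependent_iff]
  intro g hg
  refine I.eq_zero_of_sum_eq_zero g ?_
  rw [← hg]
  refine Finset.sum_congr rfl fun l _ => ?_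
  rw [Algebra.smul_def]

/-- **`[F : F1] = q`** -/
theorem finrank_eq : Module.finrank F1 F = I.q := by
  haveI := I.fin
  have h1 := I.linearIndependent_pow.fintype_card_le_finrank
  have h2 := I.deg_le
  rw [Fintype.card_fin] at h1
  omega

/-- `1, Z, …, Z^(q-1)` span `F` over `F1` -/
theorem span (f : F) : ∃ a : Fin I.q → F1, f = ∑ l, algebraMap F1 F (a l) * I.Z ^ (l : ℕ) := by
  haveI := I.fin
  have hcard : Fintype.card (Fin I.q) = Module.finrank F1 F := by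
    rw [Fintype.card_fin, I.finrank_eq]
  have htop := I.linearIndependent_pow.span_eq_top_of_card_eq_finrank' hcard
  have hf : f ∈ Submodule.span F1 (Set.range fun l : Fin I.q => I.Z ^ (l : ℕ)) := by
    rw [htop]; exact Submodule.mem_top
  obtain ⟨c, hc⟩ := (Submodule.mem_span_range_iff_exists_fun F1).mp hf
  refine ⟨c, ?_⟩
  rw [← hc]
  refine Finset.sum_congr rfl fun l _ => ?_
  rw [Algebra.smul_def]

theorem mem_maximalIdeal_of_inv_notMem {c : L} (hc0 : c ≠ 0) (hcA' : c ∈ I.d1.A)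
    (hcA : c⁻¹ ∉ I.d1.A) : (⟨c, hcA'⟩ : ↥I.d1.A) ∈ IsLocalRing.maximalIdeal ↥I.d1.A := by
  rw [IsLocalRing.mem_maximalIdeal, mem_nonunits_iff]
  intro hu
  apply hcA
  obtain ⟨u, hu⟩ := isUnit_iff_exists_inv.mp hu
  have h1 : c * (u : L) = 1 := by
    have := congrArg Subtype.val hu
    simpa using this
  have h2 : (u : L) = c⁻¹ := by
    have := congrArg (fun t => c⁻¹ * t) h1
    simpa [← mul_assoc, inv_mul_cancel₀ hc0] using this
  rw [← h2]
  exact u.2

/-- **the decomposition**: `𝒪 = ⊕_{i<q} 𝒪¹ Z^i` -/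
theorem decomp (f : ↥I.Ov) : ∃ b : Fin I.q → ↥I.d1.Ov, f = I.comb b := by
  obtain ⟨a, ha⟩ := I.span (f : F)
  by_cases hzero : ∀ l, a l = 0
  · refine ⟨fun _ => 0, Subtype.ext ?_⟩
    rw [ha, I.coe_comb]
    refine Finset.sum_congr rfl fun l _ => ?_
    rw [hzero l]
    rfl
  push Not at hzero
  obtain ⟨c, hc0, b, hb, hres⟩ := I.exists_scale_comb a hzero
  have hcf : ((I.comb b : ↥I.Ov) : F) = c • (f : F) := by rw [I.coe_comb_smul hb, ← ha]
  by_cases hcA : c⁻¹ ∈ I.d1.A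
  · have hmem : ∀ l, a l ∈ I.d1.Ov := by
      intro l
      have h1 := I.d1.smul_mem ⟨c⁻¹, hcA⟩ (b l).2
      have h2 : (c⁻¹ : L) • ((b l : ↥I.d1.Ov) : F1) = a l := by
        rw [hb l, smul_smul, inv_mul_cancel₀ hc0, one_smul]
      rwa [h2] at h1
    refine ⟨fun l => ⟨a l, hmem l⟩, Subtype.ext ?_⟩
    rw [ha, I.coe_comb]
  · exfalso
    have hcA' : c ∈ I.d1.A := (I.d1.A.mem_or_inv_mem c).resolve_right hcA
    have hcm := I.mem_maximalIdeal_of_inv_notMem hc0 hcA' hcA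
    have hcres : I.d1.resA ⟨c, hcA'⟩ = 0 := (I.d1.resA_eq_zero_iff _).mpr hcm
    obtain ⟨c', hc'⟩ := I.hp _ hcres
    apply hres
    rw [pIdeal, Ideal.mem_span_singleton]
    refine ⟨I.toOv c' * f, Subtype.ext ?_⟩
    rw [hcf, Algebra.smul_def]
    show algebraMap L F c * (f : F) = (I.pO : F) * ((I.toOv c' : ↥I.Ov) * (f : F))
    rw [I.coe_pO, I.coe_toOv, ← mul_assoc, ← map_mul]
    congr 2
    have := congrArg Subtype.val hc'
    exact this

theorem coe_decomp_unique {b b' : Fin I.q → ↥I.d1.Ov} (h : I.comb b = I.comb b') : b = b' := by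
  funext l
  have h1 : ∑ l, algebraMap F1 F (((b l : ↥I.d1.Ov) : F1) - (b' l : F1)) * I.Z ^ (l : ℕ) = 0 := by
    have h2 := congrArg Subtype.val h
    rw [I.coe_comb, I.coe_comb] at h2
    rw [← sub_eq_zero, ← Finset.sum_sub_distrib] at h2
    rw [← h2]
    refine Finset.sum_congr rfl fun l _ => ?_
    rw [map_sub, sub_mul]
  exact Subtype.ext (sub_eq_zero.mp (I.eq_zero_of_sum_eq_zero _ h1 l))

/-! ### The residue ring `𝒪 / p 𝒪` -/

/-- the residue ring -/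
abbrev Fb : Type _ := ↥I.Ov ⧸ I.pIdeal

/-- the residue map -/
def res : ↥I.Ov →+* I.Fb := Ideal.Quotient.mk I.pIdeal

theorem res_eq_zero_iff (f : ↥I.Ov) : I.res f = 0 ↔ f ∈ I.pIdeal :=
  Ideal.Quotient.eq_zero_iff_mem

theorem res_pO : I.res I.pO = 0 :=
  (I.res_eq_zero_iff _).mpr (Ideal.subset_span rfl)

theorem toOv_mem_pIdeal (a : ↥I.d1.A) (ha : I.d1.resA a = 0) : I.toOv a ∈ I.pIdeal := by
  obtain ⟨a', rfl⟩ := I.hp a ha
  rw [map_mul]
  exact Ideal.mul_mem_right _ _ (Ideal.subset_span rfl)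

/-- the structure map `k → 𝒪 / p 𝒪` -/
def κ : k →+* I.Fb :=
  (Ideal.Quotient.lift (RingHom.ker I.d1.resA) (I.res.comp I.toOv) (fun a ha => by
    rw [RingHom.comp_apply, I.res_eq_zero_iff]
    exact I.toOv_mem_pIdeal a ((RingHom.mem_ker).mp ha))).comp
    (RingHom.quotientKerEquivOfSurjective I.d1.resA_surj).symm.toRingHom

theorem κ_resA (a : ↥I.d1.A) : I.κ (I.d1.resA a) = I.res (I.toOv a) := by
  unfold κ
  rw [RingHom.comp_apply]
  have h1 : (RingHom.quotientKerEquivOfSurjective I.d1.resA_surj).symm.toRingHom (I.d1.resA a)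
      = Ideal.Quotient.mk (RingHom.ker I.d1.resA) a := by
    show (RingHom.quotientKerEquivOfSurjective I.d1.resA_surj).symm (I.d1.resA a) = _
    rw [RingEquiv.symm_apply_eq]
    rfl
  rw [h1, Ideal.Quotient.lift_mk]
  rfl

instance instAlgebraFb : Algebra k I.Fb := I.κ.toAlgebra

theorem algebraMap_Fb (c : k) : algebraMap k I.Fb c = I.κ c := rfl


/-- the `L`-linear map `(a_l) ↦ ∑ α(a_l) Z^l` -/
def combLin : (Fin I.q → F1) →ₗ[L] F where
  toFun a := ∑ l, algebraMap F1 F (a l) * I.Z ^ (l : ℕ)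
  map_add' a a' := by
    rw [← Finset.sum_add_distrib]
    refine Finset.sum_congr rfl fun l _ => ?_
    rw [Pi.add_apply, map_add, add_mul]
  map_smul' c a := by
    rw [RingHom.id_apply, Finset.smul_sum]
    refine Finset.sum_congr rfl fun l _ => ?_
    rw [Pi.smul_apply, Algebra.smul_def, Algebra.smul_def, map_mul,
      ← IsScalarTower.algebraMap_apply, mul_assoc]

theorem combLin_apply (a : Fin I.q → F1) :
    I.combLin a = ∑ l, algebraMap F1 F (a l) * I.Z ^ (l : ℕ) := rfl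

theorem combLin_injective : Function.Injective I.combLin := by
  rw [← LinearMap.ker_eq_bot, LinearMap.ker_eq_bot']
  intro a ha
  funext l
  exact I.eq_zero_of_sum_eq_zero a ha l

/-- **the three-valuation base** -/
def base [IsNoetherianRing ↥I.d1.A] : T2Base L F k I.Fb where
  A := I.d1.A
  resA := I.d1.resA
  resA_surj := I.d1.resA_surj
  Ov := I.Ov
  res := I.res
  algebraMap_mem := I.algebraMap_mem_Ov
  res_algebraMap := fun a => by
    rw [I.algebraMap_Fb, I.κ_resA]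
    congr 1
    exact Subtype.ext (I.coe_toOv a).symm
  normalize := fun f hf0 => by
    obtain ⟨a, ha⟩ := I.span f
    have hne : ∃ l, a l ≠ 0 := by
      by_contra hall
      push Not at hall
      apply hf0
      rw [ha]
      refine Finset.sum_eq_zero fun l _ => ?_
      rw [hall l, map_zero, zero_mul]
    obtain ⟨c, hc0, b, hb, hres⟩ := I.exists_scale_comb a hne
    have hcf : ((I.comb b : ↥I.Ov) : F) = c • f := by rw [I.coe_comb_smul hb, ← ha]
    refine ⟨c, hc0, hcf ▸ (I.comb b).2, fun h0 => hres ?_⟩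
    rw [← I.res_eq_zero_iff, ← h0]
    congr 1
    exact Subtype.ext hcf
  arch := I.d1.arch
  cart := fun W hW => by
    classical
    haveI := hW
    set W' : Submodule L F1 := ⨆ l : Fin I.q,
      (W.comap I.combLin).map (LinearMap.proj l) with hW'
    haveI hWc : FiniteDimensional L ↥(W.comap I.combLin) := by
      have hinj : Function.Injective
          (I.combLin.restrict (p := W.comap I.combLin) (q := W) (fun a ha => ha)) := by
        intro a a' h
        apply Subtype.ext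
        apply I.combLin_injective
        have h1 := congrArg Subtype.val h
        exact h1
      exact FiniteDimensional.of_injective _ hinj
    haveI : FiniteDimensional L ↥W' := by
      rw [hW']
      exact Submodule.finiteDimensional_iSup _
    have hfg := I.d1.ball_fg W'
    set T : (Fin I.q → F1) →ₗ[↥I.d1.A] F := I.combLin.restrictScalars ↥I.d1.A with hT
    set N : Submodule ↥I.d1.A F :=
      (Submodule.pi Set.univ (fun _ : Fin I.q => I.d1.ball W')).map T with hN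
    have hNfg : N.FG := (Submodule.fg_pi (fun _ => hfg)).map T
    set B : Submodule ↥I.d1.A F :=
      { carrier := {f | f ∈ W ∧ f ∈ I.Ov}
        zero_mem' := ⟨W.zero_mem, I.Ov.zero_mem⟩
        add_mem' := fun h1 h2 => ⟨W.add_mem h1.1 h2.1, I.Ov.add_mem h1.2 h2.2⟩
        smul_mem' := fun a f hf => ⟨W.smul_mem (a : L) hf.1, by
          show ((a : ↥I.d1.A) : L) • f ∈ I.Ov
          rw [Algebra.smul_def]
          exact I.Ov.mul_mem (I.algebraMap_mem_Ov a) hf.2⟩ } with hB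
    have hBN : B ≤ N := by
      rintro f ⟨hfW, hfO⟩
      obtain ⟨b, hb⟩ := I.decomp ⟨f, hfO⟩
      have hfb : f = I.combLin (fun l => ((b l : ↥I.d1.Ov) : F1)) := by
        have := congrArg Subtype.val hb
        rw [I.coe_comb] at this
        exact this
      refine ⟨fun l => ((b l : ↥I.d1.Ov) : F1), ?_, hfb.symm⟩
      intro l _
      refine ⟨?_, (b l).2⟩
      rw [hW']
      refine Submodule.mem_iSup_of_mem l ?_
      refine ⟨fun l => ((b l : ↥I.d1.Ov) : F1), ?_, rfl⟩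
      show I.combLin _ ∈ W
      rw [← hfb]
      exact hfW
    haveI : IsNoetherian ↥I.d1.A ↥N := isNoetherian_of_fg_of_noetherian N hNfg
    have hBfg : B.FG := by
      have h1 : IsNoetherian ↥I.d1.A ↥B := isNoetherian_of_le hBN
      exact (Submodule.fg_top B).mp (IsNoetherian.noetherian ⊤)
    obtain ⟨S, hS⟩ := hBfg
    refine ⟨S, fun s hs => ?_, fun f hfW hfO => ?_⟩
    · have : s ∈ B := hS ▸ Submodule.subset_span hs
      exact this
    · have hfB : f ∈ Submodule.span ↥I.d1.A (S : Set F) := hS ▸ (⟨hfW, hfO⟩ : f ∈ B)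
      obtain ⟨c, -, hc⟩ := (Submodule.mem_span_finset (R := ↥I.d1.A)).mp hfB
      exact ⟨c, hc.symm⟩

theorem base_Ov [IsNoetherianRing ↥I.d1.A] : I.base.Ov = I.Ov := rfl

theorem base_res [IsNoetherianRing ↥I.d1.A] (f : ↥I.Ov) : I.base.res f = I.res f := rfl

theorem base_A [IsNoetherianRing ↥I.d1.A] : I.base.A = I.d1.A := rfl

end T4kInput

end Fermat.Agent.T4
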