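/-
T4-V (helper9): the tower `F' ⊆ F1 ⊆ F` (levels `N'`, `N' q`, `N' q q`, `q` prime) over a field `L`:

* `t4v_ringHom_ext1`: ring homomorphisms on `F1` are determined by the constants and the two images
  `α F'`, `β F'` of `F'`;
* `t4v_w_alpha`: `w_{q²} ∘ α₂ = β₂ ∘ w_q` on `F1`;
* `T4iMid.ι_alpha`: the middle embedding restricted to `α₂ F1` is the `q`-expansion at `∞`
  (`ι (α₂ b) = b ⊗ L'`);
* `T4iMid.ι_const`, and the constants under `w`.
-/
import Fermat.Agent.Lib.T4.Inst.Mid
import Fermat.Agent.Lib.T2.AL.Field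

set_option autoImplicit false
set_option linter.unusedSectionVars false
set_option linter.unusedVariables false
set_option linter.style.haveILetI false
set_option synthInstance.maxHeartbeats 400000

open HahnSeries ModularCurve Fermat.Agent.T1 Fermat.Agent.T2

noncomputable section

namespace Fermat.Agent.T4

theorem t4v_coeffMap_C {R S : Type*} [CommRing R] [CommRing S] (f : R →+* S) (r : R) :
    coeffMap f (HahnSeries.C r : LaurentSeries R) = HahnSeries.C (f r) := by
  rw [HahnSeries.C_apply, coeffMap_single, HahnSeries.C_apply]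

section Tower

variable (L : Type) [Field L] [Algebra ℚ L] (N' q : ℕ) [NeZero N'] [NeZero q]

/-- ring homomorphisms on `F1 = F_{N'q}` (`q` prime) are determined by their values on the
constants and on the two images `α F'`, `β F'` of `F' = F_{N'}` -/
theorem t4v_ringHom_ext1 {R : Type*} [DivisionRing R] (hq : q.Prime)
    (φ ψ : ↥(TaF L (N' * q)) →+* R)
    (hc : ∀ c : L, φ (algebraMap L ↥(TaF L (N' * q)) c) = ψ (algebraMap L ↥(TaF L (N' * q)) c))
    (hα : ∀ f : ↥(TaF L N'), φ (heckeAlphaBar L N' q f) = ψ (heckeAlphaBar L N' q f))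
    (hβ : ∀ f : ↥(TaF L N'), φ (heckeBetaBar L N' q f) = ψ (heckeBetaBar L N' q f)) : φ = ψ := by
  apply t2w_ringHom_ext L (N' * q) φ ψ hc
  intro d hd
  haveI : NeZero d := t2w_neZero_of_dvd (N' * q) hd
  by_cases hqd : q ∣ d
  · obtain ⟨d', rfl⟩ := hqd
    have hd' : d' ∣ N' := by
      rw [mul_comm N' q] at hd
      exact (Nat.mul_dvd_mul_iff_left hq.pos).mp hd
    haveI : NeZero d' := t2w_neZero_of_dvd N' hd'
    have h1 : t2wJd L (N' * q) (q * d') hd = heckeBetaBar L N' q (t2wJd L N' d' hd') := by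
      apply Subtype.ext
      rw [coe_heckeBetaBar, coe_t2wJd L N' d' hd', coe_t2wJd L (N' * q) (q * d'), qExpand_qExpand]
    rw [h1]
    exact hβ _
  · have hd' : d ∣ N' :=
      Nat.Coprime.dvd_of_dvd_mul_right ((Nat.Prime.coprime_iff_not_dvd hq).mpr hqd).symm hd
    have h1 : t2wJd L (N' * q) d hd = heckeAlphaBar L N' q (t2wJd L N' d hd') := by
      apply Subtype.ext
      rw [coe_heckeAlphaBar, coe_t2wJd L N' d hd', coe_t2wJd L (N' * q) d]
    rw [h1]
    exact hα _

variable {L N' q}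

/-- **`w_{q²} ∘ α₂ = β₂ ∘ w_q`** on `F1` -/
theorem t4v_w_alpha (hq : q.Prime) (W : T4iAL L N' q) (W1 : T2iAL L N' q)
    (b : ↥(TaF L (N' * q))) :
    W.w (heckeAlphaBar L (N' * q) q b) = heckeBetaBar L (N' * q) q (W1.w b) := by
  have key : ((W.w : ↥(TaF L (N' * q * q)) ≃ₐ[L] ↥(TaF L (N' * q * q))) :
        ↥(TaF L (N' * q * q)) →+* ↥(TaF L (N' * q * q))).comp
        ((heckeAlphaBar L (N' * q) q : ↥(TaF L (N' * q)) →ₐ[L] ↥(TaF L (N' * q * q))) :
          ↥(TaF L (N' * q)) →+* ↥(TaF L (N' * q * q)))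
      = ((heckeBetaBar L (N' * q) q : ↥(TaF L (N' * q)) →ₐ[L] ↥(TaF L (N' * q * q))) :
          ↥(TaF L (N' * q)) →+* ↥(TaF L (N' * q * q))).comp
        ((W1.w : ↥(TaF L (N' * q)) ≃ₐ[L] ↥(TaF L (N' * q))) :
          ↥(TaF L (N' * q)) →+* ↥(TaF L (N' * q))) := by
    apply t4v_ringHom_ext1 L N' q hq
    · intro c
      simp
    · intro f
      show W.w (heckeAlphaBar L (N' * q) q (heckeAlphaBar L N' q f))
        = heckeBetaBar L (N' * q) q (W1.w (heckeAlphaBar L N' q f))
      rw [W.w_aa, W1.w_alpha]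
    · intro f
      show W.w (heckeAlphaBar L (N' * q) q (heckeBetaBar L N' q f))
        = heckeBetaBar L (N' * q) q (W1.w (heckeBetaBar L N' q f))
      rw [W.w_ab, W1.w_beta, t4w_alpha_beta]
  exact RingHom.congr_fun key b

/-- `w_{q²} ∘ β₂ = α₂ ∘ w_q` on `F1` -/
theorem t4v_w_beta (hq : q.Prime) (W : T4iAL L N' q) (W1 : T2iAL L N' q)
    (b : ↥(TaF L (N' * q))) :
    W.w (heckeBetaBar L (N' * q) q b) = heckeAlphaBar L (N' * q) q (W1.w b) := by
  have h := t4v_w_alpha hq W W1 (W1.w b)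
  rw [W1.w_w] at h
  rw [← h, W.w_w]

variable {L' : Type*} [Field L'] [Algebra L L'] {ζ : L'ˣ}

/-- the middle embedding on constants -/
theorem T4iMid.ι_const (M : T4iMid L L' N' q ζ) (c : L) :
    M.ι (algebraMap L ↥(TaF L (N' * q * q)) c) = HahnSeries.C (algebraMap L L' c) := by
  have h := M.ι_aa (algebraMap L ↥(TaF L N') c)
  rw [AlgHom.commutes, AlgHom.commutes, coe_algebraMap_taF, t4v_coeffMap_C] at h
  exact h

/-- **the middle embedding restricted to `α₂ F1` is the `q`-expansion at `∞`** -/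
theorem T4iMid.ι_alpha (hq : q.Prime) (M : T4iMid L L' N' q ζ) (b : ↥(TaF L (N' * q))) :
    M.ι (heckeAlphaBar L (N' * q) q b) =
      coeffMap (algebraMap L L') ((b : ↥(TaF L (N' * q))) : LaurentSeries L) := by
  have key : M.ι.comp
        ((heckeAlphaBar L (N' * q) q : ↥(TaF L (N' * q)) →ₐ[L] ↥(TaF L (N' * q * q))) :
          ↥(TaF L (N' * q)) →+* ↥(TaF L (N' * q * q)))
      = (coeffMap (algebraMap L L')).comp (TaF L (N' * q)).toSubring.subtype := by
    apply t4v_ringHom_ext1 L N' q hq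
    · intro c
      show M.ι (heckeAlphaBar L (N' * q) q (algebraMap L ↥(TaF L (N' * q)) c))
        = coeffMap (algebraMap L L')
          ((algebraMap L ↥(TaF L (N' * q)) c : ↥(TaF L (N' * q))) : LaurentSeries L)
      rw [AlgHom.commutes, M.ι_const, coe_algebraMap_taF, t4v_coeffMap_C]
    · intro f
      show M.ι (heckeAlphaBar L (N' * q) q (heckeAlphaBar L N' q f))
        = coeffMap (algebraMap L L')
          ((heckeAlphaBar L N' q f : ↥(TaF L (N' * q))) : LaurentSeries L)
      rw [M.ι_aa, coe_heckeAlphaBar]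
    · intro f
      show M.ι (heckeAlphaBar L (N' * q) q (heckeBetaBar L N' q f))
        = coeffMap (algebraMap L L')
          ((heckeBetaBar L N' q f : ↥(TaF L (N' * q))) : LaurentSeries L)
      rw [M.ι_ab, coe_heckeBetaBar]
  exact RingHom.congr_fun key b

end Tower

end Fermat.Agent.T4
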