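/-
T4-V (helper9): **the three-valuation base of `F = F_{N'q²,L}` at an unramified DVR level**.

`(L, O, π, k)` a DVR level with uniformiser `q` (the residue characteristic), `N'` invertible in
`k`; `(L', O', π')` the cyclotomic level above it (`T4iCyc`, uniformiser `1 - ζ`), the Atkin–Lehner
data `W1 : T2iAL L N' q`, `W : T4iAL L N' q`, the Frobenius data `Fr : T2iFrob k N' q` and the middle
embedding `M : T4iMid L L' N' q ζ`.  We instantiate `T4kInput` (`Kron2.lean`):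

* `t4vInput : T4kInput L F1 F k k((𝔮)) L'((𝔮)) (E × E)`, `F1 = TaF L (N' q)`, `F = TaF L (N' q q)`,
  with `Ginf` the Gauss ring of `F`, `G0 = w⁻¹ Ginf`, `ι = M.ι`, `G'` the Gauss ring of `L'((𝔮))`,
  `Z = a2 j = j(𝔮^{q²})`, `J = j`;
* `t4vBase := t4vInput.base : T2Base L F k (𝒪 / q)`.
-/
import Fermat.Agent.Lib.T4.Inst.ValTower
import Fermat.Agent.Lib.T4.Inst.Kron2
import Fermat.Agent.Lib.T4.Inst.GaussExt
import Fermat.Agent.Lib.T4.Inst.CycGen
import Fermat.Agent.Lib.T2.Inst.KronSer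

set_option autoImplicit false
set_option linter.unusedSectionVars false
set_option linter.unusedVariables false
set_option linter.style.haveILetI false
set_option synthInstance.maxHeartbeats 400000

open HahnSeries ModularCurve Fermat.Agent.T1 Fermat.Agent.T2 IntermediateField

noncomputable section

namespace Fermat.Agent.T4

/-! ### The degree `[F : F1] ≤ q` -/

section Degree

variable {L : Type} [Field L] [Algebra ℚ L] (O : ValuationSubring L) {k : Type*} [Field k]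
  (π : ↥O →+* k) [IsDiscreteValuationRing ↥O] (hπ : Function.Surjective π) [IsAlgClosed k]
  {N' q : ℕ} [NeZero N'] [hq : Fact q.Prime] [CharP k q] (hN' : (N' : k) ≠ 0)
  (W1 : T2iAL L N' q) (Fr : T2iFrob k N' q)

attribute [local instance] t2iAlgebra t2i_isScalarTower

include O π hπ hN' W1 Fr in
/-- `[F1 : F'] = q + 1` -/
theorem t4v_finrank1 : Module.finrank ↥(TaF L N') ↥(TaF L (N' * q)) = q + 1 := by
  haveI := (t2iInput O π hπ hN' W1 Fr).fin
  have hli : LinearIndependent ↥(TaF L N')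
      (fun l : Fin (q + 1) => (t2iInput O π hπ hN' W1 Fr).Y ^ (l : ℕ)) := by
    rw [Fintype.linearIndependent_iff]
    intro g hg
    refine (t2iInput O π hπ hN' W1 Fr).eq_zero_of_sum_eq_zero g ?_
    rw [← hg]
    refine Finset.sum_congr rfl fun l _ => ?_
    rw [Algebra.smul_def]
  have h1 := hli.fintype_card_le_finrank
  rw [Fintype.card_fin] at h1
  exact le_antisymm (t2iInput O π hπ hN' W1 Fr).deg_le h1

include O π hπ hN' W1 Fr in
/-- `[F : F1] ≤ q` and `F / F1` is finite -/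
theorem t4v_finrank_le :
    Module.Finite ↥(TaF L (N' * q)) ↥(TaF L (N' * q * q)) ∧
      Module.finrank ↥(TaF L (N' * q)) ↥(TaF L (N' * q * q)) ≤ q := by
  have h1 := ta_finrank_tower (heckeAlphaBar L (N' * q) q) (taJ (L := L) (N' * q))
  rw [t2i_alpha_taJ] at h1
  have h2 := ta_finrank_le L (N' * q * q)
  have h3 := ta_finrank_tower (heckeAlphaBar L N' q) (taJ (L := L) N')
  rw [t2i_alpha_taJ] at h3
  have h4 := ta_finrank O π hπ N' hN'
  have h5 := t4v_finrank1 O π hπ hN' W1 Fr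
  have h6 : dedekindPsi (N' * q * q) = dedekindPsi (N' * q) * q :=
    Fermat.Agent.Igusa.igPsi_mul_prime_of_dvd hq.out (NeZero.ne (N' * q)) (dvd_mul_left q N')
  have h7 := t2i_dedekindPsi (k := k) N' q hN'
  have h8 : 0 < dedekindPsi N' := Fermat.Agent.Igusa.igPsi_pos (NeZero.ne N')
  rw [h4, h5] at h3
  rw [h1, h3, h6, h7] at h2
  have h9 : 0 < Module.finrank ↥(L⟮taJ (L := L) (N' * q * q)⟯) ↥(TaF L (N' * q * q)) := by
    haveI := ta_finiteDimensional L (N' * q * q)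
    exact Module.finrank_pos
  rw [h1] at h9
  have h10 : 0 < Module.finrank ↥(TaF L (N' * q)) ↥(TaF L (N' * q * q)) :=
    Nat.pos_of_mul_pos_left h9
  refine ⟨Module.finite_of_finrank_pos h10, ?_⟩
  exact Nat.le_of_mul_le_mul_left h2 (Nat.mul_pos h8 (Nat.succ_pos q))

end Degree

/-! ### Complements on the cyclotomic data -/

section Cyc

variable {L L' : Type*} [Field L] [Field L'] [Algebra L L'] {O : ValuationSubring L}
  {O' : ValuationSubring L'} {k : Type*} [Field k] {π : ↥O →+* k} {π' : ↥O' →+* k} {q : ℕ}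
  (C : T4iCyc O O' π π' q)

/-- `ζ` as a unit of `O'` -/
def T4iCyc.ζO (hq : q.Prime) : (↥O')ˣ where
  val := ⟨((C.ζ : L'ˣ) : L'), C.ζ_mem⟩
  inv := ⟨((C.ζ : L'ˣ) : L') ^ (q - 1), pow_mem C.ζ_mem _⟩
  val_inv := by
    apply Subtype.ext
    show ((C.ζ : L'ˣ) : L') * ((C.ζ : L'ˣ) : L') ^ (q - 1) = 1
    rw [← pow_succ', Nat.sub_add_cancel hq.one_lt.le, ← Units.val_pow_eq_pow_val, C.ζ_pow]
    rfl
  inv_val := by
    apply Subtype.ext
    show ((C.ζ : L'ˣ) : L') ^ (q - 1) * ((C.ζ : L'ˣ) : L') = 1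
    rw [← pow_succ, Nat.sub_add_cancel hq.one_lt.le, ← Units.val_pow_eq_pow_val, C.ζ_pow]
    rfl

theorem T4iCyc.coe_ζO (hq : q.Prime) :
    (((C.ζO hq : (↥O')ˣ) : ↥O') : L') = ((C.ζ : L'ˣ) : L') := rfl

theorem T4iCyc.π'_ζO (hq : q.Prime) (hπ : Function.Surjective π) :
    π' ((C.ζO hq : (↥O')ˣ) : ↥O') = 1 := C.π'_ζ hπ

theorem T4iCyc.ζ_ne_one : ((C.ζ : L'ˣ) : L') ≠ 1 := fun h => C.ζ_ne (Units.ext h)

end Cyc

section Gauss

variable {L' : Type*} [Field L'] (O' : ValuationSubring L') {k : Type*} [Field k]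
  (π' : ↥O' →+* k)

theorem t4v_taInc_jqModC : taInc O' (jqModC ↥O') = jqModC L' := coeffMap_jqModC _

theorem t4v_gauss_jqModC : TaGauss O' π' (jqModC L') := by
  rw [← t4v_taInc_jqModC O']
  exact taGauss_taInc O' π' _

theorem t4v_taRhoFun_jqModC : taRhoFun O' π' (jqModC L') = jqModC k := by
  have h : (jqModC L' : LaurentSeries L') * taInc O' 1 = taInc O' (jqModC ↥O') := by
    rw [map_one, mul_one, t4v_taInc_jqModC]
  rw [taRhoFun_eq O' π' (by rw [map_one]; exact one_ne_zero) h, map_one, div_one]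
  exact coeffMap_jqModC _

theorem t4v_theta_jqModC_ne_zero : t4vTheta (jqModC k) ≠ 0 := by
  intro h
  have h1 := congrArg (fun x : LaurentSeries k => x.coeff (-1)) h
  simp only [t4vTheta_coeff, coeff_jqModC_neg_one, HahnSeries.coeff_zero, mul_one] at h1
  have h2 : ((-1 : ℤ) : k) = -1 := by push_cast; rfl
  rw [h2] at h1
  exact one_ne_zero (neg_eq_zero.mp h1)

/-- constants of `O'` in the Gauss ring -/
def t4vConst (a : ↥O') : ↥(taGaussSubring O' π') :=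
  ⟨HahnSeries.C ((a : ↥O') : L'), by
    rw [mem_taGaussSubring_iff, ← taInc_C]
    exact taGauss_taInc O' π' _⟩

theorem coe_t4vConst (a : ↥O') :
    ((t4vConst O' π' a : ↥(taGaussSubring O' π')) : LaurentSeries L') =
      HahnSeries.C ((a : ↥O') : L') := rfl

theorem taRho_t4vConst (a : ↥O') : taRho O' π' (t4vConst O' π' a) = HahnSeries.C (π' a) := by
  have h1 : t4vConst O' π' a = ⟨taInc O' (HahnSeries.C a), taGauss_taInc O' π' _⟩ :=
    Subtype.ext (taInc_C O' a).symm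
  rw [h1, taRho_taInc, taRed_C]

end Gauss

/-! ### The input -/

section Input

variable {L : Type} [Field L] [Algebra ℚ L] (O : ValuationSubring L) {k : Type*} [Field k]
  (π : ↥O →+* k) [IsDiscreteValuationRing ↥O] (hπ : Function.Surjective π) [IsAlgClosed k]
  {N' q : ℕ} [NeZero N'] [hq : Fact q.Prime] [CharP k q] (hN' : (N' : k) ≠ 0)
  (W1 : T2iAL L N' q) (Fr : T2iFrob k N' q) (W : T4iAL L N' q)
  (hqO : Irreducible ((q : ℕ) : ↥O))
  {L' : Type*} [Field L'] [Algebra L L'] (O' : ValuationSubring L')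
  [IsDiscreteValuationRing ↥O'] (π' : ↥O' →+* k) (C : T4iCyc O O' π π' q)
  (M : T4iMid L L' N' q C.ζ)

attribute [local instance] t2iAlgebra t2i_isScalarTower

include hπ in
theorem t4v_gauss_del_j : TaGauss O' π' (t4vDel C.ζ (jqModC L')) :=
  t4v_taGauss_del O' π' C.ζ (C.ζO hq.out) (C.coe_ζO hq.out) (C.π'_ζO hq.out hπ)
    C.ζ_ne_one (t4v_gauss_jqModC O' π')

include hπ in
theorem t4v_taRhoFun_del_j :
    taRhoFun O' π' (t4vDel C.ζ (jqModC L')) = t4vTheta (jqModC k) := by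
  rw [t4v_taRhoFun_del O' π' C.ζ (C.ζO hq.out) (C.coe_ζO hq.out) (C.π'_ζO hq.out hπ)
    C.ζ_ne_one (t4v_gauss_jqModC O' π'), t4v_taRhoFun_jqModC]

/-- the Wilson unit: `q = λ^{q-1} · u` -/
def t4vU : ↥O' := (C.exists_wilson' hq.out hπ).choose

include hπ in
theorem t4vU_spec : IsUnit (t4vU O π hπ O' π' C) ∧
    ((q : ℕ) : L') = ((C.lam : ↥O') : L') ^ (q - 1) * ((t4vU O π hπ O' π' C : ↥O') : L') ∧
      π' (t4vU O π hπ O' π' C) = -1 :=
  (C.exists_wilson' hq.out hπ).choose_spec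

/-! #### The three Gauss rings of `F` -/

/-- `α₂` preserves the Gauss ring and the reduction -/
theorem t4v_alpha_gauss {b : ↥(TaF L (N' * q))} (hb : b ∈ taOv O π hπ (N' * q)) :
    algebraMap ↥(TaF L (N' * q)) ↥(TaF L (N' * q * q)) b ∈ taOv O π hπ (N' * q * q) := by
  rw [mem_taOv_iff, coe_t2i_algebraMap]
  exact hb

theorem t4v_alpha_res {b : ↥(TaF L (N' * q))} (hb : b ∈ taOv O π hπ (N' * q)) :
    taResN O π hπ (N' * q * q) ⟨algebraMap ↥(TaF L (N' * q)) ↥(TaF L (N' * q * q)) b,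
      t4v_alpha_gauss O π hπ hb⟩ = taResN O π hπ (N' * q) ⟨b, hb⟩ := by
  rw [taResN_eq_taRhoFun, taResN_eq_taRhoFun]
  show taRhoFun O π ((algebraMap ↥(TaF L (N' * q)) ↥(TaF L (N' * q * q)) b :
    ↥(TaF L (N' * q * q))) : LaurentSeries L) = _
  rw [coe_t2i_algebraMap]

/-- `β₂` preserves the Gauss ring; the reduction is composed with `𝔮 ↦ 𝔮^q` -/
theorem t4v_beta_gauss {b : ↥(TaF L (N' * q))} (hb : b ∈ taOv O π hπ (N' * q)) :
    heckeBetaBar L (N' * q) q b ∈ taOv O π hπ (N' * q * q) := by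
  rw [mem_taOv_iff, coe_heckeBetaBar]
  exact t2i_taGauss_qExpand O π q hb

theorem t4v_beta_res {b : ↥(TaF L (N' * q))} (hb : b ∈ taOv O π hπ (N' * q)) :
    taResN O π hπ (N' * q * q) ⟨heckeBetaBar L (N' * q) q b, t4v_beta_gauss O π hπ hb⟩ =
      qExpand k q (taResN O π hπ (N' * q) ⟨b, hb⟩) := by
  rw [taResN_eq_taRhoFun, taResN_eq_taRhoFun]
  show taRhoFun O π ((heckeBetaBar L (N' * q) q b : ↥(TaF L (N' * q * q))) : LaurentSeries L) = _
  rw [coe_heckeBetaBar, t2i_taRhoFun_qExpand O π q hb]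

/-- `w ∘ α₂` lands in the Gauss ring on `𝒪¹`; the reduction is `Φ ∘ ρ¹_0` -/
theorem t4v_zero_gauss {b : ↥(TaF L (N' * q))} (hb : W1.w b ∈ taOv O π hπ (N' * q)) :
    W.w (algebraMap ↥(TaF L (N' * q)) ↥(TaF L (N' * q * q)) b) ∈ taOv O π hπ (N' * q * q) := by
  rw [t2i_algebraMap_apply, t4v_w_alpha hq.out W W1]
  exact t4v_beta_gauss O π hπ hb

theorem t4v_zero_res {b : ↥(TaF L (N' * q))} (hb : W1.w b ∈ taOv O π hπ (N' * q)) :
    taResN O π hπ (N' * q * q) ⟨W.w (algebraMap ↥(TaF L (N' * q)) ↥(TaF L (N' * q * q)) b),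
      t4v_zero_gauss O π hπ W1 W hb⟩ = qExpand k q (taResN O π hπ (N' * q) ⟨W1.w b, hb⟩) := by
  rw [← t4v_beta_res O π hπ hb]
  congr 1
  exact Subtype.ext (t4v_w_alpha hq.out W W1 b)

/-- the middle embedding of `α₂ b`, `b` Gauss-integral, is Gauss-integral with the same reduction -/
theorem t4v_mid_gauss {b : ↥(TaF L (N' * q))} (hb : b ∈ taOv O π hπ (N' * q)) :
    TaGauss O' π' (M.ι (algebraMap ↥(TaF L (N' * q)) ↥(TaF L (N' * q * q)) b)) := by
  rw [t2i_algebraMap_apply, M.ι_alpha hq.out]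
  exact t4v_taGauss_coeffMap O O' π π' C.map_mem C.π_map hb

theorem t4v_mid_res {b : ↥(TaF L (N' * q))} (hb : b ∈ taOv O π hπ (N' * q)) :
    taRhoFun O' π' (M.ι (algebraMap ↥(TaF L (N' * q)) ↥(TaF L (N' * q * q)) b)) =
      taResN O π hπ (N' * q) ⟨b, hb⟩ := by
  rw [t2i_algebraMap_apply, M.ι_alpha hq.out, taResN_eq_taRhoFun]
  exact t4v_taRhoFun_coeffMap O O' π π' C.map_mem C.π_map hb

/-! #### The generator `Z = a2 j` -/

/-- `Z = j(𝔮^{q²})` -/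
def t4vZ (L : Type) [Field L] [Algebra ℚ L] (N' q : ℕ) [NeZero N'] [NeZero q] :
    ↥(TaF L (N' * q * q)) := t4vA2 L N' q (taJ N')

theorem coe_t4vZ : ((t4vZ L N' q : ↥(TaF L (N' * q * q))) : LaurentSeries L) =
    qExpand L q (qExpand L q (jqModC L)) := by
  rw [t4vZ, coe_t4vA2]
  rfl

theorem t4vZ_mem : t4vZ L N' q ∈ taOv O π hπ (N' * q * q) := by
  rw [mem_taOv_iff, coe_t4vZ]
  exact t2i_taGauss_qExpand O π q (t2i_taGauss_qExpand O π q (t4v_gauss_jqModC O π))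

theorem t4vZ_res : taResN O π hπ (N' * q * q) ⟨t4vZ L N' q, t4vZ_mem O π hπ⟩ =
    qExpand k q (qExpand k q (jqModC k)) := by
  rw [taResN_eq_taRhoFun]
  show taRhoFun O π ((t4vZ L N' q : ↥(TaF L (N' * q * q))) : LaurentSeries L) = _
  rw [coe_t4vZ, t2i_taRhoFun_qExpand O π q (t2i_taGauss_qExpand O π q
    (t4v_gauss_jqModC O π)), t2i_taRhoFun_qExpand O π q (t4v_gauss_jqModC O π),
    t4v_taRhoFun_jqModC O π]

theorem T4iAL.w_Z : W.w (t4vZ L N' q) = t4vA0 L N' q (taJ N') := W.w_a2 _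

theorem t4v_wZ_mem : W.w (t4vZ L N' q) ∈ taOv O π hπ (N' * q * q) := by
  rw [W.w_Z, mem_taOv_iff, coe_t4vA0]
  exact t4v_gauss_jqModC O π

theorem t4v_wZ_res : taResN O π hπ (N' * q * q) ⟨W.w (t4vZ L N' q), t4v_wZ_mem O π hπ W⟩ =
    jqModC k := by
  rw [taResN_eq_taRhoFun]
  show taRhoFun O π ((W.w (t4vZ L N' q) : ↥(TaF L (N' * q * q))) : LaurentSeries L) = _
  rw [W.w_Z, coe_t4vA0]
  exact t4v_taRhoFun_jqModC O π

theorem t4v_ι_Z : M.ι (t4vZ L N' q) = t4vSig C.ζ (jqModC L') := by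
  rw [t4vZ, M.ι_a2]
  show t4vSig C.ζ (coeffMap (algebraMap L L') (jqModC L)) = _
  rw [coeffMap_jqModC]

include hπ in
theorem t4v_ι_Z_gauss : TaGauss O' π' (M.ι (t4vZ L N' q)) := by
  rw [t4v_ι_Z]
  exact t4v_taGauss_sig O' π' C.ζ (C.ζO hq.out) (C.coe_ζO hq.out) (C.π'_ζO hq.out hπ)
    (t4v_gauss_jqModC O' π')

/-- `ι (Z - α₂ j) = λ · ϑ`, `ϑ = -Δ_ζ j` -/
theorem t4v_ι_Z_sub :
    M.ι (t4vZ L N' q - algebraMap ↥(TaF L (N' * q)) ↥(TaF L (N' * q * q))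
      (algebraMap ↥(TaF L N') ↥(TaF L (N' * q)) (taJ N'))) =
      HahnSeries.C ((C.lam : ↥O') : L') * -t4vDel C.ζ (jqModC L') := by
  have h := M.ι_a2_sub_a0 (taJ N')
  have h1 : coeffMap (algebraMap L L') ((taJ (L := L) N' : ↥(TaF L N')) : LaurentSeries L) =
      jqModC L' := coeffMap_jqModC _
  rw [h1] at h
  have h2 : (HahnSeries.C ((C.lam : ↥O') : L') : LaurentSeries L') =
      -HahnSeries.C (((C.ζ : L'ˣ) : L') - 1) := by
    rw [C.lam_eq, ← map_neg, neg_sub]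
  rw [h2, neg_mul_neg, ← h]
  rfl

/-! #### Kronecker independence at `0` -/

theorem t4v_kron0 (c : Fin q → LaurentSeries k)
    (h : ∑ i, qExpand k q (c i) * jqModC k ^ (i : ℕ) = 0) : ∀ i, c i = 0 := by
  classical
  set B : ℕ → LaurentSeries k := fun l => if h : l < q then c ⟨l, h⟩ else 0 with hB
  have hBc : ∀ i : Fin q, B i = c i := fun i => by
    simp only [hB, i.2, dif_pos]
  have h' : ∑ l ∈ Finset.range q, qExpand k q (B l) * jqModC k ^ l = 0 := by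
    rw [← Fin.sum_univ_eq_sum_range (fun l => qExpand k q (B l) * jqModC k ^ l) q, ← h]
    refine Finset.sum_congr rfl fun i _ => ?_
    rw [hBc]
  intro i
  rw [← hBc]
  exact t2kr_indep q B h' i (Finset.mem_range.mpr i.2)

theorem t4v_Z_res_ne : qExpand k q (qExpand k q (jqModC k)) ≠ jqModC k := by
  intro h
  have h1 := congrArg (fun x : LaurentSeries k => x.coeff (-1)) h
  simp only [coeff_jqModC_neg_one] at h1
  rw [qExpand_coeff_of_not_dvd] at h1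
  · exact zero_ne_one h1
  · intro hd
    have h2 : (q : ℤ) ∣ 1 := by
      rw [← Int.natAbs_dvd_natAbs] at hd ⊢
      simpa using hd
    have h3 : q ∣ 1 := by exact_mod_cast h2
    exact hq.out.one_lt.ne' (Nat.dvd_one.mp h3)

/-! #### The input -/

/-- **the Kronecker input of the three-valuation base at an unramified DVR level** -/
def t4vInput : T4kInput L ↥(TaF L (N' * q)) ↥(TaF L (N' * q * q)) k (LaurentSeries k)
    (LaurentSeries L')
    (↥(modularFunctionFieldFullC k N') × ↥(modularFunctionFieldFullC k N')) where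
  d1 := t2iBase2 O π hπ hN' W1 Fr
  r1 := (t2iInput O π hπ hN' W1 Fr).ρ₁
  r2 := (t2iInput O π hπ hN' W1 Fr).ρ₂
  res1_eq_zero := (t2iInput O π hπ hN' W1 Fr).res_eq_zero_iff
  p := ((q : ℕ) : ↥O)
  hp := fun a ha => (ta_pi_eq_zero_iff hπ hqO a).mp ha
  hp0 := (ta_pi_eq_zero_iff hπ hqO _).mpr dvd_rfl
  Ginf := (taOv O π hπ (N' * q * q)).toSubring
  G0 := (taOv O π hπ (N' * q * q)).toSubring.comap
    (W.w : ↥(TaF L (N' * q * q)) →+* ↥(TaF L (N' * q * q)))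
  ρinf := taResN O π hπ (N' * q * q)
  ρ0 := (taResN O π hπ (N' * q * q)).comp
    (((W.w : ↥(TaF L (N' * q * q)) →+* ↥(TaF L (N' * q * q))).comp
      ((taOv O π hπ (N' * q * q)).toSubring.comap
        (W.w : ↥(TaF L (N' * q * q)) →+* ↥(TaF L (N' * q * q)))).subtype).codRestrict
      (taOv O π hπ (N' * q * q)).toSubring (fun f => f.2))
  ι := M.ι
  G' := taGaussSubring O' π'
  ρ' := taRho O' π'
  Φ := qExpand k q
  α_inf := fun b => t4v_alpha_gauss O π hπ b.2.1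
  ρinf_α := fun b => t4v_alpha_res O π hπ b.2.1
  α_0 := fun b => t4v_zero_gauss O π hπ W1 W b.2.2
  ρ0_α := fun b => t4v_zero_res O π hπ W1 W b.2.2
  α_mid := fun b => t4v_mid_gauss O π hπ O' π' C M b.2.1
  ρ'_α := fun b => t4v_mid_res O π hπ O' π' C M b.2.1
  q := q
  hq := hq.out.two_le
  Z := t4vZ L N' q
  J := ⟨algebraMap ↥(TaF L N') ↥(TaF L (N' * q)) (taJ N'),
    (t2iInput O π hπ hN' W1 Fr).α_mem_Ov ⟨taJ N', taJ_mem_taOv O π hπ N'⟩⟩
  Z_inf := t4vZ_mem O π hπ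
  Z_0 := t4v_wZ_mem O π hπ W
  Z_mid := t4v_ι_Z_gauss O π hπ O' π' C M
  ρinf_Z_ne := by
    have h := (t2iInput O π hπ hN' W1 Fr).ρ₁_α ⟨taJ N', taJ_mem_taOv O π hπ N'⟩
    have h2 : ((((t2iInput O π hπ hN' W1 Fr).d'.res ⟨taJ N', taJ_mem_taOv O π hπ N'⟩ :
        ↥(modularFunctionFieldFullC k N')) : LaurentSeries k)) = jqModC k :=
      taResN_taJ O π hπ N'
    intro h3
    exact t4v_Z_res_ne ((t4vZ_res O π hπ).symm.trans (h3.trans (h.trans h2)))
  t0 := jqModC k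
  ρ0_Z := t4v_wZ_res O π hπ W
  kron0 := t4v_kron0
  lam := t4vConst O' π' C.lam
  lam_ne := fun h => by
    have h1 := congrArg (fun x : ↥(taGaussSubring O' π') => (x : LaurentSeries L').coeff 0) h
    simp only [coe_t4vConst, HahnSeries.C_apply, HahnSeries.coeff_single_same, Subring.coe_zero,
      HahnSeries.coeff_zero] at h1
    exact C.unif.ne_zero (Subtype.ext h1)
  ρ'_lam := by
    rw [taRho_t4vConst, C.π'_lam hπ, map_zero]
  ker_ρ' := fun x hx => by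
    obtain ⟨f', hf', e⟩ := (taRho_eq_zero_iff (C.π'_surjective hπ) C.unif x).mp hx
    exact ⟨⟨f', hf'⟩, Subtype.ext e⟩
  u := t4vConst O' π' (t4vU O π hπ O' π' C)
  ι_p := by
    have h1 : (((q : ℕ) : ↥O) : L) = ((q : ℕ) : L) := rfl
    rw [h1, M.ι_const, map_natCast, (t4vU_spec O π hπ O' π' C).2.1, map_mul, map_pow]
    rfl
  ϑ := ⟨-t4vDel C.ζ (jqModC L'), Subring.neg_mem _ (t4v_gauss_del_j O π hπ O' π' C)⟩
  ι_ϖ := t4v_ι_Z_sub O π O' π' C M
  ρ'_ϑ := by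
    have h1 : (⟨-t4vDel C.ζ (jqModC L'), Subring.neg_mem _ (t4v_gauss_del_j O π hπ O' π' C)⟩ :
        ↥(taGaussSubring O' π')) = -⟨t4vDel C.ζ (jqModC L'), t4v_gauss_del_j O π hπ O' π' C⟩ := rfl
    rw [h1, map_neg, neg_ne_zero]
    show taRhoFun O' π' (t4vDel C.ζ (jqModC L')) ≠ 0
    rw [t4v_taRhoFun_del_j O π hπ O' π' C]
    exact t4v_theta_jqModC_ne_zero
  mid_of_r1 := fun b hb => by
    have hb' : taResN O π hπ (N' * q) ⟨(b : ↥(TaF L (N' * q))), b.2.1⟩ = 0 := hb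
    obtain ⟨f', hf'⟩ := (taResN_eq_zero_iff O π hπ (N' * q) hqO _).mp hb'
    refine ⟨⟨M.ι (algebraMap ↥(TaF L (N' * q)) ↥(TaF L (N' * q * q)) (f' : ↥(TaF L (N' * q)))),
      t4v_mid_gauss O π hπ O' π' C M f'.2⟩, ?_⟩
    show M.ι (algebraMap ↥(TaF L (N' * q)) ↥(TaF L (N' * q * q)) (b : ↥(TaF L (N' * q)))) = _
    have hf'' : (b : ↥(TaF L (N' * q))) = algebraMap L ↥(TaF L (N' * q)) (((q : ℕ) : ↥O) : L) *
        (f' : ↥(TaF L (N' * q))) := hf'
    rw [hf'', map_mul, map_mul, ← IsScalarTower.algebraMap_apply]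
  fin := (t4v_finrank_le O π hπ hN' W1 Fr).1
  deg_le := (t4v_finrank_le O π hπ hN' W1 Fr).2

/-- **the three-valuation base of `F_{N'q²,L}`** -/
def t4vBase : T2Base L ↥(TaF L (N' * q * q)) k (t4vInput O π hπ hN' W1 Fr W hqO O' π' C M).Fb :=
  haveI : IsNoetherianRing ↥(t4vInput O π hπ hN' W1 Fr W hqO O' π' C M).d1.A :=
    (inferInstance : IsNoetherianRing ↥O)
  (t4vInput O π hπ hN' W1 Fr W hqO O' π' C M).base

theorem t4vBase_A : (t4vBase O π hπ hN' W1 Fr W hqO O' π' C M).A = O := rfl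

theorem t4vBase_resA : (t4vBase O π hπ hN' W1 Fr W hqO O' π' C M).resA = π := rfl

theorem t4vBase_Ov : (t4vBase O π hπ hN' W1 Fr W hqO O' π' C M).Ov =
    (t4vInput O π hπ hN' W1 Fr W hqO O' π' C M).Ov := rfl

/-- membership in `𝒪`: the three Gauss conditions -/
theorem mem_t4vInput_Ov (f : ↥(TaF L (N' * q * q))) :
    f ∈ (t4vInput O π hπ hN' W1 Fr W hqO O' π' C M).Ov ↔
      TaGauss O π (f : LaurentSeries L) ∧
      TaGauss O π ((W.w f : ↥(TaF L (N' * q * q))) : LaurentSeries L) ∧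
      TaGauss O' π' (M.ι f) :=
  (t4vInput O π hπ hN' W1 Fr W hqO O' π' C M).mem_Ov

theorem t4vInput_ρ₁ (f : ↥(t4vInput O π hπ hN' W1 Fr W hqO O' π' C M).Ov) :
    (t4vInput O π hπ hN' W1 Fr W hqO O' π' C M).ρ₁ f =
      taRhoFun O π ((f : ↥(TaF L (N' * q * q))) : LaurentSeries L) := rfl

theorem t4vInput_ρ₂ (f : ↥(t4vInput O π hπ hN' W1 Fr W hqO O' π' C M).Ov) :
    (t4vInput O π hπ hN' W1 Fr W hqO O' π' C M).ρ₂ f =
      taRhoFun O' π' (M.ι (f : ↥(TaF L (N' * q * q)))) := rfl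

theorem t4vInput_ρ₃ (f : ↥(t4vInput O π hπ hN' W1 Fr W hqO O' π' C M).Ov) :
    (t4vInput O π hπ hN' W1 Fr W hqO O' π' C M).ρ₃ f =
      taRhoFun O π ((W.w (f : ↥(TaF L (N' * q * q))) : ↥(TaF L (N' * q * q))) :
        LaurentSeries L) := rfl

/-! #### The reduction table on `a0 f`, `a1 f`, `a2 f` -/

section Table

variable {f : ↥(TaF L N')} (hf : TaGauss O π (f : LaurentSeries L))

include hf hπ in
theorem t4v_a0_mem : t4vA0 L N' q f ∈ (t4vInput O π hπ hN' W1 Fr W hqO O' π' C M).Ov := by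
  rw [mem_t4vInput_Ov, W.w_a0, coe_t4vA0, coe_t4vA2, M.ι_a0]
  exact ⟨hf, t2i_taGauss_qExpand O π q (t2i_taGauss_qExpand O π q hf),
    t4v_taGauss_coeffMap O O' π π' C.map_mem C.π_map hf⟩

include hf hπ in
theorem t4v_a1_mem : t4vA1 L N' q f ∈ (t4vInput O π hπ hN' W1 Fr W hqO O' π' C M).Ov := by
  rw [mem_t4vInput_Ov, W.w_a1, coe_t4vA1, M.ι_a1]
  exact ⟨t2i_taGauss_qExpand O π q hf, t2i_taGauss_qExpand O π q hf,
    t4v_taGauss_coeffMap O O' π π' C.map_mem C.π_map (t2i_taGauss_qExpand O π q hf)⟩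

include hf hπ in
theorem t4v_a2_mem : t4vA2 L N' q f ∈ (t4vInput O π hπ hN' W1 Fr W hqO O' π' C M).Ov := by
  rw [mem_t4vInput_Ov, W.w_a2, coe_t4vA0, coe_t4vA2, M.ι_a2]
  exact ⟨t2i_taGauss_qExpand O π q (t2i_taGauss_qExpand O π q hf), hf,
    t4v_taGauss_sig O' π' C.ζ (C.ζO hq.out) (C.coe_ζO hq.out) (C.π'_ζO hq.out hπ)
      (t4v_taGauss_coeffMap O O' π π' C.map_mem C.π_map hf)⟩

theorem t4v_ρ₁_a0 :
    (t4vInput O π hπ hN' W1 Fr W hqO O' π' C M).ρ₁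
      ⟨t4vA0 L N' q f, t4v_a0_mem O π hπ hN' W1 Fr W hqO O' π' C M hf⟩ =
      taRhoFun O π (f : LaurentSeries L) := by
  rw [t4vInput_ρ₁]
  show taRhoFun O π ((t4vA0 L N' q f : ↥(TaF L (N' * q * q))) : LaurentSeries L) = _
  rw [coe_t4vA0]

theorem t4v_ρ₁_a1 :
    (t4vInput O π hπ hN' W1 Fr W hqO O' π' C M).ρ₁
      ⟨t4vA1 L N' q f, t4v_a1_mem O π hπ hN' W1 Fr W hqO O' π' C M hf⟩ =
      qExpand k q (taRhoFun O π (f : LaurentSeries L)) := by
  rw [t4vInput_ρ₁]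
  show taRhoFun O π ((t4vA1 L N' q f : ↥(TaF L (N' * q * q))) : LaurentSeries L) = _
  rw [coe_t4vA1, t2i_taRhoFun_qExpand O π q hf]

theorem t4v_ρ₁_a2 :
    (t4vInput O π hπ hN' W1 Fr W hqO O' π' C M).ρ₁
      ⟨t4vA2 L N' q f, t4v_a2_mem O π hπ hN' W1 Fr W hqO O' π' C M hf⟩ =
      qExpand k q (qExpand k q (taRhoFun O π (f : LaurentSeries L))) := by
  rw [t4vInput_ρ₁]
  show taRhoFun O π ((t4vA2 L N' q f : ↥(TaF L (N' * q * q))) : LaurentSeries L) = _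
  rw [coe_t4vA2, t2i_taRhoFun_qExpand O π q (t2i_taGauss_qExpand O π q hf),
    t2i_taRhoFun_qExpand O π q hf]

theorem t4v_ρ₃_a0 :
    (t4vInput O π hπ hN' W1 Fr W hqO O' π' C M).ρ₃
      ⟨t4vA0 L N' q f, t4v_a0_mem O π hπ hN' W1 Fr W hqO O' π' C M hf⟩ =
      qExpand k q (qExpand k q (taRhoFun O π (f : LaurentSeries L))) := by
  rw [t4vInput_ρ₃]
  show taRhoFun O π ((W.w (t4vA0 L N' q f) : ↥(TaF L (N' * q * q))) : LaurentSeries L) = _
  rw [W.w_a0, coe_t4vA2, t2i_taRhoFun_qExpand O π q (t2i_taGauss_qExpand O π q hf),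
    t2i_taRhoFun_qExpand O π q hf]

theorem t4v_ρ₃_a1 :
    (t4vInput O π hπ hN' W1 Fr W hqO O' π' C M).ρ₃
      ⟨t4vA1 L N' q f, t4v_a1_mem O π hπ hN' W1 Fr W hqO O' π' C M hf⟩ =
      qExpand k q (taRhoFun O π (f : LaurentSeries L)) := by
  rw [t4vInput_ρ₃]
  show taRhoFun O π ((W.w (t4vA1 L N' q f) : ↥(TaF L (N' * q * q))) : LaurentSeries L) = _
  rw [W.w_a1, coe_t4vA1, t2i_taRhoFun_qExpand O π q hf]

theorem t4v_ρ₃_a2 :
    (t4vInput O π hπ hN' W1 Fr W hqO O' π' C M).ρ₃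
      ⟨t4vA2 L N' q f, t4v_a2_mem O π hπ hN' W1 Fr W hqO O' π' C M hf⟩ =
      taRhoFun O π (f : LaurentSeries L) := by
  rw [t4vInput_ρ₃]
  show taRhoFun O π ((W.w (t4vA2 L N' q f) : ↥(TaF L (N' * q * q))) : LaurentSeries L) = _
  rw [W.w_a2, coe_t4vA0]

theorem t4v_ρ₂_a0 :
    (t4vInput O π hπ hN' W1 Fr W hqO O' π' C M).ρ₂
      ⟨t4vA0 L N' q f, t4v_a0_mem O π hπ hN' W1 Fr W hqO O' π' C M hf⟩ =
      taRhoFun O π (f : LaurentSeries L) := by
  rw [t4vInput_ρ₂]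
  show taRhoFun O' π' (M.ι (t4vA0 L N' q f)) = _
  rw [M.ι_a0, t4v_taRhoFun_coeffMap O O' π π' C.map_mem C.π_map hf]

theorem t4v_ρ₂_a1 :
    (t4vInput O π hπ hN' W1 Fr W hqO O' π' C M).ρ₂
      ⟨t4vA1 L N' q f, t4v_a1_mem O π hπ hN' W1 Fr W hqO O' π' C M hf⟩ =
      qExpand k q (taRhoFun O π (f : LaurentSeries L)) := by
  rw [t4vInput_ρ₂]
  show taRhoFun O' π' (M.ι (t4vA1 L N' q f)) = _
  rw [M.ι_a1, t4v_taRhoFun_coeffMap O O' π π' C.map_mem C.π_map (t2i_taGauss_qExpand O π q hf),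
    t2i_taRhoFun_qExpand O π q hf]

theorem t4v_ρ₂_a2 :
    (t4vInput O π hπ hN' W1 Fr W hqO O' π' C M).ρ₂
      ⟨t4vA2 L N' q f, t4v_a2_mem O π hπ hN' W1 Fr W hqO O' π' C M hf⟩ =
      taRhoFun O π (f : LaurentSeries L) := by
  rw [t4vInput_ρ₂]
  show taRhoFun O' π' (M.ι (t4vA2 L N' q f)) = _
  rw [M.ι_a2, t4v_taRhoFun_sig O' π' C.ζ (C.ζO hq.out) (C.coe_ζO hq.out) (C.π'_ζO hq.out hπ)
    (t4v_taGauss_coeffMap O O' π π' C.map_mem C.π_map hf),
    t4v_taRhoFun_coeffMap O O' π π' C.map_mem C.π_map hf]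

end Table

end Input

end Fermat.Agent.T4
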