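/-
T4-V (helper9): **the three vertical valuation rings of `F = F_{N'q²,L}`** (generic unramified DVR
level + cyclotomic level, same data as `Val.lean`).

* `t4v_dvr_of_zpow`: a valuation subring in which every element is `ϖ^n · unit` is a DVR;
* `t4v_induction1`: induction principle on `F1 = F_{N'q}` (constants, `α F'`, `β F'`);
* `t4v_frac_mid`: the middle embedding has values in `Frac O'((𝔮))`;
* `t4vOinf`, `t4vO0`, `t4vOmid : ValuationSubring F`, `mem_t4vInput_Ov_iff` (`𝒪` is their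
  intersection), the uniformisers `q`, `q`, `ϖ = a2 j - a0 j` with the decompositions
  `f = ϖ^n · unit` (`t4vOinf_exists_zpow`, …), the DVR instances `t4vOinf_dvr`, … and
  `q ∉ units` (`t4vOinf_q`, …: the valuation of `q` is `< 1`; `q = ϖ^(q-1) · unit` at `O_mid`).
-/
import Fermat.Agent.Lib.T4.Inst.Val

set_option autoImplicit false
set_option linter.unusedSectionVars false
set_option linter.unusedVariables false
set_option linter.style.haveILetI false
set_option synthInstance.maxHeartbeats 400000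

open HahnSeries ModularCurve Fermat.Agent.T1 Fermat.Agent.T2 IntermediateField

noncomputable section

namespace Fermat.Agent.T4

/-! ### A criterion for discrete valuation rings -/

/-- a valuation subring of a field in which every non-zero element of the field is `ϖ ^ n · unit`
is a discrete valuation ring -/
theorem t4v_dvr_of_zpow {F : Type*} [Field F] (V : ValuationSubring F) {ϖ : F} (hϖV : ϖ ∈ V)
    (hϖ : ϖ⁻¹ ∉ V)
    (h : ∀ f : F, f ≠ 0 → ∃ (n : ℤ) (u : F), u ∈ V ∧ u⁻¹ ∈ V ∧ f = ϖ ^ n * u) :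
    IsDiscreteValuationRing ↥V := by
  have hϖ0 : ϖ ≠ 0 := by
    rintro rfl
    rw [inv_zero] at hϖ
    exact hϖ V.zero_mem
  -- `ϖ^n ∈ V` forces `n ≥ 0`
  have hnonneg : ∀ n : ℤ, ϖ ^ n ∈ V → 0 ≤ n := by
    intro n hmem
    by_contra hn
    push Not at hn
    obtain ⟨m, rfl⟩ : ∃ m : ℕ, n = -((m : ℤ) + 1) := ⟨(-n - 1).toNat, by omega⟩
    apply hϖ
    have h1 : ϖ⁻¹ = ϖ ^ (-((m : ℤ) + 1)) * ϖ ^ m := by
      rw [← zpow_natCast, ← zpow_add₀ hϖ0]
      have : -((m : ℤ) + 1) + (m : ℤ) = -1 := by ring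
      rw [this, zpow_neg_one]
    rw [h1]
    exact V.mul_mem _ _ hmem (V.pow_mem hϖV m)
  have hunit : ∀ u : F, u ≠ 0 → ∀ hu : u ∈ V, u⁻¹ ∈ V → IsUnit (⟨u, hu⟩ : ↥V) := by
    intro u hu0 hu hui
    exact isUnit_iff_exists_inv.mpr ⟨⟨u⁻¹, hui⟩, Subtype.ext (mul_inv_cancel₀ hu0)⟩
  -- decomposition of the elements of `V`
  have hdec : ∀ x : ↥V, x ≠ 0 → ∃ (m : ℕ) (u : (↥V)ˣ), x = (⟨ϖ, hϖV⟩ : ↥V) ^ m * u := by
    intro x hx
    have hx0 : (x : F) ≠ 0 := fun h0 => hx (Subtype.ext h0)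
    obtain ⟨n, u, hu, hui, e⟩ := h (x : F) hx0
    have hu0 : u ≠ 0 := by
      rintro rfl
      rw [mul_zero] at e
      exact hx0 e
    have hn : 0 ≤ n := by
      apply hnonneg
      have h1 : ϖ ^ n = (x : F) * u⁻¹ := by
        rw [e, mul_assoc, mul_inv_cancel₀ hu0, mul_one]
      rw [h1]
      exact V.mul_mem _ _ x.2 hui
    obtain ⟨m, rfl⟩ := Int.eq_ofNat_of_zero_le hn
    refine ⟨m, (hunit u hu0 hu hui).unit, Subtype.ext ?_⟩
    rw [e, zpow_natCast]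
    rfl
  have hnu : ¬ IsUnit (⟨ϖ, hϖV⟩ : ↥V) := by
    intro hu
    obtain ⟨b, hb⟩ := isUnit_iff_exists_inv.mp hu
    have h1 : ϖ * (b : F) = 1 := congrArg Subtype.val hb
    have h2 : (b : F) = ϖ⁻¹ := eq_inv_of_mul_eq_one_right h1
    exact hϖ (h2 ▸ b.2)
  have hp0 : (⟨ϖ, hϖV⟩ : ↥V) ≠ 0 := fun h0 => hϖ0 (congrArg Subtype.val h0)
  have hirr : Irreducible (⟨ϖ, hϖV⟩ : ↥V) := by
    refine ⟨hnu, fun a b hab => ?_⟩
    have ha0 : a ≠ 0 := by
      rintro rfl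
      rw [zero_mul] at hab
      exact hp0 hab
    have hb0 : b ≠ 0 := by
      rintro rfl
      rw [mul_zero] at hab
      exact hp0 hab
    obtain ⟨i, u, rfl⟩ := hdec a ha0
    obtain ⟨j, u', rfl⟩ := hdec b hb0
    have hpow : (⟨ϖ, hϖV⟩ : ↥V) ^ 1 * 1 =
        (⟨ϖ, hϖV⟩ : ↥V) ^ (i + j) * ((u * u' : (↥V)ˣ) : ↥V) := by
      rw [pow_one, mul_one, _root_.pow_add, Units.val_mul]
      exact hab.trans (by ring)
    rcases Nat.lt_or_ge (i + j) 1 with hlt | hge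
    · have hi : i = 0 := by omega
      left
      rw [hi, pow_zero, one_mul]
      exact u.isUnit
    · rcases Nat.eq_or_lt_of_le hge with heq | hgt
      · rcases Nat.eq_zero_or_pos i with hi | hi
        · left
          rw [hi, pow_zero, one_mul]
          exact u.isUnit
        · have hj : j = 0 := by omega
          right
          rw [hj, pow_zero, one_mul]
          exact u'.isUnit
      · exfalso
        obtain ⟨c, hc⟩ := Nat.exists_eq_add_of_lt hgt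
        have h2 : (⟨ϖ, hϖV⟩ : ↥V) * 1 =
            (⟨ϖ, hϖV⟩ : ↥V) * ((⟨ϖ, hϖV⟩ : ↥V) ^ (c + 1) * ((u * u' : (↥V)ˣ) : ↥V)) := by
          rw [mul_one, ← mul_assoc, ← pow_succ']
          have : i + j = c + 1 + 1 := by omega
          rw [← this]
          rw [pow_one, mul_one] at hpow
          exact hpow
        have h3 := mul_left_cancel₀ hp0 h2
        apply hnu
        have h4 : (⟨ϖ, hϖV⟩ : ↥V) * ((⟨ϖ, hϖV⟩ : ↥V) ^ c * ((u * u' : (↥V)ˣ) : ↥V)) = 1 := by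
          rw [h3, pow_succ]
          ring
        exact isUnit_iff_exists_inv.mpr ⟨_, h4⟩
  refine IsDiscreteValuationRing.ofHasUnitMulPowIrreducibleFactorization
    ⟨⟨ϖ, hϖV⟩, hirr, fun {x} hx => ?_⟩
  obtain ⟨m, u, e⟩ := hdec x hx
  exact ⟨m, u, e.symm⟩

/-! ### Induction on `F1` -/

section Ind

variable (L : Type) [Field L] [Algebra ℚ L] (N' q : ℕ) [NeZero N'] [NeZero q]

/-- induction principle: `F1 = F_{N'q}` (`q` prime) is generated as a field by the constants and the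
two images `α F'`, `β F'` of `F' = F_{N'}` -/
theorem t4v_induction1 (hq : q.Prime) {P : ↥(TaF L (N' * q)) → Prop}
    (hc : ∀ c : L, P (algebraMap L ↥(TaF L (N' * q)) c))
    (hα : ∀ f : ↥(TaF L N'), P (heckeAlphaBar L N' q f))
    (hβ : ∀ f : ↥(TaF L N'), P (heckeBetaBar L N' q f))
    (hadd : ∀ x y, P x → P y → P (x + y)) (hmul : ∀ x y, P x → P y → P (x * y))
    (hinv : ∀ x, P x → P x⁻¹) (x : ↥(TaF L (N' * q))) : P x := by
  induction x using t2w_induction with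
  | hc c => exact hc c
  | hg d hd =>
    haveI : NeZero d := t2w_neZero_of_dvd (N' * q) hd
    by_cases hqd : q ∣ d
    · obtain ⟨d', rfl⟩ := hqd
      have hd' : d' ∣ N' := by
        rw [mul_comm N' q] at hd
        exact (Nat.mul_dvd_mul_iff_left hq.pos).mp hd
      haveI : NeZero d' := t2w_neZero_of_dvd N' hd'
      have h1 : t2wJd L (N' * q) (q * d') hd = heckeBetaBar L N' q (t2wJd L N' d' hd') := by
        apply Subtype.ext
        rw [coe_heckeBetaBar, coe_t2wJd L N' d' hd', coe_t2wJd L (N' * q) (q * d'),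
          qExpand_qExpand]
      rw [h1]
      exact hβ _
    · have hd' : d ∣ N' :=
        Nat.Coprime.dvd_of_dvd_mul_right ((Nat.Prime.coprime_iff_not_dvd hq).mpr hqd).symm hd
      have h1 : t2wJd L (N' * q) d hd = heckeAlphaBar L N' q (t2wJd L N' d hd') := by
        apply Subtype.ext
        rw [coe_heckeAlphaBar, coe_t2wJd L N' d hd', coe_t2wJd L (N' * q) d]
      rw [h1]
      exact hα _
  | hadd x y hx hy => exact hadd x y hx hy
  | hmul x y hx hy => exact hmul x y hx hy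
  | hinv x hx => exact hinv x hx

end Ind

/-! ### `Frac O((𝔮))` is stable under `𝔮 ↦ 𝔮^q` and `𝔮 ↦ ζ 𝔮` -/

section Frac

variable {L : Type*} [Field L] (O : ValuationSubring L)

theorem t4v_taFrac_qExpand (q : ℕ) [NeZero q] {f : LaurentSeries L} (hf : TaFrac O f) :
    TaFrac O (qExpand L q f) := by
  obtain ⟨g, h, hh, e⟩ := hf
  refine ⟨qExpand ↥O q g, qExpand ↥O q h, ?_, ?_⟩
  · intro h0
    apply hh
    apply qExpand_injective (R := ↥O) (N := q)
    rw [h0, map_zero]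
  · have hq : ∀ s : LaurentSeries ↥O, taInc O (qExpand ↥O q s) = qExpand L q (taInc O s) :=
      fun s => coeffMap_qExpand _ q s
    rw [hq, hq, ← map_mul, e]

theorem t4v_taFrac_sig (ζ : Lˣ) (ζO : (↥O)ˣ) (hζ : ((ζO : ↥O) : L) = (ζ : L))
    {f : LaurentSeries L} (hf : TaFrac O f) : TaFrac O (t4vSig ζ f) := by
  obtain ⟨g, h, hh, e⟩ := hf
  refine ⟨t4vSig ζO g, t4vSig ζO h, ?_, ?_⟩
  · intro h0
    apply hh
    apply t4vSig_injective ζO
    rw [h0, map_zero]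
  · rw [← t4vSig_taInc O ζ ζO hζ, ← t4vSig_taInc O ζ ζO hζ, ← map_mul, e]

theorem t4v_taFrac_C (c : L) : TaFrac O (HahnSeries.C c : LaurentSeries L) := by
  have h := algebraMap_mem_taFracSubfield O c
  rw [algebraMap_laurentSeries_eq_single] at h
  exact h

end Frac

/-! ### The three vertical valuation rings -/

section Sub

variable {L : Type} [Field L] [Algebra ℚ L] (O : ValuationSubring L) {k : Type*} [Field k]
  (π : ↥O →+* k) [IsDiscreteValuationRing ↥O] (hπ : Function.Surjective π) [IsAlgClosed k]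
  {N' q : ℕ} [NeZero N'] [hq : Fact q.Prime] [CharP k q] (hN' : (N' : k) ≠ 0)
  (W1 : T2iAL L N' q) (Fr : T2iFrob k N' q) (W : T4iAL L N' q)
  (hqO : Irreducible ((q : ℕ) : ↥O))
  {L' : Type*} [Field L'] [Algebra L L'] (O' : ValuationSubring L')
  [IsDiscreteValuationRing ↥O'] (π' : ↥O' →+* k) (C : T4iCyc O O' π π' q)
  (M : T4iMid L L' N' q C.ζ)

attribute [local instance] t2iAlgebra t2i_isScalarTower

/-- the middle embedding has values in `Frac O'((𝔮))` -/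
theorem t4v_frac_mid (f : ↥(TaF L (N' * q * q))) : TaFrac O' (M.ι f) := by
  have hsub : ∀ x : LaurentSeries L', TaFrac O' x ↔ x ∈ taFracSubfield O' := fun x => Iff.rfl
  induction f using t4v_induction1 L (N' * q) q hq.out with
  | hc c =>
    rw [M.ι_const]
    exact t4v_taFrac_C O' _
  | hα b =>
    rw [M.ι_alpha hq.out]
    exact t4v_taFrac_coeffMap O O' C.map_mem (ta_frac_of_mem O (N' * q) _ b.2)
  | hβ b =>
    induction b using t4v_induction1 L N' q hq.out with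
    | hc c =>
      rw [AlgHom.commutes, M.ι_const]
      exact t4v_taFrac_C O' _
    | hα f =>
      rw [← t4vA1_apply', M.ι_a1]
      exact t4v_taFrac_coeffMap O O' C.map_mem
        (t4v_taFrac_qExpand O q (ta_frac_of_mem O N' _ f.2))
    | hβ f =>
      rw [← t4vA2_apply, M.ι_a2]
      exact t4v_taFrac_sig O' C.ζ (C.ζO hq.out) (C.coe_ζO hq.out)
        (t4v_taFrac_coeffMap O O' C.map_mem (ta_frac_of_mem O N' _ f.2))
    | hadd x y hx hy =>
      rw [map_add, map_add, hsub] at *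
      exact add_mem hx hy
    | hmul x y hx hy =>
      rw [map_mul, map_mul, hsub] at *
      exact mul_mem hx hy
    | hinv x hx =>
      rw [map_inv₀, map_inv₀, hsub] at *
      exact inv_mem hx
  | hadd x y hx hy =>
    rw [map_add, hsub] at *
    exact add_mem hx hy
  | hmul x y hx hy =>
    rw [map_mul, hsub] at *
    exact mul_mem hx hy
  | hinv x hx =>
    rw [map_inv₀, hsub] at *
    exact inv_mem hx

/-- `O_inf`: the Gauss valuation ring of the `q`-expansion at `∞` -/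
def t4vOinf : ValuationSubring ↥(TaF L (N' * q * q)) := taOv O π hπ (N' * q * q)

/-- `O_0 = w⁻¹ O_inf` -/
def t4vO0 : ValuationSubring ↥(TaF L (N' * q * q)) :=
  (taOv O π hπ (N' * q * q)).comap
    (W.w : ↥(TaF L (N' * q * q)) →+* ↥(TaF L (N' * q * q)))

/-- `O_mid`: the Gauss valuation ring of the `q`-expansion at the cusp `1/q` -/
def t4vOmid : ValuationSubring ↥(TaF L (N' * q * q)) where
  toSubring := (taGaussSubring O' π').comap M.ι
  mem_or_inv_mem' := fun f => by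
    rcases ta_gauss_or_inv (C.π'_surjective hπ) C.unif (t4v_frac_mid O π O' π' C M f) with h | h
    · exact Or.inl h
    · right
      show TaGauss O' π' (M.ι f⁻¹)
      rw [map_inv₀]
      exact h

theorem mem_t4vOinf (f : ↥(TaF L (N' * q * q))) :
    f ∈ t4vOinf (N' := N') (q := q) O π hπ ↔ TaGauss O π (f : LaurentSeries L) := Iff.rfl

theorem mem_t4vO0 (f : ↥(TaF L (N' * q * q))) :
    f ∈ t4vO0 O π hπ W ↔
      TaGauss O π ((W.w f : ↥(TaF L (N' * q * q))) : LaurentSeries L) := Iff.rfl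

theorem mem_t4vOmid (f : ↥(TaF L (N' * q * q))) :
    f ∈ t4vOmid O π hπ O' π' C M ↔ TaGauss O' π' (M.ι f) := Iff.rfl

/-- **`𝒪 = O_inf ∩ O_0 ∩ O_mid`** -/
theorem mem_t4vInput_Ov_iff (f : ↥(TaF L (N' * q * q))) :
    f ∈ (t4vInput O π hπ hN' W1 Fr W hqO O' π' C M).Ov ↔
      f ∈ t4vOinf (N' := N') (q := q) O π hπ ∧ f ∈ t4vO0 O π hπ W ∧
        f ∈ t4vOmid O π hπ O' π' C M :=
  mem_t4vInput_Ov O π hπ hN' W1 Fr W hqO O' π' C M f

/-! #### Uniformisers -/

/-- the constant `q` of `F` -/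
def t4vQ (L : Type) [Field L] [Algebra ℚ L] (N' q : ℕ) [NeZero N'] [NeZero q] :
    ↥(TaF L (N' * q * q)) := algebraMap L ↥(TaF L (N' * q * q)) ((q : ℕ) : L)

/-- `ϖ = a2 j - a0 j`, the uniformiser of `O_mid` -/
def t4vPi (L : Type) [Field L] [Algebra ℚ L] (N' q : ℕ) [NeZero N'] [NeZero q] :
    ↥(TaF L (N' * q * q)) := t4vA2 L N' q (taJ N') - t4vA0 L N' q (taJ N')

theorem T4iAL.w_Q : W.w (t4vQ L N' q) = t4vQ L N' q := AlgEquiv.commutes _ _

theorem t4vQ_ne_zero : t4vQ L N' q ≠ 0 := by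
  haveI : CharZero L := algebraRat.charZero L
  rw [t4vQ, Ne, map_eq_zero]
  exact_mod_cast hq.out.ne_zero

theorem t4v_ι_Q : M.ι (t4vQ L N' q) =
    HahnSeries.C (((C.lam : ↥O') : L') ^ (q - 1) * ((t4vU O π hπ O' π' C : ↥O') : L')) := by
  rw [t4vQ, M.ι_const, map_natCast, (t4vU_spec O π hπ O' π' C).2.1]

theorem t4v_ι_Pi : M.ι (t4vPi L N' q) =
    HahnSeries.C ((C.lam : ↥O') : L') * -t4vDel C.ζ (jqModC L') :=
  t4v_ι_Z_sub O π O' π' C M

include hπ in
/-- `ϑ = -Δ_ζ j` is a Gauss unit -/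
theorem t4v_gauss_th : TaGauss O' π' (-t4vDel C.ζ (jqModC L')) :=
  (taGaussSubring O' π').neg_mem (t4v_gauss_del_j O π hπ O' π' C)

include hπ in
theorem t4v_taRhoFun_th :
    taRhoFun O' π' (-t4vDel C.ζ (jqModC L')) = -t4vTheta (jqModC k) := by
  have h1 : (⟨-t4vDel C.ζ (jqModC L'), t4v_gauss_th O π hπ O' π' C⟩ :
      ↥(taGaussSubring O' π')) = -⟨t4vDel C.ζ (jqModC L'), t4v_gauss_del_j O π hπ O' π' C⟩ := rfl
  have h2 := congrArg (taRho O' π') h1
  rw [map_neg] at h2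
  have h3 : taRho O' π' ⟨t4vDel C.ζ (jqModC L'), t4v_gauss_del_j O π hπ O' π' C⟩ =
      t4vTheta (jqModC k) := t4v_taRhoFun_del_j O π hπ O' π' C
  rw [h3] at h2
  exact h2

include hπ in
theorem t4v_gauss_th_inv : TaGauss O' π' (-t4vDel C.ζ (jqModC L'))⁻¹ := by
  refine taGauss_inv_of_taRho_ne_zero O' π' ⟨_, t4v_gauss_th O π hπ O' π' C⟩ ?_
  show taRhoFun O' π' (-t4vDel C.ζ (jqModC L')) ≠ 0
  rw [t4v_taRhoFun_th O π hπ O' π' C, neg_ne_zero]
  exact t4v_theta_jqModC_ne_zero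

theorem t4v_gauss_zpow {x : LaurentSeries L'} (hx : TaGauss O' π' x) (hxi : TaGauss O' π' x⁻¹)
    (m : ℤ) : TaGauss O' π' (x ^ m) := by
  cases m with
  | ofNat n =>
    rw [Int.ofNat_eq_natCast, zpow_natCast]
    exact (taGaussSubring O' π').pow_mem hx n
  | negSucc n =>
    rw [zpow_negSucc, ← inv_pow]
    exact (taGaussSubring O' π').pow_mem hxi (n + 1)

/-! #### Decompositions `f = ϖ^n · unit` -/

theorem t4vQ_mem_inf : t4vQ L N' q ∈ t4vOinf (N' := N') (q := q) O π hπ :=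
  algebraMap_mem_taOv O π hπ (N' * q * q) ((q : ℕ) : ↥O)

include hqO in
theorem t4vQ_res_inf : taResN O π hπ (N' * q * q) ⟨t4vQ L N' q, t4vQ_mem_inf O π hπ⟩ = 0 := by
  have h := taResN_algebraMap O π hπ (N' * q * q) ((q : ℕ) : ↥O)
  rw [(ta_pi_eq_zero_iff hπ hqO _).mpr dvd_rfl, map_zero] at h
  exact h

include hqO in
theorem t4vQ_inv_notMem_inf : (t4vQ L N' q)⁻¹ ∉ t4vOinf (N' := N') (q := q) O π hπ := by
  intro h
  have h1 : (⟨t4vQ L N' q, t4vQ_mem_inf O π hπ⟩ : ↥(taOv O π hπ (N' * q * q))) *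
      ⟨(t4vQ L N' q)⁻¹, h⟩ = 1 := Subtype.ext (mul_inv_cancel₀ t4vQ_ne_zero)
  have h2 := congrArg (taResN O π hπ (N' * q * q)) h1
  rw [map_mul, t4vQ_res_inf O π hπ hqO, zero_mul, map_one] at h2
  exact zero_ne_one h2

include hqO in
theorem t4vOinf_exists_zpow (f : ↥(TaF L (N' * q * q))) (hf : f ≠ 0) :
    ∃ (n : ℤ) (u : ↥(TaF L (N' * q * q))), u ∈ t4vOinf (N' := N') (q := q) O π hπ ∧
      u⁻¹ ∈ t4vOinf (N' := N') (q := q) O π hπ ∧ f = t4vQ L N' q ^ n * u :=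
  ta_exists_zpow_mul_unitN O π hπ (N' * q * q) hqO f hf

theorem t4vQ_mem_zero : t4vQ L N' q ∈ t4vO0 O π hπ W := by
  rw [mem_t4vO0, W.w_Q]
  exact t4vQ_mem_inf O π hπ

include hqO in
theorem t4vQ_inv_notMem_zero : (t4vQ L N' q)⁻¹ ∉ t4vO0 O π hπ W := by
  intro h
  rw [mem_t4vO0, map_inv₀, W.w_Q] at h
  exact t4vQ_inv_notMem_inf O π hπ hqO h

include hqO in
theorem t4vO0_exists_zpow (f : ↥(TaF L (N' * q * q))) (hf : f ≠ 0) :
    ∃ (n : ℤ) (u : ↥(TaF L (N' * q * q))), u ∈ t4vO0 O π hπ W ∧ u⁻¹ ∈ t4vO0 O π hπ W ∧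
      f = t4vQ L N' q ^ n * u := by
  obtain ⟨n, u, hu, hui, e⟩ := t4vOinf_exists_zpow O π hπ hqO (W.w f)
    ((map_ne_zero _).mpr hf)
  refine ⟨n, W.w u, ?_, ?_, ?_⟩
  · rw [mem_t4vO0, W.w_w]
    exact hu
  · rw [mem_t4vO0, map_inv₀, W.w_w]
    exact hui
  · have h := congrArg W.w e
    rw [W.w_w, map_mul, map_zpow₀, W.w_Q] at h
    exact h

theorem t4v_C_lam_ne_zero : (HahnSeries.C ((C.lam : ↥O') : L') : LaurentSeries L') ≠ 0 :=
  ta_C_unif_ne_zero C.unif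

include hπ in
theorem t4v_th_ne_zero : -t4vDel C.ζ (jqModC L') ≠ 0 := by
  intro h
  have h1 := t4v_taRhoFun_th O π hπ O' π' C
  have h0 : taRhoFun O' π' (0 : LaurentSeries L') = 0 := by
    have := map_zero (taRho O' π')
    exact this
  rw [h, h0] at h1
  exact t4v_theta_jqModC_ne_zero (neg_eq_zero.mp h1.symm)

include O π hπ O' π' C M in
theorem t4vPi_ne_zero : t4vPi L N' q ≠ 0 := by
  intro h
  have h1 := t4v_ι_Pi O π O' π' C M
  rw [h, map_zero] at h1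
  exact mul_ne_zero (t4v_C_lam_ne_zero O π O' π' C) (t4v_th_ne_zero O π hπ O' π' C) h1.symm

include hπ in
theorem t4vPi_mem_mid : t4vPi L N' q ∈ t4vOmid O π hπ O' π' C M := by
  rw [mem_t4vOmid, t4v_ι_Pi O π O' π' C M]
  exact (taGaussSubring O' π').mul_mem (t4vConst O' π' C.lam).2 (t4v_gauss_th O π hπ O' π' C)

include hπ in
/-- an element of the Gauss ring of `L'((𝔮))` divisible by `λ` has no Gauss-integral inverse -/
theorem t4v_not_gauss_inv {x y : LaurentSeries L'} (hy : TaGauss O' π' y)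
    (hx : x = HahnSeries.C ((C.lam : ↥O') : L') * y) (hx0 : x ≠ 0) : ¬ TaGauss O' π' x⁻¹ := by
  intro h
  have hxG : TaGauss O' π' x := by
    rw [hx]
    exact (taGaussSubring O' π').mul_mem (t4vConst O' π' C.lam).2 hy
  have h1 : (⟨x, hxG⟩ : ↥(taGaussSubring O' π')) * ⟨x⁻¹, h⟩ = 1 :=
    Subtype.ext (mul_inv_cancel₀ hx0)
  have h2 : (⟨x, hxG⟩ : ↥(taGaussSubring O' π')) = t4vConst O' π' C.lam * ⟨y, hy⟩ :=
    Subtype.ext hx
  have h3 := congrArg (taRho O' π') h1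
  rw [h2, map_mul, map_mul, taRho_t4vConst, C.π'_lam hπ, map_zero, zero_mul, zero_mul,
    map_one] at h3
  exact zero_ne_one h3

include hπ in
theorem t4vPi_inv_notMem_mid : (t4vPi L N' q)⁻¹ ∉ t4vOmid O π hπ O' π' C M := by
  intro h
  rw [mem_t4vOmid, map_inv₀] at h
  refine t4v_not_gauss_inv O π hπ O' π' C (t4v_gauss_th O π hπ O' π' C) (t4v_ι_Pi O π O' π' C M)
    ?_ h
  rw [Ne, map_eq_zero]
  exact t4vPi_ne_zero O π hπ O' π' C M

include hπ in
theorem t4vOmid_exists_zpow (f : ↥(TaF L (N' * q * q))) (hf : f ≠ 0) :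
    ∃ (n : ℤ) (u : ↥(TaF L (N' * q * q))), u ∈ t4vOmid O π hπ O' π' C M ∧
      u⁻¹ ∈ t4vOmid O π hπ O' π' C M ∧ f = t4vPi L N' q ^ n * u := by
  have hne : M.ι f ≠ 0 := (map_ne_zero _).mpr hf
  obtain ⟨n, u, hu, hui, e⟩ := ta_exists_zpow_mul (C.π'_surjective hπ) C.unif
    (t4v_frac_mid O π O' π' C M f) hne
  have hPi0 := t4vPi_ne_zero O π hπ O' π' C M
  have hP0 := t4v_C_lam_ne_zero O π O' π' C
  have hth0 := t4v_th_ne_zero O π hπ O' π' C
  have hth := t4v_gauss_th O π hπ O' π' C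
  have hthi := t4v_gauss_th_inv O π hπ O' π' C
  have hι : M.ι ((t4vPi L N' q ^ n)⁻¹ * f) = (-t4vDel C.ζ (jqModC L')) ^ (-n) * u := by
    rw [map_mul, map_inv₀, map_zpow₀, t4v_ι_Pi O π O' π' C M, e, mul_zpow, zpow_neg]
    field_simp
  refine ⟨n, (t4vPi L N' q ^ n)⁻¹ * f, ?_, ?_, ?_⟩
  · rw [mem_t4vOmid, hι]
    exact (taGaussSubring O' π').mul_mem (t4v_gauss_zpow O' π' hth hthi (-n)) hu
  · rw [mem_t4vOmid, map_inv₀, hι, mul_inv, ← zpow_neg, neg_neg]
    exact (taGaussSubring O' π').mul_mem (t4v_gauss_zpow O' π' hth hthi n) hui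
  · rw [← mul_assoc, mul_inv_cancel₀ (zpow_ne_zero n hPi0), one_mul]

/-! #### The three rings are discrete valuation rings -/

include hqO in
theorem t4vOinf_dvr : IsDiscreteValuationRing ↥(t4vOinf (N' := N') (q := q) O π hπ) :=
  t4v_dvr_of_zpow _ (t4vQ_mem_inf O π hπ) (t4vQ_inv_notMem_inf O π hπ hqO)
    (t4vOinf_exists_zpow O π hπ hqO)

include hqO in
theorem t4vO0_dvr : IsDiscreteValuationRing ↥(t4vO0 O π hπ W) :=
  t4v_dvr_of_zpow _ (t4vQ_mem_zero O π hπ W) (t4vQ_inv_notMem_zero O π hπ W hqO)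
    (t4vO0_exists_zpow O π hπ W hqO)

theorem t4vOmid_dvr : IsDiscreteValuationRing ↥(t4vOmid O π hπ O' π' C M) :=
  t4v_dvr_of_zpow _ (t4vPi_mem_mid O π hπ O' π' C M) (t4vPi_inv_notMem_mid O π hπ O' π' C M)
    (t4vOmid_exists_zpow O π hπ O' π' C M)

/-! #### `q` at the middle valuation -/

include hπ in
/-- `q = ϖ^(q-1) · unit` at `O_mid` -/
theorem t4vQ_mid : ∃ u : ↥(TaF L (N' * q * q)), u ∈ t4vOmid O π hπ O' π' C M ∧
    u⁻¹ ∈ t4vOmid O π hπ O' π' C M ∧ t4vQ L N' q = t4vPi L N' q ^ (q - 1) * u := by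
  have hPi0 := t4vPi_ne_zero O π hπ O' π' C M
  have hP0 := t4v_C_lam_ne_zero O π O' π' C
  have hth0 := t4v_th_ne_zero O π hπ O' π' C
  have hth := t4v_gauss_th O π hπ O' π' C
  have hthi := t4v_gauss_th_inv O π hπ O' π' C
  obtain ⟨hU, -, -⟩ := t4vU_spec O π hπ O' π' C
  have hU0 : ((t4vU O π hπ O' π' C : ↥O') : L') ≠ 0 := fun h0 =>
    hU.ne_zero (Subtype.ext h0)
  have hι : M.ι ((t4vPi L N' q ^ (q - 1))⁻¹ * t4vQ L N' q) =
      ((-t4vDel C.ζ (jqModC L')) ^ (q - 1))⁻¹ *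
        HahnSeries.C ((t4vU O π hπ O' π' C : ↥O') : L') := by
    rw [map_mul, map_inv₀, map_pow, t4v_ι_Pi O π O' π' C M, t4v_ι_Q O π hπ O' π' C M, mul_pow,
      map_mul, map_pow]
    field_simp
  obtain ⟨v, hv⟩ := hU.exists_right_inv
  have hCinv : (HahnSeries.C ((t4vU O π hπ O' π' C : ↥O') : L') : LaurentSeries L')⁻¹ =
      HahnSeries.C ((v : ↥O') : L') := by
    have h1 : ((t4vU O π hπ O' π' C : ↥O') : L') * ((v : ↥O') : L') = 1 :=
      congrArg Subtype.val hv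
    rw [← map_inv₀]
    congr 1
    exact (eq_inv_of_mul_eq_one_right h1).symm
  refine ⟨(t4vPi L N' q ^ (q - 1))⁻¹ * t4vQ L N' q, ?_, ?_, ?_⟩
  · rw [mem_t4vOmid, hι, ← inv_pow]
    exact (taGaussSubring O' π').mul_mem ((taGaussSubring O' π').pow_mem hthi _)
      (t4vConst O' π' _).2
  · rw [mem_t4vOmid, map_inv₀, hι, mul_inv, inv_inv, hCinv]
    exact (taGaussSubring O' π').mul_mem ((taGaussSubring O' π').pow_mem hth _)
      (t4vConst O' π' v).2
  · rw [← mul_assoc, mul_inv_cancel₀ (pow_ne_zero _ hPi0), one_mul]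

include hπ in
theorem t4vQ_mem_mid : t4vQ L N' q ∈ t4vOmid O π hπ O' π' C M := by
  obtain ⟨u, hu, -, e⟩ := t4vQ_mid O π hπ O' π' C M
  rw [e]
  exact mul_mem (pow_mem (t4vPi_mem_mid O π hπ O' π' C M) _) hu

include hπ in
theorem t4vQ_inv_notMem_mid : (t4vQ L N' q)⁻¹ ∉ t4vOmid O π hπ O' π' C M := by
  intro h
  obtain ⟨u, hu, hui, e⟩ := t4vQ_mid O π hπ O' π' C M
  apply t4vPi_inv_notMem_mid O π hπ O' π' C M
  have hPi0 := t4vPi_ne_zero O π hπ O' π' C M
  have hu0 : u ≠ 0 := by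
    rintro rfl
    rw [mul_zero] at e
    exact t4vQ_ne_zero e
  have hq1 : q - 1 = (q - 2) + 1 := by have := hq.out.two_le; omega
  have h1 : (t4vPi L N' q)⁻¹ = (t4vQ L N' q)⁻¹ * (t4vPi L N' q ^ (q - 2) * u) := by
    rw [e, hq1, pow_succ]
    field_simp
  rw [h1]
  exact mul_mem h (mul_mem (pow_mem (t4vPi_mem_mid O π hπ O' π' C M) _) hu)

/-! #### `ϖ_f = a2 f - a0 f` for general `f` -/

/-- `ι (a2 f - a0 f) = λ · ϑ_f`, `ϑ_f = -Δ_ζ f` -/
theorem t4v_ι_pi_f (f : ↥(TaF L N')) :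
    M.ι (t4vA2 L N' q f - t4vA0 L N' q f) =
      HahnSeries.C ((C.lam : ↥O') : L') *
        -t4vDel C.ζ (coeffMap (algebraMap L L') (f : LaurentSeries L)) := by
  have h := M.ι_a2_sub_a0 f
  have h2 : (HahnSeries.C ((C.lam : ↥O') : L') : LaurentSeries L') =
      -HahnSeries.C (((C.ζ : L'ˣ) : L') - 1) := by
    rw [C.lam_eq, ← map_neg, neg_sub]
  rw [h2, neg_mul_neg, ← h]

include hπ in
theorem t4v_gauss_th_f {f : ↥(TaF L N')} (hf : TaGauss O π (f : LaurentSeries L)) :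
    TaGauss O' π' (-t4vDel C.ζ (coeffMap (algebraMap L L') (f : LaurentSeries L))) :=
  (taGaussSubring O' π').neg_mem
    (t4v_taGauss_del O' π' C.ζ (C.ζO hq.out) (C.coe_ζO hq.out) (C.π'_ζO hq.out hπ)
      C.ζ_ne_one (t4v_taGauss_coeffMap O O' π π' C.map_mem C.π_map hf))

include hπ in
/-- **`res_mid (ϖ_f / λ) = -θ f̄`** -/
theorem t4v_taRhoFun_th_f {f : ↥(TaF L N')} (hf : TaGauss O π (f : LaurentSeries L)) :
    taRhoFun O' π' (-t4vDel C.ζ (coeffMap (algebraMap L L') (f : LaurentSeries L))) =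
      -t4vTheta (taRhoFun O π (f : LaurentSeries L)) := by
  have hG := t4v_taGauss_del O' π' C.ζ (C.ζO hq.out) (C.coe_ζO hq.out) (C.π'_ζO hq.out hπ)
    C.ζ_ne_one (t4v_taGauss_coeffMap O O' π π' C.map_mem C.π_map hf)
  have h1 : (⟨-t4vDel C.ζ (coeffMap (algebraMap L L') (f : LaurentSeries L)),
      t4v_gauss_th_f O π hπ O' π' C hf⟩ : ↥(taGaussSubring O' π')) = -⟨_, hG⟩ := rfl
  have h2 := congrArg (taRho O' π') h1
  rw [map_neg] at h2
  have h3 : taRho O' π' ⟨_, hG⟩ = t4vTheta (taRhoFun O π (f : LaurentSeries L)) := by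
    show taRhoFun O' π' _ = _
    rw [t4v_taRhoFun_del O' π' C.ζ (C.ζO hq.out) (C.coe_ζO hq.out) (C.π'_ζO hq.out hπ)
      C.ζ_ne_one (t4v_taGauss_coeffMap O O' π π' C.map_mem C.π_map hf),
      t4v_taRhoFun_coeffMap O O' π π' C.map_mem C.π_map hf]
  rw [h3] at h2
  exact h2

end Sub

end Fermat.Agent.T4
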