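/-
T4-V7 (helper8): abstract builder of presentations `T4Pres`.

`D : T4vpData F` = a set `hor` of "horizontal" discrete valuation rings of `F` (`q` a unit) which is
of finite character and ESSENTIAL for its intersection (a Dedekind chart ring of the generic fibre),
finitely many "vertical" discrete valuation rings `ver` (`q` a non-unit) satisfying the Chinese
remainder theorem, and SEPARATING functions (for each horizontal `V` a function regular on the chart,
vanishing at `V`, which is a unit at all vertical valuations).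
Output: `D.pres : T4Pres F` with `B = ⋂ hor ∩ ⋂ ver`, `vals = hor ∪ ver`, `D.pres.vert q = ver`,
`D.pres.ov q = ⋂ ver`.
-/
import Fermat.Agent.Lib.T4.Local.Loc

set_option autoImplicit false
set_option linter.unusedSectionVars false
set_option linter.style.haveILetI false

namespace Fermat.Agent.T4

/-- the data from which a presentation `T4Pres` is built: a set `hor` of "horizontal" discrete
valuation rings (`q` a unit) forming an essential presentation of their intersection, finitely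
many "vertical" ones (`q` a non-unit) satisfying the Chinese remainder theorem, and separating
functions. -/
structure T4vpData (F : Type*) [Field F] where
  /-- the horizontal valuation rings -/
  hor : Set (ValuationSubring F)
  /-- the vertical valuation rings -/
  ver : Set (ValuationSubring F)
  ver_finite : ver.Finite
  hor_dvr : ∀ V ∈ hor, IsDiscreteValuationRing V
  ver_dvr : ∀ V ∈ ver, IsDiscreteValuationRing V
  /-- the uniformiser of the base -/
  q : F
  q_ne : q ≠ 0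
  q_hor : ∀ V ∈ hor, V.valuation q = 1
  q_ver : ∀ V ∈ ver, V.valuation q < 1
  hor_finite_char : ∀ f : F, f ≠ 0 → {V ∈ hor | f ∉ V}.Finite
  hor_essential : ∀ V ∈ hor, ∀ f ∈ V, ∃ c : F, (∀ V' ∈ hor, c ∈ V') ∧ V.valuation c = 1 ∧
    ∀ V' ∈ hor, c * f ∈ V'
  crt : ∀ V ∈ ver, ∀ n : ℕ, ∃ e : F, (∀ V' ∈ ver, e ∈ V') ∧ V.valuation e = 1 ∧
    ∀ V' ∈ ver, V' ≠ V → V'.valuation e ≤ V'.valuation q ^ n
  sep : ∀ V ∈ hor, ∃ g : F, g ≠ 0 ∧ (∀ V' ∈ hor, g ∈ V') ∧ V.valuation g < 1 ∧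
    ∀ V' ∈ ver, V'.valuation g = 1

namespace T4vpData

variable {F : Type*} [Field F] (D : T4vpData F)

theorem q_mem_hor {V : ValuationSubring F} (hV : V ∈ D.hor) : D.q ∈ V :=
  (V.valuation_le_one_iff _).mp (D.q_hor V hV).le

theorem q_mem_ver {V : ValuationSubring F} (hV : V ∈ D.ver) : D.q ∈ V :=
  (V.valuation_le_one_iff _).mp (D.q_ver V hV).le

/-- a power of `q` moves any function into all vertical valuation rings -/
theorem exists_pow_mul_mem_ver (y : F) : ∃ n : ℕ, ∀ m : ℕ, n ≤ m → ∀ V ∈ D.ver, D.q ^ m * y ∈ V := by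
  classical
  have h1 : ∀ V : ValuationSubring F, ∃ n : ℕ, V ∈ D.ver → D.q ^ n * y ∈ V := by
    intro V
    by_cases hV : V ∈ D.ver
    · haveI := D.ver_dvr V hV
      obtain ⟨n, hn⟩ := t4l_arch V (D.q_ver V hV) D.q_ne y
      exact ⟨n, fun _ => hn⟩
    · exact ⟨0, fun h => absurd h hV⟩
  choose nV hnV using h1
  refine ⟨∑ V ∈ D.ver_finite.toFinset, nV V, fun m hm V hV => ?_⟩
  have hle : nV V ≤ m :=
    (Finset.single_le_sum (f := nV) (fun _ _ => Nat.zero_le _)
      (D.ver_finite.mem_toFinset.mpr hV)).trans hm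
  have : D.q ^ m * y = D.q ^ (m - nV V) * (D.q ^ nV V * y) := by
    rw [← mul_assoc, ← pow_add, Nat.sub_add_cancel hle]
  rw [this]
  exact V.mul_mem _ _ (V.pow_mem (D.q_mem_ver hV) _) (hnV V hV)

/-- a product of separating functions kills the horizontal poles of any function -/
theorem exists_mul_mem_hor (y : F) : ∃ G : F, G ≠ 0 ∧ (∀ V ∈ D.hor, G ∈ V) ∧
    (∀ V ∈ D.ver, V.valuation G = 1) ∧ ∀ V ∈ D.hor, G * y ∈ V := by
  classical
  rcases eq_or_ne y 0 with rfl | hy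
  · refine ⟨1, one_ne_zero, fun V _ => V.one_mem, fun V _ => map_one _, fun V _ => ?_⟩
    rw [mul_zero]; exact V.zero_mem
  have hfin := D.hor_finite_char y hy
  have h1 : ∀ V : ValuationSubring F, ∃ g : F, V ∈ D.hor → g ≠ 0 ∧ (∀ V' ∈ D.hor, g ∈ V') ∧
      (∀ V' ∈ D.ver, V'.valuation g = 1) ∧ g * y ∈ V := by
    intro V
    by_cases hV : V ∈ D.hor
    · obtain ⟨g, hg0, hgh, hgV, hgv⟩ := D.sep V hV
      haveI := D.hor_dvr V hV
      obtain ⟨n, hn⟩ := t4l_arch V hgV hg0 y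
      refine ⟨g ^ n, fun _ => ⟨pow_ne_zero n hg0, fun V' hV' => V'.pow_mem (hgh V' hV') n,
        fun V' hV' => ?_, hn⟩⟩
      rw [map_pow, hgv V' hV', one_pow]
    · exact ⟨1, fun h => absurd h hV⟩
  choose g hg using h1
  set S := hfin.toFinset with hS
  have hSmem : ∀ V, V ∈ S ↔ V ∈ D.hor ∧ y ∉ V := fun V => by
    rw [hS, Set.Finite.mem_toFinset]; rfl
  refine ⟨∏ V ∈ S, g V, ?_, ?_, ?_, ?_⟩
  · exact Finset.prod_ne_zero_iff.mpr (fun V hV => (hg V ((hSmem V).mp hV).1).1)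
  · intro V' hV'
    exact Subring.prod_mem V'.toSubring (fun V hV => (hg V ((hSmem V).mp hV).1).2.1 V' hV')
  · intro V' hV'
    rw [map_prod]
    exact Finset.prod_eq_one (fun V hV => (hg V ((hSmem V).mp hV).1).2.2.1 V' hV')
  · intro V hV
    by_cases hyV : y ∈ V
    · refine V.mul_mem _ _ ?_ hyV
      exact Subring.prod_mem V.toSubring (fun V' hV' => (hg V' ((hSmem V').mp hV').1).2.1 V hV)
    · have hVS : V ∈ S := (hSmem V).mpr ⟨hV, hyV⟩
      rw [← Finset.mul_prod_erase S g hVS, mul_right_comm]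
      refine V.mul_mem _ _ (hg V hV).2.2.2 ?_
      exact Subring.prod_mem V.toSubring
        (fun V' hV' => (hg V' ((hSmem V').mp (Finset.mem_of_mem_erase hV')).1).2.1 V hV)

/-- the ring `B = ⋂ hor ∩ ⋂ ver` -/
def B : Subring F where
  carrier := {f | (∀ V ∈ D.hor, f ∈ V) ∧ ∀ V ∈ D.ver, f ∈ V}
  mul_mem' := fun hf hg => ⟨fun V hV => V.mul_mem _ _ (hf.1 V hV) (hg.1 V hV),
    fun V hV => V.mul_mem _ _ (hf.2 V hV) (hg.2 V hV)⟩
  one_mem' := ⟨fun V _ => V.one_mem, fun V _ => V.one_mem⟩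
  add_mem' := fun hf hg => ⟨fun V hV => V.add_mem _ _ (hf.1 V hV) (hg.1 V hV),
    fun V hV => V.add_mem _ _ (hf.2 V hV) (hg.2 V hV)⟩
  zero_mem' := ⟨fun V _ => V.zero_mem, fun V _ => V.zero_mem⟩
  neg_mem' := fun hf => ⟨fun V hV => V.neg_mem _ (hf.1 V hV), fun V hV => V.neg_mem _ (hf.2 V hV)⟩

theorem mem_B {f : F} : f ∈ D.B ↔ (∀ V ∈ D.hor, f ∈ V) ∧ ∀ V ∈ D.ver, f ∈ V := Iff.rfl

theorem essential_hor {V : ValuationSubring F} (hV : V ∈ D.hor) {f : F} (hf : f ∈ V) :
    ∃ c ∈ D.B, V.valuation c = 1 ∧ c * f ∈ D.B := by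
  obtain ⟨c₁, hc₁, hc₁V, hc₁f⟩ := D.hor_essential V hV f hf
  obtain ⟨n₁, hn₁⟩ := D.exists_pow_mul_mem_ver c₁
  obtain ⟨n₂, hn₂⟩ := D.exists_pow_mul_mem_ver (c₁ * f)
  refine ⟨D.q ^ (n₁ + n₂) * c₁, ⟨fun V' hV' => ?_, hn₁ _ (Nat.le_add_right _ _)⟩, ?_,
    ⟨fun V' hV' => ?_, ?_⟩⟩
  · exact V'.mul_mem _ _ (V'.pow_mem (D.q_mem_hor hV') _) (hc₁ V' hV')
  · rw [map_mul, map_pow, D.q_hor V hV, one_pow, one_mul, hc₁V]
  · rw [mul_assoc]
    exact V'.mul_mem _ _ (V'.pow_mem (D.q_mem_hor hV') _) (hc₁f V' hV')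
  · rw [mul_assoc]
    exact hn₂ _ (Nat.le_add_left _ _)

theorem essential_ver {V : ValuationSubring F} (hV : V ∈ D.ver) {f : F} (hf : f ∈ V) :
    ∃ c ∈ D.B, V.valuation c = 1 ∧ c * f ∈ D.B := by
  obtain ⟨G, -, hGh, hGv, hGf⟩ := D.exists_mul_mem_hor f
  obtain ⟨n, hn⟩ := D.exists_pow_mul_mem_ver (G * f)
  obtain ⟨e, heO, heV, hen⟩ := D.crt V hV n
  obtain ⟨G', -, hG'h, hG'v, hG'e⟩ := D.exists_mul_mem_hor e
  have hGmem : ∀ V' ∈ D.ver, G ∈ V' := fun V' hV' =>
    (V'.valuation_le_one_iff _).mp (hGv V' hV').le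
  have hG'mem : ∀ V' ∈ D.ver, G' ∈ V' := fun V' hV' =>
    (V'.valuation_le_one_iff _).mp (hG'v V' hV').le
  refine ⟨G' * e * G, ⟨fun V' hV' => ?_, fun V' hV' => ?_⟩, ?_, ⟨fun V' hV' => ?_, fun V' hV' => ?_⟩⟩
  · exact V'.mul_mem _ _ (hG'e V' hV') (hGh V' hV')
  · exact V'.mul_mem _ _ (V'.mul_mem _ _ (hG'mem V' hV') (heO V' hV')) (hGmem V' hV')
  · rw [map_mul, map_mul, hG'v V hV, heV, hGv V hV, one_mul, one_mul]
  · have : G' * e * G * f = (G' * e) * (G * f) := by ring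
    rw [this]
    exact V'.mul_mem _ _ (hG'e V' hV') (hGf V' hV')
  · by_cases hVV : V' = V
    · subst hVV
      exact V'.mul_mem _ _
        (V'.mul_mem _ _ (V'.mul_mem _ _ (hG'mem V' hV') (heO V' hV')) (hGmem V' hV')) hf
    · rw [← V'.valuation_le_one_iff]
      have h1 : G' * e * G * f = G' * (e * (G * f)) := by ring
      rw [h1, map_mul, hG'v V' hV', one_mul, map_mul]
      have h2 : V'.valuation (D.q ^ n * (G * f)) ≤ 1 :=
        (V'.valuation_le_one_iff _).mpr (hn n le_rfl V' hV')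
      rw [map_mul, map_pow] at h2
      calc V'.valuation e * V'.valuation (G * f)
          ≤ V'.valuation D.q ^ n * V'.valuation (G * f) :=
            mul_le_mul_left (hen V' hV' hVV) _
        _ ≤ 1 := h2

/-- **the presentation built from the data** -/
def pres : T4Pres F where
  B := D.B
  vals := D.hor ∪ D.ver
  dvr := by
    rintro V (hV | hV)
    · exact D.hor_dvr V hV
    · exact D.ver_dvr V hV
  mem_iff := by
    intro f
    rw [mem_B]
    constructor
    · rintro ⟨h1, h2⟩ V (hV | hV)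
      · exact h1 V hV
      · exact h2 V hV
    · intro h
      exact ⟨fun V hV => h V (Or.inl hV), fun V hV => h V (Or.inr hV)⟩
  finite_char := by
    intro f hf
    refine ((D.hor_finite_char f hf).union D.ver_finite).subset ?_
    rintro V ⟨hV | hV, hfV⟩
    · exact Or.inl ⟨hV, hfV⟩
    · exact Or.inr hV
  essential := by
    rintro V (hV | hV) f hf
    · exact D.essential_hor hV hf
    · exact D.essential_ver hV hf

@[simp] theorem pres_B : D.pres.B = D.B := rfl

@[simp] theorem pres_vals : D.pres.vals = D.hor ∪ D.ver := rfl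

theorem pres_vert : D.pres.vert D.q = D.ver := by
  ext V
  constructor
  · rintro ⟨hV | hV, hq⟩
    · exact absurd (D.q_hor V hV) hq.ne
    · exact hV
  · intro hV
    exact ⟨Or.inr hV, D.q_ver V hV⟩

theorem mem_pres_ov {f : F} : f ∈ D.pres.ov D.q ↔ ∀ V ∈ D.ver, f ∈ V := by
  rw [T4Pres.mem_ov, pres_vert]

end T4vpData

end Fermat.Agent.T4
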