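/-
T4-V7 (helper8): the presentation of a chart ring.

`F / K` a function field with separating generator `x` (`IsFunctionFieldGen K F x`), `A` a valuation
ring of `K`, `q ∈ Kˣ`.  Horizontal valuation rings `t4vpHor K x` = places of `F / K` at which `x` is
regular = height one primes of the integral closure `Bx` of `K[x]` (Dedekind): `t2Int x = ⋂ hor`
(`t4vp_mem_t2Int_iff`), finite character, essential, separating functions = primitive polynomials
in `x` (`t4vp_hor_sep`, under the hypothesis `tr` that primitive polynomials in `x` are units at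
the vertical valuations).  `t4vpChart … : T4vpData F`, hence the presentation
`(t4vpChart …).pres : T4Pres F` of `B = t2Int x ∩ ⋂ ver` (`mem_t4vpChart_B`).
-/
import Fermat.Agent.Lib.T4.Inst.PresBuild
import Fermat.Agent.Lib.T1.GoodRed.PoleIntP
import Fermat.Agent.Lib.T2.Core.Flat

set_option autoImplicit false
set_option linter.unusedSectionVars false
set_option linter.style.haveILetI false

namespace Fermat.Agent.T4

open AlgebraicCurve IsDedekindDomain IntermediateField Fermat.Agent.Curve Fermat.Agent.T2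

variable {K F : Type*} [Field K] [Field F] [Algebra K F]

/-- membership form of `V.valuation c = 1` -/
theorem t4vp_valuation_eq_one_iff (V : ValuationSubring F) {c : F} (hc : c ≠ 0) :
    V.valuation c = 1 ↔ c ∈ V ∧ c⁻¹ ∈ V := by
  constructor
  · intro h
    refine ⟨(V.valuation_le_one_iff _).mp h.le, (V.valuation_le_one_iff _).mp ?_⟩
    rw [map_inv₀, h, inv_one]
  · rintro ⟨h1, h2⟩
    have h1' := (V.valuation_le_one_iff _).mpr h1
    have h2' := (V.valuation_le_one_iff _).mpr h2
    rw [map_inv₀] at h2'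
    have hpos : 0 < V.valuation c := zero_lt_iff.mpr ((Valuation.ne_zero_iff _).mpr hc)
    exact le_antisymm h1' ((inv_le_one₀ hpos).mp h2')

/-- the horizontal valuation rings of the chart `x`: places of `F / K` at which `x` is regular -/
def t4vpHor (K : Type*) {F : Type*} [Field K] [Field F] [Algebra K F] (x : F) :
    Set (ValuationSubring F) :=
  {V | ∃ v : Place K F, v.toValuationSubring = V ∧ x ∈ V}

theorem t4vp_hor_dvr (x : F) (V : ValuationSubring F) (hV : V ∈ t4vpHor K x) :
    IsDiscreteValuationRing V := by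
  obtain ⟨v, rfl, -⟩ := hV
  infer_instance

theorem t4vp_algebraMap_mem_hor {x : F} {V : ValuationSubring F} (hV : V ∈ t4vpHor K x) (c : K) :
    algebraMap K F c ∈ V := by
  obtain ⟨v, rfl, -⟩ := hV
  exact v.algebraMap_mem' c

/-- nonzero constants are units of the horizontal valuation rings -/
theorem t4vp_valuation_const {x : F} {V : ValuationSubring F} (hV : V ∈ t4vpHor K x) {c : K}
    (hc : c ≠ 0) : V.valuation (algebraMap K F c) = 1 := by
  rw [t4vp_valuation_eq_one_iff V ((map_ne_zero _).mpr hc)]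
  refine ⟨t4vp_algebraMap_mem_hor hV c, ?_⟩
  rw [← map_inv₀]
  exact t4vp_algebraMap_mem_hor hV c⁻¹

/-- membership form of `V.valuation c < 1` -/
theorem t4vp_valuation_lt_one_iff (V : ValuationSubring F) {c : F} (hc : c ≠ 0) :
    V.valuation c < 1 ↔ c⁻¹ ∉ V := by
  rw [← V.valuation_le_one_iff, map_inv₀, not_le]
  have hpos : 0 < V.valuation c := zero_lt_iff.mpr ((Valuation.ne_zero_iff _).mpr hc)
  exact (one_lt_inv₀ hpos).symm

/-- every nonzero polynomial can be scaled to a primitive polynomial over a valuation ring -/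
theorem t4vp_exists_primitive (A : ValuationSubring K) (P : Polynomial K) (hP : P ≠ 0) :
    ∃ c : K, c ≠ 0 ∧ (∀ n, (c • P).coeff n ∈ A) ∧ ∃ n, A.valuation ((c • P).coeff n) = 1 := by
  have hne : P.support.Nonempty := Polynomial.nonempty_support_iff.mpr hP
  obtain ⟨n₀, hn₀, hmax⟩ := Finset.exists_max_image P.support
    (fun n => A.valuation (P.coeff n)) hne
  have hc0 : P.coeff n₀ ≠ 0 := Polynomial.mem_support_iff.mp hn₀
  have hv0 : A.valuation (P.coeff n₀) ≠ 0 := (Valuation.ne_zero_iff _).mpr hc0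
  refine ⟨(P.coeff n₀)⁻¹, inv_ne_zero hc0, fun n => ?_, n₀, ?_⟩
  · rw [Polynomial.coeff_smul, smul_eq_mul, ← A.valuation_le_one_iff, map_mul, map_inv₀]
    by_cases hn : n ∈ P.support
    · rw [inv_mul_le_iff₀ (zero_lt_iff.mpr hv0), mul_one]
      exact hmax n hn
    · rw [Polynomial.notMem_support_iff.mp hn, map_zero, mul_zero]
      exact zero_le_one
  · rw [Polynomial.coeff_smul, smul_eq_mul, inv_mul_cancel₀ hc0, map_one]

section Chart

variable {x : F} (hx : IsFunctionFieldGen K F x) [Algebra.IsSeparable K⟮x⟯ F]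

include hx

/-- `t2Int x` (functions integral over `K[x]`) is the intersection of the horizontal valuation
rings -/
theorem t4vp_mem_t2Int_iff (f : F) :
    f ∈ t2Int (K := K) x ↔ ∀ V ∈ t4vpHor K x, f ∈ V := by
  constructor
  · rintro hf V ⟨v, rfl, hxv⟩
    exact CurveP.PlaceAux.mem_of_isIntegral_of_algebraMap_mem v
      (fun r => CurveP.PlaceAux.Ax_le v hxv r) hf
  · intro h
    exact T1.ta_isIntegral_of_regular_mem hx f (fun v hxv => h _ ⟨v, rfl, hxv⟩)

/-- the horizontal valuation rings are the valuation rings of the height one primes of the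
integral closure `Bx` of `K[x]` -/
theorem t4vp_hor_eq_range :
    haveI : Fact (IsFunctionFieldGen K F x) := ⟨hx⟩
    haveI : IsDedekindDomain (CurveP.Bx K x) := CurveP.Bx.isDedekindDomain
    haveI : IsFractionRing (CurveP.Bx K x) F := CurveP.Bx.isFractionRing
    t4vpHor K x = Set.range (fun w : HeightOneSpectrum (CurveP.Bx K x) =>
      (w.valuation F).valuationSubring) := by
  haveI : Fact (IsFunctionFieldGen K F x) := ⟨hx⟩
  haveI : IsDedekindDomain (CurveP.Bx K x) := CurveP.Bx.isDedekindDomain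
  haveI : IsFractionRing (CurveP.Bx K x) F := CurveP.Bx.isFractionRing
  ext V
  constructor
  · rintro ⟨v, rfl, hxv⟩
    have hv : ∀ b : CurveP.Bx K x, algebraMap (CurveP.Bx K x) F b ∈ v.toValuationSubring :=
      CurveP.PlaceAux.Bx_le v hxv
    refine ⟨PlaceAux.centre v hv, ?_⟩
    have := PlaceAux.eq_ofHeightOneSpectrum_centre (K := K) v hv
    conv_rhs => rw [this]
    rfl
  · rintro ⟨w, rfl⟩
    refine ⟨Place.ofHeightOneSpectrum (K := K) (F := F) w, rfl, ?_⟩
    rw [Valuation.mem_valuationSubring_iff]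
    have hxB : x ∈ CurveP.Bx K x :=
      (CurveP.Bx K x).algebraMap_mem ⟨x, Algebra.self_mem_adjoin_singleton K x⟩
    exact HeightOneSpectrum.valuation_le_one w (⟨x, hxB⟩ : CurveP.Bx K x)

/-- finite character of the horizontal valuation rings -/
theorem t4vp_hor_finite_char (f : F) : {V ∈ t4vpHor K x | f ∉ V}.Finite := by
  haveI : Fact (IsFunctionFieldGen K F x) := ⟨hx⟩
  haveI : IsDedekindDomain (CurveP.Bx K x) := CurveP.Bx.isDedekindDomain
  haveI : IsFractionRing (CurveP.Bx K x) F := CurveP.Bx.isFractionRing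
  have hfin := HeightOneSpectrum.Support.finite (CurveP.Bx K x) f
  refine (hfin.image (fun w : HeightOneSpectrum (CurveP.Bx K x) =>
    (w.valuation F).valuationSubring)).subset ?_
  rintro V ⟨hV, hfV⟩
  rw [t4vp_hor_eq_range hx] at hV
  obtain ⟨w, rfl⟩ := hV
  refine ⟨w, ?_, rfl⟩
  show 1 < w.valuation F f
  rw [Valuation.mem_valuationSubring_iff] at hfV
  exact not_le.mp hfV

/-- the horizontal valuation rings are essential for `t2Int x` -/
theorem t4vp_hor_essential (V : ValuationSubring F) (hV : V ∈ t4vpHor K x) (f : F) (hf : f ∈ V) :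
    ∃ c : F, (∀ V' ∈ t4vpHor K x, c ∈ V') ∧ V.valuation c = 1 ∧
      ∀ V' ∈ t4vpHor K x, c * f ∈ V' := by
  haveI : Fact (IsFunctionFieldGen K F x) := ⟨hx⟩
  haveI : IsDedekindDomain (CurveP.Bx K x) := CurveP.Bx.isDedekindDomain
  haveI : IsFractionRing (CurveP.Bx K x) F := CurveP.Bx.isFractionRing
  have hB : ∀ (b : CurveP.Bx K x), ∀ V' ∈ t4vpHor K x, algebraMap (CurveP.Bx K x) F b ∈ V' := by
    rintro b V' ⟨v, rfl, hxv⟩
    exact CurveP.PlaceAux.Bx_le v hxv b
  rw [t4vp_hor_eq_range hx] at hV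
  obtain ⟨w, rfl⟩ := hV
  rw [Valuation.mem_valuationSubring_iff] at hf
  obtain ⟨n, d, hnd⟩ := w.exists_primeCompl_mul_eq_of_integer f hf
  have hd : (d : CurveP.Bx K x) ∉ w.asIdeal := d.2
  have hd0 : (d : CurveP.Bx K x) ≠ 0 := fun h => hd (h ▸ w.asIdeal.zero_mem)
  have hdF : algebraMap (CurveP.Bx K x) F d ≠ 0 := by
    rwa [ne_eq, IsFractionRing.to_map_eq_zero_iff]
  refine ⟨algebraMap (CurveP.Bx K x) F d, hB d, ?_, fun V' hV' => ?_⟩
  · rw [t4vp_valuation_eq_one_iff _ hdF, Valuation.mem_valuationSubring_iff,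
      Valuation.mem_valuationSubring_iff, map_inv₀]
    have h1 : w.valuation F (algebraMap (CurveP.Bx K x) F d) = 1 := by
      rw [HeightOneSpectrum.valuation_of_algebraMap]
      exact (HeightOneSpectrum.intValuation_eq_one_iff).mpr hd
    rw [h1, inv_one]
    exact ⟨le_rfl, le_rfl⟩
  · rw [mul_comm, hnd]
    exact hB n V' hV'

/-- separating functions: primitive polynomials in `x` vanishing at a given horizontal place -/
theorem t4vp_hor_sep (A : ValuationSubring K) (ver : Set (ValuationSubring F))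
    (tr : ∀ P : Polynomial K, (∀ n, P.coeff n ∈ A) → (∃ n, A.valuation (P.coeff n) = 1) →
      ∀ V' ∈ ver, V'.valuation (Polynomial.aeval x P) = 1)
    (V : ValuationSubring F) (hV : V ∈ t4vpHor K x) :
    ∃ g : F, g ≠ 0 ∧ (∀ V' ∈ t4vpHor K x, g ∈ V') ∧ V.valuation g < 1 ∧
      ∀ V' ∈ ver, V'.valuation g = 1 := by
  haveI : Fact (IsFunctionFieldGen K F x) := ⟨hx⟩
  haveI : IsDedekindDomain (CurveP.Bx K x) := CurveP.Bx.isDedekindDomain
  haveI : IsFractionRing (CurveP.Bx K x) F := CurveP.Bx.isFractionRing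
  have hV' := hV
  rw [t4vp_hor_eq_range hx] at hV'
  obtain ⟨w, rfl⟩ := hV'
  -- a nonzero element of `K[x]` in the prime `w`
  obtain ⟨b, hbw, hb0⟩ := Submodule.exists_mem_ne_zero_of_ne_bot w.ne_bot
  have hcomap : w.asIdeal.comap (algebraMap (CurveP.Ax K x) (CurveP.Bx K x)) ≠ ⊥ :=
    Ideal.comap_ne_bot_of_integral_mem hb0 hbw (integralClosure.isIntegral b)
  obtain ⟨a, haw, ha0⟩ := Submodule.exists_mem_ne_zero_of_ne_bot hcomap
  rw [Ideal.mem_comap] at haw
  have haF : ((a : CurveP.Ax K x) : F) ≠ 0 := fun h => ha0 (Subtype.ext h)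
  have hval : w.valuation F ((a : CurveP.Ax K x) : F) < 1 := by
    have h1 : ((a : CurveP.Ax K x) : F) =
        algebraMap (CurveP.Bx K x) F (algebraMap (CurveP.Ax K x) (CurveP.Bx K x) a) := rfl
    rw [h1, HeightOneSpectrum.valuation_of_algebraMap]
    exact (HeightOneSpectrum.intValuation_lt_one_iff_mem _ _).mpr haw
  -- write `a = P(x)`
  obtain ⟨P, hPa⟩ : ∃ P : Polynomial K, Polynomial.aeval x P = ((a : CurveP.Ax K x) : F) := by
    have h1 : ((a : CurveP.Ax K x) : F) ∈ Algebra.adjoin K {x} := a.2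
    rw [Algebra.adjoin_singleton_eq_range_aeval] at h1
    exact h1
  have hP0 : P ≠ 0 := by
    rintro rfl
    rw [map_zero] at hPa
    exact haF hPa.symm
  obtain ⟨c, hc0, hcA, hcu⟩ := t4vp_exists_primitive A P hP0
  have hg : Polynomial.aeval x (c • P) = algebraMap K F c * ((a : CurveP.Ax K x) : F) := by
    rw [map_smul, hPa, Algebra.smul_def]
  refine ⟨Polynomial.aeval x (c • P), ?_, fun V' hV' => ?_, ?_, tr _ hcA hcu⟩
  · rw [hg]
    exact mul_ne_zero ((map_ne_zero _).mpr hc0) haF
  · rw [hg]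
    obtain ⟨v, rfl, hxv⟩ := hV'
    exact v.toValuationSubring.mul_mem _ _ (v.algebraMap_mem' c) (CurveP.PlaceAux.Ax_le v hxv a)
  · rw [hg, map_mul, t4vp_valuation_const hV hc0, one_mul,
      t4vp_valuation_lt_one_iff _ haF, Valuation.mem_valuationSubring_iff, map_inv₀, not_le]
    exact (one_lt_inv₀ (zero_lt_iff.mpr ((Valuation.ne_zero_iff _).mpr haF))).mpr hval

end Chart

/-- **the presentation data of a chart**: horizontal = places of `F / K` at which `x` is regular,
vertical = a finite set `ver` of discrete valuation rings satisfying the Chinese remainder theorem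
in which `q` is a non-unit and primitive polynomials in `x` are units -/
def t4vpChart {x : F} (hx : IsFunctionFieldGen K F x) [Algebra.IsSeparable K⟮x⟯ F]
    (A : ValuationSubring K) (q : K) (hq0 : q ≠ 0)
    (ver : Set (ValuationSubring F)) (ver_finite : ver.Finite)
    (ver_dvr : ∀ V ∈ ver, IsDiscreteValuationRing V)
    (q_ver : ∀ V ∈ ver, V.valuation (algebraMap K F q) < 1)
    (crt : ∀ V ∈ ver, ∀ n : ℕ, ∃ e : F, (∀ V' ∈ ver, e ∈ V') ∧ V.valuation e = 1 ∧
      ∀ V' ∈ ver, V' ≠ V → V'.valuation e ≤ V'.valuation (algebraMap K F q) ^ n)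
    (tr : ∀ P : Polynomial K, (∀ n, P.coeff n ∈ A) → (∃ n, A.valuation (P.coeff n) = 1) →
      ∀ V' ∈ ver, V'.valuation (Polynomial.aeval x P) = 1) : T4vpData F where
  hor := t4vpHor K x
  ver := ver
  ver_finite := ver_finite
  hor_dvr := t4vp_hor_dvr x
  ver_dvr := ver_dvr
  q := algebraMap K F q
  q_ne := (map_ne_zero _).mpr hq0
  q_hor := fun _ hV => t4vp_valuation_const hV hq0
  q_ver := q_ver
  hor_finite_char := fun f _ => t4vp_hor_finite_char hx f
  hor_essential := t4vp_hor_essential hx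
  crt := crt
  sep := t4vp_hor_sep hx A ver tr

section ChartLemmas

variable {x : F} (hx : IsFunctionFieldGen K F x) [Algebra.IsSeparable K⟮x⟯ F]
    (A : ValuationSubring K) (q : K) (hq0 : q ≠ 0)
    (ver : Set (ValuationSubring F)) (ver_finite : ver.Finite)
    (ver_dvr : ∀ V ∈ ver, IsDiscreteValuationRing V)
    (q_ver : ∀ V ∈ ver, V.valuation (algebraMap K F q) < 1)
    (crt : ∀ V ∈ ver, ∀ n : ℕ, ∃ e : F, (∀ V' ∈ ver, e ∈ V') ∧ V.valuation e = 1 ∧
      ∀ V' ∈ ver, V' ≠ V → V'.valuation e ≤ V'.valuation (algebraMap K F q) ^ n)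
    (tr : ∀ P : Polynomial K, (∀ n, P.coeff n ∈ A) → (∃ n, A.valuation (P.coeff n) = 1) →
      ∀ V' ∈ ver, V'.valuation (Polynomial.aeval x P) = 1)

/-- the ring of the chart presentation is `t2Int x ∩ ⋂ ver` -/
theorem mem_t4vpChart_B (f : F) :
    f ∈ (t4vpChart hx A q hq0 ver ver_finite ver_dvr q_ver crt tr).pres.B ↔
      f ∈ t2Int (K := K) x ∧ ∀ V ∈ ver, f ∈ V := by
  rw [T4vpData.pres_B, T4vpData.mem_B, t4vp_mem_t2Int_iff hx]
  rfl

theorem t4vpChart_vals :
    (t4vpChart hx A q hq0 ver ver_finite ver_dvr q_ver crt tr).pres.vals = t4vpHor K x ∪ ver := rfl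

theorem t4vpChart_vert :
    (t4vpChart hx A q hq0 ver ver_finite ver_dvr q_ver crt tr).pres.vert (algebraMap K F q) = ver :=
  (t4vpChart hx A q hq0 ver ver_finite ver_dvr q_ver crt tr).pres_vert

theorem mem_t4vpChart_ov (f : F) :
    f ∈ (t4vpChart hx A q hq0 ver ver_finite ver_dvr q_ver crt tr).pres.ov (algebraMap K F q) ↔
      ∀ V ∈ ver, f ∈ V :=
  (t4vpChart hx A q hq0 ver ver_finite ver_dvr q_ver crt tr).mem_pres_ov

end ChartLemmas

end Fermat.Agent.T4
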