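/-
T4-V (helper5): a valuation subring in which every nonzero element is a power of a fixed non-unit
`ϖ` times a unit is a discrete valuation ring (Mathlib only).
-/
import Mathlib

set_option autoImplicit false

namespace Fermat.Agent.T4

variable {F : Type*} [Field F]

/-- `v ϖ < 1` for a non-unit `ϖ ∈ V` -/
theorem t4vs_valuation_lt_one (V : ValuationSubring F) {ϖ : F} (hϖ : ϖ ∈ V) (hϖu : ϖ⁻¹ ∉ V) :
    V.valuation ϖ < 1 := by
  have h1 : V.valuation ϖ ≤ 1 := (V.valuation_le_one_iff _).mpr hϖ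
  rcases lt_or_eq_of_le h1 with h | h
  · exact h
  · exfalso
    apply hϖu
    rw [← V.valuation_le_one_iff, map_inv₀, h, inv_one]

theorem t4vs_valuation_unit (V : ValuationSubring F) {u : F} (hu0 : u ≠ 0) (hu : u ∈ V)
    (hu' : u⁻¹ ∈ V) : V.valuation u = 1 := by
  have h1 : V.valuation u ≤ 1 := (V.valuation_le_one_iff _).mpr hu
  have h2 : V.valuation u⁻¹ ≤ 1 := (V.valuation_le_one_iff _).mpr hu'
  rw [map_inv₀] at h2
  have h3 : V.valuation u ≠ 0 := (Valuation.ne_zero_iff _).mpr hu0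
  exact le_antisymm h1 ((inv_le_one₀ (zero_lt_iff.mpr h3)).mp h2)

/-- the exponent in a decomposition `f = ϖ ^ n * u` of a nonzero element of `V` is nonnegative -/
theorem t4vs_exponent_nonneg (V : ValuationSubring F) {ϖ : F} (hϖ : ϖ ∈ V) (hϖu : ϖ⁻¹ ∉ V)
    {f u : F} {n : ℤ} (hf0 : f ≠ 0) (hf : f ∈ V) (hu : u ∈ V) (hu' : u⁻¹ ∈ V)
    (e : f = ϖ ^ n * u) : 0 ≤ n := by
  by_contra hn
  push Not at hn
  have hlt := t4vs_valuation_lt_one V hϖ hϖu
  have hϖ0 : ϖ ≠ 0 := by
    rintro rfl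
    rw [inv_zero] at hϖu
    exact hϖu V.zero_mem
  have hu0 : u ≠ 0 := by
    rintro rfl
    exact hf0 (by rw [e, mul_zero])
  have hv0 : 0 < V.valuation ϖ := zero_lt_iff.mpr ((Valuation.ne_zero_iff _).mpr hϖ0)
  have h1 : V.valuation f = V.valuation ϖ ^ n := by
    rw [e, map_mul, map_zpow₀, t4vs_valuation_unit V hu0 hu hu', mul_one]
  have h2 : V.valuation f ≤ 1 := (V.valuation_le_one_iff _).mpr hf
  rw [h1] at h2
  exact absurd h2 (not_le.mpr (one_lt_zpow_of_neg₀ hv0 hlt hn))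

/-- **a valuation subring with a uniformiser is a discrete valuation ring** -/
theorem t4vs_dvr_of_decomp (V : ValuationSubring F) {ϖ : F} (hϖ : ϖ ∈ V) (hϖu : ϖ⁻¹ ∉ V)
    (h : ∀ f : F, f ≠ 0 → ∃ (n : ℤ) (u : F), u ∈ V ∧ u⁻¹ ∈ V ∧ f = ϖ ^ n * u) :
    IsDiscreteValuationRing V := by
  have hlt := t4vs_valuation_lt_one V hϖ hϖu
  have hϖ0 : ϖ ≠ 0 := by
    rintro rfl
    rw [inv_zero] at hϖu
    exact hϖu V.zero_mem
  have hv0 : 0 < V.valuation ϖ := zero_lt_iff.mpr ((Valuation.ne_zero_iff _).mpr hϖ0)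
  -- every nonzero element of `V` is associated to a power of `ϖ`
  have hass : ∀ x : V, x ≠ 0 → ∃ n : ℕ, Associated ((⟨ϖ, hϖ⟩ : V) ^ n) x := by
    intro x hx
    have hx0 : (x : F) ≠ 0 := fun h0 => hx (Subtype.ext h0)
    obtain ⟨n, u, hu, hu', e⟩ := h (x : F) hx0
    have hn := t4vs_exponent_nonneg V hϖ hϖu hx0 x.2 hu hu' e
    have hu0 : u ≠ 0 := by
      rintro rfl
      exact hx0 (by rw [e, mul_zero])
    obtain ⟨k, rfl⟩ := Int.eq_ofNat_of_zero_le hn
    refine ⟨k, ⟨⟨⟨u, hu⟩, ⟨u⁻¹, hu'⟩, Subtype.ext (mul_inv_cancel₀ hu0),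
      Subtype.ext (inv_mul_cancel₀ hu0)⟩, ?_⟩⟩
    apply Subtype.ext
    rw [e, zpow_natCast]
    rfl
  apply IsDiscreteValuationRing.ofHasUnitMulPowIrreducibleFactorization
  refine ⟨⟨ϖ, hϖ⟩, ?_, fun {x} hx => hass x hx⟩
  rw [irreducible_iff]
  constructor
  · intro hu
    obtain ⟨w, hw⟩ := hu.exists_right_inv
    apply hϖu
    have h1 : ϖ * (w : F) = 1 := congrArg Subtype.val hw
    rw [← eq_inv_of_mul_eq_one_right h1]
    exact w.2
  · intro a b hab
    have ha0 : a ≠ 0 := by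
      rintro rfl
      rw [zero_mul] at hab
      exact hϖ0 (congrArg Subtype.val hab)
    have hb0 : b ≠ 0 := by
      rintro rfl
      rw [mul_zero] at hab
      exact hϖ0 (congrArg Subtype.val hab)
    obtain ⟨i, hi⟩ := hass a ha0
    obtain ⟨j, hj⟩ := hass b hb0
    have hval : ∀ (x : V) (n : ℕ), Associated ((⟨ϖ, hϖ⟩ : V) ^ n) x →
        V.valuation (x : F) = V.valuation ϖ ^ n := by
      rintro x n ⟨w, rfl⟩
      have hw : V.valuation ((w : V) : F) = 1 := (V.valuation_eq_one_iff (w : V)).mp w.isUnit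
      have h4 : (((⟨ϖ, hϖ⟩ : V) ^ n * (w : V) : V) : F) = ϖ ^ n * ((w : V) : F) := by
        push_cast
        rfl
      rw [h4, map_mul, map_pow, hw, mul_one]
    have h1 : V.valuation ϖ ^ 1 = V.valuation ϖ ^ (i + j) := by
      have h2 : V.valuation ϖ = V.valuation ((a : F) * (b : F)) :=
        congrArg (fun x : V => V.valuation (x : F)) hab
      rw [map_mul, hval a i hi, hval b j hj, ← pow_add] at h2
      rw [pow_one]
      exact h2
    have h3 : 1 = i + j := pow_right_injective₀ hv0 hlt.ne h1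
    rcases Nat.eq_zero_or_pos i with h0 | hpos
    · left
      subst h0
      rw [pow_zero] at hi
      exact (associated_one_iff_isUnit.mp hi.symm)
    · right
      have hj0 : j = 0 := by omega
      subst hj0
      rw [pow_zero] at hj
      exact (associated_one_iff_isUnit.mp hj.symm)

/-- for a ring homomorphism `ρ` on a valuation subring whose non-vanishing forces invertibility:
`v f < 1 ↔ ρ f = 0` -/
theorem t4vs_valuation_lt_one_iff_of_hom {R : Type*} [CommRing R] [Nontrivial R]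
    (V : ValuationSubring F) (ρ : V →+* R) (hρ : ∀ f : V, ρ f ≠ 0 → ((f : V) : F)⁻¹ ∈ V) (f : V) :
    V.valuation ((f : V) : F) < 1 ↔ ρ f = 0 := by
  constructor
  · intro hlt
    by_contra hne
    have hinv := hρ f hne
    rcases eq_or_ne ((f : V) : F) 0 with h0 | h0
    · apply hne
      have : f = 0 := Subtype.ext h0
      rw [this, map_zero]
    · rw [t4vs_valuation_unit V h0 f.2 hinv] at hlt
      exact lt_irrefl _ hlt
  · intro h0
    have hle : V.valuation ((f : V) : F) ≤ 1 := (V.valuation_le_one_iff _).mpr f.2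
    rcases lt_or_eq_of_le hle with h | h
    · exact h
    · exfalso
      have hu : IsUnit f := (V.valuation_eq_one_iff f).mpr h
      have := hu.map ρ
      rw [h0] at this
      exact not_isUnit_zero this

end Fermat.Agent.T4
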