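/-
T4-V (helper5): the dictionary between helper9's three vertical valuation rings
(`ValSub.lean`: `t4vOinf`, `t4vOmid`, `t4vO0`) and the reductions `ρ₁ ρ₂ ρ₃` of `t4vInput`:

* residue homomorphisms `t4vrInf`, `t4vrMid`, `t4vrZero` on the three rings;
* `t4vOinf_valuation_lt_one_iff`, … : `v f < 1 ↔ ρ f = 0`; the forms for `f ∈ 𝒪` with `ρ₁ ρ₂ ρ₃`;
* `v (f - g) < 1 ↔ ρ f = ρ g`;
* `v q < 1` for the three rings, pairwise distinctness.
-/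
import Fermat.Agent.Lib.T4.Inst.ValSub
import Fermat.Agent.Lib.T4.Inst.ValDvr

set_option autoImplicit false
set_option linter.unusedSectionVars false
set_option linter.unusedVariables false
set_option linter.style.haveILetI false
set_option synthInstance.maxHeartbeats 400000

open HahnSeries ModularCurve Fermat.Agent.T1 Fermat.Agent.T2 IntermediateField

noncomputable section

namespace Fermat.Agent.T4

section Res

variable {L : Type} [Field L] [Algebra ℚ L] (O : ValuationSubring L) {k : Type*} [Field k]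
  (π : ↥O →+* k) [IsDiscreteValuationRing ↥O] (hπ : Function.Surjective π) [IsAlgClosed k]
  {N' q : ℕ} [NeZero N'] [hq : Fact q.Prime] [CharP k q] (hN' : (N' : k) ≠ 0)
  (W1 : T2iAL L N' q) (Fr : T2iFrob k N' q) (W : T4iAL L N' q)
  (hqO : Irreducible ((q : ℕ) : ↥O))
  {L' : Type*} [Field L'] [Algebra L L'] (O' : ValuationSubring L')
  [IsDiscreteValuationRing ↥O'] (π' : ↥O' →+* k) (C : T4iCyc O O' π π' q)
  (M : T4iMid L L' N' q C.ζ)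

attribute [local instance] t2iAlgebra t2i_isScalarTower

/-! ### The residue homomorphisms -/

/-- the reduction at `∞` on `O_inf` -/
def t4vrInf : ↥(t4vOinf (N' := N') (q := q) O π hπ) →+* LaurentSeries k :=
  taResN O π hπ (N' * q * q)

/-- the reduction at `0` on `O_0` -/
def t4vrZero : ↥(t4vO0 O π hπ W) →+* LaurentSeries k :=
  (taResN O π hπ (N' * q * q)).comp
    (((W.w : ↥(TaF L (N' * q * q)) →+* ↥(TaF L (N' * q * q))).comp
      (t4vO0 O π hπ W).subtype).codRestrict (taOv O π hπ (N' * q * q)) (fun f => f.2))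

/-- the middle reduction on `O_mid` -/
def t4vrMid : ↥(t4vOmid O π hπ O' π' C M) →+* LaurentSeries k :=
  (taRho O' π').comp
    ((M.ι.comp (t4vOmid O π hπ O' π' C M).subtype).codRestrict (taGaussSubring O' π')
      (fun f => f.2))

theorem t4vrInf_apply (f : ↥(t4vOinf (N' := N') (q := q) O π hπ)) :
    t4vrInf O π hπ f = taRhoFun O π ((f : ↥(TaF L (N' * q * q))) : LaurentSeries L) := rfl

theorem t4vrZero_apply (f : ↥(t4vO0 O π hπ W)) :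
    t4vrZero O π hπ W f =
      taRhoFun O π ((W.w (f : ↥(TaF L (N' * q * q))) : ↥(TaF L (N' * q * q))) :
        LaurentSeries L) := rfl

theorem t4vrMid_apply (f : ↥(t4vOmid O π hπ O' π' C M)) :
    t4vrMid O π hπ O' π' C M f = taRhoFun O' π' (M.ι (f : ↥(TaF L (N' * q * q)))) := rfl

theorem t4vrInf_inv_mem (f : ↥(t4vOinf (N' := N') (q := q) O π hπ))
    (hf : t4vrInf O π hπ f ≠ 0) :
    ((f : ↥(TaF L (N' * q * q))))⁻¹ ∈ t4vOinf (N' := N') (q := q) O π hπ :=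
  inv_mem_taOv_of_taResN_ne_zero O π hπ (N' * q * q) f hf

theorem t4vrZero_inv_mem (f : ↥(t4vO0 O π hπ W)) (hf : t4vrZero O π hπ W f ≠ 0) :
    ((f : ↥(TaF L (N' * q * q))))⁻¹ ∈ t4vO0 O π hπ W := by
  rw [mem_t4vO0, map_inv₀]
  exact inv_mem_taOv_of_taResN_ne_zero O π hπ (N' * q * q)
    ⟨W.w (f : ↥(TaF L (N' * q * q))), f.2⟩ hf

theorem t4vrMid_inv_mem (f : ↥(t4vOmid O π hπ O' π' C M))
    (hf : t4vrMid O π hπ O' π' C M f ≠ 0) :
    ((f : ↥(TaF L (N' * q * q))))⁻¹ ∈ t4vOmid O π hπ O' π' C M := by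
  rw [mem_t4vOmid, map_inv₀]
  exact taGauss_inv_of_taRho_ne_zero O' π' ⟨M.ι (f : ↥(TaF L (N' * q * q))), f.2⟩ hf

/-! ### Valuations versus reductions -/

theorem t4vOinf_valuation_lt_one_iff {f : ↥(TaF L (N' * q * q))}
    (hf : f ∈ t4vOinf (N' := N') (q := q) O π hπ) :
    (t4vOinf (N' := N') (q := q) O π hπ).valuation f < 1 ↔
      taRhoFun O π (f : LaurentSeries L) = 0 :=
  t4vs_valuation_lt_one_iff_of_hom _ (t4vrInf O π hπ) (t4vrInf_inv_mem O π hπ) ⟨f, hf⟩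

theorem t4vO0_valuation_lt_one_iff {f : ↥(TaF L (N' * q * q))} (hf : f ∈ t4vO0 O π hπ W) :
    (t4vO0 O π hπ W).valuation f < 1 ↔
      taRhoFun O π ((W.w f : ↥(TaF L (N' * q * q))) : LaurentSeries L) = 0 :=
  t4vs_valuation_lt_one_iff_of_hom _ (t4vrZero O π hπ W) (t4vrZero_inv_mem O π hπ W) ⟨f, hf⟩

theorem t4vOmid_valuation_lt_one_iff {f : ↥(TaF L (N' * q * q))}
    (hf : f ∈ t4vOmid O π hπ O' π' C M) :
    (t4vOmid O π hπ O' π' C M).valuation f < 1 ↔ taRhoFun O' π' (M.ι f) = 0 :=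
  t4vs_valuation_lt_one_iff_of_hom _ (t4vrMid O π hπ O' π' C M)
    (t4vrMid_inv_mem O π hπ O' π' C M) ⟨f, hf⟩

/-- `v_inf f < 1 ↔ ρ₁ f = 0` on `𝒪` -/
theorem t4vr_ρ₁_eq_zero_iff (f : ↥(t4vInput O π hπ hN' W1 Fr W hqO O' π' C M).Ov) :
    (t4vInput O π hπ hN' W1 Fr W hqO O' π' C M).ρ₁ f = 0 ↔
      (t4vOinf (N' := N') (q := q) O π hπ).valuation (f : ↥(TaF L (N' * q * q))) < 1 := by
  rw [t4vOinf_valuation_lt_one_iff O π hπ
    ((mem_t4vInput_Ov_iff O π hπ hN' W1 Fr W hqO O' π' C M _).mp f.2).1, t4vInput_ρ₁]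

/-- `v_mid f < 1 ↔ ρ₂ f = 0` on `𝒪` -/
theorem t4vr_ρ₂_eq_zero_iff (f : ↥(t4vInput O π hπ hN' W1 Fr W hqO O' π' C M).Ov) :
    (t4vInput O π hπ hN' W1 Fr W hqO O' π' C M).ρ₂ f = 0 ↔
      (t4vOmid O π hπ O' π' C M).valuation (f : ↥(TaF L (N' * q * q))) < 1 := by
  rw [t4vOmid_valuation_lt_one_iff O π hπ O' π' C M
    ((mem_t4vInput_Ov_iff O π hπ hN' W1 Fr W hqO O' π' C M _).mp f.2).2.2, t4vInput_ρ₂]

/-- `v_0 f < 1 ↔ ρ₃ f = 0` on `𝒪` -/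
theorem t4vr_ρ₃_eq_zero_iff (f : ↥(t4vInput O π hπ hN' W1 Fr W hqO O' π' C M).Ov) :
    (t4vInput O π hπ hN' W1 Fr W hqO O' π' C M).ρ₃ f = 0 ↔
      (t4vO0 O π hπ W).valuation (f : ↥(TaF L (N' * q * q))) < 1 := by
  rw [t4vO0_valuation_lt_one_iff O π hπ W
    ((mem_t4vInput_Ov_iff O π hπ hN' W1 Fr W hqO O' π' C M _).mp f.2).2.1, t4vInput_ρ₃]

/-- congruences modulo the three maximal ideals on `𝒪` -/
theorem t4vr_ρ₁_eq_iff (f g : ↥(t4vInput O π hπ hN' W1 Fr W hqO O' π' C M).Ov) :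
    (t4vInput O π hπ hN' W1 Fr W hqO O' π' C M).ρ₁ f =
      (t4vInput O π hπ hN' W1 Fr W hqO O' π' C M).ρ₁ g ↔
      (t4vOinf (N' := N') (q := q) O π hπ).valuation
        ((f : ↥(TaF L (N' * q * q))) - (g : ↥(TaF L (N' * q * q)))) < 1 := by
  rw [← sub_eq_zero, ← map_sub, t4vr_ρ₁_eq_zero_iff]
  rfl

theorem t4vr_ρ₂_eq_iff (f g : ↥(t4vInput O π hπ hN' W1 Fr W hqO O' π' C M).Ov) :
    (t4vInput O π hπ hN' W1 Fr W hqO O' π' C M).ρ₂ f =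
      (t4vInput O π hπ hN' W1 Fr W hqO O' π' C M).ρ₂ g ↔
      (t4vOmid O π hπ O' π' C M).valuation
        ((f : ↥(TaF L (N' * q * q))) - (g : ↥(TaF L (N' * q * q)))) < 1 := by
  rw [← sub_eq_zero, ← map_sub, t4vr_ρ₂_eq_zero_iff]
  rfl

theorem t4vr_ρ₃_eq_iff (f g : ↥(t4vInput O π hπ hN' W1 Fr W hqO O' π' C M).Ov) :
    (t4vInput O π hπ hN' W1 Fr W hqO O' π' C M).ρ₃ f =
      (t4vInput O π hπ hN' W1 Fr W hqO O' π' C M).ρ₃ g ↔
      (t4vO0 O π hπ W).valuation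
        ((f : ↥(TaF L (N' * q * q))) - (g : ↥(TaF L (N' * q * q)))) < 1 := by
  rw [← sub_eq_zero, ← map_sub, t4vr_ρ₃_eq_zero_iff]
  rfl

/-! ### `q` is a non-unit of the three rings -/

include hqO in
theorem t4vOinf_valuation_q : (t4vOinf (N' := N') (q := q) O π hπ).valuation (t4vQ L N' q) < 1 :=
  t4vs_valuation_lt_one _ (t4vQ_mem_inf O π hπ) (t4vQ_inv_notMem_inf O π hπ hqO)

include hqO in
theorem t4vO0_valuation_q : (t4vO0 O π hπ W).valuation (t4vQ L N' q) < 1 :=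
  t4vs_valuation_lt_one _ (t4vQ_mem_zero O π hπ W) (t4vQ_inv_notMem_zero O π hπ W hqO)

theorem t4vOmid_valuation_q : (t4vOmid O π hπ O' π' C M).valuation (t4vQ L N' q) < 1 :=
  t4vs_valuation_lt_one _ (t4vQ_mem_mid O π hπ O' π' C M) (t4vQ_inv_notMem_mid O π hπ O' π' C M)

theorem t4vOmid_valuation_pi : (t4vOmid O π hπ O' π' C M).valuation (t4vPi L N' q) < 1 :=
  t4vs_valuation_lt_one _ (t4vPi_mem_mid O π hπ O' π' C M)
    (t4vPi_inv_notMem_mid O π hπ O' π' C M)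

/-! ### Distinctness -/

theorem t4vr_taJ_gauss : TaGauss O π ((taJ (L := L) N' : ↥(TaF L N')) : LaurentSeries L) :=
  t4v_gauss_jqModC O π

theorem t4vr_taJ_rho :
    taRhoFun O π ((taJ (L := L) N' : ↥(TaF L N')) : LaurentSeries L) = jqModC k :=
  t4v_taRhoFun_jqModC O π

/-- `ϖ = a2 j - a0 j` as an element of `𝒪` -/
def t4vrPiO : ↥(t4vInput O π hπ hN' W1 Fr W hqO O' π' C M).Ov :=
  ⟨t4vA2 L N' q (taJ N'), t4v_a2_mem O π hπ hN' W1 Fr W hqO O' π' C M (t4vr_taJ_gauss O π)⟩ -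
    ⟨t4vA0 L N' q (taJ N'), t4v_a0_mem O π hπ hN' W1 Fr W hqO O' π' C M (t4vr_taJ_gauss O π)⟩

theorem coe_t4vrPiO :
    ((t4vrPiO O π hπ hN' W1 Fr W hqO O' π' C M :
      ↥(t4vInput O π hπ hN' W1 Fr W hqO O' π' C M).Ov) : ↥(TaF L (N' * q * q))) =
      t4vPi L N' q := rfl

theorem t4vr_ρ₁_pi :
    (t4vInput O π hπ hN' W1 Fr W hqO O' π' C M).ρ₁ (t4vrPiO O π hπ hN' W1 Fr W hqO O' π' C M) =
      qExpand k q (qExpand k q (jqModC k)) - jqModC k := by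
  rw [t4vrPiO, map_sub, t4v_ρ₁_a2 O π hπ hN' W1 Fr W hqO O' π' C M (t4vr_taJ_gauss O π),
    t4v_ρ₁_a0 O π hπ hN' W1 Fr W hqO O' π' C M (t4vr_taJ_gauss O π), t4vr_taJ_rho]

theorem t4vr_ρ₃_pi :
    (t4vInput O π hπ hN' W1 Fr W hqO O' π' C M).ρ₃ (t4vrPiO O π hπ hN' W1 Fr W hqO O' π' C M) =
      jqModC k - qExpand k q (qExpand k q (jqModC k)) := by
  rw [t4vrPiO, map_sub, t4v_ρ₃_a2 O π hπ hN' W1 Fr W hqO O' π' C M (t4vr_taJ_gauss O π),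
    t4v_ρ₃_a0 O π hπ hN' W1 Fr W hqO O' π' C M (t4vr_taJ_gauss O π), t4vr_taJ_rho]

include hN' W1 Fr W hqO M in
/-- `ϖ` is a unit of `O_inf` -/
theorem t4vOinf_valuation_pi :
    (t4vOinf (N' := N') (q := q) O π hπ).valuation (t4vPi L N' q) = 1 := by
  have hmem := ((mem_t4vInput_Ov_iff O π hπ hN' W1 Fr W hqO O' π' C M _).mp
    (t4vrPiO O π hπ hN' W1 Fr W hqO O' π' C M).2).1
  have hle : (t4vOinf (N' := N') (q := q) O π hπ).valuation (t4vPi L N' q) ≤ 1 :=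
    (ValuationSubring.valuation_le_one_iff _ _).mpr hmem
  rcases lt_or_eq_of_le hle with h | h
  · exfalso
    have h1 := (t4vr_ρ₁_eq_zero_iff O π hπ hN' W1 Fr W hqO O' π' C M
      (t4vrPiO O π hπ hN' W1 Fr W hqO O' π' C M)).mpr h
    rw [t4vr_ρ₁_pi, sub_eq_zero] at h1
    exact t4v_Z_res_ne h1
  · exact h

include hN' W1 Fr hqO M in
/-- `ϖ` is a unit of `O_0` -/
theorem t4vO0_valuation_pi : (t4vO0 O π hπ W).valuation (t4vPi L N' q) = 1 := by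
  have hmem := ((mem_t4vInput_Ov_iff O π hπ hN' W1 Fr W hqO O' π' C M _).mp
    (t4vrPiO O π hπ hN' W1 Fr W hqO O' π' C M).2).2.1
  have hle : (t4vO0 O π hπ W).valuation (t4vPi L N' q) ≤ 1 :=
    (ValuationSubring.valuation_le_one_iff _ _).mpr hmem
  rcases lt_or_eq_of_le hle with h | h
  · exfalso
    have h1 := (t4vr_ρ₃_eq_zero_iff O π hπ hN' W1 Fr W hqO O' π' C M
      (t4vrPiO O π hπ hN' W1 Fr W hqO O' π' C M)).mpr h
    rw [t4vr_ρ₃_pi, sub_eq_zero] at h1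
    exact t4v_Z_res_ne h1.symm
  · exact h

include hN' W1 Fr W hqO in
theorem t4vOmid_ne_inf :
    t4vOmid O π hπ O' π' C M ≠ t4vOinf (N' := N') (q := q) O π hπ := by
  intro h
  have h1 := t4vOmid_valuation_pi O π hπ O' π' C M (N' := N') (q := q)
  rw [h, t4vOinf_valuation_pi O π hπ hN' W1 Fr W hqO O' π' C M] at h1
  exact lt_irrefl _ h1

include hN' W1 Fr hqO in
theorem t4vOmid_ne_zero : t4vOmid O π hπ O' π' C M ≠ t4vO0 O π hπ W := by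
  intro h
  have h1 := t4vOmid_valuation_pi O π hπ O' π' C M (N' := N') (q := q)
  rw [h, t4vO0_valuation_pi O π hπ hN' W1 Fr W hqO O' π' C M] at h1
  exact lt_irrefl _ h1

/-- `X_inf = a2 j - (a1 j) ^ q` as an element of `𝒪` -/
def t4vrXinfO : ↥(t4vInput O π hπ hN' W1 Fr W hqO O' π' C M).Ov :=
  ⟨t4vA2 L N' q (taJ N'), t4v_a2_mem O π hπ hN' W1 Fr W hqO O' π' C M (t4vr_taJ_gauss O π)⟩ -
    ⟨t4vA1 L N' q (taJ N'),
      t4v_a1_mem O π hπ hN' W1 Fr W hqO O' π' C M (t4vr_taJ_gauss O π)⟩ ^ q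

theorem coe_t4vrXinfO :
    ((t4vrXinfO O π hπ hN' W1 Fr W hqO O' π' C M :
      ↥(t4vInput O π hπ hN' W1 Fr W hqO O' π' C M).Ov) : ↥(TaF L (N' * q * q))) =
      t4vA2 L N' q (taJ N') - t4vA1 L N' q (taJ N') ^ q := rfl

theorem t4vr_ρ₁_Xinf :
    (t4vInput O π hπ hN' W1 Fr W hqO O' π' C M).ρ₁
      (t4vrXinfO O π hπ hN' W1 Fr W hqO O' π' C M) = 0 := by
  rw [t4vrXinfO, map_sub, map_pow,
    t4v_ρ₁_a2 O π hπ hN' W1 Fr W hqO O' π' C M (t4vr_taJ_gauss O π),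
    t4v_ρ₁_a1 O π hπ hN' W1 Fr W hqO O' π' C M (t4vr_taJ_gauss O π), t4vr_taJ_rho, ← map_pow,
    t2i_jq_pow, sub_self]

theorem t4vr_ρ₃_Xinf :
    (t4vInput O π hπ hN' W1 Fr W hqO O' π' C M).ρ₃
      (t4vrXinfO O π hπ hN' W1 Fr W hqO O' π' C M) =
      jqModC k - qExpand k q (qExpand k q (jqModC k)) := by
  rw [t4vrXinfO, map_sub, map_pow,
    t4v_ρ₃_a2 O π hπ hN' W1 Fr W hqO O' π' C M (t4vr_taJ_gauss O π),
    t4v_ρ₃_a1 O π hπ hN' W1 Fr W hqO O' π' C M (t4vr_taJ_gauss O π), t4vr_taJ_rho, ← map_pow,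
    t2i_jq_pow]

theorem t4vr_ρ₂_Xinf :
    (t4vInput O π hπ hN' W1 Fr W hqO O' π' C M).ρ₂
      (t4vrXinfO O π hπ hN' W1 Fr W hqO O' π' C M) =
      jqModC k - qExpand k q (qExpand k q (jqModC k)) := by
  rw [t4vrXinfO, map_sub, map_pow,
    t4v_ρ₂_a2 O π hπ hN' W1 Fr W hqO O' π' C M (t4vr_taJ_gauss O π),
    t4v_ρ₂_a1 O π hπ hN' W1 Fr W hqO O' π' C M (t4vr_taJ_gauss O π), t4vr_taJ_rho, ← map_pow,
    t2i_jq_pow]

include hN' W1 Fr hqO M in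
theorem t4vO0_ne_inf : t4vO0 O π hπ W ≠ t4vOinf (N' := N') (q := q) O π hπ := by
  intro h
  have h1 := (t4vr_ρ₁_eq_zero_iff O π hπ hN' W1 Fr W hqO O' π' C M
    (t4vrXinfO O π hπ hN' W1 Fr W hqO O' π' C M)).mp (t4vr_ρ₁_Xinf O π hπ hN' W1 Fr W hqO O' π' C M)
  rw [← h] at h1
  have h2 := (t4vr_ρ₃_eq_zero_iff O π hπ hN' W1 Fr W hqO O' π' C M
    (t4vrXinfO O π hπ hN' W1 Fr W hqO O' π' C M)).mpr h1
  rw [t4vr_ρ₃_Xinf, sub_eq_zero] at h2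
  exact t4v_Z_res_ne h2.symm

end Res

end Fermat.Agent.T4
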