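/-
T4-V (helper5): **the restrictions of the three vertical valuation rings of `F = F_{N'q²}` to
`F1 = F_{N'q}`** along the two degeneracy maps `α₂ = heckeAlphaBar`, `β₂ = heckeBetaBar`:

  under `α₂`:  `O_inf ↦ O¹_inf`, `O_mid ↦ O¹_inf`, `O_0 ↦ O¹_0`;
  under `β₂`:  `O_inf ↦ O¹_inf`, `O_mid ↦ O¹_0`,  `O_0 ↦ O¹_0`,

where `O¹_inf = taOv O π hπ (N' q)` and `O¹_0` is its comap under `W1.w`.  Also `O¹_inf ≠ O¹_0`.
-/
import Fermat.Agent.Lib.T4.Inst.ValRes
import Fermat.Agent.Lib.T4.Inst.NormGauss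
import Fermat.Agent.Lib.T4.Local.Norm

set_option autoImplicit false
set_option linter.unusedSectionVars false
set_option linter.unusedVariables false
set_option linter.style.haveILetI false
set_option synthInstance.maxHeartbeats 400000

open HahnSeries ModularCurve Fermat.Agent.T1 Fermat.Agent.T2 IntermediateField

noncomputable section

namespace Fermat.Agent.T4

/-- a valuation subring `V1` which is mapped into `V`, non-units to non-units, is the restriction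
of `V` -/
theorem t4vr_comap_eq {F1 F : Type*} [Field F1] [Field F] (φ : F1 →+* F)
    (V1 : ValuationSubring F1) (V : ValuationSubring F) (hle : ∀ x ∈ V1, φ x ∈ V)
    (hnu : ∀ x ∈ V1, x⁻¹ ∉ V1 → (φ x)⁻¹ ∉ V) : V.comap φ = V1 := by
  ext x
  rw [ValuationSubring.mem_comap]
  constructor
  · intro hx
    by_contra hx1
    have hinv : x⁻¹ ∈ V1 := (V1.mem_or_inv_mem x).resolve_left hx1
    have h1 := hnu x⁻¹ hinv (by rwa [inv_inv])
    rw [map_inv₀, inv_inv] at h1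
    exact h1 hx
  · exact hle x

/-- non-units of the restriction of a valuation subring along a field embedding -/
theorem t4vr_valuation_lt_one_iff_of_comap {F1 F : Type*} [Field F1] [Field F] (φ : F1 →+* F)
    {V1 : ValuationSubring F1} {V : ValuationSubring F} (h : V.comap φ = V1) (x : F1) :
    V1.valuation x < 1 ↔ V.valuation (φ x) < 1 := by
  subst h
  rw [t4l_valuation_lt_one_iff, t4l_valuation_lt_one_iff, ValuationSubring.mem_comap, map_inv₀,
    map_eq_zero]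

/-- units of the restriction of a valuation subring along a field embedding -/
theorem t4vr_valuation_eq_one_iff_of_comap {F1 F : Type*} [Field F1] [Field F] (φ : F1 →+* F)
    {V1 : ValuationSubring F1} {V : ValuationSubring F} (h : V.comap φ = V1) (x : F1) :
    V1.valuation x = 1 ↔ V.valuation (φ x) = 1 := by
  have h1 := t4vr_valuation_lt_one_iff_of_comap φ h x
  have h2 : V1.valuation x ≤ 1 ↔ V.valuation (φ x) ≤ 1 := by
    subst h
    rw [ValuationSubring.valuation_le_one_iff, ValuationSubring.valuation_le_one_iff,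
      ValuationSubring.mem_comap]
  constructor
  · intro hx
    rcases lt_or_eq_of_le (h2.mp hx.le) with h4 | h4
    · exact absurd (h1.mpr h4) (by rw [hx]; exact lt_irrefl _)
    · exact h4
  · intro hx
    rcases lt_or_eq_of_le (h2.mpr hx.le) with h4 | h4
    · exact absurd (h1.mp h4) (by rw [hx]; exact lt_irrefl _)
    · exact h4

section Over

variable {L : Type} [Field L] [Algebra ℚ L] (O : ValuationSubring L) {k : Type*} [Field k]
  (π : ↥O →+* k) [IsDiscreteValuationRing ↥O] (hπ : Function.Surjective π) [IsAlgClosed k]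
  {N' q : ℕ} [NeZero N'] [hq : Fact q.Prime] [CharP k q] (hN' : (N' : k) ≠ 0)
  (W1 : T2iAL L N' q) (Fr : T2iFrob k N' q) (W : T4iAL L N' q)
  (hqO : Irreducible ((q : ℕ) : ↥O))
  {L' : Type*} [Field L'] [Algebra L L'] (O' : ValuationSubring L')
  [IsDiscreteValuationRing ↥O'] (π' : ↥O' →+* k) (C : T4iCyc O O' π π' q)
  (M : T4iMid L L' N' q C.ζ)

attribute [local instance] t2iAlgebra t2i_isScalarTower

/-- a non-unit of the Gauss ring of level `N` has zero reduction -/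
theorem t4vr_res_eq_zero_of_inv_notMem (N : ℕ) [NeZero N] {b : ↥(TaF L N)}
    (hb : b ∈ taOv O π hπ N) (hbi : b⁻¹ ∉ taOv O π hπ N) : taResN O π hπ N ⟨b, hb⟩ = 0 := by
  by_contra h
  exact hbi (inv_mem_taOv_of_taResN_ne_zero O π hπ N ⟨b, hb⟩ h)

/-- a nonzero element of the Gauss ring of level `N` with zero reduction has no inverse there -/
theorem t4vr_inv_notMem_of_res_eq_zero (N : ℕ) [NeZero N] {b : ↥(TaF L N)} (hb0 : b ≠ 0)
    (hb : b ∈ taOv O π hπ N) (h0 : taResN O π hπ N ⟨b, hb⟩ = 0) : b⁻¹ ∉ taOv O π hπ N := by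
  intro hbi
  have h1 : (⟨b, hb⟩ : ↥(taOv O π hπ N)) * ⟨b⁻¹, hbi⟩ = 1 := Subtype.ext (mul_inv_cancel₀ hb0)
  have h2 := congrArg (taResN O π hπ N) h1
  rw [map_mul, h0, zero_mul, map_one] at h2
  exact zero_ne_one h2

theorem t4vr_ne_zero_of_inv_notMem {K : Type*} [Field K] (V : ValuationSubring K) {x : K}
    (hx : x⁻¹ ∉ V) : x ≠ 0 := by
  rintro rfl
  rw [inv_zero] at hx
  exact hx V.zero_mem

/-! ### Restrictions along `α₂` -/

/-- `O_inf ∩ F1 = O¹_inf` -/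
theorem t4vOinf_comap_alpha :
    (t4vOinf (N' := N') (q := q) O π hπ).comap
      ((heckeAlphaBar L (N' * q) q : ↥(TaF L (N' * q)) →ₐ[L] ↥(TaF L (N' * q * q))) :
        ↥(TaF L (N' * q)) →+* ↥(TaF L (N' * q * q))) = taOv O π hπ (N' * q) := by
  ext b
  rw [ValuationSubring.mem_comap, mem_t4vOinf, mem_taOv_iff]
  show TaGauss O π ((heckeAlphaBar L (N' * q) q b : ↥(TaF L (N' * q * q))) : LaurentSeries L) ↔ _
  rw [coe_heckeAlphaBar]

/-- `O_mid ∩ F1 = O¹_inf` -/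
theorem t4vOmid_comap_alpha :
    (t4vOmid O π hπ O' π' C M).comap
      ((heckeAlphaBar L (N' * q) q : ↥(TaF L (N' * q)) →ₐ[L] ↥(TaF L (N' * q * q))) :
        ↥(TaF L (N' * q)) →+* ↥(TaF L (N' * q * q))) = taOv O π hπ (N' * q) := by
  apply t4vr_comap_eq
  · intro b hb
    exact t4v_mid_gauss O π hπ O' π' C M hb
  · intro b hb hbi hinv
    have hb0 := t4vr_ne_zero_of_inv_notMem _ hbi
    have h0 := t4vr_res_eq_zero_of_inv_notMem O π hπ (N' * q) hb hbi
    have hmem : heckeAlphaBar L (N' * q) q b ∈ t4vOmid O π hπ O' π' C M :=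
      t4v_mid_gauss O π hπ O' π' C M hb
    have hres : t4vrMid O π hπ O' π' C M ⟨heckeAlphaBar L (N' * q) q b, hmem⟩ = 0 := by
      rw [t4vrMid_apply]
      have := t4v_mid_res O π hπ O' π' C M hb
      rw [h0] at this
      exact this
    have h1 : (⟨heckeAlphaBar L (N' * q) q b, hmem⟩ : ↥(t4vOmid O π hπ O' π' C M)) *
        ⟨(heckeAlphaBar L (N' * q) q b)⁻¹, hinv⟩ = 1 :=
      Subtype.ext (mul_inv_cancel₀ ((map_ne_zero _).mpr hb0))
    have h2 := congrArg (t4vrMid O π hπ O' π' C M) h1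
    rw [map_mul, hres, zero_mul, map_one] at h2
    exact zero_ne_one h2

/-- `O_0 ∩ F1 = O¹_0` -/
theorem t4vO0_comap_alpha :
    (t4vO0 O π hπ W).comap
      ((heckeAlphaBar L (N' * q) q : ↥(TaF L (N' * q)) →ₐ[L] ↥(TaF L (N' * q * q))) :
        ↥(TaF L (N' * q)) →+* ↥(TaF L (N' * q * q))) =
      (taOv O π hπ (N' * q)).comap
        (W1.w : ↥(TaF L (N' * q)) →+* ↥(TaF L (N' * q))) := by
  apply t4vr_comap_eq
  · intro b hb
    exact t4v_zero_gauss O π hπ W1 W hb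
  · intro b hb hbi hinv
    have hb0 := t4vr_ne_zero_of_inv_notMem _ hbi
    have hb' : W1.w b ∈ taOv O π hπ (N' * q) := hb
    have hbi' : (W1.w b)⁻¹ ∉ taOv O π hπ (N' * q) := by
      intro h
      apply hbi
      rw [ValuationSubring.mem_comap]
      show W1.w b⁻¹ ∈ _
      rw [map_inv₀]
      exact h
    have h0 := t4vr_res_eq_zero_of_inv_notMem O π hπ (N' * q) hb' hbi'
    have hmem : W.w (heckeAlphaBar L (N' * q) q b) ∈ taOv O π hπ (N' * q * q) :=
      t4v_zero_gauss O π hπ W1 W hb'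
    have hres : taResN O π hπ (N' * q * q) ⟨W.w (heckeAlphaBar L (N' * q) q b), hmem⟩ = 0 := by
      have := t4v_zero_res O π hπ W1 W hb'
      rw [h0, map_zero] at this
      exact this
    have hne : W.w (heckeAlphaBar L (N' * q) q b) ≠ 0 :=
      (map_ne_zero _).mpr ((map_ne_zero _).mpr hb0)
    refine t4vr_inv_notMem_of_res_eq_zero O π hπ (N' * q * q) hne hmem hres ?_
    have : W.w (heckeAlphaBar L (N' * q) q b)⁻¹ ∈ taOv O π hπ (N' * q * q) := hinv
    rwa [map_inv₀] at this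

/-! ### Restrictions along `β₂` -/

include hq in
/-- `β₂ b = w (α₂ (w¹ b))` -/
theorem t4vr_beta_eq (b : ↥(TaF L (N' * q))) :
    heckeBetaBar L (N' * q) q b = W.w (heckeAlphaBar L (N' * q) q (W1.w b)) := by
  rw [t4v_w_alpha hq.out W W1, W1.w_w]

include W1 W in
/-- `O_inf ∩ β₂ F1 = O¹_inf` -/
theorem t4vOinf_comap_beta :
    (t4vOinf (N' := N') (q := q) O π hπ).comap
      ((heckeBetaBar L (N' * q) q : ↥(TaF L (N' * q)) →ₐ[L] ↥(TaF L (N' * q * q))) :
        ↥(TaF L (N' * q)) →+* ↥(TaF L (N' * q * q))) = taOv O π hπ (N' * q) := by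
  have h := t4vO0_comap_alpha O π hπ W1 W
  ext b
  have h1 := congrArg (fun V : ValuationSubring ↥(TaF L (N' * q)) => W1.w b ∈ V) h
  simp only [ValuationSubring.mem_comap, eq_iff_iff] at h1
  rw [ValuationSubring.mem_comap]
  show heckeBetaBar L (N' * q) q b ∈ t4vOinf (N' := N') (q := q) O π hπ ↔ _
  rw [t4vr_beta_eq W1 W b]
  have h2 : W.w (heckeAlphaBar L (N' * q) q (W1.w b)) ∈ t4vOinf (N' := N') (q := q) O π hπ ↔
      heckeAlphaBar L (N' * q) q (W1.w b) ∈ t4vO0 O π hπ W := Iff.rfl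
  rw [h2]
  have h3 : ((W1.w : ↥(TaF L (N' * q)) →+* ↥(TaF L (N' * q))) (W1.w b)) = b := W1.w_w b
  rw [h3] at h1
  exact h1

/-- `O_0 ∩ β₂ F1 = O¹_0` -/
theorem t4vO0_comap_beta :
    (t4vO0 O π hπ W).comap
      ((heckeBetaBar L (N' * q) q : ↥(TaF L (N' * q)) →ₐ[L] ↥(TaF L (N' * q * q))) :
        ↥(TaF L (N' * q)) →+* ↥(TaF L (N' * q * q))) =
      (taOv O π hπ (N' * q)).comap
        (W1.w : ↥(TaF L (N' * q)) →+* ↥(TaF L (N' * q))) := by
  have h := t4vOinf_comap_alpha O π hπ (N' := N') (q := q)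
  ext b
  have h1 := congrArg (fun V : ValuationSubring ↥(TaF L (N' * q)) => W1.w b ∈ V) h
  simp only [ValuationSubring.mem_comap, eq_iff_iff] at h1
  rw [ValuationSubring.mem_comap, ValuationSubring.mem_comap]
  show heckeBetaBar L (N' * q) q b ∈ t4vO0 O π hπ W ↔ W1.w b ∈ _
  rw [t4vr_beta_eq W1 W b, mem_t4vO0, W.w_w]
  exact h1

include W in
/-- `O_mid ∩ β₂ F1 = O¹_0` -/
theorem t4vOmid_comap_beta :
    (t4vOmid O π hπ O' π' C M).comap
      ((heckeBetaBar L (N' * q) q : ↥(TaF L (N' * q)) →ₐ[L] ↥(TaF L (N' * q * q))) :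
        ↥(TaF L (N' * q)) →+* ↥(TaF L (N' * q * q))) =
      (taOv O π hπ (N' * q)).comap
        (W1.w : ↥(TaF L (N' * q)) →+* ↥(TaF L (N' * q))) := by
  have h := t4vOmid_comap_alpha O π hπ O' π' C M
  ext b
  have h1 := congrArg (fun V : ValuationSubring ↥(TaF L (N' * q)) => W1.w b ∈ V) h
  simp only [ValuationSubring.mem_comap, eq_iff_iff] at h1
  rw [ValuationSubring.mem_comap, ValuationSubring.mem_comap]
  show heckeBetaBar L (N' * q) q b ∈ t4vOmid O π hπ O' π' C M ↔ W1.w b ∈ _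
  rw [t4vr_beta_eq W1 W b, ← h1]
  constructor
  · intro hm
    have := (t4vn_gauss_mid_w C M W hq.out hπ ((mem_t4vOmid O π hπ O' π' C M _).mp hm)).1
    rw [W.w_w] at this
    exact this
  · intro hm
    exact (t4vn_gauss_mid_w C M W hq.out hπ hm).1

/-! ### `O¹_inf ≠ O¹_0` -/

/-- `X¹ = j(𝔮^q) - j^q`, a non-unit of `O¹_inf` and a unit of `O¹_0` -/
def t4vrX1 (L : Type) [Field L] [Algebra ℚ L] (N' q : ℕ) [NeZero N'] [NeZero q] :
    ↥(TaF L (N' * q)) := t2iY L N' q - taJ (N' * q) ^ q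

theorem t4vrX1_mem : t4vrX1 L N' q ∈ taOv O π hπ (N' * q) :=
  sub_mem (taGen_mem_taOv O π hπ (N' * q) (dvd_mul_left q N'))
    (pow_mem (taJ_mem_taOv O π hπ (N' * q)) q)

theorem t4vrX1_res : taResN O π hπ (N' * q) ⟨t4vrX1 L N' q, t4vrX1_mem O π hπ⟩ = 0 := by
  have h1 : (⟨t4vrX1 L N' q, t4vrX1_mem O π hπ⟩ : ↥(taOv O π hπ (N' * q))) =
      ⟨t2iY L N' q, taGen_mem_taOv O π hπ (N' * q) (dvd_mul_left q N')⟩ -
        ⟨taJ (N' * q), taJ_mem_taOv O π hπ (N' * q)⟩ ^ q := rfl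
  rw [h1, map_sub, map_pow, taResN_taJ]
  have h2 : taResN O π hπ (N' * q)
      ⟨t2iY L N' q, taGen_mem_taOv O π hπ (N' * q) (dvd_mul_left q N')⟩ =
      qExpand k q (jqModC k) := taResN_taGen O π hπ (N' * q) (dvd_mul_left q N')
  rw [h2, t2i_jq_pow, sub_self]

theorem t4vr_w_X1 : W1.w (t4vrX1 L N' q) = taJ (N' * q) - t2iY L N' q ^ q := by
  rw [t4vrX1, map_sub, map_pow, W1.w_Y]
  congr 2
  rw [← W1.w_Y, W1.w_w]

theorem t4vrX1_w_mem : W1.w (t4vrX1 L N' q) ∈ taOv O π hπ (N' * q) := by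
  rw [t4vr_w_X1 W1]
  exact sub_mem (taJ_mem_taOv O π hπ (N' * q))
    (pow_mem (taGen_mem_taOv O π hπ (N' * q) (dvd_mul_left q N')) q)

theorem t4vrX1_w_res :
    taResN O π hπ (N' * q) ⟨W1.w (t4vrX1 L N' q), t4vrX1_w_mem O π hπ W1⟩ =
      jqModC k - qExpand k q (qExpand k q (jqModC k)) := by
  have h1 : (⟨W1.w (t4vrX1 L N' q), t4vrX1_w_mem O π hπ W1⟩ : ↥(taOv O π hπ (N' * q))) =
      ⟨taJ (N' * q), taJ_mem_taOv O π hπ (N' * q)⟩ -
        ⟨t2iY L N' q, taGen_mem_taOv O π hπ (N' * q) (dvd_mul_left q N')⟩ ^ q :=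
    Subtype.ext (t4vr_w_X1 W1)
  rw [h1, map_sub, map_pow, taResN_taJ]
  have h2 : taResN O π hπ (N' * q)
      ⟨t2iY L N' q, taGen_mem_taOv O π hπ (N' * q) (dvd_mul_left q N')⟩ =
      qExpand k q (jqModC k) := taResN_taGen O π hπ (N' * q) (dvd_mul_left q N')
  rw [h2, ← map_pow, t2i_jq_pow]

include O π hπ W1 in
theorem t4vrX1_ne_zero : t4vrX1 L N' q ≠ 0 := by
  intro h0
  have h1 := t4vrX1_w_res O π hπ W1 (N' := N') (q := q)
  have h2 : (⟨W1.w (t4vrX1 L N' q), t4vrX1_w_mem O π hπ W1⟩ : ↥(taOv O π hπ (N' * q))) = 0 :=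
    Subtype.ext (by
      show W1.w (t4vrX1 L N' q) = 0
      rw [h0, map_zero])
  rw [h2, map_zero] at h1
  exact t4v_Z_res_ne (sub_eq_zero.mp h1.symm).symm

/-- **`O¹_inf ≠ O¹_0`** -/
theorem t4vO1inf_ne_zero :
    taOv O π hπ (N' * q) ≠ (taOv O π hπ (N' * q)).comap
      (W1.w : ↥(TaF L (N' * q)) →+* ↥(TaF L (N' * q))) := by
  intro h
  have hX0 := t4vrX1_ne_zero O π hπ W1 (N' := N') (q := q)
  have h1 : (t4vrX1 L N' q)⁻¹ ∉ taOv O π hπ (N' * q) :=
    t4vr_inv_notMem_of_res_eq_zero O π hπ (N' * q) hX0 (t4vrX1_mem O π hπ) (t4vrX1_res O π hπ)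
  apply h1
  rw [h, ValuationSubring.mem_comap]
  show W1.w (t4vrX1 L N' q)⁻¹ ∈ _
  rw [map_inv₀]
  apply inv_mem_taOv_of_taResN_ne_zero O π hπ (N' * q) ⟨_, t4vrX1_w_mem O π hπ W1⟩
  rw [t4vrX1_w_res, sub_ne_zero]
  exact fun h2 => t4v_Z_res_ne h2.symm

end Over

end Fermat.Agent.T4
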