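/-
T4-V7 (helper2): **the chart presentations at the lower levels `N'` and `N'q`**.

* generic level `N`: the Gauss valuation ring `taOv O π hπ N` and its conjugates
  `(taOv O π hπ N).comap σ` (`σ` an `L`-automorphism) are discrete valuation rings with uniformiser
  `q` (`t4vw_taOv_dvr`, `t4vw_comap_dvr`, `t4vw_taOv_q`, `t4vw_comap_q`), and satisfy **(tr)**
  (`t4vw_tr_gauss`, `t4vw_tr_comap`).
* level `N` with the single vertical `taOv O π hπ N`: `T4vwHyp0`, `t4vwPres0 : T4Pres (TaF L N)` with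
  `t4vwPres0_vals`, `t4vwPres0_vert`, `mem_t4vwPres0_B`, `mem_t4vwPres0_ov`.
* level `N'q` with the two verticals `t4vwVer1 = {O¹_inf, O¹_0}`, `O¹_inf = taOv O π hπ (N'q)`,
  `O¹_0 = O¹_inf.comap w¹`: `T4vwHyp1`, the Chinese remainder theorem `t4vw_crt1` (from helper5's
  `X¹ = j(𝔮^q) - j^q`), `t4vwPres1 : T4Pres (TaF L (N'q))` with `t4vwPres1_vals`, `t4vwPres1_vert`,
  `mem_t4vwPres1_B`, `mem_t4vwPres1_ov`.
-/
import Fermat.Agent.Lib.T4.Inst.PresCrt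
import Fermat.Agent.Lib.T4.Inst.ValOver
import Fermat.Agent.Lib.T2.Inst.ChartH

set_option autoImplicit false
set_option linter.unusedSectionVars false
set_option linter.unusedVariables false
set_option linter.style.haveILetI false
set_option synthInstance.maxHeartbeats 400000

open HahnSeries ModularCurve Fermat.Agent.T1 Fermat.Agent.T2 IntermediateField

noncomputable section

namespace Fermat.Agent.T4

section Low

variable {L : Type} [Field L] [Algebra ℚ L] (O : ValuationSubring L) {k : Type*} [Field k]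
  (π : ↥O →+* k) [IsDiscreteValuationRing ↥O] (hπ : Function.Surjective π) [IsAlgClosed k]
  {N' q : ℕ} [NeZero N'] [hq : Fact q.Prime] [CharP k q] (hN' : (N' : k) ≠ 0)
  (W1 : T2iAL L N' q) (Fr : T2iFrob k N' q)
  (hqO : Irreducible ((q : ℕ) : ↥O))

attribute [local instance] t2iAlgebra t2i_isScalarTower

/-! ### The Gauss valuation ring of an arbitrary level and its conjugates -/

section Generic

variable (N : ℕ) [NeZero N] (σ : ↥(TaF L N) ≃ₐ[L] ↥(TaF L N))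

theorem t4vwQ_mem : algebraMap L ↥(TaF L N) ((q : ℕ) : L) ∈ taOv O π hπ N :=
  algebraMap_mem_taOv O π hπ N ((q : ℕ) : ↥O)

include hqO in
theorem t4vwQ_res :
    taResN O π hπ N ⟨algebraMap L ↥(TaF L N) ((q : ℕ) : L), t4vwQ_mem O π hπ N⟩ = 0 := by
  have h := taResN_algebraMap O π hπ N ((q : ℕ) : ↥O)
  rw [(ta_pi_eq_zero_iff hπ hqO _).mpr dvd_rfl, map_zero] at h
  exact h

include hqO in
theorem t4vwQ_ne_zero : algebraMap L ↥(TaF L N) ((q : ℕ) : L) ≠ 0 :=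
  (map_ne_zero _).mpr (ta_coe_unif_ne_zero hqO)

include hqO in
theorem t4vwQ_inv_notMem : (algebraMap L ↥(TaF L N) ((q : ℕ) : L))⁻¹ ∉ taOv O π hπ N :=
  t4vr_inv_notMem_of_res_eq_zero O π hπ N (t4vwQ_ne_zero O hqO N) (t4vwQ_mem O π hπ N)
    (t4vwQ_res O π hπ hqO N)

include hqO in
theorem t4vw_taOv_exists_zpow (f : ↥(TaF L N)) (hf : f ≠ 0) :
    ∃ (n : ℤ) (u : ↥(TaF L N)), u ∈ taOv O π hπ N ∧ u⁻¹ ∈ taOv O π hπ N ∧
      f = algebraMap L ↥(TaF L N) ((q : ℕ) : L) ^ n * u :=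
  ta_exists_zpow_mul_unitN O π hπ N hqO f hf

include hqO in
theorem t4vw_taOv_dvr : IsDiscreteValuationRing ↥(taOv O π hπ N) :=
  t4v_dvr_of_zpow _ (t4vwQ_mem O π hπ N) (t4vwQ_inv_notMem O π hπ hqO N)
    (t4vw_taOv_exists_zpow O π hπ hqO N)

include hqO in
theorem t4vw_taOv_q : (taOv O π hπ N).valuation (algebraMap L ↥(TaF L N) ((q : ℕ) : L)) < 1 :=
  t4vs_valuation_lt_one _ (t4vwQ_mem O π hπ N) (t4vwQ_inv_notMem O π hπ hqO N)

theorem t4vw_mem_comap (f : ↥(TaF L N)) :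
    f ∈ (taOv O π hπ N).comap (σ : ↥(TaF L N) →+* ↥(TaF L N)) ↔ σ f ∈ taOv O π hπ N :=
  Iff.rfl

theorem t4vwQ_mem_comap : algebraMap L ↥(TaF L N) ((q : ℕ) : L) ∈
    (taOv O π hπ N).comap (σ : ↥(TaF L N) →+* ↥(TaF L N)) := by
  rw [t4vw_mem_comap, AlgEquiv.commutes]
  exact t4vwQ_mem O π hπ N

include hqO in
theorem t4vwQ_inv_notMem_comap : (algebraMap L ↥(TaF L N) ((q : ℕ) : L))⁻¹ ∉
    (taOv O π hπ N).comap (σ : ↥(TaF L N) →+* ↥(TaF L N)) := by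
  rw [t4vw_mem_comap, map_inv₀, AlgEquiv.commutes]
  exact t4vwQ_inv_notMem O π hπ hqO N

include hqO in
theorem t4vw_comap_exists_zpow (f : ↥(TaF L N)) (hf : f ≠ 0) :
    ∃ (n : ℤ) (u : ↥(TaF L N)), u ∈ (taOv O π hπ N).comap (σ : ↥(TaF L N) →+* ↥(TaF L N)) ∧
      u⁻¹ ∈ (taOv O π hπ N).comap (σ : ↥(TaF L N) →+* ↥(TaF L N)) ∧
      f = algebraMap L ↥(TaF L N) ((q : ℕ) : L) ^ n * u := by
  obtain ⟨n, u, hu, hui, e⟩ := t4vw_taOv_exists_zpow O π hπ hqO N (σ f) ((map_ne_zero _).mpr hf)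
  refine ⟨n, σ.symm u, ?_, ?_, ?_⟩
  · rw [t4vw_mem_comap, AlgEquiv.apply_symm_apply]
    exact hu
  · rw [t4vw_mem_comap, map_inv₀, AlgEquiv.apply_symm_apply]
    exact hui
  · have h := congrArg σ.symm e
    rw [AlgEquiv.symm_apply_apply, map_mul, map_zpow₀, AlgEquiv.commutes] at h
    exact h

include hqO in
theorem t4vw_comap_dvr :
    IsDiscreteValuationRing ↥((taOv O π hπ N).comap (σ : ↥(TaF L N) →+* ↥(TaF L N))) :=
  t4v_dvr_of_zpow _ (t4vwQ_mem_comap O π hπ N σ) (t4vwQ_inv_notMem_comap O π hπ hqO N σ)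
    (t4vw_comap_exists_zpow O π hπ hqO N σ)

include hqO in
theorem t4vw_comap_q : ((taOv O π hπ N).comap (σ : ↥(TaF L N) →+* ↥(TaF L N))).valuation
    (algebraMap L ↥(TaF L N) ((q : ℕ) : L)) < 1 :=
  t4vs_valuation_lt_one _ (t4vwQ_mem_comap O π hπ N σ) (t4vwQ_inv_notMem_comap O π hπ hqO N σ)

/-- **(tr)** at the Gauss valuation of level `N` -/
theorem t4vw_tr_gauss (y : ↥(TaF L N)) (h1 : TaGauss O π (y : LaurentSeries L))
    (t1 : Transcendental k (taRhoFun O π (y : LaurentSeries L)))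
    (P : Polynomial L) (hP : ∀ n, P.coeff n ∈ O) (hu : ∃ n, O.valuation (P.coeff n) = 1) :
    (taOv O π hπ N).valuation (Polynomial.aeval y P) = 1 := by
  obtain ⟨a0, a1, a2⟩ := t4vw_tr_one O π O π (RingHom.id L) (fun a => a.2) (fun a => rfl)
    (algebraMap ↥(TaF L N) (LaurentSeries L))
    (fun c => coe_algebraMap_taF (N := N) c) y h1 t1 P hP hu
  have hne : Polynomial.aeval y P ≠ 0 := fun h0 => a0 (by rw [h0, map_zero])
  refine t4vs_valuation_unit _ hne a1 ?_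
  show TaGauss O π (((Polynomial.aeval y P)⁻¹ : ↥(TaF L N)) : LaurentSeries L)
  have : (((Polynomial.aeval y P)⁻¹ : ↥(TaF L N)) : LaurentSeries L) =
      (algebraMap ↥(TaF L N) (LaurentSeries L) (Polynomial.aeval y P))⁻¹ :=
    map_inv₀ (algebraMap ↥(TaF L N) (LaurentSeries L)) _
  rw [this]
  exact a2

/-- **(tr)** at a conjugate of the Gauss valuation of level `N` -/
theorem t4vw_tr_comap (y : ↥(TaF L N))
    (h3 : TaGauss O π ((σ y : ↥(TaF L N)) : LaurentSeries L))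
    (t3 : Transcendental k (taRhoFun O π ((σ y : ↥(TaF L N)) : LaurentSeries L)))
    (P : Polynomial L) (hP : ∀ n, P.coeff n ∈ O) (hu : ∃ n, O.valuation (P.coeff n) = 1) :
    ((taOv O π hπ N).comap (σ : ↥(TaF L N) →+* ↥(TaF L N))).valuation
      (Polynomial.aeval y P) = 1 := by
  obtain ⟨a0, a1, a2⟩ := t4vw_tr_one O π O π (RingHom.id L) (fun a => a.2) (fun a => rfl)
    ((algebraMap ↥(TaF L N) (LaurentSeries L)).comp (σ : ↥(TaF L N) →+* ↥(TaF L N)))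
    (fun c => by
      show ((σ (algebraMap L ↥(TaF L N) c) : ↥(TaF L N)) : LaurentSeries L) = _
      rw [AlgEquiv.commutes]
      exact coe_algebraMap_taF (N := N) c) y h3 t3 P hP hu
  have hne : Polynomial.aeval y P ≠ 0 := fun h0 => a0 (by rw [h0, map_zero])
  refine t4vs_valuation_unit _ hne a1 ?_
  show TaGauss O π ((σ (Polynomial.aeval y P)⁻¹ : ↥(TaF L N)) : LaurentSeries L)
  have : ((σ (Polynomial.aeval y P)⁻¹ : ↥(TaF L N)) : LaurentSeries L) =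
      (((algebraMap ↥(TaF L N) (LaurentSeries L)).comp
        (σ : ↥(TaF L N) →+* ↥(TaF L N))) (Polynomial.aeval y P))⁻¹ := by
    rw [map_inv₀]
    exact map_inv₀ (algebraMap ↥(TaF L N) (LaurentSeries L)) _
  rw [this]
  exact a2

/-! ### One vertical valuation: the presentation of level `N` -/

/-- the hypotheses on a chart coordinate `y` of level `N` -/
structure T4vwHyp0 (y : ↥(TaF L N)) : Prop where
  gen : Fermat.Agent.Curve.IsFunctionFieldGen L ↥(TaF L N) y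
  g1 : TaGauss O π (y : LaurentSeries L)
  t1 : Transcendental k (taRhoFun O π (y : LaurentSeries L))

variable {O π N}

theorem T4vwHyp0.isSeparable {y : ↥(TaF L N)} (Hy : T4vwHyp0 O π N y) :
    Algebra.IsSeparable ↥L⟮y⟯ ↥(TaF L N) := by
  haveI := Hy.gen.finite
  haveI : CharZero L := algebraRat.charZero L
  exact Algebra.IsAlgebraic.isSeparable_of_perfectField

variable (O π N)

theorem t4vw_crt0 : ∀ V ∈ ({taOv O π hπ N} : Set (ValuationSubring ↥(TaF L N))), ∀ n : ℕ,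
    ∃ e : ↥(TaF L N), (∀ V' ∈ ({taOv O π hπ N} : Set (ValuationSubring ↥(TaF L N))), e ∈ V') ∧
      V.valuation e = 1 ∧ ∀ V' ∈ ({taOv O π hπ N} : Set (ValuationSubring ↥(TaF L N))), V' ≠ V →
        V'.valuation e ≤ V'.valuation (algebraMap L ↥(TaF L N) ((q : ℕ) : L)) ^ n := by
  intro V hV n
  rw [Set.mem_singleton_iff] at hV
  subst hV
  refine ⟨1, fun V' _ => V'.one_mem, map_one _, fun V' hV' hne => ?_⟩
  rw [Set.mem_singleton_iff] at hV'
  exact absurd hV' hne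

variable {O π N hπ}

/-- the presentation data of the chart `y` at level `N` -/
def t4vwData0 {y : ↥(TaF L N)} (Hy : T4vwHyp0 O π N y) : T4vpData ↥(TaF L N) :=
  haveI := Hy.isSeparable
  t4vpChart Hy.gen O ((q : ℕ) : L) (ta_coe_unif_ne_zero hqO)
    ({taOv O π hπ N} : Set (ValuationSubring ↥(TaF L N))) (Set.finite_singleton _)
    (fun V hV => by
      rw [Set.mem_singleton_iff] at hV
      subst hV
      exact t4vw_taOv_dvr O π hπ hqO N)
    (fun V hV => by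
      rw [Set.mem_singleton_iff] at hV
      subst hV
      exact t4vw_taOv_q O π hπ hqO N)
    (t4vw_crt0 O π hπ N)
    (fun P hP hu V hV => by
      rw [Set.mem_singleton_iff] at hV
      subst hV
      exact t4vw_tr_gauss O π hπ N y Hy.g1 Hy.t1 P hP hu)

/-- **the presentation of the chart ring `IntCl(L[y]) ∩ 𝒪_N`** at level `N` -/
def t4vwPres0 {y : ↥(TaF L N)} (Hy : T4vwHyp0 O π N y) : T4Pres ↥(TaF L N) :=
  (t4vwData0 (hπ := hπ) hqO Hy).pres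

variable {y : ↥(TaF L N)} (Hy : T4vwHyp0 O π N y)

theorem t4vwPres0_vals :
    (t4vwPres0 (hπ := hπ) hqO Hy).vals = t4vpHor L y ∪ {taOv O π hπ N} := rfl

theorem t4vwPres0_vert :
    (t4vwPres0 (hπ := hπ) hqO Hy).vert (algebraMap L ↥(TaF L N) ((q : ℕ) : L)) =
      {taOv O π hπ N} :=
  (t4vwData0 (hπ := hπ) hqO Hy).pres_vert

theorem taOv_mem_t4vwPres0_vals : taOv O π hπ N ∈ (t4vwPres0 (hπ := hπ) hqO Hy).vals :=
  Or.inr rfl

theorem mem_t4vwPres0_B (f : ↥(TaF L N)) :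
    f ∈ (t4vwPres0 (hπ := hπ) hqO Hy).B ↔ f ∈ t2Int (K := L) y ∧ f ∈ taOv O π hπ N := by
  haveI := Hy.isSeparable
  have h := mem_t4vpChart_B Hy.gen O ((q : ℕ) : L) (ta_coe_unif_ne_zero hqO)
    ({taOv O π hπ N} : Set (ValuationSubring ↥(TaF L N))) (Set.finite_singleton _)
    (t4vwData0 (hπ := hπ) hqO Hy).ver_dvr (t4vwData0 (hπ := hπ) hqO Hy).q_ver
    (t4vw_crt0 O π hπ N)
    (fun P hP hu V hV => by
      rw [Set.mem_singleton_iff] at hV
      subst hV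
      exact t4vw_tr_gauss O π hπ N y Hy.g1 Hy.t1 P hP hu) f
  refine Iff.trans (show f ∈ (t4vwPres0 (hπ := hπ) hqO Hy).B ↔ f ∈ t2Int (K := L) y ∧
    ∀ V ∈ ({taOv O π hπ N} : Set (ValuationSubring ↥(TaF L N))), f ∈ V from h) ?_
  simp only [Set.mem_singleton_iff, forall_eq]

theorem mem_t4vwPres0_ov (f : ↥(TaF L N)) :
    f ∈ (t4vwPres0 (hπ := hπ) hqO Hy).ov (algebraMap L ↥(TaF L N) ((q : ℕ) : L)) ↔
      f ∈ taOv O π hπ N := by
  have h := (t4vwData0 (hπ := hπ) hqO Hy).mem_pres_ov (f := f)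
  refine Iff.trans (show f ∈ (t4vwPres0 (hπ := hπ) hqO Hy).ov
      (algebraMap L ↥(TaF L N) ((q : ℕ) : L)) ↔
    ∀ V ∈ ({taOv O π hπ N} : Set (ValuationSubring ↥(TaF L N))), f ∈ V from h) ?_
  simp only [Set.mem_singleton_iff, forall_eq]

end Generic

/-! ### Two vertical valuations: the presentation of level `N'q` -/

section Two

/-- the vertical valuation rings of `F1 = F_{N'q}` -/
def t4vwVer1 : Set (ValuationSubring ↥(TaF L (N' * q))) :=
  {taOv O π hπ (N' * q),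
    (taOv O π hπ (N' * q)).comap (W1.w : ↥(TaF L (N' * q)) →+* ↥(TaF L (N' * q)))}

theorem mem_t4vwVer1 (V : ValuationSubring ↥(TaF L (N' * q))) :
    V ∈ t4vwVer1 O π hπ W1 ↔ V = taOv O π hπ (N' * q) ∨
      V = (taOv O π hπ (N' * q)).comap (W1.w : ↥(TaF L (N' * q)) →+* ↥(TaF L (N' * q))) := by
  unfold t4vwVer1
  simp only [Set.mem_insert_iff, Set.mem_singleton_iff]

theorem t4vwVer1_finite : (t4vwVer1 O π hπ W1).Finite := by
  unfold t4vwVer1
  exact Set.toFinite _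

include hqO in
theorem t4vwVer1_dvr : ∀ V ∈ t4vwVer1 O π hπ W1, IsDiscreteValuationRing ↥V := by
  intro V hV
  rcases (mem_t4vwVer1 O π hπ W1 V).mp hV with rfl | rfl
  · exact t4vw_taOv_dvr O π hπ hqO (N' * q)
  · exact t4vw_comap_dvr O π hπ hqO (N' * q) W1.w

include hqO in
theorem t4vwVer1_q : ∀ V ∈ t4vwVer1 O π hπ W1,
    V.valuation (algebraMap L ↥(TaF L (N' * q)) ((q : ℕ) : L)) < 1 := by
  intro V hV
  rcases (mem_t4vwVer1 O π hπ W1 V).mp hV with rfl | rfl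
  · exact t4vw_taOv_q O π hπ hqO (N' * q)
  · exact t4vw_comap_q O π hπ hqO (N' * q) W1.w

/-- `𝒪¹` is the intersection of the two vertical valuation rings -/
theorem mem_Ov1_iff_forall_t4vwVer1 (f : ↥(TaF L (N' * q))) :
    f ∈ (t2iBase2 O π hπ hN' W1 Fr).Ov ↔ ∀ V ∈ t4vwVer1 O π hπ W1, f ∈ V := by
  rw [t2i_mem_Ov_iff]
  constructor
  · rintro ⟨h1, h2⟩ V hV
    rcases (mem_t4vwVer1 O π hπ W1 V).mp hV with rfl | rfl
    · exact h1
    · exact h2
  · intro h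
    exact ⟨h _ ((mem_t4vwVer1 O π hπ W1 _).mpr (Or.inl rfl)),
      h _ ((mem_t4vwVer1 O π hπ W1 _).mpr (Or.inr rfl))⟩

/-- the hypotheses on a chart coordinate `y` of level `N'q` -/
structure T4vwHyp1 (y : ↥(TaF L (N' * q))) : Prop where
  gen : Fermat.Agent.Curve.IsFunctionFieldGen L ↥(TaF L (N' * q)) y
  g1 : TaGauss O π (y : LaurentSeries L)
  t1 : Transcendental k (taRhoFun O π (y : LaurentSeries L))
  g3 : TaGauss O π ((W1.w y : ↥(TaF L (N' * q))) : LaurentSeries L)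
  t3 : Transcendental k (taRhoFun O π ((W1.w y : ↥(TaF L (N' * q))) : LaurentSeries L))

variable {O π W1}

theorem T4vwHyp1.isSeparable {y : ↥(TaF L (N' * q))} (Hy : T4vwHyp1 O π W1 y) :
    Algebra.IsSeparable ↥L⟮y⟯ ↥(TaF L (N' * q)) := by
  haveI := Hy.gen.finite
  haveI : CharZero L := algebraRat.charZero L
  exact Algebra.IsAlgebraic.isSeparable_of_perfectField

variable (O π W1)

include hqO in
/-- **the Chinese remainder theorem for the two vertical valuations of level `N'q`** -/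
theorem t4vw_crt1 : ∀ V ∈ t4vwVer1 O π hπ W1, ∀ n : ℕ, ∃ e : ↥(TaF L (N' * q)),
    (∀ V' ∈ t4vwVer1 O π hπ W1, e ∈ V') ∧ V.valuation e = 1 ∧
    ∀ V' ∈ t4vwVer1 O π hπ W1, V' ≠ V →
      V'.valuation e ≤ V'.valuation (algebraMap L ↥(TaF L (N' * q)) ((q : ℕ) : L)) ^ n := by
  have hX1mem : t4vrX1 L N' q ∈ taOv O π hπ (N' * q) := t4vrX1_mem O π hπ
  have hX1ne : t4vrX1 L N' q ≠ 0 := t4vrX1_ne_zero O π hπ W1
  have hX1inv : (t4vrX1 L N' q)⁻¹ ∉ taOv O π hπ (N' * q) :=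
    t4vr_inv_notMem_of_res_eq_zero O π hπ (N' * q) hX1ne hX1mem (t4vrX1_res O π hπ)
  have hwmem : W1.w (t4vrX1 L N' q) ∈ taOv O π hπ (N' * q) := t4vrX1_w_mem O π hπ W1
  have hwne : W1.w (t4vrX1 L N' q) ≠ 0 := (map_ne_zero _).mpr hX1ne
  have hwinv : (W1.w (t4vrX1 L N' q))⁻¹ ∈ taOv O π hπ (N' * q) := by
    apply inv_mem_taOv_of_taResN_ne_zero O π hπ (N' * q) ⟨_, hwmem⟩
    rw [t4vrX1_w_res]
    exact t4vw_res_ne (k := k) (q := q)
  -- the four valuations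
  have v1 : (taOv O π hπ (N' * q)).valuation (t4vrX1 L N' q) ≤
      (taOv O π hπ (N' * q)).valuation (algebraMap L ↥(TaF L (N' * q)) ((q : ℕ) : L)) :=
    t4vw_val_le_of_decomp _ (t4vwQ_mem O π hπ (N' * q)) (t4vwQ_inv_notMem O π hπ hqO (N' * q))
      (t4vw_taOv_exists_zpow O π hπ hqO (N' * q)) (t4vs_valuation_lt_one _ hX1mem hX1inv)
  have v2 : (taOv O π hπ (N' * q)).valuation (W1.w (t4vrX1 L N' q)) = 1 :=
    t4vs_valuation_unit _ hwne hwmem hwinv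
  have m3 : t4vrX1 L N' q ∈ (taOv O π hπ (N' * q)).comap
      (W1.w : ↥(TaF L (N' * q)) →+* ↥(TaF L (N' * q))) :=
    (t4vw_mem_comap O π hπ (N' * q) W1.w _).mpr hwmem
  have m3i : (t4vrX1 L N' q)⁻¹ ∈ (taOv O π hπ (N' * q)).comap
      (W1.w : ↥(TaF L (N' * q)) →+* ↥(TaF L (N' * q))) := by
    rw [t4vw_mem_comap, map_inv₀]
    exact hwinv
  have v3 : ((taOv O π hπ (N' * q)).comap
      (W1.w : ↥(TaF L (N' * q)) →+* ↥(TaF L (N' * q)))).valuation (t4vrX1 L N' q) = 1 :=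
    t4vs_valuation_unit _ hX1ne m3 m3i
  have m4 : W1.w (t4vrX1 L N' q) ∈ (taOv O π hπ (N' * q)).comap
      (W1.w : ↥(TaF L (N' * q)) →+* ↥(TaF L (N' * q))) := by
    rw [t4vw_mem_comap, W1.w_w]
    exact hX1mem
  have m4i : (W1.w (t4vrX1 L N' q))⁻¹ ∉ (taOv O π hπ (N' * q)).comap
      (W1.w : ↥(TaF L (N' * q)) →+* ↥(TaF L (N' * q))) := by
    rw [t4vw_mem_comap, map_inv₀, W1.w_w]
    exact hX1inv
  have v4 : ((taOv O π hπ (N' * q)).comap
      (W1.w : ↥(TaF L (N' * q)) →+* ↥(TaF L (N' * q)))).valuation (W1.w (t4vrX1 L N' q)) ≤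
      ((taOv O π hπ (N' * q)).comap
        (W1.w : ↥(TaF L (N' * q)) →+* ↥(TaF L (N' * q)))).valuation
        (algebraMap L ↥(TaF L (N' * q)) ((q : ℕ) : L)) :=
    t4vw_val_le_of_decomp _ (t4vwQ_mem_comap O π hπ (N' * q) W1.w)
      (t4vwQ_inv_notMem_comap O π hπ hqO (N' * q) W1.w)
      (t4vw_comap_exists_zpow O π hπ hqO (N' * q) W1.w) (t4vs_valuation_lt_one _ m4 m4i)
  intro V hV n
  rcases (mem_t4vwVer1 O π hπ W1 V).mp hV with rfl | rfl
  · -- `O¹_inf`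
    refine ⟨W1.w (t4vrX1 L N' q) ^ n, fun V' hV' => ?_, ?_, fun V' hV' hne => ?_⟩
    · rcases (mem_t4vwVer1 O π hπ W1 V').mp hV' with rfl | rfl
      · exact pow_mem hwmem n
      · exact pow_mem m4 n
    · rw [map_pow, v2, one_pow]
    · rcases (mem_t4vwVer1 O π hπ W1 V').mp hV' with rfl | rfl
      · exact absurd rfl hne
      · rw [map_pow]
        exact pow_le_pow_left₀ zero_le v4 n
  · -- `O¹_0`
    refine ⟨t4vrX1 L N' q ^ n, fun V' hV' => ?_, ?_, fun V' hV' hne => ?_⟩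
    · rcases (mem_t4vwVer1 O π hπ W1 V').mp hV' with rfl | rfl
      · exact pow_mem hX1mem n
      · exact pow_mem m3 n
    · rw [map_pow, v3, one_pow]
    · rcases (mem_t4vwVer1 O π hπ W1 V').mp hV' with rfl | rfl
      · rw [map_pow]
        exact pow_le_pow_left₀ zero_le v1 n
      · exact absurd rfl hne

/-- **(tr)** at the two vertical valuations of level `N'q` -/
theorem t4vw_tr1 (y : ↥(TaF L (N' * q))) (Hy : T4vwHyp1 O π W1 y)
    (P : Polynomial L) (hP : ∀ n, P.coeff n ∈ O) (hu : ∃ n, O.valuation (P.coeff n) = 1) :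
    ∀ V ∈ t4vwVer1 O π hπ W1, V.valuation (Polynomial.aeval y P) = 1 := by
  intro V hV
  rcases (mem_t4vwVer1 O π hπ W1 V).mp hV with rfl | rfl
  · exact t4vw_tr_gauss O π hπ (N' * q) y Hy.g1 Hy.t1 P hP hu
  · exact t4vw_tr_comap O π hπ (N' * q) W1.w y Hy.g3 Hy.t3 P hP hu

variable {O π hπ W1}

/-- the presentation data of the chart `y` at level `N'q` -/
def t4vwData1 {y : ↥(TaF L (N' * q))} (Hy : T4vwHyp1 O π W1 y) : T4vpData ↥(TaF L (N' * q)) :=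
  haveI := Hy.isSeparable
  t4vpChart Hy.gen O ((q : ℕ) : L) (ta_coe_unif_ne_zero hqO) (t4vwVer1 O π hπ W1)
    (t4vwVer1_finite O π hπ W1) (t4vwVer1_dvr O π hπ W1 hqO) (t4vwVer1_q O π hπ W1 hqO)
    (t4vw_crt1 O π hπ W1 hqO) (t4vw_tr1 O π hπ W1 y Hy)

/-- **the presentation of the chart ring `IntCl(L[y]) ∩ 𝒪¹`** at level `N'q` -/
def t4vwPres1 {y : ↥(TaF L (N' * q))} (Hy : T4vwHyp1 O π W1 y) : T4Pres ↥(TaF L (N' * q)) :=
  (t4vwData1 (hπ := hπ) hqO Hy).pres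

variable {y : ↥(TaF L (N' * q))} (Hy : T4vwHyp1 O π W1 y)

theorem t4vwPres1_vals :
    (t4vwPres1 (hπ := hπ) hqO Hy).vals = t4vpHor L y ∪ t4vwVer1 O π hπ W1 := rfl

theorem t4vwPres1_vert :
    (t4vwPres1 (hπ := hπ) hqO Hy).vert (algebraMap L ↥(TaF L (N' * q)) ((q : ℕ) : L)) =
      t4vwVer1 O π hπ W1 :=
  (t4vwData1 (hπ := hπ) hqO Hy).pres_vert

theorem taOv_mem_t4vwPres1_vals :
    taOv O π hπ (N' * q) ∈ (t4vwPres1 (hπ := hπ) hqO Hy).vals :=
  Or.inr ((mem_t4vwVer1 O π hπ W1 _).mpr (Or.inl rfl))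

theorem comap_mem_t4vwPres1_vals :
    (taOv O π hπ (N' * q)).comap (W1.w : ↥(TaF L (N' * q)) →+* ↥(TaF L (N' * q))) ∈
      (t4vwPres1 (hπ := hπ) hqO Hy).vals :=
  Or.inr ((mem_t4vwVer1 O π hπ W1 _).mpr (Or.inr rfl))

/-- `B¹ = IntCl(L[y]) ∩ 𝒪¹` -/
theorem mem_t4vwPres1_B (hN' : (N' : k) ≠ 0) (Fr : T2iFrob k N' q) (f : ↥(TaF L (N' * q))) :
    f ∈ (t4vwPres1 (hπ := hπ) hqO Hy).B ↔
      f ∈ t2Int (K := L) y ∧ f ∈ (t2iBase2 O π hπ hN' W1 Fr).Ov := by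
  haveI := Hy.isSeparable
  rw [mem_Ov1_iff_forall_t4vwVer1]
  exact mem_t4vpChart_B Hy.gen O ((q : ℕ) : L) (ta_coe_unif_ne_zero hqO) (t4vwVer1 O π hπ W1)
    (t4vwVer1_finite O π hπ W1) (t4vwVer1_dvr O π hπ W1 hqO) (t4vwVer1_q O π hπ W1 hqO)
    (t4vw_crt1 O π hπ W1 hqO) (t4vw_tr1 O π hπ W1 y Hy) f

/-- `ov q = 𝒪¹` -/
theorem mem_t4vwPres1_ov (hN' : (N' : k) ≠ 0) (Fr : T2iFrob k N' q) (f : ↥(TaF L (N' * q))) :
    f ∈ (t4vwPres1 (hπ := hπ) hqO Hy).ov (algebraMap L ↥(TaF L (N' * q)) ((q : ℕ) : L)) ↔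
      f ∈ (t2iBase2 O π hπ hN' W1 Fr).Ov := by
  rw [mem_Ov1_iff_forall_t4vwVer1]
  exact (t4vwData1 (hπ := hπ) hqO Hy).mem_pres_ov

end Two

end Low

end Fermat.Agent.T4
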