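/-
T4-V7 (helper2): the chart ring `B = IntCl(K[x]) ∩ 𝒪` is noetherian.

* `t4vq_isNoetherianRing_of_span` : a subring `B` of a field which is spanned by finitely many elements
  over the image of a noetherian ring `R → B` is noetherian.
* `t4vq_isNoetherianRing` : from `T2Fin d x e` (finiteness of the chart ring over `A[x]`, which
  `t4vc_fin` provides) for a base with noetherian `A`: every subring `B` with
  `f ∈ B ↔ f ∈ t2Int x ∧ f ∈ d.Ov` is noetherian (in particular `P.B` for the chart presentations).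
-/
import Fermat.Agent.Lib.T2.Core.Flat

set_option autoImplicit false
set_option linter.unusedSectionVars false
set_option linter.style.haveILetI false

namespace Fermat.Agent.T4

open Fermat.Agent.T2

/-- a subring of a field spanned by finitely many elements over the image of a noetherian ring is
noetherian -/
theorem t4vq_isNoetherianRing_of_span {R F : Type*} [CommRing R] [IsNoetherianRing R] [Field F]
    (φ : R →+* F) (B : Subring F) (hφ : ∀ r, φ r ∈ B) (S : Finset F) (hS : ∀ s ∈ S, s ∈ B)
    (hgen : ∀ f ∈ B, ∃ c : F → R, f = ∑ s ∈ S, φ (c s) * s) : IsNoetherianRing ↥B := by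
  classical
  letI : Algebra R ↥B := (φ.codRestrict B hφ).toAlgebra
  have hsmul : ∀ (r : R) (b : ↥B), ((r • b : ↥B) : F) = φ r * (b : F) := fun r b => rfl
  have hfin : Module.Finite R ↥B := by
    refine ⟨⟨S.attach.image (fun s => (⟨s.1, hS s.1 s.2⟩ : ↥B)), ?_⟩⟩
    rw [eq_top_iff]
    rintro ⟨f, hf⟩ -
    obtain ⟨c, hc⟩ := hgen f hf
    have h1 : (⟨f, hf⟩ : ↥B) = ∑ s ∈ S.attach, c s.1 • (⟨s.1, hS s.1 s.2⟩ : ↥B) := by
      apply Subtype.ext
      rw [AddSubmonoidClass.coe_finsetSum]
      simp only [hsmul]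
      rw [Finset.sum_attach S (fun s => φ (c s) * s)]
      exact hc
    rw [h1]
    refine Submodule.sum_mem _ (fun s hs => Submodule.smul_mem _ _ (Submodule.subset_span ?_))
    rw [Finset.coe_image]
    exact ⟨s, hs, rfl⟩
  haveI : IsNoetherian R ↥B := isNoetherian_of_isNoetherianRing_of_finite R ↥B
  exact isNoetherian_of_tower R (inferInstance : IsNoetherian R ↥B)

variable {K F k Fb : Type*} [Field K] [Field F] [Algebra K F] [Field k] [CommRing Fb] [Algebra k Fb]

/-- **the chart ring is noetherian** -/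
theorem t4vq_isNoetherianRing (d : T2Base K F k Fb) [IsNoetherianRing ↥d.A] {x : F} {e : ℕ}
    (hfin : T2Fin d x e) (hx : x ∈ d.Ov) (B : Subring F)
    (hB : ∀ f, f ∈ B ↔ f ∈ t2Int (K := K) x ∧ f ∈ d.Ov) : IsNoetherianRing ↥B := by
  obtain ⟨S, hS, hgen⟩ := hfin
  refine t4vq_isNoetherianRing_of_span
    (Polynomial.eval₂RingHom ((algebraMap K F).comp d.A.subtype) x) B ?_ S ?_ ?_
  · intro p
    have hxB : x ∈ B := (hB x).mpr ⟨t2Int_self x, hx⟩
    have hc : ∀ a : ↥d.A, ((algebraMap K F).comp d.A.subtype) a ∈ B := by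
      intro a
      refine (hB _).mpr ⟨?_, d.algebraMap_mem a⟩
      show IsIntegral ↥(Algebra.adjoin K {x}) (algebraMap K F (a : K))
      exact isIntegral_algebraMap (R := ↥(Algebra.adjoin K {x})) (A := F)
        (x := algebraMap K ↥(Algebra.adjoin K {x}) (a : K))
    rw [Polynomial.coe_eval₂RingHom, Polynomial.eval₂_eq_sum_range]
    exact Subring.sum_mem B (fun i _ => B.mul_mem (hc _) (B.pow_mem hxB i))
  · intro s hs
    exact (hB s).mpr (hS s hs).1
  · intro f hf
    obtain ⟨c, hc⟩ := hgen f ((hB f).mp hf)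
    exact ⟨c, hc⟩

end Fermat.Agent.T4
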