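/-
T4-V0 (helper8): the cyclotomic level above the inertia level.

`𝔓` a place of `ℚ̄` over `p`, `ζ` a primitive `p`-th root of unity, `H' = t4cyH 𝔓 ζ` its stabiliser in
the inertia group `𝔓.I`:
* `t4cy_is_one_sub`: `v(1 - ζ) = 1/(p - 1)` (from `p = ∏ (1 - μ)` over the primitive roots);
* `t4cy_index`: `[I : H'] = p - 1`; `t4cy_exists_inertia`: inertia acts transitively on the primitive
  `p`-th roots of unity; `t4cyH_normal`;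
* `t4cy_irreducible`: an element of `O_H` of valuation `1/[I:H]` is a uniformiser;
  `t4cy_irreducible_p`: `p` is a uniformiser of `O_⊤`; `t4cy_irreducible_lam`: `1 - ζ` is a uniformiser
  of `O_{H'}`.
-/
import Fermat.Agent.Lib.T1.Core.InertiaDVR
import Fermat.Agent.Lib.T4.Inst.CycLevel

set_option autoImplicit false
set_option linter.style.haveILetI false
set_option linter.unusedSectionVars false

namespace Fermat.Agent.T4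

noncomputable section

open Fermat.Agent.T1 Fermat.Agent.TW Fermat.Agent.S05Lib Polynomial

local notation "Qb" => AlgebraicClosure ℚ
local notation "GQ" => (AlgebraicClosure ℚ ≃ₐ[ℚ] AlgebraicClosure ℚ)

variable (𝔓 : FFPlace)

/-- `1 - ζ ^ b = (1 - ζ) * s` with `s` integral -/
theorem t4cy_one_sub_pow {ζ : Qb} (hζ : 𝔓.v.Ge ζ 0) (b : ℕ) :
    ∃ s : Qb, 𝔓.v.Ge s 0 ∧ 1 - ζ ^ b = (1 - ζ) * s :=
  ⟨∑ i ∈ Finset.range b, ζ ^ i, 𝔓.ge_zero_sum _ _ (fun i _ => 𝔓.ge_zero_pow hζ i),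
    (mul_neg_geom_sum ζ b).symm⟩

/-- two primitive `n`-th roots of unity: `1 - μ` and `1 - ζ` have the same valuation -/
theorem t4cy_ord_one_sub_eq {n : ℕ} (hn : 1 < n) {ζ μ : Qb} (hζ : IsPrimitiveRoot ζ n)
    (hμ : IsPrimitiveRoot μ n) : 𝔓.v.ord (1 - μ) = 𝔓.v.ord (1 - ζ) := by
  have key : ∀ {ζ μ : Qb}, IsPrimitiveRoot ζ n → IsPrimitiveRoot μ n →
      𝔓.v.ord (1 - ζ) ≤ 𝔓.v.ord (1 - μ) := by
    intro ζ μ hζ hμ
    have hn0 : 0 < n := by omega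
    have hζ0 : 𝔓.v.Is ζ 0 := 𝔓.is_zero_of_pow_eq_one hn0 hζ.pow_eq_one
    haveI : NeZero n := ⟨hn0.ne'⟩
    obtain ⟨b, -, hb⟩ := hζ.eq_pow_of_pow_eq_one hμ.pow_eq_one
    obtain ⟨s, hs, hs'⟩ := t4cy_one_sub_pow 𝔓 hζ0.ge b
    have hμ1 : (1 : Qb) - μ ≠ 0 := sub_ne_zero.mpr (fun h => hμ.ne_one hn h.symm)
    have hζ1 : (1 : Qb) - ζ ≠ 0 := sub_ne_zero.mpr (fun h => hζ.ne_one hn h.symm)
    rw [hb] at hs'
    have h1 := (QVal.is_ord (v := 𝔓.v) hζ1).ge.mul hs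
    rw [← hs', add_zero] at h1
    rcases h1 with h1 | h1
    · exact absurd h1 hμ1
    · exact h1
  exact le_antisymm (key hμ hζ) (key hζ hμ)

/-- `v(1 - ζ) = 1/(p - 1)` for a primitive `p`-th root of unity -/
theorem t4cy_is_one_sub {ζ : Qb} (hζ : IsPrimitiveRoot ζ 𝔓.p) :
    𝔓.v.Is (1 - ζ) (1 / ((𝔓.p : ℚ) - 1)) := by
  haveI : Fact 𝔓.p.Prime := ⟨𝔓.hp⟩
  have hp1 : 1 < 𝔓.p := 𝔓.hp.one_lt
  have hζ1 : (1 : Qb) - ζ ≠ 0 := sub_ne_zero.mpr (fun h => hζ.ne_one hp1 h.symm)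
  have hprod : (𝔓.p : Qb) = ∏ μ ∈ primitiveRoots 𝔓.p Qb, (1 - μ) := by
    have h1 := eval_one_cyclotomic_prime (R := Qb) (p := 𝔓.p)
    rw [cyclotomic_eq_prod_X_sub_primitiveRoots hζ, eval_prod] at h1
    rw [← h1]
    refine Finset.prod_congr rfl (fun μ _ => ?_)
    simp
  have h2 := 𝔓.is_prod (primitiveRoots 𝔓.p Qb) (fun μ => 1 - μ) (fun _ => 𝔓.v.ord (1 - ζ))
    (fun μ hμ => by
      have hμ' : IsPrimitiveRoot μ 𝔓.p := (mem_primitiveRoots 𝔓.hp.pos).mp hμ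
      refine ⟨sub_ne_zero.mpr (fun h => hμ'.ne_one hp1 h.symm), ?_⟩
      exact t4cy_ord_one_sub_eq 𝔓 hp1 hζ hμ')
  rw [← hprod, Finset.sum_const, hζ.card_primitiveRoots, Nat.totient_prime 𝔓.hp, nsmul_eq_mul] at h2
  have h3 := h2.unique 𝔓.is_p
  refine ⟨hζ1, ?_⟩
  have hp1' : (1 : ℚ) < (𝔓.p : ℚ) := by exact_mod_cast hp1
  rw [Nat.cast_sub hp1.le, Nat.cast_one] at h3
  have hne : ((𝔓.p : ℚ) - 1) ≠ 0 := by linarith
  rw [eq_div_iff hne, mul_comm]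
  exact h3

/-- the stabiliser of `ζ` in the inertia group -/
def t4cyH (ζ : Qb) : Subgroup 𝔓.I := MulAction.stabilizer ↥𝔓.I ζ

instance t4cyH_finiteIndex (ζ : Qb) : (t4cyH 𝔓 ζ).FiniteIndex := tb_finiteIndex_stabilizer 𝔓 ζ

theorem mem_t4cyH {ζ : Qb} (σ : 𝔓.I) : σ ∈ t4cyH 𝔓 ζ ↔ ((σ : 𝔓.I) : GQ) ζ = ζ :=
  MulAction.mem_stabilizer_iff

theorem t4cy_mem_tbFix (ζ : Qb) : ζ ∈ tbFix 𝔓 (t4cyH 𝔓 ζ) := by
  rw [mem_tbFix]
  intro σ hσ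
  exact (mem_t4cyH 𝔓 σ).mp hσ

theorem t4cy_orbit_subset {ζ : Qb} (hζ : IsPrimitiveRoot ζ 𝔓.p) :
    MulAction.orbit ↥𝔓.I ζ ⊆ (primitiveRoots 𝔓.p Qb : Set Qb) := by
  rintro _ ⟨σ, rfl⟩
  rw [Finset.mem_coe, mem_primitiveRoots 𝔓.hp.pos]
  exact hζ.map_of_injective (f := ((σ : 𝔓.I) : GQ)) ((σ : 𝔓.I) : GQ).injective

/-- the stabiliser of a primitive `p`-th root of unity has index `p - 1` in the inertia group -/
theorem t4cy_index {ζ : Qb} (hζ : IsPrimitiveRoot ζ 𝔓.p) : (t4cyH 𝔓 ζ).index = 𝔓.p - 1 := by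
  have hp1 : 1 < 𝔓.p := 𝔓.hp.one_lt
  have hp1' : (1 : ℚ) < (𝔓.p : ℚ) := by exact_mod_cast hp1
  refine le_antisymm ?_ ?_
  · unfold t4cyH
    rw [MulAction.index_stabilizer, ← Nat.totient_prime 𝔓.hp, ← hζ.card_primitiveRoots,
      ← Set.ncard_coe_finset]
    exact Set.ncard_le_ncard (t4cy_orbit_subset 𝔓 hζ) (Finset.finite_toSet _)
  · have hz : (⟨1 - ζ, sub_mem (one_mem _) (t4cy_mem_tbFix 𝔓 ζ)⟩ : ↥(tbFix 𝔓 (t4cyH 𝔓 ζ))) ≠ 0 := by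
      intro h
      have := congrArg Subtype.val h
      exact (t4cy_is_one_sub 𝔓 hζ).1 this
    obtain ⟨n, hn⟩ := tb_index_mul_ord 𝔓 (t4cyH 𝔓 ζ) _ hz
    simp only [(t4cy_is_one_sub 𝔓 hζ).2] at hn
    have hne : ((𝔓.p : ℚ) - 1) ≠ 0 := by linarith
    have hn' : ((t4cyH 𝔓 ζ).index : ℚ) = n * ((𝔓.p : ℚ) - 1) := by
      field_simp at hn
      rw [hn, mul_comm]
    have hipos : 0 < (t4cyH 𝔓 ζ).index := tb_index_pos 𝔓 _
    have hnpos : 0 < n := by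
      by_contra hcon
      have h0 : (n : ℚ) ≤ 0 := by exact_mod_cast not_lt.mp hcon
      have h1 : (0 : ℚ) < ((t4cyH 𝔓 ζ).index : ℚ) := by exact_mod_cast hipos
      rw [hn'] at h1
      nlinarith
    have h1 : (1 : ℚ) ≤ n := by exact_mod_cast hnpos
    have h2 : ((𝔓.p : ℚ) - 1) ≤ ((t4cyH 𝔓 ζ).index : ℚ) := by
      rw [hn']
      nlinarith
    have h3 : ((𝔓.p - 1 : ℕ) : ℚ) ≤ ((t4cyH 𝔓 ζ).index : ℚ) := by
      rw [Nat.cast_sub hp1.le, Nat.cast_one]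
      exact h2
    exact_mod_cast h3

/-- inertia acts transitively on the primitive `p`-th roots of unity -/
theorem t4cy_exists_inertia {ζ μ : Qb} (hζ : IsPrimitiveRoot ζ 𝔓.p) (hμ : IsPrimitiveRoot μ 𝔓.p) :
    ∃ σ ∈ 𝔓.I, σ ζ = μ := by
  have hsub := t4cy_orbit_subset 𝔓 hζ
  have hcard : (primitiveRoots 𝔓.p Qb : Set Qb).ncard ≤ (MulAction.orbit ↥𝔓.I ζ).ncard := by
    rw [← MulAction.index_stabilizer]
    have := t4cy_index 𝔓 hζ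
    unfold t4cyH at this
    rw [this, Set.ncard_coe_finset, hζ.card_primitiveRoots, Nat.totient_prime 𝔓.hp]
  have heq := Set.eq_of_subset_of_ncard_le hsub hcard (Finset.finite_toSet _)
  have hμ' : μ ∈ (primitiveRoots 𝔓.p Qb : Set Qb) := by
    rw [Finset.mem_coe, mem_primitiveRoots 𝔓.hp.pos]; exact hμ
  rw [← heq] at hμ'
  obtain ⟨σ, hσ⟩ := hμ'
  exact ⟨σ, σ.2, hσ⟩

/-- an element of `O_H` of valuation `1/[I:H]` is a uniformiser -/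
theorem t4cy_irreducible (H : Subgroup 𝔓.I) [H.FiniteIndex] (ϖ : ↥(tbFixO 𝔓 H))
    (h : 𝔓.v.Is ((ϖ : ↥(tbFix 𝔓 H)) : Qb) (1 / (H.index : ℚ))) : Irreducible ϖ := by
  have hdpos : (0 : ℚ) < (H.index : ℚ) := by exact_mod_cast tb_index_pos 𝔓 H
  -- nonnegative integrality of values
  have hval : ∀ x : ↥(tbFixO 𝔓 H), x ≠ 0 → ∃ n : ℕ,
      (H.index : ℚ) * 𝔓.v.ord ((x : ↥(tbFix 𝔓 H)) : Qb) = n := by
    intro x hx0
    have hx0' : (x : ↥(tbFix 𝔓 H)) ≠ 0 := fun h => hx0 (Subtype.ext h)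
    obtain ⟨n, hn⟩ := tb_index_mul_ord 𝔓 H (x : ↥(tbFix 𝔓 H)) hx0'
    have hge : 𝔓.v.Ge ((x : ↥(tbFix 𝔓 H)) : Qb) 0 := (mem_tbFixO 𝔓 H _).mp x.2
    have hge' : (0 : ℚ) ≤ 𝔓.v.ord ((x : ↥(tbFix 𝔓 H)) : Qb) := by
      rcases hge with h | h
      · exact absurd (Subtype.ext h) hx0'
      · exact h
    have hn0 : (0 : ℤ) ≤ n := by
      have : (0 : ℚ) ≤ (n : ℚ) := by rw [← hn]; positivity
      exact_mod_cast this
    refine ⟨n.toNat, ?_⟩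
    rw [hn]
    have : ((n.toNat : ℕ) : ℤ) = n := Int.toNat_of_nonneg hn0
    exact_mod_cast this.symm
  have hϖ0 : ϖ ≠ 0 := by
    rintro rfl
    exact h.1 rfl
  refine ⟨?_, ?_⟩
  · intro hu
    obtain ⟨b, hb⟩ := isUnit_iff_exists_inv.mp hu
    have hab : ((ϖ : ↥(tbFix 𝔓 H)) : Qb) * ((b : ↥(tbFix 𝔓 H)) : Qb) = 1 := by
      have := congrArg (fun t : ↥(tbFixO 𝔓 H) => ((t : ↥(tbFix 𝔓 H)) : Qb)) hb
      simpa using this
    have hbP : 𝔓.v.Ge ((b : ↥(tbFix 𝔓 H)) : Qb) 0 := (mem_tbFixO 𝔓 H _).mp b.2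
    have h1 := (h.gt (by positivity : (0 : ℚ) < 1 / (H.index : ℚ))).mul_ge hbP
    rw [hab, add_zero] at h1
    exact QVal.is_one.not_gt h1 le_rfl
  · intro a b hab
    have ha0 : a ≠ 0 := by
      rintro rfl
      rw [zero_mul] at hab
      exact hϖ0 hab
    have hb0 : b ≠ 0 := by
      rintro rfl
      rw [mul_zero] at hab
      exact hϖ0 hab
    obtain ⟨na, hna⟩ := hval a ha0
    obtain ⟨nb, hnb⟩ := hval b hb0
    have ha0' : ((a : ↥(tbFix 𝔓 H)) : Qb) ≠ 0 := fun h => ha0 (Subtype.ext (Subtype.ext h))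
    have hb0' : ((b : ↥(tbFix 𝔓 H)) : Qb) ≠ 0 := fun h => hb0 (Subtype.ext (Subtype.ext h))
    have hprod : ((ϖ : ↥(tbFix 𝔓 H)) : Qb) =
        ((a : ↥(tbFix 𝔓 H)) : Qb) * ((b : ↥(tbFix 𝔓 H)) : Qb) := by
      have := congrArg (fun t : ↥(tbFixO 𝔓 H) => ((t : ↥(tbFix 𝔓 H)) : Qb)) hab
      simpa using this
    have hsum : (1 : ℚ) = na + nb := by
      have h1 := ((QVal.is_ord (v := 𝔓.v) ha0').mul (QVal.is_ord (v := 𝔓.v) hb0')).2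
      rw [← hprod, h.2] at h1
      rw [← hna, ← hnb, ← mul_add, ← h1]
      field_simp
    have hsum' : 1 = na + nb := by exact_mod_cast hsum
    have hcase : na = 0 ∨ nb = 0 := by omega
    rcases hcase with h' | h'
    · left
      refine tb_isUnit_of_ord_eq_zero 𝔓 H a ⟨ha0', ?_⟩
      rw [h', Nat.cast_zero] at hna
      rcases mul_eq_zero.mp hna with h'' | h''
      · exact absurd h'' hdpos.ne'
      · exact h''
    · right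
      refine tb_isUnit_of_ord_eq_zero 𝔓 H b ⟨hb0', ?_⟩
      rw [h', Nat.cast_zero] at hnb
      rcases mul_eq_zero.mp hnb with h'' | h''
      · exact absurd h'' hdpos.ne'
      · exact h''

/-- `p` is a uniformiser of `O_⊤` (the inertia level) -/
theorem t4cy_irreducible_p : Irreducible ((𝔓.p : ℕ) : ↥(tbFixO 𝔓 (⊤ : Subgroup 𝔓.I))) := by
  refine t4cy_irreducible 𝔓 ⊤ _ ?_
  have h1 : ((((𝔓.p : ℕ) : ↥(tbFixO 𝔓 (⊤ : Subgroup 𝔓.I))) : ↥(tbFix 𝔓 (⊤ : Subgroup 𝔓.I))) : Qb)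
      = (𝔓.p : Qb) := by
    simp
  rw [h1, Subgroup.index_top, Nat.cast_one, div_one]
  exact 𝔓.is_p

/-- the stabiliser of a primitive `p`-th root of unity is normal in the inertia group -/
theorem t4cyH_normal {ζ : Qb} (hζ : IsPrimitiveRoot ζ 𝔓.p) : (t4cyH 𝔓 ζ).Normal := by
  haveI : NeZero 𝔓.p := ⟨𝔓.hp.ne_zero⟩
  constructor
  intro n hn g
  rw [mem_t4cyH] at hn ⊢
  have hμ : IsPrimitiveRoot (((g⁻¹ : 𝔓.I) : GQ) ζ) 𝔓.p :=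
    hζ.map_of_injective (f := ((g⁻¹ : 𝔓.I) : GQ)) ((g⁻¹ : 𝔓.I) : GQ).injective
  obtain ⟨b, -, hb⟩ := hζ.eq_pow_of_pow_eq_one hμ.pow_eq_one
  simp only [Subgroup.coe_mul, AlgEquiv.mul_apply]
  rw [← hb, map_pow, hn, hb]
  simp only [Subgroup.coe_inv]
  rw [AlgEquiv.aut_inv, AlgEquiv.apply_symm_apply]

/-- `λ = 1 - ζ` is a uniformiser of `O_{H'}`, `H'` the stabiliser of `ζ` -/
theorem t4cy_irreducible_lam {ζ : Qb} (hζ : IsPrimitiveRoot ζ 𝔓.p)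
    (lam : ↥(tbFixO 𝔓 (t4cyH 𝔓 ζ))) (hlam : ((lam : ↥(tbFix 𝔓 (t4cyH 𝔓 ζ))) : Qb) = 1 - ζ) :
    Irreducible lam := by
  refine t4cy_irreducible 𝔓 _ lam ?_
  rw [hlam, t4cy_index 𝔓 hζ, Nat.cast_sub 𝔓.hp.one_lt.le, Nat.cast_one]
  exact t4cy_is_one_sub 𝔓 hζ

end

end Fermat.Agent.T4
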