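/-
T4-V2 (lead), part 5: `w_Q` on the units of the function field over `ℚ̄` (for the Kummer-level statements of
T4-G): `t4wU`, its Galois equivariance `t4wU_sig`, and the analytic dictionary `t4w_fn`
(`DK.fn (w_Q y) = (DK.fn y) ∘ W_Q`).  General `N = N' * Q`, `gcd(Q, N') = 1`; for S36 take `Q := q * q`.
-/
import Mathlib
import Fermat.Agent.Lib.T4.Inst.ALLevel
import Fermat.Agent.Lib.T2.F.AL

set_option autoImplicit false
set_option linter.unusedSectionVars false
set_option linter.unusedVariables false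
set_option linter.style.haveILetI false

open scoped TensorProduct
open Matrix MatrixGroups CongruenceSubgroup Fermat.Agent.T1 ModularCurve Fermat.Agent.S24Lib
  ModularCurve.Period Fermat.Agent.T2

namespace Fermat.Agent.T4

local notation "Kbar" => AlgebraicClosure ℚ
local notation "GQ" => (AlgebraicClosure ℚ ≃ₐ[ℚ] AlgebraicClosure ℚ)

variable (N N' Q : ℕ) [NeZero N] (hN : N = N' * Q) (hcop : Nat.Coprime Q N')

/-- `w_Q` on the units of the function field -/
noncomputable def t4wU : (↥(modularFunctionFieldBar N))ˣ →* (↥(modularFunctionFieldBar N))ˣ :=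
  Units.map ((t4w Kbar N N' Q hN hcop :
    ↥(modularFunctionFieldBar N) ≃ₐ[Kbar] ↥(modularFunctionFieldBar N)) :
    ↥(modularFunctionFieldBar N) →* ↥(modularFunctionFieldBar N))

@[simp] theorem t4wU_coe (y : (↥(modularFunctionFieldBar N))ˣ) :
    ((t4wU N N' Q hN hcop y : (↥(modularFunctionFieldBar N))ˣ) : ↥(modularFunctionFieldBar N))
      = t4w Kbar N N' Q hN hcop (y : ↥(modularFunctionFieldBar N)) :=
  rfl

/-- `w_Q` is an involution on units -/
theorem t4wU_t4wU (y : (↥(modularFunctionFieldBar N))ˣ) :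
    t4wU N N' Q hN hcop (t4wU N N' Q hN hcop y) = y :=
  Units.ext (t4w_t4w Kbar N N' Q hN hcop (y : ↥(modularFunctionFieldBar N)))

/-- `w_Q` commutes with the Galois action -/
theorem t4wU_sig (σ : GQ) (y : (↥(modularFunctionFieldBar N))ˣ) :
    t4wU N N' Q hN hcop (tkrSig N σ y) = tkrSig N σ (t4wU N N' Q hN hcop y) :=
  Units.ext (t4w_comm Kbar N N' Q hN hcop σ (y : ↥(modularFunctionFieldBar N)))

/-- the function of `w_Q y` is the function of `y` composed with the Atkin–Lehner matrix
`W_Q = t2wMat N' Q (t2wA N' Q) (t2wC N' Q)` -/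
theorem t4w_fn (DK : TdmDict Kbar N) (hDK : DK.toMer = KMod.toMer Kbar N)
    (y : ↥(modularFunctionFieldBar N)) :
    DK.fn (t4w Kbar N N' Q hN hcop y) = t4wW N N' Q hN hcop (DK.fn y) := by
  rw [TdmDict.fn_apply, TdmDict.fn_apply, hDK]
  exact t2wEmb_t4w Kbar N N' Q hN hcop y

theorem t4wW_apply (f : tdmMer) :
    t4wW N N' Q hN hcop f
      = tdmComp (Fermat.Agent.S22Lib.intGL (t2wMat N' Q (t2wA N' Q) (t2wC N' Q))
          (t2wMat_det_pos _ _ (t4w_Q_pos N N' Q hN) _ _ (t4w_bezout N' Q hcop)))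
          (Fermat.Agent.S22Lib.intGL_det_pos _ _) f := rfl

end Fermat.Agent.T4
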