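/-
T4-V7 (helper2): the horizontal part of the hypothesis `hroot` of `T4Pres.glue_stepC` /
`T4Pres.exists_datum`.

* `t4vq_hroot_place` : at a place `v` of a function field with `m ∣ ord_v z` there is `t` with
  `t ^ m * z` a unit of `v`.
* `t4vq_hroot_hor` : hence for every horizontal valuation ring `V ∈ t4vpHor K x` of a chart
  (helper8's `PresChart`), given `m ∣ ord_v z` at all places `v` of `F / K`.
* `t4vq_hroot_chart` : the hypothesis `hroot` for a chart presentation `P` with
  `P.vals = t4vpHor K x ∪ ver` and `P.vert q = ver`.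
-/
import Fermat.Agent.Lib.T4.Inst.PresChart

set_option autoImplicit false
set_option linter.unusedSectionVars false
set_option linter.style.haveILetI false

namespace Fermat.Agent.T4

open AlgebraicCurve

variable {K F : Type*} [Field K] [Field F] [Algebra K F]

/-- at a place with `m ∣ ord_v z`, some `t ^ m * z` is a unit -/
theorem t4vq_hroot_place (v : Place K F) {z : F} (hz : z ≠ 0) {m : ℕ}
    (hdiv : (m : ℤ) ∣ v.ord z) : ∃ t : F, v.toValuationSubring.valuation (t ^ m * z) = 1 := by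
  obtain ⟨π, hπ⟩ := IsDiscreteValuationRing.exists_irreducible ↥v.toValuationSubring
  obtain ⟨u, hu⟩ := v.exists_unit_mul_zpow hz hπ
  obtain ⟨c, hc⟩ := hdiv
  have hπF : (π : F) ≠ 0 := by
    simpa [ne_eq, ZeroMemClass.coe_eq_zero] using hπ.ne_zero
  refine ⟨(π : F) ^ (-c), ?_⟩
  have h1 : ((π : F) ^ (-c)) ^ m * z = ((u : ↥v.toValuationSubring) : F) := by
    conv_lhs => rw [hu]
    rw [hc, ← zpow_natCast ((π : F) ^ (-c)) m, ← zpow_mul, mul_left_comm, ← zpow_add₀ hπF]
    have : -c * (m : ℤ) + (m : ℤ) * c = 0 := by ring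
    rw [this, zpow_zero, mul_one]
  rw [h1]
  exact (ValuationSubring.valuation_eq_one_iff _ _).mp u.isUnit

/-- the horizontal valuation rings of a chart -/
theorem t4vq_hroot_hor (x : F) {z : F} (hz : z ≠ 0) {m : ℕ}
    (hdiv : ∀ v : Place K F, (m : ℤ) ∣ v.ord z) (V : ValuationSubring F)
    (hV : V ∈ t4vpHor K x) : ∃ t : F, V.valuation (t ^ m * z) = 1 := by
  obtain ⟨v, rfl, -⟩ := hV
  exact t4vq_hroot_place v hz (hdiv v)

/-- **`hroot` for a chart presentation** -/
theorem t4vq_hroot_chart (P : T4Pres F) (x q : F) (ver : Set (ValuationSubring F))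
    (hvals : P.vals = t4vpHor K x ∪ ver) (hvert : P.vert q = ver) {z : F} (hz : z ≠ 0) {m : ℕ}
    (hdiv : ∀ v : Place K F, (m : ℤ) ∣ v.ord z) :
    ∀ V ∈ P.vals, V ∉ P.vert q → ∃ t : F, V.valuation (t ^ m * z) = 1 := by
  intro V hV hnv
  rw [hvals] at hV
  rw [hvert] at hnv
  rcases hV with hV | hV
  · exact t4vq_hroot_hor x hz hdiv V hV
  · exact absurd hV hnv

end Fermat.Agent.T4
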