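/-
T4-V6 (helper2), part 1: finiteness of the chart ring over a NON-reduced residue ring, and
(Int) along a tower.

* `t4vc_fin` : the copy of `T2.T2sChart.fin` (finiteness of `B₁ = IntCl(K[x]) ∩ 𝒪` over `A[x]`,
  `T2Fin d x e`) in which the hypothesis `IsReduced Fb` (used only for "`𝒪` is integrally closed") is
  replaced by the two statements actually needed: (Int) (`f ∈ 𝒪` integral over `K[x]` ⟹ integral over
  `A[x]`) and (Cl) (`f` integral over `A[x]` ⟹ `f ∈ 𝒪`);
* `t4vc_int_tower` : (Int) for `𝒪 ⊆ F` from (Int) for `𝒪' ⊆ F'` when `𝒪` is integral over `𝒪'` and `𝒪'`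
  is integrally closed (coefficients of the minimal polynomial over `F'`);
* `t4vc_int_of_mem` : (Int) for a chart `x ∈ A[j]` with `j` integral over `A[x]` from (Int) for the
  chart `j`.
-/
import Fermat.Agent.Lib.T2.Core.SemiFin
import Fermat.Agent.Lib.T2.Inst.NodeFin

set_option autoImplicit false
set_option linter.unusedSectionVars false
set_option linter.unusedVariables false
set_option linter.style.haveILetI false
set_option synthInstance.maxHeartbeats 200000

open Polynomial IntermediateField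

noncomputable section

namespace Fermat.Agent.T4

open T2 (T2Base T2sChart T2Fin t2Int t2_exists_inv_pow_mul_mem_t2Int t2Int_mul t2Int_pow_self
  t2c_isIntegral_trans t2c_isIntegral_of_mem_adjoin)

section Fin

variable {K F k Fb : Type*} [Field K] [Field F] [Algebra K F] [Field k] [CommRing Fb] [Algebra k Fb]

attribute [local instance] T2sChart.algKx

/-- **finiteness of the chart ring** from (Int) and (Cl); no hypothesis on the residue ring -/
theorem t4vc_fin {d : T2Base K F k Fb} [IsDiscreteValuationRing ↥d.A] (Ch : T2sChart d)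
    [FiniteDimensional ↥(K⟮Ch.x⟯) F] [Algebra.IsSeparable ↥(K⟮Ch.x⟯) F]
    (hInt : ∀ f : F, f ∈ d.Ov → f ∈ t2Int (K := K) Ch.x →
      IsIntegral ↥(Algebra.adjoin ↥d.A {Ch.x}) f)
    (hCl : ∀ f : F, IsIntegral ↥(Algebra.adjoin ↥d.A {Ch.x}) f → f ∈ d.Ov)
    (hx0 : Ch.x ≠ 0) : ∃ e : ℕ, T2Fin d Ch.x e := by
  classical
  haveI := Ch.ufm_adjoin
  haveI := Ch.isScalarTower_Kx
  haveI := Ch.isFractionRing_Kx
  haveI := Ch.isNoetherianRing_adjoin
  have hfin : Module.Finite ↥(Algebra.adjoin ↥d.A {Ch.x})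
      ↥(integralClosure ↥(Algebra.adjoin ↥d.A {Ch.x}) F) :=
    IsIntegralClosure.finite ↥(Algebra.adjoin ↥d.A {Ch.x}) ↥(K⟮Ch.x⟯) F
      ↥(integralClosure ↥(Algebra.adjoin ↥d.A {Ch.x}) F)
  obtain ⟨S₀, hS₀⟩ := hfin.fg_top
  set S : Finset F := S₀.image
    (fun s : ↥(integralClosure ↥(Algebra.adjoin ↥d.A {Ch.x}) F) => (s : F)) with hS
  have hSint : ∀ s ∈ S, IsIntegral ↥(Algebra.adjoin ↥d.A {Ch.x}) s := by
    intro s hs
    obtain ⟨s', -, rfl⟩ := Finset.mem_image.mp hs
    exact s'.2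
  have hSball : ∀ s ∈ S, s ∈ d.ball (t2Int Ch.x) := by
    intro s hs
    have h1 := hSint s hs
    refine ⟨?_, hCl s h1⟩
    obtain ⟨p, hp, hps⟩ := h1
    refine ⟨p.map Ch.toAdjoinField, hp.map _, ?_⟩
    rw [Polynomial.eval₂_map]
    exact hps
  choose! g hg using fun s (hs : s ∈ S) =>
    t2_exists_inv_pow_mul_mem_t2Int (K := K) hx0 (hSball s hs).1
  refine ⟨S.sup g, S, fun s hs => ⟨hSball s hs, ?_⟩, ?_⟩
  · obtain ⟨c, hc⟩ := Nat.exists_eq_add_of_le (Finset.le_sup (f := g) hs)
    rw [hc, pow_add, mul_comm (_ ^ g s), mul_assoc]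
    exact t2Int_mul (t2Int_pow_self _ _) (hg s hs)
  · intro f hf
    have hfint := hInt f hf.2 hf.1
    have hmem : (⟨f, hfint⟩ : ↥(integralClosure ↥(Algebra.adjoin ↥d.A {Ch.x}) F)) ∈
        Submodule.span ↥(Algebra.adjoin ↥d.A {Ch.x}) (S₀ : Set _) := by
      rw [hS₀]; trivial
    obtain ⟨c, hc⟩ := (Submodule.mem_span_finset (R := ↥(Algebra.adjoin ↥d.A {Ch.x}))).mp hmem
    obtain ⟨-, hc⟩ := hc
    choose P hP using fun a => Ch.exists_aeval_eq a
    have hinj : Set.InjOn (fun s : ↥(integralClosure ↥(Algebra.adjoin ↥d.A {Ch.x}) F) => (s : F))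
        (S₀ : Set _) := fun _ _ _ _ h => Subtype.ext h
    refine ⟨fun t => if ht : ∃ s' ∈ S₀, ((s' : ↥(integralClosure ↥(Algebra.adjoin ↥d.A {Ch.x}) F)) : F)
      = t then P (c ht.choose) else 0, ?_⟩
    have h1 := congrArg (fun z : ↥(integralClosure ↥(Algebra.adjoin ↥d.A {Ch.x}) F) => (z : F)) hc
    simp only at h1
    rw [← h1, hS, Finset.sum_image hinj]
    rw [AddSubmonoidClass.coe_finsetSum]
    refine Finset.sum_congr rfl fun s hs => ?_
    have hsS : ∃ s' ∈ S₀, ((s' : ↥(integralClosure ↥(Algebra.adjoin ↥d.A {Ch.x}) F)) : F) = (s : F) :=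
      ⟨s, hs, rfl⟩
    have h2 : hsS.choose = s := Subtype.ext hsS.choose_spec.2
    show ((c s • s : ↥(integralClosure ↥(Algebra.adjoin ↥d.A {Ch.x}) F)) : F) =
      d.evalA Ch.x (if ht : ∃ s' ∈ S₀,
        ((s' : ↥(integralClosure ↥(Algebra.adjoin ↥d.A {Ch.x}) F)) : F) = (s : F)
        then P (c ht.choose) else 0) * (s : F)
    rw [dif_pos hsS, h2, Ch.evalA_eq, hP]
    rfl

end Fin

/-! ### (Int) along a tower -/

section Tower


variable {R F' F : Type*} [CommRing R] [Field F'] [Field F] [Algebra R F'] [Algebra R F]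
  [Algebra F' F] [IsScalarTower R F' F]

/-- the restriction of `F' → F` to `R[x'] → R[φ x']` -/
def t4vcAdjMap (x' : F') :
    ↥(Algebra.adjoin R {x'}) →+* ↥(Algebra.adjoin R {algebraMap F' F x'}) :=
  ((algebraMap F' F).comp (algebraMap ↥(Algebra.adjoin R {x'}) F')).codRestrict
    (Algebra.adjoin R {algebraMap F' F x'}) (by
      intro a
      have h1 : (Algebra.adjoin R {x'}).map (IsScalarTower.toAlgHom R F' F) =
          Algebra.adjoin R {algebraMap F' F x'} := by
        rw [AlgHom.map_adjoin, Set.image_singleton]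
        rfl
      rw [← h1]
      exact ⟨(a : F'), a.2, rfl⟩)

theorem coe_t4vcAdjMap (x' : F') (a : ↥(Algebra.adjoin R {x'})) :
    ((t4vcAdjMap (R := R) (F := F) x' a : ↥(Algebra.adjoin R {algebraMap F' F x'})) : F) =
      algebraMap F' F (a : F') := rfl

theorem t4vcAdjMap_surjective (x' : F') :
    Function.Surjective (t4vcAdjMap (R := R) (F := F) x') := by
  intro b
  have h1 : (Algebra.adjoin R {x'}).map (IsScalarTower.toAlgHom R F' F) =
      Algebra.adjoin R {algebraMap F' F x'} := by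
    rw [AlgHom.map_adjoin, Set.image_singleton]
    rfl
  have hb : (b : F) ∈ (Algebra.adjoin R {x'}).map (IsScalarTower.toAlgHom R F' F) := by
    rw [h1]; exact b.2
  obtain ⟨a, ha, hab⟩ := hb
  exact ⟨⟨a, ha⟩, Subtype.ext hab⟩

/-- integrality over `R[φ x'] ⊆ F` ⟹ integrality over `R[x'] ⊆ F'` (acting through `F' → F`) -/
theorem t4vc_isIntegralElem_of_isIntegral (x' : F') {f : F}
    (hf : IsIntegral ↥(Algebra.adjoin R {algebraMap F' F x'}) f) :
    ((algebraMap F' F).comp (algebraMap ↥(Algebra.adjoin R {x'}) F')).IsIntegralElem f := by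
  obtain ⟨p₀, hp₀, hpf⟩ := hf
  have hl : p₀ ∈ Polynomial.lifts (t4vcAdjMap (R := R) (F := F) x') := by
    rw [Polynomial.lifts_iff_coeff_lifts]
    intro i
    exact t4vcAdjMap_surjective x' _
  obtain ⟨q, hq, -, hqm⟩ := Polynomial.lifts_and_natDegree_eq_and_monic hl hp₀
  refine ⟨q, hqm, ?_⟩
  have hcomp : (algebraMap F' F).comp (algebraMap ↥(Algebra.adjoin R {x'}) F') =
      (algebraMap ↥(Algebra.adjoin R {algebraMap F' F x'}) F).comp
        (t4vcAdjMap (R := R) (F := F) x') := rfl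
  rw [hcomp, ← Polynomial.eval₂_map, hq]
  exact hpf

/-- integrality over `R[x'] ⊆ F'` (acting through `F' → F`) ⟹ integrality over `R[φ x'] ⊆ F` -/
theorem t4vc_isIntegral_of_isIntegralElem (x' : F') {f : F}
    (hf : ((algebraMap F' F).comp (algebraMap ↥(Algebra.adjoin R {x'}) F')).IsIntegralElem f) :
    IsIntegral ↥(Algebra.adjoin R {algebraMap F' F x'}) f := by
  obtain ⟨q, hq, hqf⟩ := hf
  refine ⟨q.map (t4vcAdjMap (R := R) (F := F) x'), hq.map _, ?_⟩
  rw [Polynomial.eval₂_map]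
  exact hqf

theorem t4vc_isIntegral_coeff_minpoly {S : Type*} [CommRing S] [Algebra S F'] {f : F}
    (hf : ((algebraMap F' F).comp (algebraMap S F')).IsIntegralElem f) (i : ℕ) :
    IsIntegral S ((minpoly F' f).coeff i) := by
  obtain ⟨p, hp, hpf⟩ := hf
  have hfF' : IsIntegral F' f := by
    refine ⟨p.map (algebraMap S F'), hp.map _, ?_⟩
    rw [Polynomial.eval₂_map]
    exact hpf
  refine Polynomial.isIntegral_coeff_of_dvd p (minpoly F' f) hp (minpoly.monic hfF') ?_ i
  apply minpoly.dvd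
  rw [Polynomial.aeval_def, Polynomial.eval₂_map]
  exact hpf

/-- an element of `F` whose minimal polynomial over `F'` has coefficients integral over `S → F'` is
integral over `S` (acting through `F'`) -/
theorem t4vc_isIntegralElem_of_coeff_minpoly {S : Type*} [CommRing S] [Algebra S F'] {f : F}
    (hfF' : IsIntegral F' f) (hc : ∀ i, IsIntegral S ((minpoly F' f).coeff i)) :
    ((algebraMap F' F).comp (algebraMap S F')).IsIntegralElem f := by
  letI : Algebra S F := ((algebraMap F' F).comp (algebraMap S F')).toAlgebra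
  haveI : IsScalarTower S F' F := IsScalarTower.of_algebraMap_eq (fun _ => rfl)
  have h : IsIntegral S f := by
    refine IsIntegral.of_aeval_monic_of_isIntegral_coeff
      (p := (minpoly F' f).map (algebraMap F' F)) ((minpoly.monic hfF').map _) ?_ ?_ ?_
    · rw [(minpoly.monic hfF').natDegree_map]
      exact (minpoly.natDegree_pos hfF').ne'
    · rw [Polynomial.eval_map, ← Polynomial.aeval_def, minpoly.aeval]
      exact isIntegral_zero
    · intro i
      rw [Polynomial.coeff_map]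
      exact (hc i).algebraMap
  exact h

end Tower

section TowerMain

variable {K F' F : Type*} [Field K] [Field F'] [Field F] [Algebra K F'] [Algebra K F] [Algebra F' F]
  [IsScalarTower K F' F]

/-- **(Int) along a tower**: if `𝒪' ⊆ F'` is a valuation ring satisfying (Int) for the chart `x'`,
then every element of `F` which is integral over `𝒪'` and over `K[x']` is integral over `A[x']` -/
theorem t4vc_int_tower (A : ValuationSubring K) (Ov' : ValuationSubring F') (x' : F')
    (hInt' : ∀ g : F', g ∈ Ov' → IsIntegral ↥(Algebra.adjoin K {x'}) g →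
      IsIntegral ↥(Algebra.adjoin ↥A {x'}) g)
    {f : F} (hf' : ((algebraMap F' F).comp Ov'.subtype).IsIntegralElem f)
    (hf : IsIntegral ↥(Algebra.adjoin K {algebraMap F' F x'}) f) :
    IsIntegral ↥(Algebra.adjoin ↥A {algebraMap F' F x'}) f := by
  have hfF' : IsIntegral F' f := by
    obtain ⟨p, hp, hpf⟩ := hf'
    refine ⟨p.map Ov'.subtype, hp.map _, ?_⟩
    rw [Polynomial.eval₂_map]
    exact hpf
  have h1 : ∀ i, (minpoly F' f).coeff i ∈ Ov' := by
    intro i
    have h := t4vc_isIntegral_coeff_minpoly (S := ↥Ov') (F' := F') (F := F) (f := f) hf' i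
    obtain ⟨y, hy⟩ := (IsIntegrallyClosed.isIntegral_iff (R := ↥Ov') (K := F')).mp h
    rw [← hy]
    exact y.2
  have h2 : ∀ i, IsIntegral ↥(Algebra.adjoin K {x'}) ((minpoly F' f).coeff i) := fun i =>
    t4vc_isIntegral_coeff_minpoly (t4vc_isIntegralElem_of_isIntegral (R := K) x' hf) i
  have h3 : ∀ i, IsIntegral ↥(Algebra.adjoin ↥A {x'}) ((minpoly F' f).coeff i) := fun i =>
    hInt' _ (h1 i) (h2 i)
  exact t4vc_isIntegral_of_isIntegralElem (R := ↥A) x'
    (t4vc_isIntegralElem_of_coeff_minpoly hfF' h3)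

end TowerMain

/-! ### Change of chart -/

section ChartChange

variable {K F' : Type*} [Field K] [Field F'] [Algebra K F']

/-- `A[j] ⊆ K[j]` -/
theorem t4vc_adjoin_le_adjoin (A : ValuationSubring K) (j : F') :
    ((Algebra.adjoin ↥A {j} : Subalgebra ↥A F') : Set F') ⊆ (Algebra.adjoin K {j} : Subalgebra K F') := by
  have h : Algebra.adjoin ↥A {j} ≤ (Algebra.adjoin K {j}).restrictScalars ↥A :=
    Algebra.adjoin_le (by
      intro y hy
      rw [Set.mem_singleton_iff] at hy
      rw [hy]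
      exact Algebra.self_mem_adjoin_singleton K j)
  exact h

/-- **(Int) for a chart `x ∈ A[j]` with `j` integral over `A[x]`**, from (Int) for the chart `j` -/
theorem t4vc_int_of_mem (A : ValuationSubring K) {j x : F'} (hx : x ∈ Algebra.adjoin ↥A {j})
    (hj : IsIntegral ↥(Algebra.adjoin ↥A {x}) j) {g : F'}
    (hIntj : IsIntegral ↥(Algebra.adjoin K {j}) g → IsIntegral ↥(Algebra.adjoin ↥A {j}) g)
    (hg : IsIntegral ↥(Algebra.adjoin K {x}) g) : IsIntegral ↥(Algebra.adjoin ↥A {x}) g := by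
  have hxK : x ∈ Algebra.adjoin K {j} := t4vc_adjoin_le_adjoin A j hx
  exact t2c_isIntegral_trans hj (hIntj (t2c_isIntegral_of_mem_adjoin hxK hg))

/-- `j` is integral over `A[j^Q - j]` -/
theorem t4vc_isIntegral_pow_sub (A : ValuationSubring K) (j : F') {Q : ℕ} (hQ : 2 ≤ Q) :
    IsIntegral ↥(Algebra.adjoin ↥A {j ^ Q - j}) j := by
  set R := Algebra.adjoin ↥A {j ^ Q - j} with hR
  let xR : ↥R := ⟨j ^ Q - j, Algebra.self_mem_adjoin_singleton ↥A _⟩
  refine ⟨X ^ Q - X - C xR, ?_, ?_⟩
  · have h1 : (X ^ Q - X - C xR : (↥R)[X]) = X ^ Q - (X + C xR) := by ring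
    rw [h1]
    apply Polynomial.monic_X_pow_sub
    refine lt_of_le_of_lt (Polynomial.degree_X_add_C _).le ?_
    exact_mod_cast (by omega : 1 < Q)
  · simp only [Polynomial.eval₂_sub, Polynomial.eval₂_pow, Polynomial.eval₂_X, Polynomial.eval₂_C]
    show j ^ Q - j - (j ^ Q - j) = 0
    ring

theorem t4vc_pow_sub_mem (A : ValuationSubring K) (j : F') (Q : ℕ) :
    j ^ Q - j ∈ Algebra.adjoin ↥A {j} :=
  Subalgebra.sub_mem _ (Subalgebra.pow_mem _ (Algebra.self_mem_adjoin_singleton _ _) _)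
    (Algebra.self_mem_adjoin_singleton _ _)

end ChartChange

end Fermat.Agent.T4
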