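/-
T4-V7 (helper2), on top of helper8's `PresBuild`/`PresChart`: the relation `T4PresOver P1 P`
between chart presentations along a field embedding `F₁ → F`.

* `t4vq_isIntegral_of_forall` : an algebraic element of `F` which is integral over every valuation
  ring of the presentation `P1` (acting through `F₁ → F`) is integral over `P1.B` (the coefficients
  of its minimal polynomial lie in every valuation ring).
* `t4vq_presOver` : `T4PresOver P1 P` from `B₁ → B` and integrality of `B` over every valuation ring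
  of `P1`.
* `t4vq_isIntegralElem_hor` / `t4vq_isIntegralElem_ver` : integrality over a horizontal valuation ring
  (one containing `K[x₁]`; from `x` integral over `K[φ x₁]`) resp. over a vertical one (one containing
  `𝒪₁`; from `𝒪` integral over `𝒪₁`).
* `t4vq_presOver_chart` : `T4PresOver P1 P` for `P1.B = IntCl(K[x₁]) ∩ 𝒪₁`, `P.B = IntCl(K[x]) ∩ 𝒪`,
  from: `x` and `φ x₁` integral over each other's polynomial rings over `K`, `φ 𝒪₁ ⊆ 𝒪`, `𝒪` integral
  over `𝒪₁`.
-/
import Fermat.Agent.Lib.T4.Local.Norm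
import Fermat.Agent.Lib.T4.Inst.ChartFin
import Fermat.Agent.Lib.T4.Inst.PresChart

set_option autoImplicit false
set_option linter.unusedSectionVars false
set_option linter.style.haveILetI false

namespace Fermat.Agent.T4

open Fermat.Agent.T2

section Abstract

variable {F1 F : Type*} [Field F1] [Field F] [Algebra F1 F]

/-- an algebraic element of `F` which is integral over every valuation ring of the presentation
`P1` is integral over `P1.B` -/
theorem t4vq_isIntegral_of_forall (P1 : T4Pres F1) {b : F} (halg : IsIntegral F1 b)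
    (h : ∀ V ∈ P1.vals, ((algebraMap F1 F).comp V.subtype).IsIntegralElem b) :
    IsIntegral ↥P1.B b := by
  have hc : ∀ i, (minpoly F1 b).coeff i ∈ P1.B := by
    intro i
    rw [P1.mem_iff]
    intro V hV
    have h1 := t4vc_isIntegral_coeff_minpoly (S := ↥V) (F' := F1) (F := F) (f := b) (h V hV) i
    obtain ⟨y, hy⟩ := (IsIntegrallyClosed.isIntegral_iff (R := ↥V) (K := F1)).mp h1
    rw [← hy]
    exact y.2
  have h2 : ∀ i, IsIntegral ↥P1.B ((minpoly F1 b).coeff i) := fun i =>
    (isIntegral_algebraMap (R := ↥P1.B) (A := F1) (x := ⟨_, hc i⟩))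
  exact t4vc_isIntegralElem_of_coeff_minpoly (S := ↥P1.B) halg h2

/-- `T4PresOver P1 P` from `B₁ → B` and integrality of `B` over every valuation ring of `P1` -/
theorem t4vq_presOver (P1 : T4Pres F1) (P : T4Pres F)
    (hmap : ∀ b ∈ P1.B, algebraMap F1 F b ∈ P.B)
    (halg : ∀ b ∈ P.B, IsIntegral F1 b)
    (hint : ∀ V ∈ P1.vals, ∀ b ∈ P.B, ((algebraMap F1 F).comp V.subtype).IsIntegralElem b) :
    T4PresOver P1 P where
  map_mem := hmap
  integral := fun b hb => t4vq_isIntegral_of_forall P1 (halg b hb) (fun V hV => hint V hV b hb)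

/-- vertical part: an element integral over a subring `𝒪₁` is integral over every valuation ring
containing `𝒪₁` -/
theorem t4vq_isIntegralElem_ver (O1 : Subring F1) (V : ValuationSubring F1)
    (hOV : ∀ f ∈ O1, f ∈ V) {b : F}
    (hb : ((algebraMap F1 F).comp O1.subtype).IsIntegralElem b) :
    ((algebraMap F1 F).comp V.subtype).IsIntegralElem b := by
  obtain ⟨p, hp, hpb⟩ := hb
  let ι : ↥O1 →+* ↥V := (O1.subtype).codRestrict V.toSubring (fun f => hOV f f.2)
  refine ⟨p.map ι, hp.map ι, ?_⟩
  rw [Polynomial.eval₂_map]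
  exact hpb

end Abstract

section Chart

variable {K F1 F : Type*} [Field K] [Field F1] [Field F] [Algebra K F1] [Algebra K F]
  [Algebra F1 F] [IsScalarTower K F1 F]

/-- horizontal part: if `x` is integral over `K[φ x₁]`, then every function integral over `K[x]` is
integral over every valuation ring of `F₁` containing `K[x₁]` -/
theorem t4vq_isIntegralElem_hor {x1 : F1} {x : F}
    (hx : IsIntegral ↥(Algebra.adjoin K {algebraMap F1 F x1}) x)
    (V : ValuationSubring F1) (hKV : ∀ c : K, algebraMap K F1 c ∈ V) (hxV : x1 ∈ V) {b : F}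
    (hb : b ∈ t2Int (K := K) x) :
    ((algebraMap F1 F).comp V.subtype).IsIntegralElem b := by
  have h1 : IsIntegral ↥(Algebra.adjoin K {algebraMap F1 F x1}) b := t2c_isIntegral_trans hx hb
  obtain ⟨p, hp, hpb⟩ := t4vc_isIntegralElem_of_isIntegral (R := K) x1 h1
  let VA : Subalgebra K F1 := { V.toSubring with algebraMap_mem' := hKV }
  have hle : Algebra.adjoin K {x1} ≤ VA := Algebra.adjoin_le (by
    intro y hy
    rw [Set.mem_singleton_iff] at hy
    rw [hy]
    exact hxV)
  let ι : ↥(Algebra.adjoin K {x1}) →+* ↥V :=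
    (algebraMap ↥(Algebra.adjoin K {x1}) F1).codRestrict V.toSubring (fun f => hle f.2)
  refine ⟨p.map ι, hp.map ι, ?_⟩
  rw [Polynomial.eval₂_map]
  exact hpb

/-- the image of a function integral over `K[x₁]` is integral over `K[x]`, if `φ x₁` is -/
theorem t4vq_map_mem_t2Int {x1 : F1} {x : F}
    (hx' : IsIntegral ↥(Algebra.adjoin K {x}) (algebraMap F1 F x1)) {f : F1}
    (hf : f ∈ t2Int (K := K) x1) : algebraMap F1 F f ∈ t2Int (K := K) x :=
  t2c_isIntegral_trans hx' (t2d_isIntegral_map (RingHom.id K) (algebraMap F1 F)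
    (fun c => (IsScalarTower.algebraMap_apply K F1 F c).symm) hf)

/-- **`T4PresOver` for chart presentations** -/
theorem t4vq_presOver_chart (P1 : T4Pres F1) (P : T4Pres F) {x1 : F1} {x : F}
    (O1 : Subring F1) (O : Subring F)
    (hB1 : ∀ f, f ∈ P1.B ↔ f ∈ t2Int (K := K) x1 ∧ f ∈ O1)
    (hB : ∀ f, f ∈ P.B ↔ f ∈ t2Int (K := K) x ∧ f ∈ O)
    (hvals : ∀ V ∈ P1.vals, ((∀ c : K, algebraMap K F1 c ∈ V) ∧ x1 ∈ V) ∨ (∀ f ∈ O1, f ∈ V))
    (hx : IsIntegral ↥(Algebra.adjoin K {algebraMap F1 F x1}) x)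
    (hx' : IsIntegral ↥(Algebra.adjoin K {x}) (algebraMap F1 F x1))
    (hOmap : ∀ f ∈ O1, algebraMap F1 F f ∈ O)
    (hOint : ∀ b ∈ O, ((algebraMap F1 F).comp O1.subtype).IsIntegralElem b)
    (halg : ∀ b ∈ P.B, IsIntegral F1 b) : T4PresOver P1 P := by
  refine t4vq_presOver P1 P ?_ halg ?_
  · intro b hb
    rw [hB1] at hb
    rw [hB]
    exact ⟨t4vq_map_mem_t2Int hx' hb.1, hOmap b hb.2⟩
  · intro V hV b hb
    rw [hB] at hb
    rcases hvals V hV with ⟨hKV, hxV⟩ | hOV
    · exact t4vq_isIntegralElem_hor hx V hKV hxV hb.1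
    · exact t4vq_isIntegralElem_ver O1 V hOV (hOint b hb.2)

end Chart

end Fermat.Agent.T4
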