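/-
T4-V5 (helper7), explicit form: the norms `N_α, N_β : F → F1` (`F1 = TaF L (N' q)`,
`F = TaF L (N' q q)`) as products over explicit embeddings into `L'((𝔮))`.

* `t4vn_norm_eq_prod_of_injective`: the norm is the product over `[F : K]` distinct `K`-embeddings
  into any field;
* `t4vn_ringHom_ext`, `t4vn_ringHom_ext_ab`: ring homomorphisms out of `TaF L N` are determined by
  their values on constants and the `j(𝔮^d)`; out of `TaF L (N' q)` by their values on `α F'`, `β F'`.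
* `t4vn_normA_eq_prod`: `(N_α y)(𝔮) = y(𝔮) · ∏_{1 ≤ b < q} τ_b(ι_mid y)` in `L'((𝔮))`
  (`N_α = Algebra.norm F1` for the local instance `t2iAlgebra L (N' q) q`);
* `t4vn_normB_eq_prod`: `(N_β y)(𝔮^q) = ∏_{b < q} y(ζ^b 𝔮)` in `L'((𝔮))`
  (`N_β = Algebra.norm F1` for `t4vnAlgB = (heckeBetaBar L (N' q) q).toRingHom.toAlgebra`);
* `t4vnNormA`, `t4vnNormB : F →* F1`, `t4vn_w_normA : w¹ (N_α y) = N_β (w y)`, `t4vn_finrank_B`.
-/
import Mathlib
import Fermat.Agent.Lib.T4.Inst.Mid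
import Fermat.Prelude.Thm_ModularCurve_coeff_jqModC_neg_one

set_option autoImplicit false
set_option linter.unusedSectionVars false
set_option linter.unusedVariables false
set_option linter.style.haveILetI false
set_option synthInstance.maxHeartbeats 400000

open HahnSeries ModularCurve Fermat.Agent.T1 Fermat.Agent.T2

noncomputable section

namespace Fermat.Agent.T4

/-! ### The norm as a product over embeddings -/

/-- the norm as a product over `[F : K]` distinct embeddings into an arbitrary field -/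
theorem t4vn_norm_eq_prod_of_injective {K F E : Type*} [Field K] [Field F] [Field E] [Algebra K F]
    [Algebra K E] [FiniteDimensional K F] [Algebra.IsSeparable K F] {ι : Type*} [Fintype ι]
    (σ : ι → (F →ₐ[K] E)) (hσ : Function.Injective σ)
    (hcard : Fintype.card ι = Module.finrank K F) (x : F) :
    algebraMap K E (Algebra.norm K x) = ∏ i, σ i x := by
  classical
  let Ē := AlgebraicClosure E
  let j : E →ₐ[K] Ē := IsScalarTower.toAlgHom K E Ē
  have hj : Function.Injective j := (algebraMap E Ē).injective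
  let σ' : ι → (F →ₐ[K] Ē) := fun i => j.comp (σ i)
  have hσ' : Function.Injective σ' := by
    intro a b hab
    apply hσ
    ext y
    apply hj
    exact DFunLike.congr_fun hab y
  have hbij : Function.Bijective σ' := by
    rw [Fintype.bijective_iff_injective_and_card]
    refine ⟨hσ', ?_⟩
    rw [hcard, AlgHom.card]
  have h := Algebra.norm_eq_prod_embeddings K Ē x
  apply hj
  rw [map_prod]
  have h2 : j (algebraMap K E (Algebra.norm K x)) = algebraMap K Ē (Algebra.norm K x) :=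
    j.commutes _
  rw [h2, h]
  exact (Fintype.prod_bijective σ' hbij (fun i => j (σ i x)) (fun τ => τ x) (fun i => rfl)).symm

/-! ### Ring homomorphisms out of the function fields -/

section Ext

variable (L : Type*) [Field L] [Algebra ℚ L]

/-- the generator `j(𝔮^d)` of `TaF L N`, `d ∣ N` -/
def t4vnJd (N : ℕ) [NeZero N] (d : ℕ) [NeZero d] (hd : d ∣ N) : ↥(TaF L N) :=
  ⟨qExpand L d (jqModC L), by
    show _ ∈ laurentBaseChange L (modularFunctionFieldFull N)
    rw [tbi_laurentBaseChange_full]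
    exact jqModCd_mem_full L N hd⟩

@[simp] theorem coe_t4vnJd (N : ℕ) [NeZero N] (d : ℕ) [NeZero d] (hd : d ∣ N) :
    ((t4vnJd L N d hd : ↥(TaF L N)) : LaurentSeries L) = qExpand L d (jqModC L) := rfl

/-- two ring homomorphisms from `TaF L N` to a division ring agreeing on the constants and on the
generators `j(𝔮^d)` are equal (universe polymorphic version of `t2w_ringHom_ext`) -/
theorem t4vn_ringHom_ext (N : ℕ) [NeZero N] {R : Type*} [DivisionRing R]
    (φ ψ : ↥(TaF L N) →+* R)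
    (hc : ∀ c : L, φ (algebraMap L _ c) = ψ (algebraMap L _ c))
    (hg : ∀ (d : ℕ) [NeZero d] (hd : d ∣ N), φ (t4vnJd L N d hd) = ψ (t4vnJd L N d hd)) :
    φ = ψ := by
  ext x
  obtain ⟨x, hx⟩ := x
  have hE : TaF L N = IntermediateField.adjoin L (divisorExpansionsC L N) :=
    tbi_laurentBaseChange_full L N
  have hx' : x ∈ IntermediateField.adjoin L (divisorExpansionsC L N) := hE ▸ hx
  suffices H : ∀ y : LaurentSeries L, y ∈ IntermediateField.adjoin L (divisorExpansionsC L N) →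
      ∀ h : y ∈ TaF L N, φ ⟨y, h⟩ = ψ ⟨y, h⟩ from H x hx' hx
  intro y hy
  induction hy using IntermediateField.adjoin_induction with
  | mem y hy =>
    obtain ⟨d, hd0, hd, rfl⟩ := hy
    intro h
    exact hg d hd
  | algebraMap c =>
    intro h
    exact hc c
  | add x y hx hy ihx ihy =>
    intro h
    have hx0 : x ∈ TaF L N := hE ▸ hx
    have hy0 : y ∈ TaF L N := hE ▸ hy
    have : (⟨x + y, h⟩ : ↥(TaF L N)) = ⟨x, hx0⟩ + ⟨y, hy0⟩ := rfl
    rw [this, map_add, map_add, ihx hx0, ihy hy0]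
  | inv x hx ihx =>
    intro h
    have hx0 : x ∈ TaF L N := hE ▸ hx
    have : (⟨x⁻¹, h⟩ : ↥(TaF L N)) = (⟨x, hx0⟩ : ↥(TaF L N))⁻¹ := rfl
    rw [this, map_inv₀, map_inv₀, ihx hx0]
  | mul x y hx hy ihx ihy =>
    intro h
    have hx0 : x ∈ TaF L N := hE ▸ hx
    have hy0 : y ∈ TaF L N := hE ▸ hy
    have : (⟨x * y, h⟩ : ↥(TaF L N)) = ⟨x, hx0⟩ * ⟨y, hy0⟩ := rfl
    rw [this, map_mul, map_mul, ihx hx0, ihy hy0]

/-- two ring homomorphisms from `TaF L (N' q)` (`q` prime) to a division ring agreeing on the images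
of the two degeneracy maps are equal -/
theorem t4vn_ringHom_ext_ab (N' q : ℕ) [NeZero N'] [NeZero q] (hq : q.Prime) {R : Type*}
    [DivisionRing R] (φ ψ : ↥(TaF L (N' * q)) →+* R)
    (hα : ∀ f : ↥(TaF L N'), φ (heckeAlphaBar L N' q f) = ψ (heckeAlphaBar L N' q f))
    (hβ : ∀ f : ↥(TaF L N'), φ (heckeBetaBar L N' q f) = ψ (heckeBetaBar L N' q f)) : φ = ψ := by
  apply t4vn_ringHom_ext
  · intro c
    have h1 : algebraMap L ↥(TaF L (N' * q)) c
        = heckeAlphaBar L N' q (algebraMap L ↥(TaF L N') c) :=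
      ((heckeAlphaBar L N' q).commutes c).symm
    rw [h1]
    exact hα _
  · intro d _ hd
    by_cases hqd : q ∣ d
    · obtain ⟨d', rfl⟩ := hqd
      have hd'0 : d' ≠ 0 := by
        rintro rfl
        exact NeZero.ne (q * 0) (mul_zero q)
      haveI : NeZero d' := ⟨hd'0⟩
      have hd' : d' ∣ N' := by
        rw [mul_comm N' q] at hd
        exact Nat.dvd_of_mul_dvd_mul_left hq.pos hd
      have h1 : t4vnJd L (N' * q) (q * d') hd = heckeBetaBar L N' q (t4vnJd L N' d' hd') := by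
        apply Subtype.ext
        rw [coe_heckeBetaBar, coe_t4vnJd, coe_t4vnJd, qExpand_qExpand]
      rw [h1]
      exact hβ _
    · have hd' : d ∣ N' := (Nat.Coprime.dvd_mul_right
        ((Nat.Prime.coprime_iff_not_dvd hq).mpr hqd).symm).mp hd
      have h1 : t4vnJd L (N' * q) d hd = heckeAlphaBar L N' q (t4vnJd L N' d hd') := by
        apply Subtype.ext
        rw [coe_heckeAlphaBar, coe_t4vnJd, coe_t4vnJd]
      rw [h1]
      exact hα _

end Ext

/-! ### The `α`-norm -/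

section Alpha

variable {L L' : Type*} [Field L] [Algebra ℚ L] [Field L'] [Algebra L L'] {N' q : ℕ}
  [NeZero N'] [NeZero q] {ζ : L'ˣ} (M : T4iMid L L' N' q ζ)

/-- coefficient extension `TaF L N ⊆ L((𝔮)) → L'((𝔮))` -/
def t4vnInc (L' : Type*) [Field L'] [Algebra L L'] (N : ℕ) : ↥(TaF L N) →+* LaurentSeries L' :=
  (coeffMap (algebraMap L L')).comp (TaF L N).toSubring.subtype

@[simp] theorem t4vnInc_apply (N : ℕ) (f : ↥(TaF L N)) :
    t4vnInc L' N f = coeffMap (algebraMap L L') (f : LaurentSeries L) := rfl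

theorem t4vn_coeffMap_algEquiv (φ : L' ≃ₐ[L] L') (x : LaurentSeries L) :
    coeffMap (φ : L' →+* L') (coeffMap (algebraMap L L') x) = coeffMap (algebraMap L L') x := by
  rw [coeffMap_coeffMap]
  apply coeffMap_congr
  ext c
  exact φ.commutes c

/-- on `F1 ⊆ F` the middle embedding is the coefficient extension (also after a Galois twist of
the coefficients) -/
theorem t4vn_mid_alpha (hq : q.Prime) (φ : L' ≃ₐ[L] L') (g : ↥(TaF L (N' * q))) :
    coeffMap (φ : L' →+* L') (M.ι (heckeAlphaBar L (N' * q) q g)) = t4vnInc L' (N' * q) g := by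
  have key : ((coeffMap (φ : L' →+* L')).comp
        (M.ι.comp (heckeAlphaBar L (N' * q) q).toRingHom) : ↥(TaF L (N' * q)) →+* LaurentSeries L')
      = t4vnInc L' (N' * q) := by
    apply t4vn_ringHom_ext_ab L N' q hq
    · intro f
      show coeffMap (φ : L' →+* L') (M.ι (heckeAlphaBar L (N' * q) q (heckeAlphaBar L N' q f))) = _
      rw [M.ι_aa, t4vn_coeffMap_algEquiv, t4vnInc_apply, coe_heckeAlphaBar]
    · intro f
      show coeffMap (φ : L' →+* L') (M.ι (heckeAlphaBar L (N' * q) q (heckeBetaBar L N' q f))) = _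
      rw [M.ι_ab, t4vn_coeffMap_algEquiv, t4vnInc_apply, coe_heckeBetaBar]
  exact RingHom.congr_fun key g

/-- the `TaF L N`-algebra structure of `L'((𝔮))` (a local instance) -/
@[reducible] def t4vnAlgE (L' : Type*) [Field L'] [Algebra L L'] (N : ℕ) :
    Algebra ↥(TaF L N) (LaurentSeries L') :=
  (t4vnInc L' N).toAlgebra

attribute [local instance] t2iAlgebra t4vnAlgE

/-- the embedding at `∞` as an `F1`-algebra homomorphism -/
def t4vnEmbInf (L' : Type*) [Field L'] [Algebra L L'] (N' q : ℕ) [NeZero N'] [NeZero q] :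
    ↥(TaF L (N' * q * q)) →ₐ[↥(TaF L (N' * q))] LaurentSeries L' :=
  { t4vnInc L' (N' * q * q) with
    commutes' := fun g => by
      show coeffMap (algebraMap L L')
          ((algebraMap ↥(TaF L (N' * q)) ↥(TaF L (N' * q * q)) g : ↥(TaF L (N' * q * q))) :
            LaurentSeries L) = _
      rw [coe_t2i_algebraMap]
      rfl }

@[simp] theorem t4vnEmbInf_apply (y : ↥(TaF L (N' * q * q))) :
    t4vnEmbInf L' N' q y = coeffMap (algebraMap L L') (y : LaurentSeries L) := rfl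

/-- the middle embedding, twisted by an automorphism of the coefficients, as an `F1`-algebra
homomorphism -/
def t4vnEmbMid (hq : q.Prime) (φ : L' ≃ₐ[L] L') :
    ↥(TaF L (N' * q * q)) →ₐ[↥(TaF L (N' * q))] LaurentSeries L' :=
  { (coeffMap (φ : L' →+* L')).comp M.ι with
    commutes' := fun g => t4vn_mid_alpha M hq φ g }

@[simp] theorem t4vnEmbMid_apply (hq : q.Prime) (φ : L' ≃ₐ[L] L') (y : ↥(TaF L (N' * q * q))) :
    t4vnEmbMid M hq φ y = coeffMap (φ : L' →+* L') (M.ι y) := rfl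

/-- the element `Z = a2 j = j(𝔮^{q²})` of `F` -/
def t4vnZ (L : Type*) [Field L] [Algebra ℚ L] (N' q : ℕ) [NeZero N'] [NeZero q] :
    ↥(TaF L (N' * q * q)) :=
  t4vA2 L N' q (t4vnJd L N' 1 (one_dvd N'))

theorem coe_t4vnJd_one (L : Type*) [Field L] [Algebra ℚ L] (N' : ℕ) [NeZero N'] :
    ((t4vnJd L N' 1 (one_dvd N') : ↥(TaF L N')) : LaurentSeries L) = jqModC L := by
  rw [coe_t4vnJd, qExpand_one_apply]

theorem t4vnEmbInf_Z_coeff (hq : q.Prime) :
    (t4vnEmbInf L' N' q (t4vnZ L N' q)).coeff (-1) = 0 := by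
  rw [t4vnEmbInf_apply, coeffMap_coeff, t4vnZ, coe_t4vA2,
    qExpand_coeff_of_not_dvd, map_zero]
  intro hdvd
  have h1 : ((q : ℤ)) ∣ 1 := (dvd_neg).mp hdvd
  have h2 : (q : ℤ) = 1 := by
    have hq0 : (0 : ℤ) ≤ q := Int.natCast_nonneg q
    exact Int.eq_one_of_dvd_one hq0 h1
  have : q = 1 := by exact_mod_cast h2
  exact hq.one_lt.ne' this

theorem t4vnEmbMid_Z_coeff (hq : q.Prime) (φ : L' ≃ₐ[L] L') :
    (t4vnEmbMid M hq φ (t4vnZ L N' q)).coeff (-1)
      = ((Units.map ((φ : L' →+* L') : L' →* L') ζ)⁻¹ : L'ˣ) := by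
  rw [t4vnEmbMid_apply, t4vnZ, M.ι_a2, coeffMap_t4vSig, t4vn_coeffMap_algEquiv, t4vSig_coeff,
    coeffMap_coeff, coe_t4vnJd_one, ModularCurve.coeff_jqModC_neg_one, map_one, mul_one, zpow_neg_one]

variable (τ : ℕ → (L' ≃ₐ[L] L'))

/-- the `q` embeddings of `F` over `F1` for the `α`-structure: the embedding at `∞` (`b = 0`) and
the Galois twists of the middle embedding (`1 ≤ b < q`) -/
def t4vnEmbA (hq : q.Prime) (b : ℕ) :
    ↥(TaF L (N' * q * q)) →ₐ[↥(TaF L (N' * q))] LaurentSeries L' :=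
  if b = 0 then t4vnEmbInf L' N' q else t4vnEmbMid M hq (τ b)

theorem t4vnEmbA_zero (hq : q.Prime) : t4vnEmbA M τ hq 0 = t4vnEmbInf L' N' q := if_pos rfl

theorem t4vnEmbA_of_ne_zero (hq : q.Prime) {b : ℕ} (hb : b ≠ 0) :
    t4vnEmbA M τ hq b = t4vnEmbMid M hq (τ b) := if_neg hb

theorem t4vn_pow_inj (hq : q.Prime) (hζq : ζ ^ q = 1) (hζ1 : ζ ≠ 1) {b b' : ℕ} (hb : b < q)
    (hb' : b' < q) (h : ζ ^ b = ζ ^ b') : b = b' := by
  haveI : Fact q.Prime := ⟨hq⟩
  have hord : orderOf ζ = q := orderOf_eq_prime hζq hζ1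
  apply pow_injOn_Iio_orderOf (x := ζ)
  · rw [hord]; exact hb
  · rw [hord]; exact hb'
  · exact h

theorem t4vnEmbA_injOn (hq : q.Prime) (hτ : ∀ b : ℕ, ¬ q ∣ b → τ b (ζ : L') = (ζ : L') ^ b)
    (hζq : ζ ^ q = 1) (hζ1 : ζ ≠ 1) {b b' : ℕ} (hb : b < q) (hb' : b' < q)
    (h : t4vnEmbA M τ hq b = t4vnEmbA M τ hq b') : b = b' := by
  have hZ : (t4vnEmbA M τ hq b (t4vnZ L N' q)).coeff (-1)
      = (t4vnEmbA M τ hq b' (t4vnZ L N' q)).coeff (-1) := by rw [h]
  have hndvd : ∀ {c : ℕ}, c ≠ 0 → c < q → ¬ q ∣ c := fun hc0 hcq hdvd =>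
    absurd (Nat.le_of_dvd (Nat.pos_of_ne_zero hc0) hdvd) (not_le.mpr hcq)
  by_cases hb0 : b = 0
  · by_cases hb'0 : b' = 0
    · rw [hb0, hb'0]
    · exfalso
      rw [hb0, t4vnEmbA_zero, t4vnEmbA_of_ne_zero M τ hq hb'0, t4vnEmbInf_Z_coeff hq,
        t4vnEmbMid_Z_coeff] at hZ
      exact (Units.ne_zero _) hZ.symm
  · by_cases hb'0 : b' = 0
    · exfalso
      rw [hb'0, t4vnEmbA_zero, t4vnEmbA_of_ne_zero M τ hq hb0, t4vnEmbInf_Z_coeff hq,
        t4vnEmbMid_Z_coeff] at hZ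
      exact (Units.ne_zero _) hZ
    · rw [t4vnEmbA_of_ne_zero M τ hq hb0, t4vnEmbA_of_ne_zero M τ hq hb'0, t4vnEmbMid_Z_coeff,
        t4vnEmbMid_Z_coeff] at hZ
      have h1 : Units.map (((τ b : L' ≃ₐ[L] L') : L' →+* L') : L' →* L') ζ
          = Units.map (((τ b' : L' ≃ₐ[L] L') : L' →+* L') : L' →* L') ζ :=
        inv_injective (Units.ext hZ)
      have h2 : τ b (ζ : L') = τ b' (ζ : L') := congrArg Units.val h1
      rw [hτ b (hndvd hb0 hb), hτ b' (hndvd hb'0 hb')] at h2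
      apply t4vn_pow_inj hq hζq hζ1 hb hb'
      apply Units.ext
      rw [Units.val_pow_eq_pow_val, Units.val_pow_eq_pow_val]
      exact h2

/-- **the `α`-norm as a product over the embeddings**:
`(N_α y)(𝔮) = ι_inf(y) · ∏_{1 ≤ b < q} τ_b(ι_mid y)` in `L'((𝔮))` -/
theorem t4vn_normA_eq_prod (hq : q.Prime) (hτ : ∀ b : ℕ, ¬ q ∣ b → τ b (ζ : L') = (ζ : L') ^ b)
    (hζq : ζ ^ q = 1) (hζ1 : ζ ≠ 1)
    (hdeg : Module.finrank ↥(TaF L (N' * q)) ↥(TaF L (N' * q * q)) = q)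
    (y : ↥(TaF L (N' * q * q))) :
    t4vnInc L' (N' * q) (Algebra.norm ↥(TaF L (N' * q)) y)
      = t4vnInc L' (N' * q * q) y
        * ∏ b ∈ Finset.Ico 1 q, coeffMap ((τ b : L' ≃ₐ[L] L') : L' →+* L') (M.ι y) := by
  haveI : FiniteDimensional ↥(TaF L (N' * q)) ↥(TaF L (N' * q * q)) :=
    Module.finite_of_finrank_pos (by rw [hdeg]; exact hq.pos)
  haveI : CharZero L := charZero_of_injective_algebraMap (algebraMap ℚ L).injective
  haveI : CharZero ↥(TaF L (N' * q)) :=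
    charZero_of_injective_algebraMap (algebraMap L ↥(TaF L (N' * q))).injective
  have hinj : Function.Injective (fun i : Fin q => t4vnEmbA M τ hq (i : ℕ)) := by
    intro i i' hii'
    exact Fin.ext (t4vnEmbA_injOn M τ hq hτ hζq hζ1 i.2 i'.2 hii')
  have h := t4vn_norm_eq_prod_of_injective (fun i : Fin q => t4vnEmbA M τ hq (i : ℕ)) hinj
    (by rw [Fintype.card_fin, hdeg]) y
  rw [Fin.prod_univ_eq_prod_range (fun b => t4vnEmbA M τ hq b y) q, Finset.range_eq_Ico,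
    Finset.prod_eq_prod_Ico_succ_bot hq.pos, t4vnEmbA_zero] at h
  rw [show t4vnInc L' (N' * q) (Algebra.norm ↥(TaF L (N' * q)) y)
      = algebraMap ↥(TaF L (N' * q)) (LaurentSeries L') (Algebra.norm ↥(TaF L (N' * q)) y) from rfl,
    h]
  congr 1
  apply Finset.prod_congr rfl
  intro b hb
  rw [Finset.mem_Ico] at hb
  rw [t4vnEmbA_of_ne_zero M τ hq (by omega)]
  rfl

end Alpha

/-! ### The `β`-norm -/

section Beta

variable {L L' : Type*} [Field L] [Algebra ℚ L] [Field L'] [Algebra L L'] {N' q : ℕ}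
  [NeZero N'] [NeZero q] (ζ : L'ˣ)

/-- the `β`-structure of `F` over `F1`: `g ↦ g(𝔮^q)` -/
@[reducible] def t4vnAlgB (L : Type*) [Field L] [Algebra ℚ L] (N' q : ℕ) [NeZero N'] [NeZero q] :
    Algebra ↥(TaF L (N' * q)) ↥(TaF L (N' * q * q)) :=
  (heckeBetaBar L (N' * q) q).toRingHom.toAlgebra

/-- the `F1`-algebra structure of `L'((𝔮))` for the `β`-structure -/
@[reducible] def t4vnAlgEB (L' : Type*) [Field L'] [Algebra L L'] (N' q : ℕ) [NeZero N']
    [NeZero q] : Algebra ↥(TaF L (N' * q)) (LaurentSeries L') :=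
  ((t4vnInc L' (N' * q * q)).comp (heckeBetaBar L (N' * q) q).toRingHom).toAlgebra

attribute [local instance] t4vnAlgB t4vnAlgEB

/-- the embeddings `y ↦ y(ζ^b 𝔮)` of `F` over `β(F1)` -/
def t4vnEmbB (hζq : ζ ^ q = 1) (b : ℕ) :
    ↥(TaF L (N' * q * q)) →ₐ[↥(TaF L (N' * q))] LaurentSeries L' :=
  { (t4vSig (ζ ^ b)).comp (t4vnInc L' (N' * q * q)) with
    commutes' := fun g => by
      show t4vSig (ζ ^ b) (coeffMap (algebraMap L L')
          ((heckeBetaBar L (N' * q) q g : ↥(TaF L (N' * q * q))) : LaurentSeries L))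
        = coeffMap (algebraMap L L')
          ((heckeBetaBar L (N' * q) q g : ↥(TaF L (N' * q * q))) : LaurentSeries L)
      rw [coe_heckeBetaBar, coeffMap_qExpand]
      apply t4vSig_qExpand_of_pow_eq_one
      rw [← pow_mul, mul_comm, pow_mul, hζq, one_pow] }

@[simp] theorem t4vnEmbB_apply (hζq : ζ ^ q = 1) (b : ℕ) (y : ↥(TaF L (N' * q * q))) :
    t4vnEmbB ζ hζq b y = t4vSig (ζ ^ b) (coeffMap (algebraMap L L') (y : LaurentSeries L)) := rfl

theorem t4vnEmbB_A0_coeff (hζq : ζ ^ q = 1) (b : ℕ) :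
    (t4vnEmbB ζ hζq b (t4vA0 L N' q (t4vnJd L N' 1 (one_dvd N')))).coeff (-1)
      = (((ζ ^ b)⁻¹ : L'ˣ) : L') := by
  rw [t4vnEmbB_apply, coe_t4vA0, t4vSig_coeff, coeffMap_coeff, coe_t4vnJd_one,
    ModularCurve.coeff_jqModC_neg_one, map_one, mul_one, zpow_neg_one]

theorem t4vnEmbB_injOn (hq : q.Prime) (hζq : ζ ^ q = 1) (hζ1 : ζ ≠ 1) {b b' : ℕ} (hb : b < q)
    (hb' : b' < q) (h : t4vnEmbB (L := L) (N' := N') ζ hζq b = t4vnEmbB ζ hζq b') : b = b' := by
  have hZ : (t4vnEmbB ζ hζq b (t4vA0 L N' q (t4vnJd L N' 1 (one_dvd N')))).coeff (-1)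
      = (t4vnEmbB ζ hζq b' (t4vA0 L N' q (t4vnJd L N' 1 (one_dvd N')))).coeff (-1) := by rw [h]
  rw [t4vnEmbB_A0_coeff, t4vnEmbB_A0_coeff] at hZ
  exact t4vn_pow_inj hq hζq hζ1 hb hb' (inv_injective (Units.ext hZ))

/-- **the `β`-norm as a product over the embeddings**:
`(N_β y)(𝔮^q) = ∏_{0 ≤ b < q} y(ζ^b 𝔮)` in `L'((𝔮))` -/
theorem t4vn_normB_eq_prod (hq : q.Prime) (hζq : ζ ^ q = 1) (hζ1 : ζ ≠ 1)
    (hdeg : Module.finrank ↥(TaF L (N' * q)) ↥(TaF L (N' * q * q)) = q)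
    (y : ↥(TaF L (N' * q * q))) :
    t4vnInc L' (N' * q * q)
        (heckeBetaBar L (N' * q) q (Algebra.norm ↥(TaF L (N' * q)) y))
      = ∏ b ∈ Finset.range q,
          t4vSig (ζ ^ b) (coeffMap (algebraMap L L') (y : LaurentSeries L)) := by
  haveI : FiniteDimensional ↥(TaF L (N' * q)) ↥(TaF L (N' * q * q)) :=
    Module.finite_of_finrank_pos (by rw [hdeg]; exact hq.pos)
  haveI : CharZero L := charZero_of_injective_algebraMap (algebraMap ℚ L).injective
  haveI : CharZero ↥(TaF L (N' * q)) :=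
    charZero_of_injective_algebraMap (algebraMap L ↥(TaF L (N' * q))).injective
  have hinj : Function.Injective
      (fun i : Fin q => t4vnEmbB (L := L) (N' := N') ζ hζq (i : ℕ)) := by
    intro i i' hii'
    exact Fin.ext (t4vnEmbB_injOn ζ hq hζq hζ1 i.2 i'.2 hii')
  have h := t4vn_norm_eq_prod_of_injective
    (fun i : Fin q => t4vnEmbB (L := L) (N' := N') ζ hζq (i : ℕ)) hinj
    (by rw [Fintype.card_fin, hdeg]) y
  rw [Fin.prod_univ_eq_prod_range (fun b => t4vnEmbB (L := L) (N' := N') ζ hζq b y) q] at h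
  exact h

end Beta

/-! ### The two norms are conjugate under the Atkin–Lehner involutions -/

section AL

variable {L : Type*} [Field L] [Algebra ℚ L] {N' q : ℕ} [NeZero N'] [NeZero q]
  (W : T4iAL L N' q) (W1 : T2iAL L N' q)

/-- `N_α : F → F1`, the norm for the inclusion `F1 ⊆ F` -/
def t4vnNormA (L : Type*) [Field L] [Algebra ℚ L] (N' q : ℕ) [NeZero N'] [NeZero q] :
    ↥(TaF L (N' * q * q)) →* ↥(TaF L (N' * q)) :=
  @Algebra.norm ↥(TaF L (N' * q)) ↥(TaF L (N' * q * q)) _ _ (t2iAlgebra L (N' * q) q)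

/-- `N_β : F → F1`, the norm for the embedding `g ↦ g(𝔮^q)` of `F1` in `F` -/
def t4vnNormB (L : Type*) [Field L] [Algebra ℚ L] (N' q : ℕ) [NeZero N'] [NeZero q] :
    ↥(TaF L (N' * q * q)) →* ↥(TaF L (N' * q)) :=
  @Algebra.norm ↥(TaF L (N' * q)) ↥(TaF L (N' * q * q)) _ _ (t4vnAlgB L N' q)

/-- `w ∘ α₂ = β₂ ∘ w¹` -/
theorem t4vn_w_alpha (hq : q.Prime) (g : ↥(TaF L (N' * q))) :
    W.w (heckeAlphaBar L (N' * q) q g) = heckeBetaBar L (N' * q) q (W1.w g) := by
  have key : ((W.w : ↥(TaF L (N' * q * q)) ≃ₐ[L] ↥(TaF L (N' * q * q))) :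
        ↥(TaF L (N' * q * q)) →+* ↥(TaF L (N' * q * q))).comp
        (heckeAlphaBar L (N' * q) q).toRingHom
      = (heckeBetaBar L (N' * q) q).toRingHom.comp
        ((W1.w : ↥(TaF L (N' * q)) ≃ₐ[L] ↥(TaF L (N' * q))) :
          ↥(TaF L (N' * q)) →+* ↥(TaF L (N' * q))) := by
    apply t4vn_ringHom_ext_ab L N' q hq
    · intro f
      show W.w (heckeAlphaBar L (N' * q) q (heckeAlphaBar L N' q f))
        = heckeBetaBar L (N' * q) q (W1.w (heckeAlphaBar L N' q f))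
      rw [W.w_aa, W1.w_alpha]
    · intro f
      show W.w (heckeAlphaBar L (N' * q) q (heckeBetaBar L N' q f))
        = heckeBetaBar L (N' * q) q (W1.w (heckeBetaBar L N' q f))
      rw [W.w_ab, W1.w_beta, t4w_alpha_beta]
  exact RingHom.congr_fun key g

/-- **`w¹ (N_α y) = N_β (w y)`** -/
theorem t4vn_w_normA (hq : q.Prime) (y : ↥(TaF L (N' * q * q))) :
    W1.w (t4vnNormA L N' q y) = t4vnNormB L N' q (W.w y) := by
  have he : RingHom.comp (@algebraMap ↥(TaF L (N' * q)) ↥(TaF L (N' * q * q)) _ _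
        (t4vnAlgB L N' q)) ((W1.w.toRingEquiv : ↥(TaF L (N' * q)) ≃+* ↥(TaF L (N' * q))) :
          ↥(TaF L (N' * q)) →+* ↥(TaF L (N' * q)))
      = RingHom.comp ((W.w.toRingEquiv : ↥(TaF L (N' * q * q)) ≃+* ↥(TaF L (N' * q * q))) :
          ↥(TaF L (N' * q * q)) →+* ↥(TaF L (N' * q * q)))
        (@algebraMap ↥(TaF L (N' * q)) ↥(TaF L (N' * q * q)) _ _ (t2iAlgebra L (N' * q) q)) :=
    RingHom.ext fun g => (t4vn_w_alpha W W1 hq g).symm
  have h := @Algebra.norm_eq_of_equiv_equiv ↥(TaF L (N' * q)) ↥(TaF L (N' * q * q))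
    ↥(TaF L (N' * q)) ↥(TaF L (N' * q * q)) _ _ _ _ (t2iAlgebra L (N' * q) q) (t4vnAlgB L N' q)
    W1.w.toRingEquiv W.w.toRingEquiv he y
  have h2 := congrArg W1.w.toRingEquiv h
  rw [RingEquiv.apply_symm_apply] at h2
  exact h2

include W W1 in
/-- the degrees of the two structures agree -/
theorem t4vn_finrank_B (hq : q.Prime) :
    @Module.finrank ↥(TaF L (N' * q)) ↥(TaF L (N' * q * q)) _ _
        (@Algebra.toModule _ _ _ _ (t4vnAlgB L N' q))
      = @Module.finrank ↥(TaF L (N' * q)) ↥(TaF L (N' * q * q)) _ _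
        (@Algebra.toModule _ _ _ _ (t2iAlgebra L (N' * q) q)) := by
  symm
  refine @Algebra.finrank_eq_of_equiv_equiv ↥(TaF L (N' * q)) ↥(TaF L (N' * q * q)) _ _
    (t2iAlgebra L (N' * q) q) ↥(TaF L (N' * q)) ↥(TaF L (N' * q * q)) _ _ (t4vnAlgB L N' q)
    W1.w.toRingEquiv W.w.toRingEquiv ?_
  exact RingHom.ext fun g => (t4vn_w_alpha W W1 hq g).symm

end AL

/-! ### Final forms, with explicit algebra structures -/

section Main

variable {L L' : Type*} [Field L] [Algebra ℚ L] [Field L'] [Algebra L L'] {N' q : ℕ}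
  [NeZero N'] [NeZero q] {ζ : L'ˣ}

/-- **`(N_α y)(𝔮) = y(𝔮) · ∏_{1 ≤ b < q} τ_b(ι_mid y)`** -/
theorem t4vnNormA_eq_prod (M : T4iMid L L' N' q ζ) (τ : ℕ → (L' ≃ₐ[L] L')) (hq : q.Prime)
    (hτ : ∀ b : ℕ, ¬ q ∣ b → τ b (ζ : L') = (ζ : L') ^ b) (hζq : ζ ^ q = 1) (hζ1 : ζ ≠ 1)
    (hdeg : @Module.finrank ↥(TaF L (N' * q)) ↥(TaF L (N' * q * q)) _ _
        (@Algebra.toModule _ _ _ _ (t2iAlgebra L (N' * q) q)) = q)
    (y : ↥(TaF L (N' * q * q))) :
    t4vnInc L' (N' * q) (t4vnNormA L N' q y)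
      = t4vnInc L' (N' * q * q) y
        * ∏ b ∈ Finset.Ico 1 q, coeffMap ((τ b : L' ≃ₐ[L] L') : L' →+* L') (M.ι y) :=
  t4vn_normA_eq_prod M τ hq hτ hζq hζ1 hdeg y

/-- **`(N_β y)(𝔮^q) = ∏_{b < q} y(ζ^b 𝔮)`** -/
theorem t4vnNormB_eq_prod (W : T4iAL L N' q) (W1 : T2iAL L N' q) (hq : q.Prime)
    (hζq : ζ ^ q = 1) (hζ1 : ζ ≠ 1)
    (hdeg : @Module.finrank ↥(TaF L (N' * q)) ↥(TaF L (N' * q * q)) _ _
        (@Algebra.toModule _ _ _ _ (t2iAlgebra L (N' * q) q)) = q)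
    (y : ↥(TaF L (N' * q * q))) :
    coeffMap (algebraMap L L') (qExpand L q ((t4vnNormB L N' q y : ↥(TaF L (N' * q))) :
        LaurentSeries L))
      = ∏ b ∈ Finset.range q,
          t4vSig (ζ ^ b) (coeffMap (algebraMap L L') (y : LaurentSeries L)) := by
  have hdegB := (t4vn_finrank_B W W1 hq).trans hdeg
  have h := t4vn_normB_eq_prod (L := L) (L' := L') (N' := N') ζ hq hζq hζ1 hdegB y
  rw [← h]
  rfl

end Main

end Fermat.Agent.T4
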