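/-
T4-V5 (helper7): Gauss units, Gauss orders on `L((𝔮))`, their behaviour under the operations
`coeffMap φ`, `σ_u = t4vSig u`, `qExpand`, and the consequences of the product formulas
`t4vnNormA_eq_prod`, `t4vnNormB_eq_prod` for the Gauss valuations and reductions of the norms
`N_α y`, `N_β y`.
-/
import Fermat.Agent.Lib.T4.Inst.NormProd
import Fermat.Agent.Lib.T4.Inst.GaussExt
import Fermat.Agent.Lib.T4.Inst.CycGen

set_option autoImplicit false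
set_option linter.unusedSectionVars false
set_option linter.unusedVariables false
set_option linter.style.haveILetI false
set_option synthInstance.maxHeartbeats 400000

open HahnSeries ModularCurve Fermat.Agent.T1 Fermat.Agent.T2

noncomputable section

namespace Fermat.Agent.T4

/-! ### Gauss units -/

section GU

variable {L : Type*} [Field L] (O : ValuationSubring L) {k : Type*} [Field k] (π : ↥O →+* k)

theorem t4vn_rho_mul {f g : LaurentSeries L} (hf : TaGauss O π f) (hg : TaGauss O π g) :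
    taRhoFun O π (f * g) = taRhoFun O π f * taRhoFun O π g :=
  (taRho O π).map_mul (⟨f, hf⟩ : ↥(taGaussSubring O π)) (⟨g, hg⟩ : ↥(taGaussSubring O π))

theorem t4vn_rho_one : taRhoFun O π (1 : LaurentSeries L) = 1 := (taRho O π).map_one

theorem t4vn_rho_zero : taRhoFun O π (0 : LaurentSeries L) = 0 := (taRho O π).map_zero

theorem t4vn_gauss_one : TaGauss O π (1 : LaurentSeries L) := (taGaussSubring O π).one_mem

theorem t4vn_gauss_mul {f g : LaurentSeries L} (hf : TaGauss O π f) (hg : TaGauss O π g) :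
    TaGauss O π (f * g) := (taGaussSubring O π).mul_mem hf hg

theorem t4vn_gauss_pow {f : LaurentSeries L} (hf : TaGauss O π f) (n : ℕ) :
    TaGauss O π (f ^ n) := (taGaussSubring O π).pow_mem hf n

theorem t4vn_rho_pow {f : LaurentSeries L} (hf : TaGauss O π f) (n : ℕ) :
    taRhoFun O π (f ^ n) = taRhoFun O π f ^ n :=
  (taRho O π).map_pow (⟨f, hf⟩ : ↥(taGaussSubring O π)) n

theorem t4vn_gauss_prod {ι : Type*} (s : Finset ι) (f : ι → LaurentSeries L)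
    (hf : ∀ i ∈ s, TaGauss O π (f i)) : TaGauss O π (∏ i ∈ s, f i) :=
  (taGaussSubring O π).prod_mem hf

theorem t4vn_rho_prod {ι : Type*} (s : Finset ι) (f : ι → LaurentSeries L)
    (hf : ∀ i ∈ s, TaGauss O π (f i)) :
    taRhoFun O π (∏ i ∈ s, f i) = ∏ i ∈ s, taRhoFun O π (f i) := by
  classical
  induction s using Finset.induction_on with
  | empty => simp [t4vn_rho_one]
  | insert a s ha ih =>
    rw [Finset.prod_insert ha, Finset.prod_insert ha,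
      t4vn_rho_mul O π (hf a (Finset.mem_insert_self a s))
        (t4vn_gauss_prod O π s f fun i hi => hf i (Finset.mem_insert_of_mem hi)),
      ih fun i hi => hf i (Finset.mem_insert_of_mem hi)]

/-- **Gauss units**: elements of the Gauss ring with nonzero reduction -/
def T4vnGU (u : LaurentSeries L) : Prop := TaGauss O π u ∧ taRhoFun O π u ≠ 0

variable {O π}

theorem T4vnGU.gauss {u : LaurentSeries L} (h : T4vnGU O π u) : TaGauss O π u := h.1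

theorem T4vnGU.rho_ne {u : LaurentSeries L} (h : T4vnGU O π u) : taRhoFun O π u ≠ 0 := h.2

theorem T4vnGU.ne_zero {u : LaurentSeries L} (h : T4vnGU O π u) : u ≠ 0 := by
  rintro rfl
  exact h.2 (t4vn_rho_zero O π)

theorem T4vnGU.gauss_inv {u : LaurentSeries L} (h : T4vnGU O π u) : TaGauss O π u⁻¹ :=
  taGauss_inv_of_taRho_ne_zero O π ⟨u, h.1⟩ h.2

theorem T4vnGU.rho_inv {u : LaurentSeries L} (h : T4vnGU O π u) :
    taRhoFun O π u⁻¹ = (taRhoFun O π u)⁻¹ := by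
  have h1 := t4vn_rho_mul O π h.1 h.gauss_inv
  rw [mul_inv_cancel₀ h.ne_zero, t4vn_rho_one] at h1
  exact eq_inv_of_mul_eq_one_right h1.symm

theorem T4vnGU.inv {u : LaurentSeries L} (h : T4vnGU O π u) : T4vnGU O π u⁻¹ :=
  ⟨h.gauss_inv, by rw [h.rho_inv]; exact inv_ne_zero h.2⟩

theorem T4vnGU.mul {u v : LaurentSeries L} (hu : T4vnGU O π u) (hv : T4vnGU O π v) :
    T4vnGU O π (u * v) :=
  ⟨t4vn_gauss_mul O π hu.1 hv.1, by rw [t4vn_rho_mul O π hu.1 hv.1]; exact mul_ne_zero hu.2 hv.2⟩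

variable (O π) in
theorem t4vnGU_one : T4vnGU O π (1 : LaurentSeries L) :=
  ⟨t4vn_gauss_one O π, by rw [t4vn_rho_one]; exact one_ne_zero⟩

theorem T4vnGU.pow {u : LaurentSeries L} (hu : T4vnGU O π u) (n : ℕ) : T4vnGU O π (u ^ n) :=
  ⟨t4vn_gauss_pow O π hu.1 n, by rw [t4vn_rho_pow O π hu.1]; exact pow_ne_zero n hu.2⟩

theorem T4vnGU.zpow {u : LaurentSeries L} (hu : T4vnGU O π u) (n : ℤ) : T4vnGU O π (u ^ n) := by
  cases n with
  | ofNat n => rw [Int.ofNat_eq_natCast, zpow_natCast]; exact hu.pow n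
  | negSucc n => rw [zpow_negSucc]; exact (hu.pow (n + 1)).inv

theorem T4vnGU.rho_zpow {u : LaurentSeries L} (hu : T4vnGU O π u) (n : ℤ) :
    taRhoFun O π (u ^ n) = taRhoFun O π u ^ n := by
  cases n with
  | ofNat n => rw [Int.ofNat_eq_natCast, zpow_natCast, zpow_natCast, t4vn_rho_pow O π hu.1]
  | negSucc n => rw [zpow_negSucc, zpow_negSucc, (hu.pow (n + 1)).rho_inv, t4vn_rho_pow O π hu.1]

theorem T4vnGU.prod {ι : Type*} (s : Finset ι) (f : ι → LaurentSeries L)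
    (hf : ∀ i ∈ s, T4vnGU O π (f i)) : T4vnGU O π (∏ i ∈ s, f i) :=
  ⟨t4vn_gauss_prod O π s f fun i hi => (hf i hi).1, by
    rw [t4vn_rho_prod O π s f fun i hi => (hf i hi).1]
    exact Finset.prod_ne_zero_iff.mpr fun i hi => (hf i hi).2⟩

/-- a Gauss element with Gauss inverse is a Gauss unit -/
theorem t4vnGU_of_inv {u : LaurentSeries L} (hu : TaGauss O π u) (hu' : TaGauss O π u⁻¹)
    (h0 : u ≠ 0) : T4vnGU O π u := by
  refine ⟨hu, fun h => ?_⟩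
  have h1 := t4vn_rho_mul O π hu hu'
  rw [mul_inv_cancel₀ h0, t4vn_rho_one, h, zero_mul] at h1
  exact one_ne_zero h1

/-- constants: units of `O` -/
theorem t4vnGU_C {a : L} (ha : a ∈ O) (hπa : π ⟨a, ha⟩ ≠ 0) :
    T4vnGU O π (HahnSeries.C a : LaurentSeries L) := by
  have h1 : (HahnSeries.C a : LaurentSeries L) = taInc O (HahnSeries.C ⟨a, ha⟩) := (taInc_C O ⟨a, ha⟩).symm
  rw [h1]
  refine ⟨taGauss_taInc O π _, ?_⟩
  have h2 : taRhoFun O π (taInc O (HahnSeries.C ⟨a, ha⟩)) = taRed π (HahnSeries.C ⟨a, ha⟩) :=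
    taRho_taInc O π _
  rw [h2, taRed_C]
  intro h0
  have := congrArg (fun x : LaurentSeries k => x.coeff 0) h0
  simp only [HahnSeries.C_apply, HahnSeries.coeff_single_same, HahnSeries.coeff_zero] at this
  exact hπa this

theorem t4vn_rho_C {a : L} (ha : a ∈ O) :
    taRhoFun O π (HahnSeries.C a : LaurentSeries L) = HahnSeries.C (π ⟨a, ha⟩) := by
  have h1 : (HahnSeries.C a : LaurentSeries L) = taInc O (HahnSeries.C ⟨a, ha⟩) := (taInc_C O ⟨a, ha⟩).symm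
  rw [h1]
  have h2 : taRhoFun O π (taInc O (HahnSeries.C ⟨a, ha⟩)) = taRed π (HahnSeries.C ⟨a, ha⟩) :=
    taRho_taInc O π _
  rw [h2, taRed_C]

theorem t4vn_gauss_C {a : L} (ha : a ∈ O) : TaGauss O π (HahnSeries.C a : LaurentSeries L) := by
  have h1 : (HahnSeries.C a : LaurentSeries L) = taInc O (HahnSeries.C ⟨a, ha⟩) := (taInc_C O ⟨a, ha⟩).symm
  rw [h1]
  exact taGauss_taInc O π _

end GU

/-! ### Gauss orders -/

section Ord

variable {L : Type*} [Field L] (O : ValuationSubring L) {k : Type*} [Field k] (π : ↥O →+* k)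

/-- `f = ϖ^n · (Gauss unit)` -/
def T4vnIsOrd (ϖ : L) (f : LaurentSeries L) (n : ℤ) : Prop :=
  ∃ u : LaurentSeries L, T4vnGU O π u ∧ f = HahnSeries.C ϖ ^ n * u

variable {O π}

theorem t4vn_C_ne_zero {ϖ : L} (h0 : ϖ ≠ 0) : (HahnSeries.C ϖ : LaurentSeries L) ≠ 0 := by
  intro h
  have := congrArg (fun x : LaurentSeries L => x.coeff 0) h
  simp only [HahnSeries.C_apply, HahnSeries.coeff_single_same, HahnSeries.coeff_zero] at this
  exact h0 this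

theorem T4vnIsOrd.ne_zero {ϖ : L} (h0 : ϖ ≠ 0) {f : LaurentSeries L} {n : ℤ}
    (h : T4vnIsOrd O π ϖ f n) : f ≠ 0 := by
  obtain ⟨u, hu, rfl⟩ := h
  exact mul_ne_zero (zpow_ne_zero n (t4vn_C_ne_zero h0)) hu.ne_zero

theorem T4vnGU.isOrd_zero {ϖ : L} {u : LaurentSeries L} (hu : T4vnGU O π u) :
    T4vnIsOrd O π ϖ u 0 := ⟨u, hu, by rw [zpow_zero, one_mul]⟩

theorem T4vnIsOrd.mul {ϖ : L} (h0 : ϖ ≠ 0) {f g : LaurentSeries L} {n m : ℤ}
    (hf : T4vnIsOrd O π ϖ f n) (hg : T4vnIsOrd O π ϖ g m) : T4vnIsOrd O π ϖ (f * g) (n + m) := by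
  obtain ⟨u, hu, rfl⟩ := hf
  obtain ⟨v, hv, rfl⟩ := hg
  refine ⟨u * v, hu.mul hv, ?_⟩
  rw [zpow_add₀ (t4vn_C_ne_zero h0)]
  ring

theorem T4vnIsOrd.inv {ϖ : L} {f : LaurentSeries L} {n : ℤ}
    (hf : T4vnIsOrd O π ϖ f n) : T4vnIsOrd O π ϖ f⁻¹ (-n) := by
  obtain ⟨u, hu, rfl⟩ := hf
  refine ⟨u⁻¹, hu.inv, ?_⟩
  rw [mul_inv, zpow_neg]

theorem T4vnIsOrd.pow {ϖ : L} (h0 : ϖ ≠ 0) {f : LaurentSeries L} {n : ℤ}
    (hf : T4vnIsOrd O π ϖ f n) (j : ℕ) : T4vnIsOrd O π ϖ (f ^ j) (j * n) := by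
  obtain ⟨u, hu, rfl⟩ := hf
  refine ⟨u ^ j, hu.pow j, ?_⟩
  rw [mul_pow, ← zpow_natCast (HahnSeries.C ϖ ^ n), ← zpow_mul, mul_comm n]

theorem T4vnIsOrd.prod {ϖ : L} (h0 : ϖ ≠ 0) {ι : Type*} (s : Finset ι) (f : ι → LaurentSeries L)
    (n : ι → ℤ) (hf : ∀ i ∈ s, T4vnIsOrd O π ϖ (f i) (n i)) :
    T4vnIsOrd O π ϖ (∏ i ∈ s, f i) (∑ i ∈ s, n i) := by
  classical
  induction s using Finset.induction_on with
  | empty =>
    rw [Finset.prod_empty, Finset.sum_empty]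
    exact (t4vnGU_one O π).isOrd_zero
  | insert a s ha ih =>
    rw [Finset.prod_insert ha, Finset.sum_insert ha]
    exact (hf a (Finset.mem_insert_self a s)).mul h0
      (ih fun i hi => hf i (Finset.mem_insert_of_mem hi))

/-- the uniformiser itself -/
theorem t4vn_isOrd_C (ϖ : L) : T4vnIsOrd O π ϖ (HahnSeries.C ϖ : LaurentSeries L) 1 :=
  ⟨1, t4vnGU_one O π, by rw [zpow_one, mul_one]⟩

theorem T4vnIsOrd.taFrac {ϖ : L} {f : LaurentSeries L} {n : ℤ}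
    (hf : T4vnIsOrd O π ϖ f n) : TaFrac O f := by
  obtain ⟨u, hu, rfl⟩ := hf
  have h1 : (HahnSeries.C ϖ : LaurentSeries L) ∈ taFracSubfield O := by
    have := algebraMap_mem_taFracSubfield O ϖ
    rwa [algebraMap_laurentSeries_eq_single] at this
  exact (taFracSubfield O).mul_mem ((taFracSubfield O).zpow_mem h1 n) hu.1.taFrac

/-- **uniqueness of the Gauss order** -/
theorem T4vnIsOrd.unique {ϖ : L} (h0 : ϖ ≠ 0) (hϖ : ϖ ∈ O) (hπϖ : π ⟨ϖ, hϖ⟩ = 0)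
    {f : LaurentSeries L} {n m : ℤ} (hn : T4vnIsOrd O π ϖ f n) (hm : T4vnIsOrd O π ϖ f m) :
    n = m := by
  have hC0 : (HahnSeries.C ϖ : LaurentSeries L) ≠ 0 := t4vn_C_ne_zero h0
  have key : ∀ {n m : ℤ}, T4vnIsOrd O π ϖ f n → T4vnIsOrd O π ϖ f m → ¬ n < m := by
    intro n m hn hm hlt
    obtain ⟨u, hu, e1⟩ := hn
    obtain ⟨v, hv, e2⟩ := hm
    obtain ⟨d, hd⟩ : ∃ d : ℕ, m = n + (d + 1 : ℕ) := by
      refine ⟨(m - n - 1).toNat, ?_⟩
      have : 0 ≤ m - n - 1 := by omega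
      push_cast
      rw [Int.toNat_of_nonneg this]
      ring
    have e3 : u = HahnSeries.C ϖ ^ (d + 1) * v := by
      apply mul_left_cancel₀ (zpow_ne_zero n hC0)
      rw [← e1, e2, hd, zpow_add₀ hC0, zpow_natCast]
      ring
    have hG : TaGauss O π (HahnSeries.C ϖ : LaurentSeries L) := t4vn_gauss_C hϖ
    have h1 : taRhoFun O π u = 0 := by
      rw [e3, t4vn_rho_mul O π (t4vn_gauss_pow O π hG _) hv.1, t4vn_rho_pow O π hG,
        t4vn_rho_C hϖ, hπϖ, map_zero, pow_succ, mul_zero, zero_mul]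
    exact hu.2 h1
  rcases lt_trichotomy n m with h | h | h
  · exact absurd h (key hn hm)
  · exact h
  · exact absurd h (key hm hn)

/-- **existence of the Gauss order** over a discrete valuation ring -/
theorem t4vn_exists_isOrd [IsDiscreteValuationRing ↥O] (hπ : Function.Surjective π) {ϖ : ↥O}
    (hϖ : Irreducible ϖ) {f : LaurentSeries L} (hf : TaFrac O f) (hf0 : f ≠ 0) :
    ∃ n : ℤ, T4vnIsOrd O π ((ϖ : ↥O) : L) f n := by
  obtain ⟨n, u, hu, hu', e⟩ := ta_exists_zpow_mul hπ hϖ hf hf0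
  refine ⟨n, u, t4vnGU_of_inv hu hu' ?_, e⟩
  rintro rfl
  rw [mul_zero] at e
  exact hf0 e

variable (O π) in
open Classical in
/-- the Gauss order (junk value `0`) -/
def t4vnOrd (ϖ : L) (f : LaurentSeries L) : ℤ :=
  if h : ∃ n : ℤ, T4vnIsOrd O π ϖ f n then h.choose else 0

theorem T4vnIsOrd.ord_eq {ϖ : L} (h0 : ϖ ≠ 0) (hϖ : ϖ ∈ O) (hπϖ : π ⟨ϖ, hϖ⟩ = 0)
    {f : LaurentSeries L} {n : ℤ} (hn : T4vnIsOrd O π ϖ f n) : t4vnOrd O π ϖ f = n := by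
  have h : ∃ n : ℤ, T4vnIsOrd O π ϖ f n := ⟨n, hn⟩
  rw [t4vnOrd, dif_pos h]
  exact T4vnIsOrd.unique h0 hϖ hπϖ h.choose_spec hn

theorem t4vn_isOrd_ord [IsDiscreteValuationRing ↥O] (hπ : Function.Surjective π) {ϖ : ↥O}
    (hϖ : Irreducible ϖ) {f : LaurentSeries L} (hf : TaFrac O f) (hf0 : f ≠ 0) :
    T4vnIsOrd O π ((ϖ : ↥O) : L) f (t4vnOrd O π ((ϖ : ↥O) : L) f) := by
  have h := t4vn_exists_isOrd hπ hϖ hf hf0
  rw [t4vnOrd, dif_pos h]
  exact h.choose_spec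

end Ord

/-! ### Change of the coefficient field along a compatible ring homomorphism -/

section Map

variable {L L' : Type*} [Field L] [Field L'] {O : ValuationSubring L} {O' : ValuationSubring L'}
  {k : Type*} [Field k] {π : ↥O →+* k} {π' : ↥O' →+* k} (φ : L →+* L')
  (hmap : ∀ a : ↥O, φ (a : L) ∈ O') (hπ : ∀ a : ↥O, π' ⟨φ (a : L), hmap a⟩ = π a)

include hπ in
theorem t4vn_gauss_map {f : LaurentSeries L} (hf : TaGauss O π f) :
    TaGauss O' π' (coeffMap φ f) :=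
  @t4v_taGauss_coeffMap L L' _ _ φ.toAlgebra O O' k _ π π' hmap hπ f hf

include hπ in
theorem t4vn_rho_map {f : LaurentSeries L} (hf : TaGauss O π f) :
    taRhoFun O' π' (coeffMap φ f) = taRhoFun O π f :=
  @t4v_taRhoFun_coeffMap L L' _ _ φ.toAlgebra O O' k _ π π' hmap hπ f hf

include hπ in
theorem T4vnGU.map {u : LaurentSeries L} (hu : T4vnGU O π u) : T4vnGU O' π' (coeffMap φ u) :=
  ⟨t4vn_gauss_map φ hmap hπ hu.1, by rw [t4vn_rho_map φ hmap hπ hu.1]; exact hu.2⟩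

theorem t4vn_coeffMap_C (a : L) :
    coeffMap φ (HahnSeries.C a : LaurentSeries L) = HahnSeries.C (φ a) := by
  rw [HahnSeries.C_apply, coeffMap_single]
  rfl

include hπ in
/-- the Gauss order under a ramified extension: `φ ϖ = lam^e · unit` -/
theorem T4vnIsOrd.map {ϖ : L} {lam u0 : L'} (e : ℕ) (hlam0 : lam ≠ 0) (hu0 : u0 ∈ O')
    (hπu0 : π' ⟨u0, hu0⟩ ≠ 0) (hϖ : φ ϖ = lam ^ e * u0) {f : LaurentSeries L} {n : ℤ}
    (hf : T4vnIsOrd O π ϖ f n) : T4vnIsOrd O' π' lam (coeffMap φ f) (e * n) := by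
  obtain ⟨u, hu, rfl⟩ := hf
  have hC : T4vnGU O' π' (HahnSeries.C u0 : LaurentSeries L') := t4vnGU_C hu0 hπu0
  refine ⟨HahnSeries.C u0 ^ n * coeffMap φ u, (hC.zpow n).mul (hu.map φ hmap hπ), ?_⟩
  rw [map_mul, map_zpow₀, t4vn_coeffMap_C, hϖ, map_mul, map_pow, mul_zpow, ← zpow_natCast,
    ← zpow_mul]
  ring

end Map

/-! ### The substitutions `𝔮 ↦ u 𝔮` and `𝔮 ↦ 𝔮^d` -/

section Subst

variable {L : Type*} [Field L] {O : ValuationSubring L} {k : Type*} [Field k]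
  {π : ↥O →+* k}

theorem T4vnGU.sig (ζ : Lˣ) (ζO : (↥O)ˣ) (hζ : ((ζO : ↥O) : L) = (ζ : L)) (hπζ : π (ζO : ↥O) = 1)
    {u : LaurentSeries L} (hu : T4vnGU O π u) : T4vnGU O π (t4vSig ζ u) :=
  ⟨t4v_taGauss_sig O π ζ ζO hζ hπζ hu.1, by
    rw [t4v_taRhoFun_sig O π ζ ζO hζ hπζ hu.1]; exact hu.2⟩

theorem T4vnIsOrd.sig (ζ : Lˣ) (ζO : (↥O)ˣ) (hζ : ((ζO : ↥O) : L) = (ζ : L))
    (hπζ : π (ζO : ↥O) = 1) {ϖ : L} {f : LaurentSeries L} {n : ℤ} (hf : T4vnIsOrd O π ϖ f n) :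
    T4vnIsOrd O π ϖ (t4vSig ζ f) n := by
  obtain ⟨u, hu, rfl⟩ := hf
  refine ⟨t4vSig ζ u, hu.sig ζ ζO hζ hπζ, ?_⟩
  rw [map_mul, map_zpow₀, t4vSig_C]

variable [Algebra ℚ L]

theorem T4vnGU.qExpand (d : ℕ) [NeZero d] {u : LaurentSeries L} (hu : T4vnGU O π u) :
    T4vnGU O π (qExpand L d u) := by
  refine ⟨t2i_taGauss_qExpand O π d hu.1, ?_⟩
  rw [t2i_taRhoFun_qExpand O π d hu.1]
  intro h0
  apply hu.2
  apply qExpand_injective (R := k) (N := d)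
  rw [h0, map_zero]

theorem t4vn_qExpand_C (d : ℕ) [NeZero d] (a : L) :
    qExpand L d (HahnSeries.C a : LaurentSeries L) = HahnSeries.C a := by
  rw [HahnSeries.C_apply, qExpand_single, mul_zero]

theorem T4vnIsOrd.qExpand (d : ℕ) [NeZero d] {ϖ : L} {f : LaurentSeries L} {n : ℤ}
    (hf : T4vnIsOrd O π ϖ f n) : T4vnIsOrd O π ϖ (qExpand L d f) n := by
  obtain ⟨u, hu, rfl⟩ := hf
  refine ⟨ModularCurve.qExpand L d u, hu.qExpand d, ?_⟩
  rw [map_mul, map_zpow₀, t4vn_qExpand_C]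

end Subst

/-! ### Ring homomorphisms out of `F = TaF L (N' q q)` -/

section Ext3

variable (L : Type*) [Field L] [Algebra ℚ L] (N' q : ℕ) [NeZero N'] [NeZero q]

/-- two ring homomorphisms from `TaF L (N' q q)` (`q` prime) to a division ring agreeing on the
images of the three degeneracy maps `a0, a1, a2` are equal -/
theorem t4vn_ringHom_ext_a012 (hq : q.Prime) {R : Type*} [DivisionRing R]
    (φ ψ : ↥(TaF L (N' * q * q)) →+* R)
    (h0 : ∀ f : ↥(TaF L N'), φ (t4vA0 L N' q f) = ψ (t4vA0 L N' q f))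
    (h1 : ∀ f : ↥(TaF L N'), φ (t4vA1 L N' q f) = ψ (t4vA1 L N' q f))
    (h2 : ∀ f : ↥(TaF L N'), φ (t4vA2 L N' q f) = ψ (t4vA2 L N' q f)) : φ = ψ := by
  apply t4vn_ringHom_ext_ab L (N' * q) q hq
  · intro g
    have key : φ.comp (heckeAlphaBar L (N' * q) q).toRingHom
        = ψ.comp (heckeAlphaBar L (N' * q) q).toRingHom := by
      apply t4vn_ringHom_ext_ab L N' q hq
      · intro f
        exact h0 f
      · intro f
        exact h1 f
    exact RingHom.congr_fun key g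
  · intro g
    have key : φ.comp (heckeBetaBar L (N' * q) q).toRingHom
        = ψ.comp (heckeBetaBar L (N' * q) q).toRingHom := by
      apply t4vn_ringHom_ext_ab L N' q hq
      · intro f
        have := h1 f
        rw [t4vA1_apply'] at this
        exact this
      · intro f
        exact h2 f
    exact RingHom.congr_fun key g

/-- the image of a ring homomorphism from `TaF L N` to a field lies in a subfield as soon as the
images of the constants and of the generators `j(𝔮^d)` do -/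
theorem t4vn_ringHom_mem (N : ℕ) [NeZero N] {K : Type*} [Field K] (S : Subfield K)
    (φ : ↥(TaF L N) →+* K) (hc : ∀ c : L, φ (algebraMap L _ c) ∈ S)
    (hg : ∀ (d : ℕ) [NeZero d] (hd : d ∣ N), φ (t4vnJd L N d hd) ∈ S) (x : ↥(TaF L N)) :
    φ x ∈ S := by
  obtain ⟨x, hx⟩ := x
  have hE : TaF L N = IntermediateField.adjoin L (divisorExpansionsC L N) :=
    tbi_laurentBaseChange_full L N
  have hx' : x ∈ IntermediateField.adjoin L (divisorExpansionsC L N) := hE ▸ hx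
  suffices H : ∀ y : LaurentSeries L, y ∈ IntermediateField.adjoin L (divisorExpansionsC L N) →
      ∀ h : y ∈ TaF L N, φ ⟨y, h⟩ ∈ S from H x hx' hx
  intro y hy
  induction hy using IntermediateField.adjoin_induction with
  | mem y hy =>
    obtain ⟨d, hd0, hd, rfl⟩ := hy
    intro h
    exact hg d hd
  | algebraMap c =>
    intro h
    exact hc c
  | add x y hx hy ihx ihy =>
    intro h
    have hx0 : x ∈ TaF L N := hE ▸ hx
    have hy0 : y ∈ TaF L N := hE ▸ hy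
    have : (⟨x + y, h⟩ : ↥(TaF L N)) = ⟨x, hx0⟩ + ⟨y, hy0⟩ := rfl
    rw [this, map_add]
    exact S.add_mem (ihx hx0) (ihy hy0)
  | inv x hx ihx =>
    intro h
    have hx0 : x ∈ TaF L N := hE ▸ hx
    have : (⟨x⁻¹, h⟩ : ↥(TaF L N)) = (⟨x, hx0⟩ : ↥(TaF L N))⁻¹ := rfl
    rw [this, map_inv₀]
    exact S.inv_mem (ihx hx0)
  | mul x y hx hy ihx ihy =>
    intro h
    have hx0 : x ∈ TaF L N := hE ▸ hx
    have hy0 : y ∈ TaF L N := hE ▸ hy
    have : (⟨x * y, h⟩ : ↥(TaF L N)) = ⟨x, hx0⟩ * ⟨y, hy0⟩ := rfl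
    rw [this, map_mul]
    exact S.mul_mem (ihx hx0) (ihy hy0)

theorem t4vn_ringHom_mem_ab (hq : q.Prime) {K : Type*} [Field K] (S : Subfield K)
    (φ : ↥(TaF L (N' * q)) →+* K)
    (hα : ∀ f : ↥(TaF L N'), φ (heckeAlphaBar L N' q f) ∈ S)
    (hβ : ∀ f : ↥(TaF L N'), φ (heckeBetaBar L N' q f) ∈ S) (x : ↥(TaF L (N' * q))) :
    φ x ∈ S := by
  apply t4vn_ringHom_mem
  · intro c
    have h1 : algebraMap L ↥(TaF L (N' * q)) c
        = heckeAlphaBar L N' q (algebraMap L ↥(TaF L N') c) :=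
      ((heckeAlphaBar L N' q).commutes c).symm
    rw [h1]
    exact hα _
  · intro d _ hd
    by_cases hqd : q ∣ d
    · obtain ⟨d', rfl⟩ := hqd
      have hd'0 : d' ≠ 0 := by
        rintro rfl
        exact NeZero.ne (q * 0) (mul_zero q)
      haveI : NeZero d' := ⟨hd'0⟩
      have hd' : d' ∣ N' := by
        rw [mul_comm N' q] at hd
        exact Nat.dvd_of_mul_dvd_mul_left hq.pos hd
      have h1 : t4vnJd L (N' * q) (q * d') hd = heckeBetaBar L N' q (t4vnJd L N' d' hd') := by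
        apply Subtype.ext
        rw [coe_heckeBetaBar, coe_t4vnJd, coe_t4vnJd, qExpand_qExpand]
      rw [h1]
      exact hβ _
    · have hd' : d ∣ N' := (Nat.Coprime.dvd_mul_right
        ((Nat.Prime.coprime_iff_not_dvd hq).mpr hqd).symm).mp hd
      have h1 : t4vnJd L (N' * q) d hd = heckeAlphaBar L N' q (t4vnJd L N' d hd') := by
        apply Subtype.ext
        rw [coe_heckeAlphaBar, coe_t4vnJd, coe_t4vnJd]
      rw [h1]
      exact hα _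

theorem t4vn_ringHom_mem_a012 (hq : q.Prime) {K : Type*} [Field K] (S : Subfield K)
    (φ : ↥(TaF L (N' * q * q)) →+* K)
    (h0 : ∀ f : ↥(TaF L N'), φ (t4vA0 L N' q f) ∈ S)
    (h1 : ∀ f : ↥(TaF L N'), φ (t4vA1 L N' q f) ∈ S)
    (h2 : ∀ f : ↥(TaF L N'), φ (t4vA2 L N' q f) ∈ S) (x : ↥(TaF L (N' * q * q))) :
    φ x ∈ S := by
  apply t4vn_ringHom_mem_ab L (N' * q) q hq
  · intro g
    exact t4vn_ringHom_mem_ab L N' q hq S (φ.comp (heckeAlphaBar L (N' * q) q).toRingHom)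
      (fun f => h0 f) (fun f => h1 f) g
  · intro g
    refine t4vn_ringHom_mem_ab L N' q hq S (φ.comp (heckeBetaBar L (N' * q) q).toRingHom)
      (fun f => ?_) (fun f => h2 f) g
    have := h1 f
    rw [t4vA1_apply'] at this
    exact this

end Ext3

/-! ### Consequences of the cyclotomic level data -/

section Cyc

variable {L L' : Type*} [Field L] [Field L'] [Algebra L L'] {O : ValuationSubring L}
  {O' : ValuationSubring L'} {k : Type*} [Field k] {π : ↥O →+* k} {π' : ↥O' →+* k} {q : ℕ}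
  (Cy : T4iCyc O O' π π' q)

/-- `ζ` as a unit of `O'` -/
def T4iCyc.vn_zO (hπ : Function.Surjective π) : (↥O')ˣ :=
  IsUnit.unit (a := (⟨((Cy.ζ : L'ˣ) : L'), Cy.ζ_mem⟩ : ↥O')) (by
    by_contra h
    have h1 := (Cy.π'_eq_zero_iff hπ _).mpr h
    rw [Cy.π'_ζ hπ] at h1
    exact one_ne_zero h1)

theorem T4iCyc.vn_coe_zO (hπ : Function.Surjective π) :
    (((Cy.vn_zO hπ : (↥O')ˣ) : ↥O') : L') = ((Cy.ζ : L'ˣ) : L') := rfl

theorem T4iCyc.vn_π'_zO (hπ : Function.Surjective π) : π' ((Cy.vn_zO hπ : (↥O')ˣ) : ↥O') = 1 :=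
  Cy.π'_ζ hπ

theorem T4iCyc.vn_coe_zO_pow (hπ : Function.Surjective π) (b : ℕ) :
    ((((Cy.vn_zO hπ) ^ b : (↥O')ˣ) : ↥O') : L') = ((Cy.ζ ^ b : L'ˣ) : L') := by
  rw [Units.val_pow_eq_pow_val, Units.val_pow_eq_pow_val, SubmonoidClass.coe_pow, Cy.vn_coe_zO]

theorem T4iCyc.vn_π'_zO_pow (hπ : Function.Surjective π) (b : ℕ) :
    π' (((Cy.vn_zO hπ) ^ b : (↥O')ˣ) : ↥O') = 1 := by
  rw [Units.val_pow_eq_pow_val, map_pow, Cy.vn_π'_zO, one_pow]

theorem T4iCyc.vn_coe_zO_zpow (hπ : Function.Surjective π) (b : ℤ) :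
    ((((Cy.vn_zO hπ) ^ b : (↥O')ˣ) : ↥O') : L') = ((Cy.ζ ^ b : L'ˣ) : L') := by
  have h : Units.map (O'.subtype : ↥O' →* L') (Cy.vn_zO hπ) = Cy.ζ := Units.ext (Cy.vn_coe_zO hπ)
  rw [← h, ← map_zpow]
  rfl

theorem T4iCyc.vn_π'_zO_zpow (hπ : Function.Surjective π) (b : ℤ) :
    π' (((Cy.vn_zO hπ) ^ b : (↥O')ˣ) : ↥O') = 1 := by
  have h : Units.map (π' : ↥O' →* k) (Cy.vn_zO hπ) = 1 := Units.ext (Cy.vn_π'_zO hπ)
  have h2 : Units.map (π' : ↥O' →* k) ((Cy.vn_zO hπ) ^ b) = 1 := by rw [map_zpow, h, one_zpow]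
  exact congrArg Units.val h2

theorem T4iCyc.vn_lam_ne_zero : ((Cy.lam : ↥O') : L') ≠ 0 := fun h =>
  Cy.unif.ne_zero (Subtype.ext h)

/-- Gauss elements stay Gauss under `τ b` -/
theorem T4iCyc.vn_gauss_tau (b : ℕ) {f : LaurentSeries L'} (hf : TaGauss O' π' f) :
    TaGauss O' π' (coeffMap ((Cy.τ b : L' ≃ₐ[L] L') : L' →+* L') f) :=
  t4vn_gauss_map ((Cy.τ b : L' ≃ₐ[L] L') : L' →+* L') (fun a => Cy.τ_mem b a a.2)
    (fun a => Cy.π_τ b a) hf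

theorem T4iCyc.vn_rho_tau (b : ℕ) {f : LaurentSeries L'} (hf : TaGauss O' π' f) :
    taRhoFun O' π' (coeffMap ((Cy.τ b : L' ≃ₐ[L] L') : L' →+* L') f) = taRhoFun O' π' f :=
  t4vn_rho_map ((Cy.τ b : L' ≃ₐ[L] L') : L' →+* L') (fun a => Cy.τ_mem b a a.2)
    (fun a => Cy.π_τ b a) hf

theorem T4iCyc.vn_GU_tau (b : ℕ) {u : LaurentSeries L'} (hu : T4vnGU O' π' u) :
    T4vnGU O' π' (coeffMap ((Cy.τ b : L' ≃ₐ[L] L') : L' →+* L') u) :=
  hu.map ((Cy.τ b : L' ≃ₐ[L] L') : L' →+* L') (fun a => Cy.τ_mem b a a.2) (fun a => Cy.π_τ b a)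

/-- the Gauss order is invariant under `τ b`, `b` prime to `q` -/
theorem T4iCyc.vn_isOrd_tau [CharP k q] (hπ : Function.Surjective π) (b : ℕ) (hb : ¬ q ∣ b)
    {f : LaurentSeries L'} {n : ℤ} (hf : T4vnIsOrd O' π' ((Cy.lam : ↥O') : L') f n) :
    T4vnIsOrd O' π' ((Cy.lam : ↥O') : L') (coeffMap ((Cy.τ b : L' ≃ₐ[L] L') : L' →+* L') f) n := by
  obtain ⟨u, hu, hu1, hu2⟩ := Cy.one_sub_zeta_pow_unit hπ b hb
  have hϖ : ((Cy.τ b : L' ≃ₐ[L] L') : L' →+* L') ((Cy.lam : ↥O') : L')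
      = ((Cy.lam : ↥O') : L') ^ 1 * (u : L') := by
    show Cy.τ b ((Cy.lam : ↥O') : L') = _
    rw [Cy.lam_eq, map_sub, map_one, Cy.τ_ζ b hb, hu1, Cy.lam_eq, pow_one]
  have hπu : π' ⟨(u : L'), u.2⟩ ≠ 0 := by
    intro h
    have h1 : π' u = 0 := h
    exact ((Cy.π'_eq_zero_iff hπ u).mp h1) hu
  have := T4vnIsOrd.map ((Cy.τ b : L' ≃ₐ[L] L') : L' →+* L') (fun a => Cy.τ_mem b a a.2)
    (fun a => Cy.π_τ b a) 1 Cy.vn_lam_ne_zero u.2 hπu hϖ hf
  simpa using this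

/-- the Gauss order under `L → L'`: `q = lam^(q-1) · unit` -/
theorem T4iCyc.vn_isOrd_coeffMap (hq : q.Prime) [CharP k q] (hπ : Function.Surjective π)
    {f : LaurentSeries L} {n : ℤ} (hf : T4vnIsOrd O π ((q : ℕ) : L) f n) :
    T4vnIsOrd O' π' ((Cy.lam : ↥O') : L') (coeffMap (algebraMap L L') f) (((q - 1 : ℕ) : ℤ) * n) := by
  obtain ⟨u, hu, hu1, hu2⟩ := Cy.exists_wilson' hq hπ
  have hπu : π' ⟨(u : L'), u.2⟩ ≠ 0 := by
    intro h
    have h1 : π' u = 0 := h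
    rw [hu2] at h1
    exact one_ne_zero (neg_eq_zero.mp h1)
  have hϖ : algebraMap L L' ((q : ℕ) : L) = ((Cy.lam : ↥O') : L') ^ (q - 1) * (u : L') := by
    rw [map_natCast]
    exact hu1
  exact T4vnIsOrd.map (algebraMap L L') Cy.map_mem Cy.π_map (q - 1) Cy.vn_lam_ne_zero u.2 hπu hϖ hf

include Cy in
theorem T4iCyc.vn_GU_coeffMap {u : LaurentSeries L} (hu : T4vnGU O π u) :
    T4vnGU O' π' (coeffMap (algebraMap L L') u) :=
  hu.map (algebraMap L L') Cy.map_mem Cy.π_map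

include Cy in
theorem T4iCyc.vn_rho_coeffMap {f : LaurentSeries L} (hf : TaGauss O π f) :
    taRhoFun O' π' (coeffMap (algebraMap L L') f) = taRhoFun O π f :=
  t4vn_rho_map (algebraMap L L') Cy.map_mem Cy.π_map hf

theorem T4iCyc.vn_isOrd_unique (hπ : Function.Surjective π) {f : LaurentSeries L'} {n m : ℤ}
    (hn : T4vnIsOrd O' π' ((Cy.lam : ↥O') : L') f n)
    (hm : T4vnIsOrd O' π' ((Cy.lam : ↥O') : L') f m) : n = m :=
  T4vnIsOrd.unique Cy.vn_lam_ne_zero Cy.lam.2 (Cy.π'_lam hπ) hn hm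

/-- `σ_{ζ^b}` preserves Gauss orders -/
theorem T4iCyc.vn_isOrd_sig (hπ : Function.Surjective π) (b : ℤ) {ϖ : L'} {f : LaurentSeries L'}
    {n : ℤ} (hf : T4vnIsOrd O' π' ϖ f n) : T4vnIsOrd O' π' ϖ (t4vSig (Cy.ζ ^ b) f) n :=
  hf.sig (Cy.ζ ^ b) ((Cy.vn_zO hπ) ^ b) (Cy.vn_coe_zO_zpow hπ b) (Cy.vn_π'_zO_zpow hπ b)

theorem T4iCyc.vn_GU_sig (hπ : Function.Surjective π) (b : ℤ) {u : LaurentSeries L'}
    (hu : T4vnGU O' π' u) : T4vnGU O' π' (t4vSig (Cy.ζ ^ b) u) :=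
  hu.sig (Cy.ζ ^ b) ((Cy.vn_zO hπ) ^ b) (Cy.vn_coe_zO_zpow hπ b) (Cy.vn_π'_zO_zpow hπ b)

theorem T4iCyc.vn_rho_sig (hπ : Function.Surjective π) (b : ℤ) {f : LaurentSeries L'}
    (hf : TaGauss O' π' f) : taRhoFun O' π' (t4vSig (Cy.ζ ^ b) f) = taRhoFun O' π' f :=
  t4v_taRhoFun_sig O' π' (Cy.ζ ^ b) ((Cy.vn_zO hπ) ^ b) (Cy.vn_coe_zO_zpow hπ b) (Cy.vn_π'_zO_zpow hπ b) hf

/-- `σ_ζ` preserves fractions -/
theorem T4iCyc.vn_taFrac_sig (hπ : Function.Surjective π) (b : ℤ) {f : LaurentSeries L'}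
    (hf : TaFrac O' f) : TaFrac O' (t4vSig (Cy.ζ ^ b) f) := by
  obtain ⟨g, h, hh, e⟩ := hf
  refine ⟨t4vSig ((Cy.vn_zO hπ) ^ b) g, t4vSig ((Cy.vn_zO hπ) ^ b) h, ?_, ?_⟩
  · intro h0
    apply hh
    apply t4vSig_injective ((Cy.vn_zO hπ) ^ b)
    rw [h0, map_zero]
  · rw [← t4vSig_taInc O' (Cy.ζ ^ b) ((Cy.vn_zO hπ) ^ b) (Cy.vn_coe_zO_zpow hπ b),
      ← t4vSig_taInc O' (Cy.ζ ^ b) ((Cy.vn_zO hπ) ^ b) (Cy.vn_coe_zO_zpow hπ b), ← map_mul, e]

end Cyc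

/-! ### The middle embedding: fractions, and the Atkin–Lehner involution -/

section Mid

variable {L L' : Type*} [Field L] [Algebra ℚ L] [Field L'] [Algebra L L']
  {O : ValuationSubring L} {O' : ValuationSubring L'} {k : Type*} [Field k]
  {π : ↥O →+* k} {π' : ↥O' →+* k} {N' q : ℕ} [NeZero N'] [NeZero q]
  (Cy : T4iCyc O O' π π' q) (M : T4iMid L L' N' q Cy.ζ)

include Cy in
theorem t4vn_taFrac_inc (N : ℕ) [NeZero N] (f : ↥(TaF L N)) :
    TaFrac O' (coeffMap (algebraMap L L') (f : LaurentSeries L)) :=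
  t4v_taFrac_coeffMap O O' Cy.map_mem (ta_frac_of_mem O N _ f.2)

/-- the middle embedding takes values in the fractions of `O'((𝔮))` -/
theorem t4vn_mid_taFrac (hq : q.Prime) (hπ : Function.Surjective π)
    (y : ↥(TaF L (N' * q * q))) : TaFrac O' (M.ι y) := by
  have h := t4vn_ringHom_mem_a012 L N' q hq (taFracSubfield O') M.ι ?_ ?_ ?_ y
  · exact h
  · intro f
    rw [M.ι_a0]
    exact t4vn_taFrac_inc Cy N' f
  · intro f
    rw [M.ι_a1]
    have h1 := t4vn_taFrac_inc Cy (N' * q) (heckeBetaBar L N' q f)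
    rw [coe_heckeBetaBar] at h1
    exact h1
  · intro f
    rw [M.ι_a2]
    have h1 := Cy.vn_taFrac_sig hπ 1 (t4vn_taFrac_inc Cy N' f)
    rw [zpow_one] at h1
    exact h1

variable (W : T4iAL L N' q)

/-- **`ι_mid ∘ w = τ_{q-1} ∘ σ_{ζ⁻¹} ∘ ι_mid`** -/
theorem t4vn_mid_w (hq : q.Prime) (y : ↥(TaF L (N' * q * q))) :
    M.ι (W.w y)
      = coeffMap ((Cy.τ (q - 1) : L' ≃ₐ[L] L') : L' →+* L') (t4vSig (Cy.ζ ^ (-1 : ℤ)) (M.ι y)) := by
  have hq1 : ¬ q ∣ q - 1 := fun h =>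
    absurd (Nat.le_of_dvd (Nat.sub_pos_of_lt hq.one_lt) h) (by have := hq.one_lt; omega)
  -- `τ_{q-1} (ζ⁻¹) = ζ`
  have hτ : Units.map ((((Cy.τ (q - 1) : L' ≃ₐ[L] L') : L' →+* L')) : L' →* L')
      (Cy.ζ ^ (-1 : ℤ)) = Cy.ζ := by
    have h1 : Units.map ((((Cy.τ (q - 1) : L' ≃ₐ[L] L') : L' →+* L')) : L' →* L') Cy.ζ
        = Cy.ζ ^ (q - 1) := by
      apply Units.ext
      rw [Units.val_pow_eq_pow_val]
      exact Cy.τ_ζ (q - 1) hq1
    rw [map_zpow, h1, zpow_neg_one, inv_eq_iff_eq_inv]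
    have h2 : Cy.ζ ^ (q - 1) * Cy.ζ = 1 := by
      rw [← pow_succ, Nat.sub_add_cancel hq.one_lt.le, Cy.ζ_pow]
    exact eq_inv_of_mul_eq_one_left h2
  have key : (M.ι.comp ((W.w : ↥(TaF L (N' * q * q)) ≃ₐ[L] ↥(TaF L (N' * q * q))) :
        ↥(TaF L (N' * q * q)) →+* ↥(TaF L (N' * q * q))))
      = (coeffMap ((Cy.τ (q - 1) : L' ≃ₐ[L] L') : L' →+* L')).comp
        ((t4vSig (Cy.ζ ^ (-1 : ℤ))).comp M.ι) := by
    apply t4vn_ringHom_ext_a012 L N' q hq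
    · intro f
      show M.ι (W.w (t4vA0 L N' q f))
        = coeffMap _ (t4vSig (Cy.ζ ^ (-1 : ℤ)) (M.ι (t4vA0 L N' q f)))
      rw [W.w_a0, M.ι_a2, M.ι_a0, coeffMap_t4vSig, hτ, t4vn_coeffMap_algEquiv]
    · intro f
      show M.ι (W.w (t4vA1 L N' q f))
        = coeffMap _ (t4vSig (Cy.ζ ^ (-1 : ℤ)) (M.ι (t4vA1 L N' q f)))
      rw [W.w_a1, M.ι_a1, coeffMap_qExpand, t4vSig_qExpand_of_pow_eq_one, ← coeffMap_qExpand,
        t4vn_coeffMap_algEquiv]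
      rw [← zpow_natCast, ← zpow_mul, mul_comm, zpow_mul, zpow_natCast, Cy.ζ_pow, one_zpow]
    · intro f
      show M.ι (W.w (t4vA2 L N' q f))
        = coeffMap _ (t4vSig (Cy.ζ ^ (-1 : ℤ)) (M.ι (t4vA2 L N' q f)))
      rw [W.w_a2, M.ι_a0, M.ι_a2, t4vSig_t4vSig, zpow_neg_one, inv_mul_cancel, t4vSig_one,
        t4vn_coeffMap_algEquiv]
  exact RingHom.congr_fun key y

/-- the middle Gauss order is invariant under `w` -/
theorem t4vn_isOrd_mid_w [CharP k q] (hq : q.Prime) (hπ : Function.Surjective π)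
    {y : ↥(TaF L (N' * q * q))} {m : ℤ}
    (hm : T4vnIsOrd O' π' ((Cy.lam : ↥O') : L') (M.ι y) m) :
    T4vnIsOrd O' π' ((Cy.lam : ↥O') : L') (M.ι (W.w y)) m := by
  have hq1 : ¬ q ∣ q - 1 := fun h =>
    absurd (Nat.le_of_dvd (Nat.sub_pos_of_lt hq.one_lt) h) (by have := hq.one_lt; omega)
  rw [t4vn_mid_w Cy M W hq]
  exact Cy.vn_isOrd_tau hπ (q - 1) hq1 (Cy.vn_isOrd_sig hπ (-1) hm)

/-- the middle reduction is invariant under `w` -/
theorem t4vn_gauss_mid_w (hq : q.Prime) (hπ : Function.Surjective π)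
    {y : ↥(TaF L (N' * q * q))} (hm : TaGauss O' π' (M.ι y)) :
    TaGauss O' π' (M.ι (W.w y)) ∧ taRhoFun O' π' (M.ι (W.w y)) = taRhoFun O' π' (M.ι y) := by
  have h1 := t4v_taGauss_sig O' π' (Cy.ζ ^ (-1 : ℤ)) ((Cy.vn_zO hπ) ^ (-1 : ℤ))
    (Cy.vn_coe_zO_zpow hπ (-1)) (Cy.vn_π'_zO_zpow hπ (-1)) hm
  rw [t4vn_mid_w Cy M W hq]
  exact ⟨Cy.vn_gauss_tau (q - 1) h1, by rw [Cy.vn_rho_tau (q - 1) h1, Cy.vn_rho_sig hπ (-1) hm]⟩

theorem t4vn_GU_mid_w (hq : q.Prime) (hπ : Function.Surjective π)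
    {y : ↥(TaF L (N' * q * q))} (hm : T4vnGU O' π' (M.ι y)) : T4vnGU O' π' (M.ι (W.w y)) := by
  obtain ⟨h1, h2⟩ := t4vn_gauss_mid_w Cy M W hq hπ hm.1
  exact ⟨h1, by rw [h2]; exact hm.2⟩

end Mid

/-! ### The Gauss orders and reductions of the norms -/

section Norm

variable {L L' : Type*} [Field L] [Algebra ℚ L] [Field L'] [Algebra L L']
  {O : ValuationSubring L} {O' : ValuationSubring L'} {k : Type*} [Field k]
  {π : ↥O →+* k} {π' : ↥O' →+* k} {N' q : ℕ} [NeZero N'] [NeZero q]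
  (Cy : T4iCyc O O' π π' q) (M : T4iMid L L' N' q Cy.ζ) (W : T4iAL L N' q) (W1 : T2iAL L N' q)
  (hq : q.Prime) [CharP k q] (hπ : Function.Surjective π) [IsDiscreteValuationRing ↥O]
  (hqO : Irreducible ((q : ℕ) : ↥O))
  (hdeg : @Module.finrank ↥(TaF L (N' * q)) ↥(TaF L (N' * q * q)) _ _
        (@Algebra.toModule _ _ _ _ (t2iAlgebra L (N' * q) q)) = q)

include hπ hqO in
/-- existence of the Gauss order at `∞` for nonzero elements of `TaF L N` -/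
theorem t4vn_exists_isOrd_inf (N : ℕ) [NeZero N] {f : ↥(TaF L N)} (hf : f ≠ 0) :
    ∃ n : ℤ, T4vnIsOrd O π ((q : ℕ) : L) (f : LaurentSeries L) n := by
  have h := t4vn_exists_isOrd hπ hqO (ta_frac_of_mem O N _ f.2)
    (fun h0 => hf (Subtype.ext h0))
  rwa [SubringClass.coe_natCast] at h

theorem t4vn_coeffMap_ne_zero {f : LaurentSeries L} (hf : coeffMap (algebraMap L L') f ≠ 0) :
    f ≠ 0 := by
  rintro rfl
  exact hf (map_zero _)

theorem t4vn_q_sub_one_ne (hq : q.Prime) : ((q - 1 : ℕ) : ℤ) ≠ 0 := by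
  have := hq.one_lt
  have h : q - 1 ≠ 0 := by omega
  exact_mod_cast h

include hq hπ hqO hdeg in
/-- **`v¹_∞ (N_α y) = v_∞ y + v_mid y`** -/
theorem t4vn_isOrd_normA {y : ↥(TaF L (N' * q * q))} {n m : ℤ}
    (hn : T4vnIsOrd O π ((q : ℕ) : L) (y : LaurentSeries L) n)
    (hm : T4vnIsOrd O' π' ((Cy.lam : ↥O') : L') (M.ι y) m) :
    T4vnIsOrd O π ((q : ℕ) : L)
      ((t4vnNormA L N' q y : ↥(TaF L (N' * q))) : LaurentSeries L) (n + m) := by
  have hprod := t4vnNormA_eq_prod M Cy.τ hq Cy.τ_ζ Cy.ζ_pow Cy.ζ_ne hdeg y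
  rw [t4vnInc_apply, t4vnInc_apply] at hprod
  -- the order of the right hand side
  have hR : T4vnIsOrd O' π' ((Cy.lam : ↥O') : L')
      (coeffMap (algebraMap L L') (y : LaurentSeries L)
        * ∏ b ∈ Finset.Ico 1 q, coeffMap ((Cy.τ b : L' ≃ₐ[L] L') : L' →+* L') (M.ι y))
      (((q - 1 : ℕ) : ℤ) * n + ∑ b ∈ Finset.Ico 1 q, m) := by
    refine (Cy.vn_isOrd_coeffMap hq hπ hn).mul Cy.vn_lam_ne_zero
      (T4vnIsOrd.prod Cy.vn_lam_ne_zero _ _ _ fun b hb => ?_)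
    rw [Finset.mem_Ico] at hb
    refine Cy.vn_isOrd_tau hπ b (fun hdvd => ?_) hm
    exact absurd (Nat.le_of_dvd (by omega) hdvd) (by omega)
  rw [← hprod] at hR
  have hN0 : (t4vnNormA L N' q y : ↥(TaF L (N' * q))) ≠ 0 := by
    intro h0
    apply t4vn_coeffMap_ne_zero (hR.ne_zero Cy.vn_lam_ne_zero)
    rw [h0]
    rfl
  obtain ⟨k', hk'⟩ := t4vn_exists_isOrd_inf hπ hqO (N' * q) hN0
  have hL := Cy.vn_isOrd_coeffMap hq hπ hk'
  have he := Cy.vn_isOrd_unique hπ hL hR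
  rw [Finset.sum_const, Nat.card_Ico, nsmul_eq_mul, ← mul_add] at he
  have : k' = n + m := mul_left_cancel₀ (t4vn_q_sub_one_ne hq) he
  rw [← this]
  exact hk'

include hq hπ hqO hdeg in
/-- **`ρ¹_∞ (N_α y) = ρ_∞ y · ρ_mid y ^ (q-1)`** for units -/
theorem t4vn_rho_normA {y : ↥(TaF L (N' * q * q))}
    (hu : T4vnGU O π (y : LaurentSeries L)) (hv : T4vnGU O' π' (M.ι y)) :
    T4vnGU O π ((t4vnNormA L N' q y : ↥(TaF L (N' * q))) : LaurentSeries L) ∧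
      taRhoFun O π ((t4vnNormA L N' q y : ↥(TaF L (N' * q))) : LaurentSeries L)
        = taRhoFun O π (y : LaurentSeries L) * taRhoFun O' π' (M.ι y) ^ (q - 1) := by
  have h0 := t4vn_isOrd_normA Cy M hq hπ hqO hdeg (hu.isOrd_zero (ϖ := ((q : ℕ) : L)))
    (hv.isOrd_zero (ϖ := ((Cy.lam : ↥O') : L')))
  obtain ⟨u, hu', e⟩ := h0
  rw [add_zero, zpow_zero, one_mul] at e
  rw [e]
  refine ⟨hu', ?_⟩
  have hprod := t4vnNormA_eq_prod M Cy.τ hq Cy.τ_ζ Cy.ζ_pow Cy.ζ_ne hdeg y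
  rw [t4vnInc_apply, t4vnInc_apply, e] at hprod
  have h1 := congrArg (taRhoFun O' π') hprod
  rw [Cy.vn_rho_coeffMap hu'.1,
    t4vn_rho_mul O' π' (Cy.vn_GU_coeffMap hu).1
      (t4vn_gauss_prod O' π' _ _ fun b _ => Cy.vn_gauss_tau b hv.1),
    Cy.vn_rho_coeffMap hu.1, t4vn_rho_prod O' π' _ _ fun b _ => Cy.vn_gauss_tau b hv.1] at h1
  rw [h1]
  congr 1
  rw [Finset.prod_congr rfl fun b _ => Cy.vn_rho_tau b hv.1, Finset.prod_const, Nat.card_Ico]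

include Cy W W1 hq hπ hqO hdeg in
/-- **`v¹_∞ (N_β y) = q · v_∞ y`** -/
theorem t4vn_isOrd_normB {y : ↥(TaF L (N' * q * q))} {n : ℤ}
    (hn : T4vnIsOrd O π ((q : ℕ) : L) (y : LaurentSeries L) n) :
    T4vnIsOrd O π ((q : ℕ) : L)
      ((t4vnNormB L N' q y : ↥(TaF L (N' * q))) : LaurentSeries L) ((q : ℤ) * n) := by
  have hprod := t4vnNormB_eq_prod (L' := L') (ζ := Cy.ζ) W W1 hq Cy.ζ_pow Cy.ζ_ne hdeg y
  have hR : T4vnIsOrd O' π' ((Cy.lam : ↥O') : L')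
      (∏ b ∈ Finset.range q,
        t4vSig (Cy.ζ ^ b) (coeffMap (algebraMap L L') (y : LaurentSeries L)))
      (∑ b ∈ Finset.range q, ((q - 1 : ℕ) : ℤ) * n) := by
    refine T4vnIsOrd.prod Cy.vn_lam_ne_zero _ _ _ fun b _ => ?_
    have := Cy.vn_isOrd_sig hπ (b : ℤ) (Cy.vn_isOrd_coeffMap hq hπ hn)
    rwa [zpow_natCast] at this
  rw [← hprod] at hR
  have hN0 : (t4vnNormB L N' q y : ↥(TaF L (N' * q))) ≠ 0 := by
    intro h0
    apply t4vn_coeffMap_ne_zero (hR.ne_zero Cy.vn_lam_ne_zero)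
    rw [h0]
    show qExpand L q 0 = 0
    exact map_zero _
  obtain ⟨k', hk'⟩ := t4vn_exists_isOrd_inf hπ hqO (N' * q) hN0
  have hL := Cy.vn_isOrd_coeffMap hq hπ (hk'.qExpand q)
  have he := Cy.vn_isOrd_unique hπ hL hR
  rw [Finset.sum_const, Finset.card_range, nsmul_eq_mul, mul_left_comm] at he
  have : k' = (q : ℤ) * n := mul_left_cancel₀ (t4vn_q_sub_one_ne hq) he
  rw [← this]
  exact hk'

include Cy W W1 hq hπ hqO hdeg in
/-- **`Φ (ρ¹_∞ (N_β y)) = ρ_∞ y ^ q`** for units, `Φ = qExpand k q` -/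
theorem t4vn_rho_normB {y : ↥(TaF L (N' * q * q))}
    (hu : T4vnGU O π (y : LaurentSeries L)) :
    T4vnGU O π ((t4vnNormB L N' q y : ↥(TaF L (N' * q))) : LaurentSeries L) ∧
      qExpand k q (taRhoFun O π ((t4vnNormB L N' q y : ↥(TaF L (N' * q))) : LaurentSeries L))
        = taRhoFun O π (y : LaurentSeries L) ^ q := by
  have h0 := t4vn_isOrd_normB Cy W W1 hq hπ hqO hdeg (hu.isOrd_zero (ϖ := ((q : ℕ) : L)))
  obtain ⟨u, hu', e⟩ := h0
  rw [mul_zero, zpow_zero, one_mul] at e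
  rw [e]
  refine ⟨hu', ?_⟩
  have hprod := t4vnNormB_eq_prod (L' := L') (ζ := Cy.ζ) W W1 hq Cy.ζ_pow Cy.ζ_ne hdeg y
  rw [e] at hprod
  have hG : ∀ b ∈ Finset.range q, TaGauss O' π'
      (t4vSig (Cy.ζ ^ b) (coeffMap (algebraMap L L') (y : LaurentSeries L))) := by
    intro b _
    have := (Cy.vn_GU_sig hπ (b : ℤ) (Cy.vn_GU_coeffMap hu)).1
    rwa [zpow_natCast] at this
  have h1 := congrArg (taRhoFun O' π') hprod
  rw [Cy.vn_rho_coeffMap (hu'.qExpand q).1, t2i_taRhoFun_qExpand O π q hu'.1,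
    t4vn_rho_prod O' π' _ _ hG] at h1
  rw [h1]
  have h2 : ∀ b ∈ Finset.range q, taRhoFun O' π'
      (t4vSig (Cy.ζ ^ b) (coeffMap (algebraMap L L') (y : LaurentSeries L)))
        = taRhoFun O π (y : LaurentSeries L) := by
    intro b _
    have := Cy.vn_rho_sig hπ (b : ℤ) (Cy.vn_GU_coeffMap hu).1
    rw [zpow_natCast] at this
    rw [this, Cy.vn_rho_coeffMap hu.1]
  rw [Finset.prod_congr rfl h2, Finset.prod_const, Finset.card_range]

/-! #### The component `0`: conjugation by the Atkin–Lehner involutions -/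

include hq in
/-- `w¹ (N_β y) = N_α (w y)` -/
theorem t4vn_w_normB (y : ↥(TaF L (N' * q * q))) :
    W1.w (t4vnNormB L N' q y) = t4vnNormA L N' q (W.w y) := by
  have h := t4vn_w_normA W W1 hq (W.w y)
  rw [W.w_w] at h
  rw [← h, W1.w_w]

include Cy W W1 hq hπ hqO hdeg in
/-- **`v¹_0 (N_α y) = q · v_0 y`** -/
theorem t4vn_isOrd_normA_zero {y : ↥(TaF L (N' * q * q))} {n : ℤ}
    (hn : T4vnIsOrd O π ((q : ℕ) : L)
      ((W.w y : ↥(TaF L (N' * q * q))) : LaurentSeries L) n) :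
    T4vnIsOrd O π ((q : ℕ) : L)
      ((W1.w (t4vnNormA L N' q y) : ↥(TaF L (N' * q))) : LaurentSeries L) ((q : ℤ) * n) := by
  rw [t4vn_w_normA W W1 hq y]
  exact t4vn_isOrd_normB Cy W W1 hq hπ hqO hdeg hn

include Cy W W1 hq hπ hqO hdeg in
/-- **`Φ (ρ¹_0 (N_α y)) = ρ_0 y ^ q`** for units -/
theorem t4vn_rho_normA_zero {y : ↥(TaF L (N' * q * q))}
    (hu : T4vnGU O π ((W.w y : ↥(TaF L (N' * q * q))) : LaurentSeries L)) :
    T4vnGU O π ((W1.w (t4vnNormA L N' q y) : ↥(TaF L (N' * q))) : LaurentSeries L) ∧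
      qExpand k q (taRhoFun O π
          ((W1.w (t4vnNormA L N' q y) : ↥(TaF L (N' * q))) : LaurentSeries L))
        = taRhoFun O π ((W.w y : ↥(TaF L (N' * q * q))) : LaurentSeries L) ^ q := by
  rw [t4vn_w_normA W W1 hq y]
  exact t4vn_rho_normB Cy W W1 hq hπ hqO hdeg hu

include W1 hq hπ hqO hdeg in
/-- **`v¹_0 (N_β y) = v_0 y + v_mid y`** -/
theorem t4vn_isOrd_normB_zero {y : ↥(TaF L (N' * q * q))} {n m : ℤ}
    (hn : T4vnIsOrd O π ((q : ℕ) : L)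
      ((W.w y : ↥(TaF L (N' * q * q))) : LaurentSeries L) n)
    (hm : T4vnIsOrd O' π' ((Cy.lam : ↥O') : L') (M.ι y) m) :
    T4vnIsOrd O π ((q : ℕ) : L)
      ((W1.w (t4vnNormB L N' q y) : ↥(TaF L (N' * q))) : LaurentSeries L) (n + m) := by
  rw [t4vn_w_normB W W1 hq y]
  exact t4vn_isOrd_normA Cy M hq hπ hqO hdeg hn (t4vn_isOrd_mid_w Cy M W hq hπ hm)

include W1 hq hπ hqO hdeg in
/-- **`ρ¹_0 (N_β y) = ρ_0 y · ρ_mid y ^ (q-1)`** for units -/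
theorem t4vn_rho_normB_zero {y : ↥(TaF L (N' * q * q))}
    (hu : T4vnGU O π ((W.w y : ↥(TaF L (N' * q * q))) : LaurentSeries L))
    (hv : T4vnGU O' π' (M.ι y)) :
    T4vnGU O π ((W1.w (t4vnNormB L N' q y) : ↥(TaF L (N' * q))) : LaurentSeries L) ∧
      taRhoFun O π ((W1.w (t4vnNormB L N' q y) : ↥(TaF L (N' * q))) : LaurentSeries L)
        = taRhoFun O π ((W.w y : ↥(TaF L (N' * q * q))) : LaurentSeries L)
          * taRhoFun O' π' (M.ι y) ^ (q - 1) := by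
  rw [t4vn_w_normB W W1 hq y]
  have h := t4vn_rho_normA Cy M hq hπ hqO hdeg hu (t4vn_GU_mid_w Cy M W hq hπ hv)
  rw [(t4vn_gauss_mid_w Cy M W hq hπ hv.1).2] at h
  exact h

end Norm

end Fermat.Agent.T4
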