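/-
T4-V5 (helper7): the eight norm formulas at the three-valuation base `t4vInput` (helper9's
`Val.lean`): for units `y` of `𝒪 = t4vInput.Ov` the norms `N_α y`, `N_β y` are units of
`𝒪¹ = t2iInput.Ov` and

* `ρ¹₁ (N_α y) = ρ₁ y · ρ₂ y ^ (q-1)`,   `Φ (ρ¹₂ (N_α y)) = ρ₃ y ^ q`,
* `Φ (ρ¹₁ (N_β y)) = ρ₁ y ^ q`,          `ρ¹₂ (N_β y) = ρ₂ y ^ (q-1) · ρ₃ y`

(`Φ = qExpand k q`), together with the bridges between `T4vnIsOrd` and the decompositions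
`f = q^n · (unit of the Gauss valuation ring)`.
-/
import Fermat.Agent.Lib.T4.Inst.NormGauss
import Fermat.Agent.Lib.T4.Inst.Val

set_option autoImplicit false
set_option linter.unusedSectionVars false
set_option linter.unusedVariables false
set_option linter.style.haveILetI false
set_option synthInstance.maxHeartbeats 400000

open HahnSeries ModularCurve Fermat.Agent.T1 Fermat.Agent.T2

noncomputable section

namespace Fermat.Agent.T4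

/-! ### Bridges -/

section Bridge

variable {L : Type*} [Field L] {O : ValuationSubring L} {k : Type*} [Field k] {π : ↥O →+* k}

/-- `T4vnIsOrd` in elementary terms -/
theorem t4vn_isOrd_iff_exists {ϖ : L} {f : LaurentSeries L} (hf : f ≠ 0) (n : ℤ) :
    T4vnIsOrd O π ϖ f n ↔ ∃ u : LaurentSeries L, TaGauss O π u ∧ TaGauss O π u⁻¹ ∧
      f = HahnSeries.C ϖ ^ n * u := by
  constructor
  · rintro ⟨u, hu, e⟩
    exact ⟨u, hu.1, hu.gauss_inv, e⟩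
  · rintro ⟨u, hu, hu', e⟩
    refine ⟨u, t4vnGU_of_inv hu hu' ?_, e⟩
    rintro rfl
    rw [mul_zero] at e
    exact hf e

theorem T4vnIsOrd.zpow {ϖ : L} (h0 : ϖ ≠ 0) {f : LaurentSeries L} {n : ℤ}
    (hf : T4vnIsOrd O π ϖ f n) (j : ℤ) : T4vnIsOrd O π ϖ (f ^ j) (j * n) := by
  cases j with
  | ofNat j =>
    rw [Int.ofNat_eq_natCast, zpow_natCast]
    exact hf.pow h0 j
  | negSucc j =>
    rw [zpow_negSucc, Int.negSucc_eq, neg_mul]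
    have := (hf.pow h0 (j + 1)).inv
    push_cast at this
    exact this

end Bridge

section BridgeLevel

variable {L : Type*} [Field L] [Algebra ℚ L] {O : ValuationSubring L} {k : Type*} [Field k]
  {π : ↥O →+* k} [IsDiscreteValuationRing ↥O] (hπ : Function.Surjective π)

/-- the Gauss order at level `N` in terms of units of the Gauss valuation ring `taOv` -/
theorem t4vn_isOrd_iff_unit (N : ℕ) [NeZero N] {ϖ : L} (h0 : ϖ ≠ 0) {f : ↥(TaF L N)}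
    (hf : f ≠ 0) (n : ℤ) :
    T4vnIsOrd O π ϖ (f : LaurentSeries L) n ↔
      ∃ u : ↥(TaF L N), u ∈ taOv O π hπ N ∧ u⁻¹ ∈ taOv O π hπ N ∧
        f = algebraMap L ↥(TaF L N) ϖ ^ n * u := by
  have hf0 : (f : LaurentSeries L) ≠ 0 := fun h => hf (Subtype.ext h)
  have hz : ∀ j : ℤ, (((algebraMap L ↥(TaF L N) ϖ : ↥(TaF L N)) ^ j : ↥(TaF L N)) :
      LaurentSeries L) = HahnSeries.C ϖ ^ j := by
    intro j
    rw [← coe_algebraMap_taF N ϖ]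
    exact map_zpow₀ (TaF L N).val _ j
  have hne : (algebraMap L ↥(TaF L N) ϖ : ↥(TaF L N)) ≠ 0 := by
    rw [Ne, map_eq_zero]
    exact h0
  rw [t4vn_isOrd_iff_exists hf0]
  constructor
  · rintro ⟨u, hu, hu', e⟩
    have hu0 : (((algebraMap L ↥(TaF L N) ϖ : ↥(TaF L N)) ^ (-n) * f : ↥(TaF L N)) :
        LaurentSeries L) = u := by
      rw [IntermediateField.coe_mul, hz, e, ← mul_assoc, ← zpow_add₀ (t4vn_C_ne_zero h0),
        neg_add_cancel, zpow_zero, one_mul]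
    refine ⟨(algebraMap L ↥(TaF L N) ϖ) ^ (-n) * f, ?_, ?_, ?_⟩
    · rw [mem_taOv_iff, hu0]
      exact hu
    · rw [mem_taOv_iff, IntermediateField.coe_inv, hu0]
      exact hu'
    · rw [← mul_assoc, ← zpow_add₀ hne, add_neg_cancel, zpow_zero, one_mul]
  · rintro ⟨u, hu, hu', e⟩
    refine ⟨(u : LaurentSeries L), hu, ?_, ?_⟩
    · rw [← IntermediateField.coe_inv]
      exact hu'
    · rw [e, IntermediateField.coe_mul, hz]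

end BridgeLevel

/-! ### The eight formulas at `t4vInput` -/

section Inst

variable {L : Type} [Field L] [Algebra ℚ L] (O : ValuationSubring L) {k : Type*} [Field k]
  (π : ↥O →+* k) [IsDiscreteValuationRing ↥O] (hπ : Function.Surjective π) [IsAlgClosed k]
  {N' q : ℕ} [NeZero N'] [hq : Fact q.Prime] [CharP k q] (hN' : (N' : k) ≠ 0)
  (W1 : T2iAL L N' q) (Fr : T2iFrob k N' q) (W : T4iAL L N' q)
  (hqO : Irreducible ((q : ℕ) : ↥O))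
  {L' : Type*} [Field L'] [Algebra L L'] (O' : ValuationSubring L')
  [IsDiscreteValuationRing ↥O'] (π' : ↥O' →+* k) (C : T4iCyc O O' π π' q)
  (M : T4iMid L L' N' q C.ζ)

attribute [local instance] t2iAlgebra t2i_isScalarTower

include O π hπ hN' W1 Fr W hqO O' π' C M in
/-- `[F : F1] = q` -/
theorem t4vn_hdeg : @Module.finrank ↥(TaF L (N' * q)) ↥(TaF L (N' * q * q)) _ _
    (@Algebra.toModule _ _ _ _ (t2iAlgebra L (N' * q) q)) = q :=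
  (t4vInput O π hπ hN' W1 Fr W hqO O' π' C M).finrank_eq

variable {y : ↥(TaF L (N' * q * q))}

/-- units of `𝒪` are Gauss units at the three places -/
theorem t4vn_GU_of_unit (hy : y ∈ (t4vInput O π hπ hN' W1 Fr W hqO O' π' C M).Ov)
    (hy' : y⁻¹ ∈ (t4vInput O π hπ hN' W1 Fr W hqO O' π' C M).Ov) (hy0 : y ≠ 0) :
    T4vnGU O π (y : LaurentSeries L) ∧
      T4vnGU O π ((W.w y : ↥(TaF L (N' * q * q))) : LaurentSeries L) ∧
      T4vnGU O' π' (M.ι y) := by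
  obtain ⟨h1, h2, h3⟩ := (mem_t4vInput_Ov O π hπ hN' W1 Fr W hqO O' π' C M y).mp hy
  obtain ⟨h1', h2', h3'⟩ := (mem_t4vInput_Ov O π hπ hN' W1 Fr W hqO O' π' C M y⁻¹).mp hy'
  rw [IntermediateField.coe_inv] at h1'
  rw [map_inv₀, IntermediateField.coe_inv] at h2'
  rw [map_inv₀] at h3'
  have hy1 : (y : LaurentSeries L) ≠ 0 := fun h => hy0 (Subtype.ext h)
  have hy2 : ((W.w y : ↥(TaF L (N' * q * q))) : LaurentSeries L) ≠ 0 := fun h =>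
    hy0 ((map_eq_zero_iff W.w W.w.injective).mp (Subtype.ext h))
  have hy3 : M.ι y ≠ 0 := fun h => hy0 ((map_eq_zero M.ι).mp h)
  exact ⟨t4vnGU_of_inv h1 h1' hy1, t4vnGU_of_inv h2 h2' hy2, t4vnGU_of_inv h3 h3' hy3⟩

theorem t4vn_mem_Ov1_of_GU {g : ↥(TaF L (N' * q))} (h1 : T4vnGU O π (g : LaurentSeries L))
    (h2 : T4vnGU O π ((W1.w g : ↥(TaF L (N' * q))) : LaurentSeries L)) :
    g ∈ (t2iInput O π hπ hN' W1 Fr).Ov ∧ g⁻¹ ∈ (t2iInput O π hπ hN' W1 Fr).Ov := by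
  refine ⟨⟨h1.1, h2.1⟩, ⟨?_, ?_⟩⟩
  · show TaGauss O π ((g⁻¹ : ↥(TaF L (N' * q))) : LaurentSeries L)
    rw [IntermediateField.coe_inv]
    exact h1.gauss_inv
  · show TaGauss O π ((W1.w g⁻¹ : ↥(TaF L (N' * q))) : LaurentSeries L)
    rw [map_inv₀, IntermediateField.coe_inv]
    exact h2.gauss_inv

/-- `N_α` maps units of `𝒪` to units of `𝒪¹` -/
theorem t4vn_normA_mem_Ov1 (hy : y ∈ (t4vInput O π hπ hN' W1 Fr W hqO O' π' C M).Ov)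
    (hy' : y⁻¹ ∈ (t4vInput O π hπ hN' W1 Fr W hqO O' π' C M).Ov) (hy0 : y ≠ 0) :
    t4vnNormA L N' q y ∈ (t2iInput O π hπ hN' W1 Fr).Ov ∧
      (t4vnNormA L N' q y)⁻¹ ∈ (t2iInput O π hπ hN' W1 Fr).Ov := by
  obtain ⟨g1, g2, g3⟩ := t4vn_GU_of_unit O π hπ hN' W1 Fr W hqO O' π' C M hy hy' hy0
  have hdeg := t4vn_hdeg O π hπ hN' W1 Fr W hqO O' π' C M
  exact t4vn_mem_Ov1_of_GU O π hπ hN' W1 Fr (t4vn_rho_normA C M hq.out hπ hqO hdeg g1 g3).1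
    (t4vn_rho_normA_zero C W W1 hq.out hπ hqO hdeg g2).1

/-- `N_β` maps units of `𝒪` to units of `𝒪¹` -/
theorem t4vn_normB_mem_Ov1 (hy : y ∈ (t4vInput O π hπ hN' W1 Fr W hqO O' π' C M).Ov)
    (hy' : y⁻¹ ∈ (t4vInput O π hπ hN' W1 Fr W hqO O' π' C M).Ov) (hy0 : y ≠ 0) :
    t4vnNormB L N' q y ∈ (t2iInput O π hπ hN' W1 Fr).Ov ∧
      (t4vnNormB L N' q y)⁻¹ ∈ (t2iInput O π hπ hN' W1 Fr).Ov := by
  obtain ⟨g1, g2, g3⟩ := t4vn_GU_of_unit O π hπ hN' W1 Fr W hqO O' π' C M hy hy' hy0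
  have hdeg := t4vn_hdeg O π hπ hN' W1 Fr W hqO O' π' C M
  exact t4vn_mem_Ov1_of_GU O π hπ hN' W1 Fr (t4vn_rho_normB C W W1 hq.out hπ hqO hdeg g1).1
    (t4vn_rho_normB_zero C M W W1 hq.out hπ hqO hdeg g2 g3).1

/-- **`ρ¹₁ (N_α y) = ρ₁ y · ρ₂ y ^ (q-1)`** -/
theorem t4vn_ρ₁_normA (hy : y ∈ (t4vInput O π hπ hN' W1 Fr W hqO O' π' C M).Ov)
    (hy' : y⁻¹ ∈ (t4vInput O π hπ hN' W1 Fr W hqO O' π' C M).Ov) (hy0 : y ≠ 0)
    (h : t4vnNormA L N' q y ∈ (t2iInput O π hπ hN' W1 Fr).Ov) :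
    (t2iInput O π hπ hN' W1 Fr).ρ₁ ⟨t4vnNormA L N' q y, h⟩ =
      (t4vInput O π hπ hN' W1 Fr W hqO O' π' C M).ρ₁ ⟨y, hy⟩ *
        (t4vInput O π hπ hN' W1 Fr W hqO O' π' C M).ρ₂ ⟨y, hy⟩ ^ (q - 1) := by
  obtain ⟨g1, g2, g3⟩ := t4vn_GU_of_unit O π hπ hN' W1 Fr W hqO O' π' C M hy hy' hy0
  have hdeg := t4vn_hdeg O π hπ hN' W1 Fr W hqO O' π' C M
  exact (t4vn_rho_normA C M hq.out hπ hqO hdeg g1 g3).2

/-- **`Φ (ρ¹₂ (N_α y)) = ρ₃ y ^ q`** -/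
theorem t4vn_ρ₂_normA (hy : y ∈ (t4vInput O π hπ hN' W1 Fr W hqO O' π' C M).Ov)
    (hy' : y⁻¹ ∈ (t4vInput O π hπ hN' W1 Fr W hqO O' π' C M).Ov) (hy0 : y ≠ 0)
    (h : t4vnNormA L N' q y ∈ (t2iInput O π hπ hN' W1 Fr).Ov) :
    qExpand k q ((t2iInput O π hπ hN' W1 Fr).ρ₂ ⟨t4vnNormA L N' q y, h⟩) =
      (t4vInput O π hπ hN' W1 Fr W hqO O' π' C M).ρ₃ ⟨y, hy⟩ ^ q := by
  obtain ⟨g1, g2, g3⟩ := t4vn_GU_of_unit O π hπ hN' W1 Fr W hqO O' π' C M hy hy' hy0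
  have hdeg := t4vn_hdeg O π hπ hN' W1 Fr W hqO O' π' C M
  exact (t4vn_rho_normA_zero C W W1 hq.out hπ hqO hdeg g2).2

/-- **`Φ (ρ¹₁ (N_β y)) = ρ₁ y ^ q`** -/
theorem t4vn_ρ₁_normB (hy : y ∈ (t4vInput O π hπ hN' W1 Fr W hqO O' π' C M).Ov)
    (hy' : y⁻¹ ∈ (t4vInput O π hπ hN' W1 Fr W hqO O' π' C M).Ov) (hy0 : y ≠ 0)
    (h : t4vnNormB L N' q y ∈ (t2iInput O π hπ hN' W1 Fr).Ov) :
    qExpand k q ((t2iInput O π hπ hN' W1 Fr).ρ₁ ⟨t4vnNormB L N' q y, h⟩) =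
      (t4vInput O π hπ hN' W1 Fr W hqO O' π' C M).ρ₁ ⟨y, hy⟩ ^ q := by
  obtain ⟨g1, g2, g3⟩ := t4vn_GU_of_unit O π hπ hN' W1 Fr W hqO O' π' C M hy hy' hy0
  have hdeg := t4vn_hdeg O π hπ hN' W1 Fr W hqO O' π' C M
  exact (t4vn_rho_normB C W W1 hq.out hπ hqO hdeg g1).2

/-- **`ρ¹₂ (N_β y) = ρ₂ y ^ (q-1) · ρ₃ y`** -/
theorem t4vn_ρ₂_normB (hy : y ∈ (t4vInput O π hπ hN' W1 Fr W hqO O' π' C M).Ov)
    (hy' : y⁻¹ ∈ (t4vInput O π hπ hN' W1 Fr W hqO O' π' C M).Ov) (hy0 : y ≠ 0)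
    (h : t4vnNormB L N' q y ∈ (t2iInput O π hπ hN' W1 Fr).Ov) :
    (t2iInput O π hπ hN' W1 Fr).ρ₂ ⟨t4vnNormB L N' q y, h⟩ =
      (t4vInput O π hπ hN' W1 Fr W hqO O' π' C M).ρ₂ ⟨y, hy⟩ ^ (q - 1) *
        (t4vInput O π hπ hN' W1 Fr W hqO O' π' C M).ρ₃ ⟨y, hy⟩ := by
  obtain ⟨g1, g2, g3⟩ := t4vn_GU_of_unit O π hπ hN' W1 Fr W hqO O' π' C M hy hy' hy0
  have hdeg := t4vn_hdeg O π hπ hN' W1 Fr W hqO O' π' C M
  exact ((t4vn_rho_normB_zero C M W W1 hq.out hπ hqO hdeg g2 g3).2).trans (mul_comm _ _)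

/-! #### The valuation formulas in terms of units of the Gauss valuation rings -/

include hqO in
theorem t4vn_q_ne_zero : ((q : ℕ) : L) ≠ 0 := by
  intro h
  apply hqO.ne_zero
  apply Subtype.ext
  rw [SubringClass.coe_natCast]
  exact h

include hq hN' W1 Fr W hqO O' π' C M in
/-- **`v¹_∞ (N_α y) = v_∞ y + v_mid y`**, unit form -/
theorem t4vn_normA_unit_inf {a b : ℤ} (hy0 : y ≠ 0)
    (ha : ∃ u : ↥(TaF L (N' * q * q)), u ∈ taOv O π hπ (N' * q * q) ∧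
      u⁻¹ ∈ taOv O π hπ (N' * q * q) ∧
      y = algebraMap L ↥(TaF L (N' * q * q)) ((q : ℕ) : L) ^ a * u)
    (hb : ∃ v : LaurentSeries L', TaGauss O' π' v ∧ TaGauss O' π' v⁻¹ ∧
      M.ι y = HahnSeries.C ((C.lam : ↥O') : L') ^ b * v) :
    ∃ u1 : ↥(TaF L (N' * q)), u1 ∈ taOv O π hπ (N' * q) ∧ u1⁻¹ ∈ taOv O π hπ (N' * q) ∧
      t4vnNormA L N' q y = algebraMap L ↥(TaF L (N' * q)) ((q : ℕ) : L) ^ (a + b) * u1 := by
  have hq0 := t4vn_q_ne_zero O hqO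
  have hdeg := t4vn_hdeg O π hπ hN' W1 Fr W hqO O' π' C M
  have h1 := (t4vn_isOrd_iff_unit hπ (N' * q * q) hq0 hy0 a).mpr ha
  have h2 := (t4vn_isOrd_iff_exists (fun h => hy0 ((map_eq_zero M.ι).mp h)) b).mpr hb
  have h3 := t4vn_isOrd_normA C M hq.out hπ hqO hdeg h1 h2
  have h4 : t4vnNormA L N' q y ≠ 0 := fun h => h3.ne_zero hq0 (by rw [h]; rfl)
  exact (t4vn_isOrd_iff_unit hπ (N' * q) hq0 h4 (a + b)).mp h3

include hq hN' W1 Fr W hqO O' π' C M in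
/-- **`v¹_0 (N_α y) = q · v_0 y`**, unit form -/
theorem t4vn_normA_unit_zero {c : ℤ} (hy0 : y ≠ 0)
    (hc : ∃ u : ↥(TaF L (N' * q * q)), u ∈ taOv O π hπ (N' * q * q) ∧
      u⁻¹ ∈ taOv O π hπ (N' * q * q) ∧
      W.w y = algebraMap L ↥(TaF L (N' * q * q)) ((q : ℕ) : L) ^ c * u) :
    ∃ u1 : ↥(TaF L (N' * q)), u1 ∈ taOv O π hπ (N' * q) ∧ u1⁻¹ ∈ taOv O π hπ (N' * q) ∧
      W1.w (t4vnNormA L N' q y)
        = algebraMap L ↥(TaF L (N' * q)) ((q : ℕ) : L) ^ ((q : ℤ) * c) * u1 := by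
  have hq0 := t4vn_q_ne_zero O hqO
  have hdeg := t4vn_hdeg O π hπ hN' W1 Fr W hqO O' π' C M
  have hw0 : W.w y ≠ 0 := fun h => hy0 ((map_eq_zero_iff W.w W.w.injective).mp h)
  have h1 := (t4vn_isOrd_iff_unit hπ (N' * q * q) hq0 hw0 c).mpr hc
  have h3 := t4vn_isOrd_normA_zero C W W1 hq.out hπ hqO hdeg h1
  have h4 : W1.w (t4vnNormA L N' q y) ≠ 0 := fun h => h3.ne_zero hq0 (by rw [h]; rfl)
  exact (t4vn_isOrd_iff_unit hπ (N' * q) hq0 h4 _).mp h3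

include hq hN' W1 Fr W hqO O' π' C M in
/-- **`v¹_∞ (N_β y) = q · v_∞ y`**, unit form -/
theorem t4vn_normB_unit_inf {a : ℤ} (hy0 : y ≠ 0)
    (ha : ∃ u : ↥(TaF L (N' * q * q)), u ∈ taOv O π hπ (N' * q * q) ∧
      u⁻¹ ∈ taOv O π hπ (N' * q * q) ∧
      y = algebraMap L ↥(TaF L (N' * q * q)) ((q : ℕ) : L) ^ a * u) :
    ∃ u1 : ↥(TaF L (N' * q)), u1 ∈ taOv O π hπ (N' * q) ∧ u1⁻¹ ∈ taOv O π hπ (N' * q) ∧
      t4vnNormB L N' q y = algebraMap L ↥(TaF L (N' * q)) ((q : ℕ) : L) ^ ((q : ℤ) * a) * u1 := by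
  have hq0 := t4vn_q_ne_zero O hqO
  have hdeg := t4vn_hdeg O π hπ hN' W1 Fr W hqO O' π' C M
  have h1 := (t4vn_isOrd_iff_unit hπ (N' * q * q) hq0 hy0 a).mpr ha
  have h3 := t4vn_isOrd_normB C W W1 hq.out hπ hqO hdeg h1
  have h4 : t4vnNormB L N' q y ≠ 0 := fun h => h3.ne_zero hq0 (by rw [h]; rfl)
  exact (t4vn_isOrd_iff_unit hπ (N' * q) hq0 h4 _).mp h3

include hq hN' W1 Fr W hqO O' π' C M in
/-- **`v¹_0 (N_β y) = v_0 y + v_mid y`**, unit form -/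
theorem t4vn_normB_unit_zero {b c : ℤ} (hy0 : y ≠ 0)
    (hc : ∃ u : ↥(TaF L (N' * q * q)), u ∈ taOv O π hπ (N' * q * q) ∧
      u⁻¹ ∈ taOv O π hπ (N' * q * q) ∧
      W.w y = algebraMap L ↥(TaF L (N' * q * q)) ((q : ℕ) : L) ^ c * u)
    (hb : ∃ v : LaurentSeries L', TaGauss O' π' v ∧ TaGauss O' π' v⁻¹ ∧
      M.ι y = HahnSeries.C ((C.lam : ↥O') : L') ^ b * v) :
    ∃ u1 : ↥(TaF L (N' * q)), u1 ∈ taOv O π hπ (N' * q) ∧ u1⁻¹ ∈ taOv O π hπ (N' * q) ∧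
      W1.w (t4vnNormB L N' q y)
        = algebraMap L ↥(TaF L (N' * q)) ((q : ℕ) : L) ^ (c + b) * u1 := by
  have hq0 := t4vn_q_ne_zero O hqO
  have hdeg := t4vn_hdeg O π hπ hN' W1 Fr W hqO O' π' C M
  have hw0 : W.w y ≠ 0 := fun h => hy0 ((map_eq_zero_iff W.w W.w.injective).mp h)
  have h1 := (t4vn_isOrd_iff_unit hπ (N' * q * q) hq0 hw0 c).mpr hc
  have h2 := (t4vn_isOrd_iff_exists (fun h => hy0 ((map_eq_zero M.ι).mp h)) b).mpr hb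
  have h3 := t4vn_isOrd_normB_zero C M W W1 hq.out hπ hqO hdeg h1 h2
  have h4 : W1.w (t4vnNormB L N' q y) ≠ 0 := fun h => h3.ne_zero hq0 (by rw [h]; rfl)
  exact (t4vn_isOrd_iff_unit hπ (N' * q) hq0 h4 _).mp h3

end Inst

end Fermat.Agent.T4
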