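/-
T4-V5 (helper7): the norm congruences in elementwise form (`hsplit`, `hfrob`, `hover` of helper5's
`T4PresOver.norm_relation`) on helper9's vertical valuation rings `t4vOinf`, `t4vOmid`, `t4vO0`
of `F = F_{N'q²,L}` and the two vertical valuation rings `taOv (N' q)`, `(taOv (N' q)).comap w¹`
of `F1 = F_{N'q,L}`.

* `t4vn_rho_normA_int`, … : the reduction formulas for all Gauss-INTEGRAL `y` (not only units);
* `t4vn_valuation_lt_one_iff`, `t4vn_valuation_eq_one_iff`: the dictionary between valuations and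
  reductions for valuation rings defined by a Gauss condition;
* `t4vn_hsplit_alpha`, `t4vn_hfrob_alpha`, `t4vn_hover_alpha`, `t4vn_hsplit_beta`,
  `t4vn_hfrob_beta`, `t4vn_hover_beta`.
-/
import Fermat.Agent.Lib.T4.Inst.NormInst
import Fermat.Agent.Lib.T4.Inst.ValSub

set_option autoImplicit false
set_option linter.unusedSectionVars false
set_option linter.unusedVariables false
set_option linter.style.haveILetI false
set_option synthInstance.maxHeartbeats 400000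

open HahnSeries ModularCurve Fermat.Agent.T1 Fermat.Agent.T2

noncomputable section

namespace Fermat.Agent.T4

/-! ### Orders and integrality -/

section OrdInt

variable {L : Type*} [Field L] {O : ValuationSubring L} {k : Type*} [Field k] {π : ↥O →+* k}

theorem T4vnIsOrd.gauss_of_nonneg {ϖ : L} (hϖ : ϖ ∈ O) {f : LaurentSeries L} {n : ℤ}
    (hf : T4vnIsOrd O π ϖ f n) (hn : 0 ≤ n) : TaGauss O π f := by
  obtain ⟨u, hu, rfl⟩ := hf
  obtain ⟨m, rfl⟩ := Int.eq_ofNat_of_zero_le hn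
  rw [zpow_natCast]
  exact t4vn_gauss_mul O π (t4vn_gauss_pow O π (t4vn_gauss_C hϖ) m) hu.1

theorem T4vnIsOrd.rho_eq_zero {ϖ : L} (hϖ : ϖ ∈ O) (hπϖ : π ⟨ϖ, hϖ⟩ = 0)
    {f : LaurentSeries L} {n : ℤ} (hf : T4vnIsOrd O π ϖ f n) (hn : 0 < n) :
    taRhoFun O π f = 0 := by
  obtain ⟨u, hu, rfl⟩ := hf
  obtain ⟨m, rfl⟩ : ∃ m : ℕ, n = ((m + 1 : ℕ) : ℤ) := ⟨(n - 1).toNat, by omega⟩
  rw [zpow_natCast, t4vn_rho_mul O π (t4vn_gauss_pow O π (t4vn_gauss_C hϖ) _) hu.1,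
    t4vn_rho_pow O π (t4vn_gauss_C hϖ), t4vn_rho_C hϖ, hπϖ, map_zero, pow_succ, mul_zero,
    zero_mul]

theorem T4vnIsOrd.nonneg_of_gauss {ϖ : L} (h0 : ϖ ≠ 0) (hϖ : ϖ ∈ O) (hπϖ : π ⟨ϖ, hϖ⟩ = 0)
    {f : LaurentSeries L} {n : ℤ} (hf : T4vnIsOrd O π ϖ f n) (hg : TaGauss O π f) : 0 ≤ n := by
  by_contra hn
  push Not at hn
  obtain ⟨u, hu, e⟩ := hf
  -- `u = ϖ^(-n) f` has zero reduction
  have hC0 : (HahnSeries.C ϖ : LaurentSeries L) ≠ 0 := t4vn_C_ne_zero h0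
  have h1 : T4vnIsOrd O π ϖ (HahnSeries.C ϖ ^ (-n)) (-n) :=
    ⟨1, t4vnGU_one O π, by rw [mul_one]⟩
  have e2 : u = HahnSeries.C ϖ ^ (-n) * f := by
    rw [e, ← mul_assoc, ← zpow_add₀ hC0, neg_add_cancel, zpow_zero, one_mul]
  have h2 : taRhoFun O π u = 0 := by
    rw [e2, t4vn_rho_mul O π (h1.gauss_of_nonneg hϖ (by omega)) hg,
      h1.rho_eq_zero hϖ hπϖ (by omega), zero_mul]
  exact hu.2 h2

theorem T4vnIsOrd.GU_of_zero {ϖ : L} {f : LaurentSeries L} (hf : T4vnIsOrd O π ϖ f 0) :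
    T4vnGU O π f := by
  obtain ⟨u, hu, e⟩ := hf
  rw [zpow_zero, one_mul] at e
  rw [e]
  exact hu

end OrdInt

/-! ### Valuation rings defined by a Gauss condition -/

section Dict

variable {L : Type*} [Field L] {O : ValuationSubring L} {k : Type*} [Field k] {π : ↥O →+* k}
  {F : Type*} [Field F] (V : ValuationSubring F) (φ : F →+* LaurentSeries L)
  (hV : ∀ f : F, f ∈ V ↔ TaGauss O π (φ f))

include hV in
/-- `v f < 1 ↔ f` is Gauss-integral with zero reduction -/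
theorem t4vn_valuation_lt_one_iff (f : F) :
    V.valuation f < 1 ↔ TaGauss O π (φ f) ∧ taRhoFun O π (φ f) = 0 := by
  constructor
  · intro hlt
    have hf : f ∈ V := (V.valuation_le_one_iff f).mp hlt.le
    refine ⟨(hV f).mp hf, ?_⟩
    by_contra hne
    have hGU : T4vnGU O π (φ f) := ⟨(hV f).mp hf, hne⟩
    have hinv : f⁻¹ ∈ V := by
      rw [hV, map_inv₀]
      exact hGU.gauss_inv
    have hf0 : f ≠ 0 := by
      rintro rfl
      rw [map_zero] at hGU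
      exact hGU.ne_zero rfl
    have h1 : V.valuation f⁻¹ ≤ 1 := (V.valuation_le_one_iff _).mpr hinv
    rw [map_inv₀] at h1
    have h3 : V.valuation f ≠ 0 := (Valuation.ne_zero_iff _).mpr hf0
    have h4 : 1 ≤ V.valuation f := (inv_le_one₀ (zero_lt_iff.mpr h3)).mp h1
    exact absurd hlt (not_lt.mpr h4)
  · rintro ⟨hg, hρ⟩
    have hf : f ∈ V := (hV f).mpr hg
    have hle : V.valuation f ≤ 1 := (V.valuation_le_one_iff f).mpr hf
    rcases lt_or_eq_of_le hle with h | h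
    · exact h
    · exfalso
      have hf0 : f ≠ 0 := by
        rintro rfl
        rw [map_zero] at h
        exact zero_ne_one h
      have hinv : f⁻¹ ∈ V := by
        rw [← V.valuation_le_one_iff, map_inv₀, h, inv_one]
      have hinv' : TaGauss O π (φ f)⁻¹ := by
        rw [← map_inv₀]
        exact (hV _).mp hinv
      have hGU := t4vnGU_of_inv hg hinv' (fun h0 => hf0 ((map_eq_zero φ).mp h0))
      exact hGU.2 hρ

include hV in
/-- `v f = 1 ↔ f` is a Gauss unit -/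
theorem t4vn_valuation_eq_one_iff (f : F) : V.valuation f = 1 ↔ T4vnGU O π (φ f) := by
  constructor
  · intro h
    have hf : f ∈ V := (V.valuation_le_one_iff f).mp h.le
    refine ⟨(hV f).mp hf, fun hρ => ?_⟩
    have := (t4vn_valuation_lt_one_iff V φ hV f).mpr ⟨(hV f).mp hf, hρ⟩
    rw [h] at this
    exact lt_irrefl _ this
  · intro hGU
    have hf : f ∈ V := (hV f).mpr hGU.1
    have hle : V.valuation f ≤ 1 := (V.valuation_le_one_iff f).mpr hf
    rcases lt_or_eq_of_le hle with h | h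
    · exact absurd ((t4vn_valuation_lt_one_iff V φ hV f).mp h).2 hGU.2
    · exact h

include hV in
/-- congruent elements have the same reduction -/
theorem t4vn_rho_eq_of_valuation_sub_lt {f g : F} (hg : TaGauss O π (φ g))
    (h : V.valuation (f - g) < 1) :
    TaGauss O π (φ f) ∧ taRhoFun O π (φ f) = taRhoFun O π (φ g) := by
  obtain ⟨h1, h2⟩ := (t4vn_valuation_lt_one_iff V φ hV (f - g)).mp h
  rw [map_sub] at h1 h2
  have e : φ f = (φ f - φ g) + φ g := by ring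
  have hf : TaGauss O π (φ f) := by
    rw [e]
    exact (taGaussSubring O π).add_mem h1 hg
  refine ⟨hf, ?_⟩
  have h3 : taRhoFun O π ((φ f - φ g) + φ g) = taRhoFun O π (φ f - φ g) + taRhoFun O π (φ g) :=
    (taRho O π).map_add (⟨_, h1⟩ : ↥(taGaussSubring O π)) (⟨_, hg⟩ : ↥(taGaussSubring O π))
  rw [← e, h2, zero_add] at h3
  exact h3

include hV in
/-- equal reductions give congruent elements -/
theorem t4vn_valuation_sub_lt_of_rho_eq {f g : F} (hf : TaGauss O π (φ f))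
    (hg : TaGauss O π (φ g)) (h : taRhoFun O π (φ f) = taRhoFun O π (φ g)) :
    V.valuation (f - g) < 1 := by
  rw [t4vn_valuation_lt_one_iff V φ hV, map_sub]
  refine ⟨(taGaussSubring O π).sub_mem hf hg, ?_⟩
  have h3 : taRhoFun O π (φ f - φ g) = taRhoFun O π (φ f) - taRhoFun O π (φ g) :=
    (taRho O π).map_sub (⟨_, hf⟩ : ↥(taGaussSubring O π)) (⟨_, hg⟩ : ↥(taGaussSubring O π))
  rw [h3, h, sub_self]

end Dict

/-! ### The reduction formulas for Gauss-integral elements -/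

section NormInt

variable {L L' : Type*} [Field L] [Algebra ℚ L] [Field L'] [Algebra L L']
  {O : ValuationSubring L} {O' : ValuationSubring L'} {k : Type*} [Field k]
  {π : ↥O →+* k} {π' : ↥O' →+* k} {N' q : ℕ} [NeZero N'] [NeZero q]
  (Cy : T4iCyc O O' π π' q) (M : T4iMid L L' N' q Cy.ζ) (W : T4iAL L N' q) (W1 : T2iAL L N' q)
  (hq : q.Prime) [CharP k q] (hπ : Function.Surjective π) [IsDiscreteValuationRing ↥O]
  [IsDiscreteValuationRing ↥O']
  (hqO : Irreducible ((q : ℕ) : ↥O))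
  (hdeg : @Module.finrank ↥(TaF L (N' * q)) ↥(TaF L (N' * q * q)) _ _
        (@Algebra.toModule _ _ _ _ (t2iAlgebra L (N' * q) q)) = q)

include hq hdeg in
theorem t4vnNormA_zero : t4vnNormA L N' q 0 = 0 := by
  letI := t2iAlgebra L (N' * q) q
  haveI : Module.Finite ↥(TaF L (N' * q)) ↥(TaF L (N' * q * q)) :=
    Module.finite_of_finrank_pos (by rw [hdeg]; exact hq.pos)
  exact Algebra.norm_zero

include W W1 hq hdeg in
theorem t4vnNormB_zero : t4vnNormB L N' q 0 = 0 := by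
  have hdegB := (t4vn_finrank_B W W1 hq).trans hdeg
  letI := t4vnAlgB L N' q
  haveI : Module.Finite ↥(TaF L (N' * q)) ↥(TaF L (N' * q * q)) :=
    Module.finite_of_finrank_pos (by rw [hdegB]; exact hq.pos)
  exact Algebra.norm_zero

include hqO in
theorem t4vn_q_mem : ((q : ℕ) : L) ∈ O := natCast_mem O q

include hπ hqO in
theorem t4vn_pi_q : π ⟨((q : ℕ) : L), natCast_mem O q⟩ = 0 := by
  have h : (⟨((q : ℕ) : L), natCast_mem O q⟩ : ↥O) = ((q : ℕ) : ↥O) := rfl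
  rw [h]
  exact (ta_pi_eq_zero_iff hπ hqO _).mpr dvd_rfl

include hqO in
theorem t4vn_q_ne : ((q : ℕ) : L) ≠ 0 := by
  intro h
  apply hqO.ne_zero
  apply Subtype.ext
  rw [SubringClass.coe_natCast]
  exact h

include hq hπ in
/-- existence of the Gauss order at the middle place -/
theorem t4vn_exists_isOrd_mid {y : ↥(TaF L (N' * q * q))} (hy : y ≠ 0) :
    ∃ m : ℤ, T4vnIsOrd O' π' ((Cy.lam : ↥O') : L') (M.ι y) m :=
  t4vn_exists_isOrd (Cy.π'_surjective hπ) Cy.unif (t4vn_mid_taFrac Cy M hq hπ y)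
    (fun h => hy ((map_eq_zero M.ι).mp h))

include hq hπ hqO hdeg in
/-- **`ρ¹_∞ (N_α y) = ρ_∞ y · ρ_mid y ^ (q-1)`** for all `y` integral at `∞` and at the middle -/
theorem t4vn_rho_normA_int {y : ↥(TaF L (N' * q * q))}
    (hu : TaGauss O π (y : LaurentSeries L)) (hv : TaGauss O' π' (M.ι y)) :
    TaGauss O π ((t4vnNormA L N' q y : ↥(TaF L (N' * q))) : LaurentSeries L) ∧
      taRhoFun O π ((t4vnNormA L N' q y : ↥(TaF L (N' * q))) : LaurentSeries L)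
        = taRhoFun O π (y : LaurentSeries L) * taRhoFun O' π' (M.ι y) ^ (q - 1) := by
  have hq1 : q - 1 ≠ 0 := by have := hq.one_lt; omega
  by_cases hy : y = 0
  · rw [hy, t4vnNormA_zero hq hdeg]
    refine ⟨(taGaussSubring O π).zero_mem, ?_⟩
    show taRhoFun O π 0 = taRhoFun O π 0 * _
    rw [t4vn_rho_zero, zero_mul]
  obtain ⟨n, hn⟩ := t4vn_exists_isOrd_inf hπ hqO (N' * q * q) hy
  obtain ⟨m, hm⟩ := t4vn_exists_isOrd_mid Cy M hq hπ hy
  have hn0 : 0 ≤ n := hn.nonneg_of_gauss (t4vn_q_ne hqO) (natCast_mem O q) (t4vn_pi_q hπ hqO) hu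
  have hm0 : 0 ≤ m := hm.nonneg_of_gauss Cy.vn_lam_ne_zero Cy.lam.2 (Cy.π'_lam hπ) hv
  have hN := t4vn_isOrd_normA Cy M hq hπ hqO hdeg hn hm
  refine ⟨hN.gauss_of_nonneg (natCast_mem O q) (by omega), ?_⟩
  by_cases h0 : n = 0 ∧ m = 0
  · obtain ⟨rfl, rfl⟩ := h0
    exact (t4vn_rho_normA Cy M hq hπ hqO hdeg hn.GU_of_zero hm.GU_of_zero).2
  · rw [hN.rho_eq_zero (natCast_mem O q) (t4vn_pi_q hπ hqO) (by omega)]
    by_cases hn1 : 0 < n
    · rw [hn.rho_eq_zero (natCast_mem O q) (t4vn_pi_q hπ hqO) hn1, zero_mul]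
    · have hm1 : 0 < m := by omega
      rw [hm.rho_eq_zero Cy.lam.2 (Cy.π'_lam hπ) hm1, zero_pow hq1, mul_zero]

include Cy W W1 hq hπ hqO hdeg in
/-- **`Φ (ρ¹_∞ (N_β y)) = ρ_∞ y ^ q`** for all `y` integral at `∞` -/
theorem t4vn_rho_normB_int {y : ↥(TaF L (N' * q * q))}
    (hu : TaGauss O π (y : LaurentSeries L)) :
    TaGauss O π ((t4vnNormB L N' q y : ↥(TaF L (N' * q))) : LaurentSeries L) ∧
      qExpand k q (taRhoFun O π ((t4vnNormB L N' q y : ↥(TaF L (N' * q))) : LaurentSeries L))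
        = taRhoFun O π (y : LaurentSeries L) ^ q := by
  by_cases hy : y = 0
  · rw [hy, t4vnNormB_zero W W1 hq hdeg]
    refine ⟨(taGaussSubring O π).zero_mem, ?_⟩
    show qExpand k q (taRhoFun O π 0) = taRhoFun O π 0 ^ q
    rw [t4vn_rho_zero, map_zero, zero_pow hq.ne_zero]
  obtain ⟨n, hn⟩ := t4vn_exists_isOrd_inf hπ hqO (N' * q * q) hy
  have hn0 : 0 ≤ n := hn.nonneg_of_gauss (t4vn_q_ne hqO) (natCast_mem O q) (t4vn_pi_q hπ hqO) hu
  have hN := t4vn_isOrd_normB Cy W W1 hq hπ hqO hdeg hn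
  have hqn : 0 ≤ (q : ℤ) * n := mul_nonneg (Int.natCast_nonneg q) hn0
  refine ⟨hN.gauss_of_nonneg (natCast_mem O q) hqn, ?_⟩
  by_cases h0 : n = 0
  · subst h0
    exact (t4vn_rho_normB Cy W W1 hq hπ hqO hdeg hn.GU_of_zero).2
  · have hn1 : 0 < n := by omega
    have hqn1 : 0 < (q : ℤ) * n := mul_pos (by exact_mod_cast hq.pos) hn1
    rw [hN.rho_eq_zero (natCast_mem O q) (t4vn_pi_q hπ hqO) hqn1,
      hn.rho_eq_zero (natCast_mem O q) (t4vn_pi_q hπ hqO) hn1, map_zero, zero_pow hq.ne_zero]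

include Cy W W1 hq hπ hqO hdeg in
/-- **`Φ (ρ¹_0 (N_α y)) = ρ_0 y ^ q`** for all `y` integral at `0` -/
theorem t4vn_rho_normA_zero_int {y : ↥(TaF L (N' * q * q))}
    (hu : TaGauss O π ((W.w y : ↥(TaF L (N' * q * q))) : LaurentSeries L)) :
    TaGauss O π ((W1.w (t4vnNormA L N' q y) : ↥(TaF L (N' * q))) : LaurentSeries L) ∧
      qExpand k q (taRhoFun O π
          ((W1.w (t4vnNormA L N' q y) : ↥(TaF L (N' * q))) : LaurentSeries L))
        = taRhoFun O π ((W.w y : ↥(TaF L (N' * q * q))) : LaurentSeries L) ^ q := by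
  rw [t4vn_w_normA W W1 hq y]
  exact t4vn_rho_normB_int Cy W W1 hq hπ hqO hdeg hu

include W1 hq hπ hqO hdeg in
/-- **`ρ¹_0 (N_β y) = ρ_0 y · ρ_mid y ^ (q-1)`** for all `y` integral at `0` and at the middle -/
theorem t4vn_rho_normB_zero_int {y : ↥(TaF L (N' * q * q))}
    (hu : TaGauss O π ((W.w y : ↥(TaF L (N' * q * q))) : LaurentSeries L))
    (hv : TaGauss O' π' (M.ι y)) :
    TaGauss O π ((W1.w (t4vnNormB L N' q y) : ↥(TaF L (N' * q))) : LaurentSeries L) ∧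
      taRhoFun O π ((W1.w (t4vnNormB L N' q y) : ↥(TaF L (N' * q))) : LaurentSeries L)
        = taRhoFun O π ((W.w y : ↥(TaF L (N' * q * q))) : LaurentSeries L)
          * taRhoFun O' π' (M.ι y) ^ (q - 1) := by
  rw [t4vn_w_normB W W1 hq y]
  obtain ⟨h1, h2⟩ := t4vn_gauss_mid_w Cy M W hq hπ hv
  have h := t4vn_rho_normA_int Cy M hq hπ hqO hdeg hu h1
  rw [h2] at h
  exact h

end NormInt

/-! ### The congruences on the vertical valuation rings -/

section Cong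

variable {L : Type} [Field L] [Algebra ℚ L] (O : ValuationSubring L) {k : Type*} [Field k]
  (π : ↥O →+* k) [IsDiscreteValuationRing ↥O] (hπ : Function.Surjective π) [IsAlgClosed k]
  {N' q : ℕ} [NeZero N'] [hq : Fact q.Prime] [CharP k q] (hN' : (N' : k) ≠ 0)
  (W1 : T2iAL L N' q) (Fr : T2iFrob k N' q) (W : T4iAL L N' q)
  (hqO : Irreducible ((q : ℕ) : ↥O))
  {L' : Type*} [Field L'] [Algebra L L'] (O' : ValuationSubring L')
  [IsDiscreteValuationRing ↥O'] (π' : ↥O' →+* k) (C : T4iCyc O O' π π' q)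
  (M : T4iMid L L' N' q C.ζ)

/-- the `q`-expansion at `∞` as a ring homomorphism -/
def t4vnCoe (L : Type) [Field L] [Algebra ℚ L] (N : ℕ) : ↥(TaF L N) →+* LaurentSeries L :=
  (TaF L N).toSubring.subtype

@[simp] theorem t4vnCoe_apply (N : ℕ) (f : ↥(TaF L N)) : t4vnCoe L N f = (f : LaurentSeries L) := rfl

/-- the `q`-expansion at `0` (`f ↦ (w f)(𝔮)`) at level `N' q q` -/
def t4vnCoeW : ↥(TaF L (N' * q * q)) →+* LaurentSeries L :=
  (t4vnCoe L (N' * q * q)).comp (W.w : ↥(TaF L (N' * q * q)) →+* ↥(TaF L (N' * q * q)))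

@[simp] theorem t4vnCoeW_apply (f : ↥(TaF L (N' * q * q))) :
    t4vnCoeW W f = ((W.w f : ↥(TaF L (N' * q * q))) : LaurentSeries L) := rfl

/-- the `q`-expansion at `0` at level `N' q` -/
def t4vnCoeW1 : ↥(TaF L (N' * q)) →+* LaurentSeries L :=
  (t4vnCoe L (N' * q)).comp (W1.w : ↥(TaF L (N' * q)) →+* ↥(TaF L (N' * q)))

@[simp] theorem t4vnCoeW1_apply (f : ↥(TaF L (N' * q))) :
    t4vnCoeW1 W1 f = ((W1.w f : ↥(TaF L (N' * q))) : LaurentSeries L) := rfl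

/-- `V¹_0`, the vertical valuation ring at `0` of level `N' q` -/
def t4vnO10 : ValuationSubring ↥(TaF L (N' * q)) :=
  (taOv O π hπ (N' * q)).comap (W1.w : ↥(TaF L (N' * q)) →+* ↥(TaF L (N' * q)))

theorem mem_t4vnO10 (f : ↥(TaF L (N' * q))) :
    f ∈ t4vnO10 O π hπ W1 ↔
      TaGauss O π ((W1.w f : ↥(TaF L (N' * q))) : LaurentSeries L) := Iff.rfl

theorem t4vn_hV_inf (N : ℕ) [NeZero N] (f : ↥(TaF L N)) :
    f ∈ taOv O π hπ N ↔ TaGauss O π (t4vnCoe L N f) := Iff.rfl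

theorem t4vn_hV_0 (f : ↥(TaF L (N' * q * q))) :
    f ∈ t4vO0 O π hπ W ↔ TaGauss O π (t4vnCoeW W f) := Iff.rfl

theorem t4vn_hV_mid (f : ↥(TaF L (N' * q * q))) :
    f ∈ t4vOmid O π hπ O' π' C M ↔ TaGauss O' π' (M.ι f) := Iff.rfl

theorem t4vn_hV_10 (f : ↥(TaF L (N' * q))) :
    f ∈ t4vnO10 O π hπ W1 ↔ TaGauss O π (t4vnCoeW1 W1 f) := Iff.rfl

include hπ in
theorem t4vn_mid_alpha_gauss {a : ↥(TaF L (N' * q))} (ha : TaGauss O π (a : LaurentSeries L)) :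
    TaGauss O' π' (M.ι (heckeAlphaBar L (N' * q) q a)) ∧
      taRhoFun O' π' (M.ι (heckeAlphaBar L (N' * q) q a)) = taRhoFun O π (a : LaurentSeries L) := by
  rw [M.ι_alpha hq.out]
  exact ⟨t4vn_gauss_map (algebraMap L L') C.map_mem C.π_map ha, C.vn_rho_coeffMap ha⟩

include hπ W in
theorem t4vn_mid_beta_gauss {a : ↥(TaF L (N' * q))}
    (ha : TaGauss O π ((W1.w a : ↥(TaF L (N' * q))) : LaurentSeries L)) :
    TaGauss O' π' (M.ι (heckeBetaBar L (N' * q) q a)) ∧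
      taRhoFun O' π' (M.ι (heckeBetaBar L (N' * q) q a))
        = taRhoFun O π ((W1.w a : ↥(TaF L (N' * q))) : LaurentSeries L) := by
  have h1 : heckeBetaBar L (N' * q) q a = W.w (heckeAlphaBar L (N' * q) q (W1.w a)) := by
    rw [t4vn_w_alpha W W1 hq.out, W1.w_w]
  obtain ⟨h2, h3⟩ := t4vn_mid_alpha_gauss O π hπ O' π' C M ha
  obtain ⟨h4, h5⟩ := t4vn_gauss_mid_w C M W hq.out hπ h2
  rw [h1]
  exact ⟨h4, h5.trans h3⟩

include hπ hN' W1 Fr W hqO in
/-- **(α-split)** -/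
theorem t4vn_hsplit_alpha (y : ↥(TaF L (N' * q * q))) (a a' : ↥(TaF L (N' * q)))
    (ha : a ∈ taOv O π hπ (N' * q)) (ha' : a' ∈ taOv O π hπ (N' * q))
    (h1 : (t4vOinf (N' := N') (q := q) O π hπ).valuation
      (y - heckeAlphaBar L (N' * q) q a) < 1)
    (h2 : (t4vOmid O π hπ O' π' C M).valuation (y - heckeAlphaBar L (N' * q) q a') < 1) :
    (taOv O π hπ (N' * q)).valuation (t4vnNormA L N' q y - a * a' ^ (q - 1)) < 1 := by
  have hdeg := t4vn_hdeg O π hπ hN' W1 Fr W hqO O' π' C M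
  have ha1 : TaGauss O π (t4vnCoe L (N' * q * q) (heckeAlphaBar L (N' * q) q a)) := by
    rw [t4vnCoe_apply, coe_heckeAlphaBar]
    exact ha
  obtain ⟨g1, r1⟩ := t4vn_rho_eq_of_valuation_sub_lt
    (t4vOinf (N' := N') (q := q) O π hπ) (t4vnCoe L (N' * q * q))
    (t4vn_hV_inf O π hπ (N' * q * q)) ha1 h1
  rw [t4vnCoe_apply, t4vnCoe_apply, coe_heckeAlphaBar] at r1
  obtain ⟨ha2, ra2⟩ := t4vn_mid_alpha_gauss O π hπ O' π' C M ha'
  obtain ⟨g2, r2⟩ := t4vn_rho_eq_of_valuation_sub_lt (t4vOmid O π hπ O' π' C M) M.ι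
    (t4vn_hV_mid O π hπ O' π' C M) ha2 h2
  rw [ra2] at r2
  obtain ⟨g3, r3⟩ := t4vn_rho_normA_int C M hq.out hπ hqO hdeg g1 g2
  rw [r1, r2] at r3
  apply t4vn_valuation_sub_lt_of_rho_eq (taOv O π hπ (N' * q)) (t4vnCoe L (N' * q))
    (t4vn_hV_inf O π hπ (N' * q)) g3
  · exact (taOv O π hπ (N' * q)).mul_mem _ _ ha ((taOv O π hπ (N' * q)).pow_mem ha' _)
  · rw [t4vnCoe_apply, t4vnCoe_apply, r3, IntermediateField.coe_mul, IntermediateField.coe_pow,
      t4vn_rho_mul O π ha (t4vn_gauss_pow O π ha' _), t4vn_rho_pow O π ha']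

include hπ hN' W1 Fr W hqO O' π' C M in
/-- **(α-Frobenius)** -/
theorem t4vn_hfrob_alpha (y : ↥(TaF L (N' * q * q)))
    (hy : (t4vO0 O π hπ W).valuation y = 1) :
    (t4vO0 O π hπ W).valuation
      (heckeAlphaBar L (N' * q) q (t4vnNormA L N' q y) - y ^ q) < 1 := by
  have hdeg := t4vn_hdeg O π hπ hN' W1 Fr W hqO O' π' C M
  have hGU := (t4vn_valuation_eq_one_iff (t4vO0 O π hπ W) (t4vnCoeW W)
    (t4vn_hV_0 O π hπ W) y).mp hy
  rw [t4vnCoeW_apply] at hGU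
  obtain ⟨g1, r1⟩ := t4vn_rho_normA_zero C W W1 hq.out hπ hqO hdeg hGU
  apply t4vn_valuation_sub_lt_of_rho_eq (t4vO0 O π hπ W) (t4vnCoeW W) (t4vn_hV_0 O π hπ W)
  · rw [t4vnCoeW_apply, t4vn_w_alpha W W1 hq.out, coe_heckeBetaBar]
    exact t2i_taGauss_qExpand O π q g1.1
  · rw [t4vnCoeW_apply, map_pow, IntermediateField.coe_pow]
    exact t4vn_gauss_pow O π hGU.1 q
  · rw [t4vnCoeW_apply, t4vnCoeW_apply, t4vn_w_alpha W W1 hq.out, coe_heckeBetaBar,
      t2i_taRhoFun_qExpand O π q g1.1, r1, map_pow, IntermediateField.coe_pow,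
      t4vn_rho_pow O π hGU.1]

include hπ in
/-- **(α-over)**: `V_0` lies over `V¹_0` under `α` -/
theorem t4vn_hover_alpha (x : ↥(TaF L (N' * q)))
    (hx : (t4vnO10 O π hπ W1).valuation x < 1) :
    (t4vO0 O π hπ W).valuation (heckeAlphaBar L (N' * q) q x) < 1 := by
  obtain ⟨g, r⟩ := (t4vn_valuation_lt_one_iff (t4vnO10 O π hπ W1) (t4vnCoeW1 W1)
    (t4vn_hV_10 O π hπ W1) x).mp hx
  rw [t4vnCoeW1_apply] at g r
  rw [t4vn_valuation_lt_one_iff (t4vO0 O π hπ W) (t4vnCoeW W) (t4vn_hV_0 O π hπ W),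
    t4vnCoeW_apply, t4vn_w_alpha W W1 hq.out, coe_heckeBetaBar]
  exact ⟨t2i_taGauss_qExpand O π q g, by rw [t2i_taRhoFun_qExpand O π q g, r, map_zero]⟩

include hπ hN' W1 Fr W hqO in
/-- **(β-split)** -/
theorem t4vn_hsplit_beta (y : ↥(TaF L (N' * q * q))) (a a' : ↥(TaF L (N' * q)))
    (ha : a ∈ t4vnO10 O π hπ W1) (ha' : a' ∈ t4vnO10 O π hπ W1)
    (h1 : (t4vO0 O π hπ W).valuation (y - heckeBetaBar L (N' * q) q a) < 1)
    (h2 : (t4vOmid O π hπ O' π' C M).valuation (y - heckeBetaBar L (N' * q) q a') < 1) :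
    (t4vnO10 O π hπ W1).valuation (t4vnNormB L N' q y - a * a' ^ (q - 1)) < 1 := by
  have hdeg := t4vn_hdeg O π hπ hN' W1 Fr W hqO O' π' C M
  have hwβ : ∀ b : ↥(TaF L (N' * q)),
      W.w (heckeBetaBar L (N' * q) q b) = heckeAlphaBar L (N' * q) q (W1.w b) := by
    intro b
    have h := t4vn_w_alpha W W1 hq.out (W1.w b)
    rw [W1.w_w] at h
    rw [← h, W.w_w]
  have ha0 : TaGauss O π ((W1.w a : ↥(TaF L (N' * q))) : LaurentSeries L) := ha
  have ha0' : TaGauss O π ((W1.w a' : ↥(TaF L (N' * q))) : LaurentSeries L) := ha'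
  have ha1 : TaGauss O π (t4vnCoeW W (heckeBetaBar L (N' * q) q a)) := by
    rw [t4vnCoeW_apply, hwβ, coe_heckeAlphaBar]
    exact ha0
  obtain ⟨g1, r1⟩ := t4vn_rho_eq_of_valuation_sub_lt (t4vO0 O π hπ W) (t4vnCoeW W)
    (t4vn_hV_0 O π hπ W) ha1 h1
  rw [t4vnCoeW_apply, t4vnCoeW_apply, hwβ, coe_heckeAlphaBar] at r1
  rw [t4vnCoeW_apply] at g1
  obtain ⟨ha2, ra2⟩ := t4vn_mid_beta_gauss O π hπ W1 W O' π' C M ha0'
  obtain ⟨g2, r2⟩ := t4vn_rho_eq_of_valuation_sub_lt (t4vOmid O π hπ O' π' C M) M.ι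
    (t4vn_hV_mid O π hπ O' π' C M) ha2 h2
  rw [ra2] at r2
  obtain ⟨g3, r3⟩ := t4vn_rho_normB_zero_int C M W W1 hq.out hπ hqO hdeg g1 g2
  rw [r1, r2] at r3
  apply t4vn_valuation_sub_lt_of_rho_eq (t4vnO10 O π hπ W1) (t4vnCoeW1 W1)
    (t4vn_hV_10 O π hπ W1) g3
  · exact (t4vnO10 O π hπ W1).mul_mem _ _ ha ((t4vnO10 O π hπ W1).pow_mem ha' _)
  · rw [t4vnCoeW1_apply, t4vnCoeW1_apply, r3, map_mul, map_pow, IntermediateField.coe_mul,
      IntermediateField.coe_pow, t4vn_rho_mul O π ha0 (t4vn_gauss_pow O π ha0' _),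
      t4vn_rho_pow O π ha0']

include hπ hN' W1 Fr W hqO O' π' C M in
/-- **(β-Frobenius)** -/
theorem t4vn_hfrob_beta (y : ↥(TaF L (N' * q * q)))
    (hy : (t4vOinf (N' := N') (q := q) O π hπ).valuation y = 1) :
    (t4vOinf (N' := N') (q := q) O π hπ).valuation
      (heckeBetaBar L (N' * q) q (t4vnNormB L N' q y) - y ^ q) < 1 := by
  have hdeg := t4vn_hdeg O π hπ hN' W1 Fr W hqO O' π' C M
  have hGU := (t4vn_valuation_eq_one_iff (t4vOinf (N' := N') (q := q) O π hπ)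
    (t4vnCoe L (N' * q * q)) (t4vn_hV_inf O π hπ (N' * q * q)) y).mp hy
  rw [t4vnCoe_apply] at hGU
  obtain ⟨g1, r1⟩ := t4vn_rho_normB C W W1 hq.out hπ hqO hdeg hGU
  apply t4vn_valuation_sub_lt_of_rho_eq (t4vOinf (N' := N') (q := q) O π hπ)
    (t4vnCoe L (N' * q * q)) (t4vn_hV_inf O π hπ (N' * q * q))
  · rw [t4vnCoe_apply, coe_heckeBetaBar]
    exact t2i_taGauss_qExpand O π q g1.1
  · rw [t4vnCoe_apply, IntermediateField.coe_pow]
    exact t4vn_gauss_pow O π hGU.1 q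
  · rw [t4vnCoe_apply, t4vnCoe_apply, coe_heckeBetaBar, t2i_taRhoFun_qExpand O π q g1.1, r1,
      IntermediateField.coe_pow, t4vn_rho_pow O π hGU.1]

include hπ in
/-- **(β-over)**: `V_∞` lies over `V¹_∞` under `β` -/
theorem t4vn_hover_beta (x : ↥(TaF L (N' * q)))
    (hx : (taOv O π hπ (N' * q)).valuation x < 1) :
    (t4vOinf (N' := N') (q := q) O π hπ).valuation (heckeBetaBar L (N' * q) q x) < 1 := by
  obtain ⟨g, r⟩ := (t4vn_valuation_lt_one_iff (taOv O π hπ (N' * q)) (t4vnCoe L (N' * q))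
    (t4vn_hV_inf O π hπ (N' * q)) x).mp hx
  rw [t4vnCoe_apply] at g r
  rw [t4vn_valuation_lt_one_iff (t4vOinf (N' := N') (q := q) O π hπ) (t4vnCoe L (N' * q * q))
    (t4vn_hV_inf O π hπ (N' * q * q)), t4vnCoe_apply, coe_heckeBetaBar]
  exact ⟨t2i_taGauss_qExpand O π q g, by rw [t2i_taRhoFun_qExpand O π q g, r, map_zero]⟩

end Cong

end Fermat.Agent.T4
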