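/-
T4-V7 (helper2): **`T4PresOver` between the chart presentations of consecutive levels.**

* `t4vy_isIntegralElem_kron1`, `t4vy_isIntegralElem_kron2` (abstract): in T2's / T4's Kronecker
  inputs, every element of `𝒪` is integral over the image of the `𝒪` of the lower level
  (`𝒪 = ⊕ α(𝒪₁) Y^l` is a finite module).
* `t4vy_w_mem_Ov`, `t4vy_w1_mem_Ov1` : `𝒪`, `𝒪¹` are stable under the Atkin-Lehner involutions.
* `t4vy_isIntegralElem_alpha`, `t4vy_isIntegralElem_beta` : every element of `𝒪` (level `N'q²`) is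
  integral over `α₂(𝒪¹)` and over `β₂(𝒪¹)`; `t4vy_isIntegralElem_alpha1` : every element of `𝒪¹` is
  integral over `α₁(𝒪')`.
* **`t4vy_presOver_alpha`, `t4vy_presOver_beta`** : `T4PresOver P1 P` for the `α`-structure
  `t2iAlgebra L (N'q) q` and the `β`-structure `t4vnAlgB L N' q`, for chart presentations with the
  dictionaries of `PresInst.lean` / `PresLow.lean`;
  **`t4vy_presOver_alpha1`** : `T4PresOver P' P1` for `t2iAlgebra L N' q`.
-/
import Fermat.Agent.Lib.T4.Inst.PresLow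
import Fermat.Agent.Lib.T4.Inst.PresOver
import Fermat.Agent.Lib.T4.Reg.TopComap

set_option autoImplicit false
set_option linter.unusedSectionVars false
set_option linter.unusedVariables false
set_option linter.style.haveILetI false
set_option synthInstance.maxHeartbeats 400000

open HahnSeries ModularCurve Fermat.Agent.T1 Fermat.Agent.T2 IntermediateField

noncomputable section

namespace Fermat.Agent.T4

/-! ### The abstract finiteness statements -/

section Abs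

/-- in T2's Kronecker input, `𝒪` is integral over the image of `𝒪'` -/
theorem t4vy_isIntegralElem_kron1 {L F' F k Ω : Type*} [Field L] [Field F'] [Field F]
    [Algebra L F'] [Algebra L F] [Algebra F' F] [IsScalarTower L F' F] [Field k] [Field Ω]
    [Algebra k Ω] {E : IntermediateField k Ω} (I : T2kInput L F' F k Ω E) {f : F}
    (hf : f ∈ I.Ov) : ((algebraMap F' F).comp I.d'.Ov.subtype).IsIntegralElem f := by
  classical
  set g : ↥I.d'.Ov →+* F := (algebraMap F' F).comp I.d'.Ov.subtype with hg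
  letI : Algebra ↥I.d'.Ov F := g.toAlgebra
  have hgmem : ∀ r : ↥I.d'.Ov, g r ∈ I.Ov := fun r => I.α_mem_Ov r
  let S : Subalgebra ↥I.d'.Ov F := { I.Ov.toSubsemiring with algebraMap_mem' := hgmem }
  let T : Finset F := (Finset.univ : Finset (Fin (I.q + 1))).image (fun i : Fin (I.q + 1) => I.Y ^ (i : ℕ))
  have hspan : Subalgebra.toSubmodule S = Submodule.span ↥I.d'.Ov (T : Set F) := by
    apply le_antisymm
    · intro y hy
      have hy' : y ∈ I.Ov := hy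
      obtain ⟨b, hb⟩ := I.decomp ⟨y, hy'⟩
      have hyb : y = ∑ i, algebraMap F' F ((b i : ↥I.d'.Ov) : F') * I.Y ^ (i : ℕ) := by
        have := congrArg Subtype.val hb
        rw [I.coe_comb] at this
        exact this
      rw [hyb]
      refine Submodule.sum_mem _ fun i _ => ?_
      have hterm : algebraMap F' F ((b i : ↥I.d'.Ov) : F') * I.Y ^ (i : ℕ) =
          (b i) • (I.Y ^ (i : ℕ)) := by
        rw [Algebra.smul_def]
        rfl
      rw [hterm]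
      exact Submodule.smul_mem _ _ (Submodule.subset_span
        (Finset.mem_coe.mpr (Finset.mem_image.mpr ⟨i, Finset.mem_univ _, rfl⟩)))
    · rw [Submodule.span_le]
      intro t ht
      obtain ⟨i, -, rfl⟩ := Finset.mem_image.mp (Finset.mem_coe.mp ht)
      exact pow_mem I.Y_mem_Ov _
  have hfg : (Subalgebra.toSubmodule S).FG := ⟨T, hspan.symm⟩
  exact IsIntegral.of_mem_of_fg S hfg f hf

/-- in T4's Kronecker input, `𝒪` is integral over the image of `𝒪¹` -/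
theorem t4vy_isIntegralElem_kron2 {L F1 F k Om Om' Fb1 : Type*} [Field L] [Field F1] [Field F]
    [Algebra L F1] [Algebra L F] [Algebra F1 F] [IsScalarTower L F1 F] [Field k] [Field Om]
    [CommRing Om'] [IsDomain Om'] [CommRing Fb1] [Algebra k Fb1]
    (I : T4kInput L F1 F k Om Om' Fb1) {f : F} (hf : f ∈ I.Ov) :
    ((algebraMap F1 F).comp I.d1.Ov.subtype).IsIntegralElem f := by
  classical
  set g : ↥I.d1.Ov →+* F := (algebraMap F1 F).comp I.d1.Ov.subtype with hg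
  letI : Algebra ↥I.d1.Ov F := g.toAlgebra
  have hgmem : ∀ r : ↥I.d1.Ov, g r ∈ I.Ov := fun r => I.α_mem_Ov r
  let S : Subalgebra ↥I.d1.Ov F := { I.Ov.toSubsemiring with algebraMap_mem' := hgmem }
  let T : Finset F := (Finset.univ : Finset (Fin I.q)).image (fun i : Fin I.q => I.Z ^ (i : ℕ))
  have hspan : Subalgebra.toSubmodule S = Submodule.span ↥I.d1.Ov (T : Set F) := by
    apply le_antisymm
    · intro y hy
      have hy' : y ∈ I.Ov := hy
      obtain ⟨b, hb⟩ := I.decomp ⟨y, hy'⟩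
      have hyb : y = ∑ i, algebraMap F1 F ((b i : ↥I.d1.Ov) : F1) * I.Z ^ (i : ℕ) := by
        have := congrArg Subtype.val hb
        rw [I.coe_comb] at this
        exact this
      rw [hyb]
      refine Submodule.sum_mem _ fun i _ => ?_
      have hterm : algebraMap F1 F ((b i : ↥I.d1.Ov) : F1) * I.Z ^ (i : ℕ) =
          (b i) • (I.Z ^ (i : ℕ)) := by
        rw [Algebra.smul_def]
        rfl
      rw [hterm]
      exact Submodule.smul_mem _ _ (Submodule.subset_span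
        (Finset.mem_coe.mpr (Finset.mem_image.mpr ⟨i, Finset.mem_univ _, rfl⟩)))
    · rw [Submodule.span_le]
      intro t ht
      obtain ⟨i, -, rfl⟩ := Finset.mem_image.mp (Finset.mem_coe.mp ht)
      exact pow_mem I.Z_mem_Ov _
  have hfg : (Subalgebra.toSubmodule S).FG := ⟨T, hspan.symm⟩
  exact IsIntegral.of_mem_of_fg S hfg f hf

/-- transport of `IsIntegralElem` along a pair of compatible automorphisms:
if `σ ∘ φ = ψ ∘ σ₁` on `R` (a subring stable under `σ₁`) and `σ f` is integral over `φ(R)`, then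
`f` is integral over `ψ'(R)` where `σ ∘ ψ' = φ ∘ σ₁`. Stated for ring homs out of a subring. -/
theorem t4vy_isIntegralElem_conj {F1 F : Type*} [Field F1] [Field F] (R : Subring F1)
    (φ ψ : F1 →+* F) (σ : F ≃+* F) (σ₁ : F1 →+* F1) (hσ₁ : ∀ r ∈ R, σ₁ r ∈ R)
    (hcomm : ∀ b : F1, σ.symm (φ b) = ψ (σ₁ b)) {f : F}
    (hf : (φ.comp R.subtype).IsIntegralElem (σ f)) : (ψ.comp R.subtype).IsIntegralElem f := by
  obtain ⟨p, hp, hpf⟩ := hf
  let σR : ↥R →+* ↥R := (σ₁.comp R.subtype).codRestrict R (fun r => hσ₁ r r.2)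
  refine ⟨p.map σR, hp.map _, ?_⟩
  rw [Polynomial.eval₂_map]
  have h1 := congrArg σ.symm hpf
  rw [map_zero] at h1
  have h2 := Polynomial.hom_eval₂ p (φ.comp R.subtype) (σ.symm : F →+* F) (σ f)
  have h3 : (σ.symm : F →+* F) (σ f) = f := σ.symm_apply_apply f
  rw [h3] at h2
  have h4 : ((σ.symm : F →+* F).comp (φ.comp R.subtype)) = (ψ.comp R.subtype).comp σR := by
    ext1 r
    exact hcomm (r : F1)
  rw [h4] at h2
  rw [← h2]
  exact h1

end Abs

/-! ### The concrete levels -/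

section Inst

variable {L : Type} [Field L] [Algebra ℚ L] (O : ValuationSubring L) {k : Type*} [Field k]
  (π : ↥O →+* k) [IsDiscreteValuationRing ↥O] (hπ : Function.Surjective π) [IsAlgClosed k]
  {N' q : ℕ} [NeZero N'] [hq : Fact q.Prime] [CharP k q] (hN' : (N' : k) ≠ 0)
  (W1 : T2iAL L N' q) (Fr : T2iFrob k N' q) (W : T4iAL L N' q)
  (hqO : Irreducible ((q : ℕ) : ↥O))
  {L' : Type*} [Field L'] [Algebra L L'] (O' : ValuationSubring L')
  [IsDiscreteValuationRing ↥O'] (π' : ↥O' →+* k) (C : T4iCyc O O' π π' q)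
  (M : T4iMid L L' N' q C.ζ)

attribute [local instance] t2iAlgebra t2i_isScalarTower

/-- `𝒪` is stable under `w` -/
theorem t4vy_w_mem_Ov {f : ↥(TaF L (N' * q * q))}
    (hf : f ∈ (t4vInput O π hπ hN' W1 Fr W hqO O' π' C M).Ov) :
    W.w f ∈ (t4vInput O π hπ hN' W1 Fr W hqO O' π' C M).Ov := by
  rw [mem_t4vInput_Ov_iff] at hf ⊢
  obtain ⟨h1, h2, h3⟩ := hf
  refine ⟨?_, ?_, ?_⟩
  · exact (mem_t4vO0 O π hπ W f).mp h2
  · rw [mem_t4vO0, W.w_w]
    exact h1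
  · rw [mem_t4vOmid]
    exact (t4vn_gauss_mid_w C M W hq.out hπ ((mem_t4vOmid O π hπ O' π' C M f).mp h3)).1

/-- `𝒪¹` is stable under `w¹` -/
theorem t4vy_w1_mem_Ov1 {f : ↥(TaF L (N' * q))} (hf : f ∈ (t2iBase2 O π hπ hN' W1 Fr).Ov) :
    W1.w f ∈ (t2iBase2 O π hπ hN' W1 Fr).Ov :=
  t2i_w_mem_Ov O π hπ hN' W1 Fr hf

/-- every element of `𝒪` is integral over `α₂(𝒪¹)` -/
theorem t4vy_isIntegralElem_alpha {f : ↥(TaF L (N' * q * q))}
    (hf : f ∈ (t4vInput O π hπ hN' W1 Fr W hqO O' π' C M).Ov) :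
    ((algebraMap ↥(TaF L (N' * q)) ↥(TaF L (N' * q * q))).comp
      (t2iBase2 O π hπ hN' W1 Fr).Ov.subtype).IsIntegralElem f :=
  t4vy_isIntegralElem_kron2 (t4vInput O π hπ hN' W1 Fr W hqO O' π' C M) hf

/-- every element of `𝒪¹` is integral over `α₁(𝒪')` -/
theorem t4vy_isIntegralElem_alpha1 {f : ↥(TaF L (N' * q))}
    (hf : f ∈ (t2iBase2 O π hπ hN' W1 Fr).Ov) :
    ((algebraMap ↥(TaF L N') ↥(TaF L (N' * q))).comp
      (taOv O π hπ N').toSubring.subtype).IsIntegralElem f :=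
  t4vy_isIntegralElem_kron1 (t2iInput O π hπ hN' W1 Fr) hf

/-- every element of `𝒪` is integral over `β₂(𝒪¹)` -/
theorem t4vy_isIntegralElem_beta {f : ↥(TaF L (N' * q * q))}
    (hf : f ∈ (t4vInput O π hπ hN' W1 Fr W hqO O' π' C M).Ov) :
    ((heckeBetaBar L (N' * q) q).toRingHom.comp
      (t2iBase2 O π hπ hN' W1 Fr).Ov.subtype).IsIntegralElem f := by
  have h1 := t4vy_isIntegralElem_alpha O π hπ hN' W1 Fr W hqO O' π' C M
    (t4vy_w_mem_Ov O π hπ hN' W1 Fr W hqO O' π' C M hf)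
  refine t4vy_isIntegralElem_conj (t2iBase2 O π hπ hN' W1 Fr).Ov
    (algebraMap ↥(TaF L (N' * q)) ↥(TaF L (N' * q * q))) (heckeBetaBar L (N' * q) q).toRingHom
    W.w.toRingEquiv (W1.w : ↥(TaF L (N' * q)) →+* ↥(TaF L (N' * q)))
    (fun r hr => t2i_w_mem_Ov O π hπ hN' W1 Fr hr) (fun b => ?_) h1
  have h2 := t4v_w_alpha hq.out W W1 b
  show W.w.toRingEquiv.symm (heckeAlphaBar L (N' * q) q b) = heckeBetaBar L (N' * q) q (W1.w b)
  rw [← h2]
  have h3 : W.w.toRingEquiv.symm (heckeAlphaBar L (N' * q) q b) =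
      W.w.symm (heckeAlphaBar L (N' * q) q b) := rfl
  rw [h3, AlgEquiv.symm_apply_eq, W.w_w]

end Inst

/-! ### `T4PresOver` -/

section Over

variable {L : Type} [Field L] [Algebra ℚ L] (O : ValuationSubring L) {k : Type*} [Field k]
  (π : ↥O →+* k) [IsDiscreteValuationRing ↥O] (hπ : Function.Surjective π) [IsAlgClosed k]
  {N' q : ℕ} [NeZero N'] [hq : Fact q.Prime] [CharP k q] (hN' : (N' : k) ≠ 0)
  (W1 : T2iAL L N' q) (Fr : T2iFrob k N' q) (W : T4iAL L N' q)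
  (hqO : Irreducible ((q : ℕ) : ↥O))
  {L' : Type*} [Field L'] [Algebra L L'] (O' : ValuationSubring L')
  [IsDiscreteValuationRing ↥O'] (π' : ↥O' →+* k) (C : T4iCyc O O' π π' q)
  (M : T4iMid L L' N' q C.ζ)

attribute [local instance] t2iAlgebra t2i_isScalarTower

/-- an element is integral over the polynomial ring it generates -/
theorem t4vy_isIntegral_self {K F : Type*} [Field K] [Field F] [Algebra K F] (y : F) :
    IsIntegral ↥(Algebra.adjoin K {y}) y :=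
  isIntegral_algebraMap (R := ↥(Algebra.adjoin K {y})) (A := F)
    (x := ⟨y, Algebra.subset_adjoin (Set.mem_singleton y)⟩)

/-- the valuation rings of a presentation of level `N'q` are horizontal (contain `L[x₁]`) or
vertical (contain `𝒪¹`) -/
theorem t4vy_hvals1 (P1 : T4Pres ↥(TaF L (N' * q))) {x1 : ↥(TaF L (N' * q))}
    (hvals1 : P1.vals = t4vpHor L x1 ∪ t4vwVer1 O π hπ W1) :
    ∀ V ∈ P1.vals, ((∀ c : L, algebraMap L ↥(TaF L (N' * q)) c ∈ V) ∧ x1 ∈ V) ∨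
      (∀ f ∈ (t2iBase2 O π hπ hN' W1 Fr).Ov, f ∈ V) := by
  intro V hV
  rw [hvals1] at hV
  rcases hV with hV | hV
  · obtain ⟨v, rfl, hx⟩ := hV
    exact Or.inl ⟨fun c => v.algebraMap_mem' c, hx⟩
  · exact Or.inr fun f hf => (mem_Ov1_iff_forall_t4vwVer1 O π hπ hN' W1 Fr f).mp hf V hV

/-- the valuation rings of a presentation of level `N'` are horizontal or the vertical one -/
theorem t4vy_hvals0 (P' : T4Pres ↥(TaF L N')) {x' : ↥(TaF L N')}
    (hvals' : P'.vals = t4vpHor L x' ∪ {taOv O π hπ N'}) :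
    ∀ V ∈ P'.vals, ((∀ c : L, algebraMap L ↥(TaF L N') c ∈ V) ∧ x' ∈ V) ∨
      (∀ f ∈ (taOv O π hπ N').toSubring, f ∈ V) := by
  intro V hV
  rw [hvals'] at hV
  rcases hV with hV | hV
  · obtain ⟨v, rfl, hx⟩ := hV
    exact Or.inl ⟨fun c => v.algebraMap_mem' c, hx⟩
  · rw [Set.mem_singleton_iff] at hV
    subst hV
    exact Or.inr fun f hf => hf

/-- **`T4PresOver P1 P` for the `α`-structure**, levels `N'q → N'q²` -/
theorem t4vy_presOver_alpha (P1 : T4Pres ↥(TaF L (N' * q))) (P : T4Pres ↥(TaF L (N' * q * q)))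
    {x1 : ↥(TaF L (N' * q))} {x : ↥(TaF L (N' * q * q))}
    (hvals1 : P1.vals = t4vpHor L x1 ∪ t4vwVer1 O π hπ W1)
    (hB1 : ∀ f, f ∈ P1.B ↔ f ∈ t2Int (K := L) x1 ∧ f ∈ (t2iBase2 O π hπ hN' W1 Fr).Ov)
    (hB : ∀ f, f ∈ P.B ↔ f ∈ t2Int (K := L) x ∧
      f ∈ (t4vInput O π hπ hN' W1 Fr W hqO O' π' C M).Ov)
    (hx : IsIntegral ↥(Algebra.adjoin L
      {algebraMap ↥(TaF L (N' * q)) ↥(TaF L (N' * q * q)) x1}) x)
    (hx' : IsIntegral ↥(Algebra.adjoin L {x})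
      (algebraMap ↥(TaF L (N' * q)) ↥(TaF L (N' * q * q)) x1)) :
    T4PresOver P1 P := by
  haveI := (t4v_finrank_le O π hπ hN' W1 Fr).1
  exact t4vq_presOver_chart (K := L) P1 P (t2iBase2 O π hπ hN' W1 Fr).Ov
    (t4vInput O π hπ hN' W1 Fr W hqO O' π' C M).Ov hB1 hB
    (t4vy_hvals1 O π hπ hN' W1 Fr P1 hvals1) hx hx'
    (fun f hf => (t4vInput O π hπ hN' W1 Fr W hqO O' π' C M).α_mem_Ov ⟨f, hf⟩)
    (fun b hb => t4vy_isIntegralElem_alpha O π hπ hN' W1 Fr W hqO O' π' C M hb)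
    (fun b _ => Algebra.IsIntegral.isIntegral b)

/-- `T4PresOver P1 P` for the `α`-structure when `x = α₂ x₁` -/
theorem t4vy_presOver_alpha' (P1 : T4Pres ↥(TaF L (N' * q))) (P : T4Pres ↥(TaF L (N' * q * q)))
    {x1 : ↥(TaF L (N' * q))}
    (hvals1 : P1.vals = t4vpHor L x1 ∪ t4vwVer1 O π hπ W1)
    (hB1 : ∀ f, f ∈ P1.B ↔ f ∈ t2Int (K := L) x1 ∧ f ∈ (t2iBase2 O π hπ hN' W1 Fr).Ov)
    (hB : ∀ f, f ∈ P.B ↔
      f ∈ t2Int (K := L) (algebraMap ↥(TaF L (N' * q)) ↥(TaF L (N' * q * q)) x1) ∧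
      f ∈ (t4vInput O π hπ hN' W1 Fr W hqO O' π' C M).Ov) :
    T4PresOver P1 P :=
  t4vy_presOver_alpha O π hπ hN' W1 Fr W hqO O' π' C M P1 P hvals1 hB1 hB
    (t4vy_isIntegral_self _) (t4vy_isIntegral_self _)

/-- **`T4PresOver P1 P` for the `β`-structure**, levels `N'q → N'q²` -/
theorem t4vy_presOver_beta (P1 : T4Pres ↥(TaF L (N' * q))) (P : T4Pres ↥(TaF L (N' * q * q)))
    {x1 : ↥(TaF L (N' * q))} {x : ↥(TaF L (N' * q * q))}
    (hvals1 : P1.vals = t4vpHor L x1 ∪ t4vwVer1 O π hπ W1)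
    (hB1 : ∀ f, f ∈ P1.B ↔ f ∈ t2Int (K := L) x1 ∧ f ∈ (t2iBase2 O π hπ hN' W1 Fr).Ov)
    (hB : ∀ f, f ∈ P.B ↔ f ∈ t2Int (K := L) x ∧
      f ∈ (t4vInput O π hπ hN' W1 Fr W hqO O' π' C M).Ov)
    (hx : IsIntegral ↥(Algebra.adjoin L {heckeBetaBar L (N' * q) q x1}) x)
    (hx' : IsIntegral ↥(Algebra.adjoin L {x}) (heckeBetaBar L (N' * q) q x1)) :
    @T4PresOver _ _ _ _ (t4vnAlgB L N' q) P1 P := by
  have hOmap : ∀ f ∈ (t2iBase2 O π hπ hN' W1 Fr).Ov,
      heckeBetaBar L (N' * q) q f ∈ (t4vInput O π hπ hN' W1 Fr W hqO O' π' C M).Ov := by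
    intro f hf
    rw [t4vr_beta_eq W1 W f]
    exact t4vy_w_mem_Ov O π hπ hN' W1 Fr W hqO O' π' C M
      ((t4vInput O π hπ hN' W1 Fr W hqO O' π' C M).α_mem_Ov
        ⟨W1.w f, t2i_w_mem_Ov O π hπ hN' W1 Fr hf⟩)
  have hOint : ∀ b ∈ (t4vInput O π hπ hN' W1 Fr W hqO O' π' C M).Ov,
      ((heckeBetaBar L (N' * q) q).toRingHom.comp
        (t2iBase2 O π hπ hN' W1 Fr).Ov.subtype).IsIntegralElem b := fun b hb =>
    t4vy_isIntegralElem_beta O π hπ hN' W1 Fr W hqO O' π' C M hb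
  have hv := t4vy_hvals1 O π hπ hN' W1 Fr P1 hvals1
  have hint := t4rt_isIntegral_beta O π hπ hN' W1 Fr W hqO O' π' C M
  letI := t4vnAlgB L N' q
  haveI : IsScalarTower L ↥(TaF L (N' * q)) ↥(TaF L (N' * q * q)) :=
    IsScalarTower.of_algebraMap_eq (fun a => ((heckeBetaBar L (N' * q) q).commutes a).symm)
  exact t4vq_presOver_chart (K := L) P1 P _ _ hB1 hB hv hx hx' hOmap hOint (fun b _ => hint b)

/-- **`T4PresOver P' P1` for the `α`-structure**, levels `N' → N'q` -/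
theorem t4vy_presOver_alpha1 (P' : T4Pres ↥(TaF L N')) (P1 : T4Pres ↥(TaF L (N' * q)))
    {x' : ↥(TaF L N')} {x1 : ↥(TaF L (N' * q))}
    (hvals' : P'.vals = t4vpHor L x' ∪ {taOv O π hπ N'})
    (hB' : ∀ f, f ∈ P'.B ↔ f ∈ t2Int (K := L) x' ∧ f ∈ taOv O π hπ N')
    (hB1 : ∀ f, f ∈ P1.B ↔ f ∈ t2Int (K := L) x1 ∧ f ∈ (t2iBase2 O π hπ hN' W1 Fr).Ov)
    (hx : IsIntegral ↥(Algebra.adjoin L {algebraMap ↥(TaF L N') ↥(TaF L (N' * q)) x'}) x1)
    (hx' : IsIntegral ↥(Algebra.adjoin L {x1})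
      (algebraMap ↥(TaF L N') ↥(TaF L (N' * q)) x')) :
    T4PresOver P' P1 := by
  haveI := (t2iInput O π hπ hN' W1 Fr).fin
  exact t4vq_presOver_chart (K := L) P' P1 (taOv O π hπ N').toSubring
    (t2iBase2 O π hπ hN' W1 Fr).Ov (fun f => hB' f) hB1
    (t4vy_hvals0 O π hπ P' hvals') hx hx'
    (fun f hf => (t2iInput O π hπ hN' W1 Fr).α_mem_Ov ⟨f, hf⟩)
    (fun b hb => t4vy_isIntegralElem_alpha1 O π hπ hN' W1 Fr hb)
    (fun b _ => Algebra.IsIntegral.isIntegral b)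

/-- `β₁` maps the chart ring of level `N'` into the chart ring of level `N'q` -/
theorem t4vy_beta_mem_B1 (P' : T4Pres ↥(TaF L N')) (P1 : T4Pres ↥(TaF L (N' * q)))
    {x' : ↥(TaF L N')} {x1 : ↥(TaF L (N' * q))}
    (hB' : ∀ f, f ∈ P'.B ↔ f ∈ t2Int (K := L) x' ∧ f ∈ taOv O π hπ N')
    (hB1 : ∀ f, f ∈ P1.B ↔ f ∈ t2Int (K := L) x1 ∧ f ∈ (t2iBase2 O π hπ hN' W1 Fr).Ov)
    (hxβ : IsIntegral ↥(Algebra.adjoin L {x1}) (heckeBetaBar L N' q x')) :
    ∀ b ∈ P'.B, heckeBetaBar L N' q b ∈ P1.B := by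
  intro b hb
  rw [hB'] at hb
  rw [hB1]
  refine ⟨t2c_isIntegral_trans hxβ (t2d_isIntegral_map (RingHom.id L)
    (heckeBetaBar L N' q : ↥(TaF L N') →+* ↥(TaF L (N' * q)))
    (fun c => (heckeBetaBar L N' q).commutes c) hb.1), ?_⟩
  rw [← W1.w_alpha]
  exact t2i_w_mem_Ov O π hπ hN' W1 Fr
    ((t2iInput O π hπ hN' W1 Fr).α_mem_Ov ⟨b, hb.2⟩)

/-- helper6's `α_B` from `T4PresOver P' P1` -/
theorem t4vy_alpha_mem_B1 {P' : T4Pres ↥(TaF L N')} {P1 : T4Pres ↥(TaF L (N' * q))}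
    (h : T4PresOver P' P1) : ∀ b ∈ P'.B, heckeAlphaBar L N' q b ∈ P1.B :=
  h.map_mem

/-- helper6's `int1` from `T4PresOver P' P1` -/
theorem t4vy_int1 {P' : T4Pres ↥(TaF L N')} {P1 : T4Pres ↥(TaF L (N' * q))}
    (h : T4PresOver P' P1) : ∀ x ∈ P1.B,
      (((heckeAlphaBar L N' q : ↥(TaF L N') →ₐ[L] ↥(TaF L (N' * q))) :
        ↥(TaF L N') →+* ↥(TaF L (N' * q))).comp P'.B.subtype).IsIntegralElem x :=
  h.integral

end Over

end Fermat.Agent.T4
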