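/-
T4-V7 (helper2): **the concrete chart presentations at level `N'q²`**, on top of helper9's three
vertical valuation rings (`ValSub.lean`) and helper8's chart layer (`PresChart.lean`).

* `t4vw_gauss_eval₂` : evaluation of a polynomial with `O`-coefficients at a Gauss-integral series is
  Gauss-integral, with reduction the reduced polynomial evaluated at the reduction.
* `t4vw_gauss_unit_of_transc` : if the reduction of the series is transcendental over `k` and the
  reduced polynomial is nonzero, the value is a Gauss unit.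
* `t4vwVer = {O_inf, O_mid, O_0}` with `t4vwVer_finite`, `t4vwVer_dvr`, `t4vwVer_q`,
  `mem_Ov_iff_forall_t4vwVer`.
* `t4vw_tr` : **(tr)** primitive polynomials in a coordinate `y` whose three reductions are
  transcendental over `k` are units at the three vertical valuations.
* `t4vwData`, `t4vwPres y … : T4Pres F` : the presentation of the chart ring `IntCl(L[y]) ∩ 𝒪`, with the
  dictionaries `mem_t4vwPres_B`, `mem_t4vwPres_ov`, `t4vwPres_vals`, `t4vwPres_vert`.
-/
import Fermat.Agent.Lib.T4.Inst.ValSub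
import Fermat.Agent.Lib.T4.Inst.ValDvr
import Fermat.Agent.Lib.T4.Inst.PresChart

set_option autoImplicit false
set_option linter.unusedSectionVars false
set_option linter.unusedVariables false
set_option linter.style.haveILetI false
set_option synthInstance.maxHeartbeats 400000

open HahnSeries ModularCurve Fermat.Agent.T1 Fermat.Agent.T2 IntermediateField

noncomputable section

namespace Fermat.Agent.T4

/-! ### Polynomials with integral coefficients at Gauss-integral series -/

section Gauss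

variable {L : Type*} [Field L] (O : ValuationSubring L) {k : Type*} [Field k] (π : ↥O →+* k)

/-- constants of `O` in the Gauss ring, as a ring homomorphism -/
def t4vwConst : ↥O →+* ↥(taGaussSubring O π) :=
  ((HahnSeries.C : L →+* LaurentSeries L).comp O.subtype).codRestrict (taGaussSubring O π)
    (fun a => (t4vConst O π a).2)

theorem coe_t4vwConst (a : ↥O) :
    ((t4vwConst O π a : ↥(taGaussSubring O π)) : LaurentSeries L) = HahnSeries.C ((a : ↥O) : L) :=
  rfl

theorem taRho_comp_t4vwConst :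
    (taRho O π).comp (t4vwConst O π) = (HahnSeries.C : k →+* LaurentSeries k).comp π := by
  ext1 a
  exact taRho_t4vConst O π a

/-- evaluation of a polynomial with `O`-coefficients at a Gauss-integral series -/
theorem t4vw_gauss_eval₂ (P : Polynomial ↥O) {s : LaurentSeries L} (hs : TaGauss O π s) :
    TaGauss O π (Polynomial.eval₂ ((HahnSeries.C : L →+* LaurentSeries L).comp O.subtype) s P) ∧
      taRhoFun O π (Polynomial.eval₂ ((HahnSeries.C : L →+* LaurentSeries L).comp O.subtype) s P) =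
        Polynomial.eval₂ ((HahnSeries.C : k →+* LaurentSeries k).comp π) (taRhoFun O π s) P := by
  set y : ↥(taGaussSubring O π) := Polynomial.eval₂ (t4vwConst O π) ⟨s, hs⟩ P with hy
  have h1 : ((y : ↥(taGaussSubring O π)) : LaurentSeries L) =
      Polynomial.eval₂ ((HahnSeries.C : L →+* LaurentSeries L).comp O.subtype) s P := by
    have := Polynomial.hom_eval₂ P (t4vwConst O π) (taGaussSubring O π).subtype ⟨s, hs⟩
    exact this
  have h2 : taRho O π y =
      Polynomial.eval₂ ((HahnSeries.C : k →+* LaurentSeries k).comp π) (taRhoFun O π s) P := by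
    have := Polynomial.hom_eval₂ P (t4vwConst O π) (taRho O π) ⟨s, hs⟩
    rw [taRho_comp_t4vwConst] at this
    exact this
  rw [← h1]
  exact ⟨y.2, h2⟩

/-- if the reduction of `s` is transcendental over `k` and the reduced polynomial is nonzero, the
value at `s` is a Gauss unit -/
theorem t4vw_gauss_unit_of_transc (P : Polynomial ↥O) {s : LaurentSeries L} (hs : TaGauss O π s)
    (ht : Transcendental k (taRhoFun O π s)) (hP : P.map π ≠ 0) :
    Polynomial.eval₂ ((HahnSeries.C : L →+* LaurentSeries L).comp O.subtype) s P ≠ 0 ∧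
    TaGauss O π (Polynomial.eval₂ ((HahnSeries.C : L →+* LaurentSeries L).comp O.subtype) s P) ∧
      TaGauss O π
        (Polynomial.eval₂ ((HahnSeries.C : L →+* LaurentSeries L).comp O.subtype) s P)⁻¹ := by
  obtain ⟨h1, h2⟩ := t4vw_gauss_eval₂ O π P hs
  have h3 : taRhoFun O π
      (Polynomial.eval₂ ((HahnSeries.C : L →+* LaurentSeries L).comp O.subtype) s P) ≠ 0 := by
    rw [h2]
    intro h0
    apply hP
    apply (transcendental_iff.mp ht)
    rw [Polynomial.aeval_def, Polynomial.eval₂_map, ta_algebraMap_eq_C]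
    exact h0
  refine ⟨?_, h1, taGauss_inv_of_taRho_ne_zero O π ⟨_, h1⟩ h3⟩
  intro h0
  rw [h0] at h3
  exact h3 (map_zero (taRho O π))

/-- **(tr) at one Gauss valuation**: `φ : F → L₁((𝔮))` a ring homomorphism which is `C ∘ ψ` on the
constants, `(O₁, π₁)` above `(O, π)` along `ψ`; if `φ y` is Gauss-integral with transcendental
reduction, every primitive polynomial in `y` with `O`-coefficients is mapped to a Gauss unit -/
theorem t4vw_tr_one {F : Type*} [Field F] [Algebra L F] {L₁ : Type*} [Field L₁]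
    (O₁ : ValuationSubring L₁) (π₁ : ↥O₁ →+* k) (ψ : L →+* L₁) (hψ : ∀ a : ↥O, ψ (a : L) ∈ O₁)
    (hψπ : ∀ a : ↥O, π₁ ⟨ψ (a : L), hψ a⟩ = π a)
    (φ : F →+* LaurentSeries L₁)
    (hφ : ∀ c : L, φ (algebraMap L F c) = HahnSeries.C (ψ c))
    (y : F) (hy : TaGauss O₁ π₁ (φ y)) (ht : Transcendental k (taRhoFun O₁ π₁ (φ y)))
    (P : Polynomial L) (hP : ∀ n, P.coeff n ∈ O) (hu : ∃ n, O.valuation (P.coeff n) = 1) :
    φ (Polynomial.aeval y P) ≠ 0 ∧ TaGauss O₁ π₁ (φ (Polynomial.aeval y P)) ∧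
      TaGauss O₁ π₁ (φ (Polynomial.aeval y P))⁻¹ := by
  classical
  -- the polynomial with coefficients in `O`
  have hc : (↑P.coeffs : Set L) ⊆ ↑O.toSubring := by
    intro c hc
    obtain ⟨n, -, rfl⟩ := Polynomial.mem_coeffs_iff.mp (Finset.mem_coe.mp hc)
    exact hP n
  set P₀ : Polynomial ↥O := P.toSubring O.toSubring hc with hP₀
  have hP₀map : P₀.map O.subtype = P := Polynomial.map_toSubring P O.toSubring hc
  have hP₀coeff : ∀ n, ((P₀.coeff n : ↥O) : L) = P.coeff n := fun n =>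
    Polynomial.coeff_toSubring P O.toSubring hc
  let ψO : ↥O →+* ↥O₁ := (ψ.comp O.subtype).codRestrict O₁ hψ
  set P₁ : Polynomial ↥O₁ := P₀.map ψO with hP₁
  have h1 : φ (Polynomial.aeval y P) =
      Polynomial.eval₂ ((HahnSeries.C : L₁ →+* LaurentSeries L₁).comp O₁.subtype) (φ y) P₁ := by
    rw [Polynomial.aeval_def, Polynomial.hom_eval₂, hP₁, Polynomial.eval₂_map]
    conv_lhs => rw [← hP₀map, Polynomial.eval₂_map]
    congr 1
    ext1 a
    exact hφ (a : L)
  have h2 : P₁.map π₁ ≠ 0 := by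
    have h3 : P₁.map π₁ = P₀.map π := by
      rw [hP₁, Polynomial.map_map]
      congr 1
      ext1 a
      exact hψπ a
    rw [h3]
    obtain ⟨n, hn⟩ := hu
    intro h0
    have h4 := congrArg (fun p => Polynomial.coeff p n) h0
    simp only [Polynomial.coeff_map, Polynomial.coeff_zero] at h4
    have h5 : IsUnit (P₀.coeff n) := by
      apply (ValuationSubring.valuation_eq_one_iff O (P₀.coeff n)).mpr
      rw [hP₀coeff]
      exact hn
    exact (h5.map π).ne_zero h4
  rw [h1]
  exact t4vw_gauss_unit_of_transc O₁ π₁ P₁ hy ht h2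

end Gauss

/-! ### The vertical valuation rings and (tr) -/

section Ver

variable {L : Type} [Field L] [Algebra ℚ L] (O : ValuationSubring L) {k : Type*} [Field k]
  (π : ↥O →+* k) [IsDiscreteValuationRing ↥O] (hπ : Function.Surjective π) [IsAlgClosed k]
  {N' q : ℕ} [NeZero N'] [hq : Fact q.Prime] [CharP k q] (hN' : (N' : k) ≠ 0)
  (W1 : T2iAL L N' q) (Fr : T2iFrob k N' q) (W : T4iAL L N' q)
  (hqO : Irreducible ((q : ℕ) : ↥O))
  {L' : Type*} [Field L'] [Algebra L L'] (O' : ValuationSubring L')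
  [IsDiscreteValuationRing ↥O'] (π' : ↥O' →+* k) (C : T4iCyc O O' π π' q)
  (M : T4iMid L L' N' q C.ζ)

attribute [local instance] t2iAlgebra t2i_isScalarTower

/-- the vertical valuation rings of `F` -/
def t4vwVer : Set (ValuationSubring ↥(TaF L (N' * q * q))) :=
  {t4vOinf (N' := N') (q := q) O π hπ, t4vOmid O π hπ O' π' C M, t4vO0 O π hπ W}

theorem mem_t4vwVer (V : ValuationSubring ↥(TaF L (N' * q * q))) :
    V ∈ t4vwVer O π hπ W O' π' C M ↔
      V = t4vOinf (N' := N') (q := q) O π hπ ∨ V = t4vOmid O π hπ O' π' C M ∨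
        V = t4vO0 O π hπ W := by
  unfold t4vwVer
  simp only [Set.mem_insert_iff, Set.mem_singleton_iff]

theorem t4vwVer_finite : (t4vwVer O π hπ W O' π' C M).Finite := by
  unfold t4vwVer
  exact Set.toFinite _

include hqO in
theorem t4vwVer_dvr : ∀ V ∈ t4vwVer O π hπ W O' π' C M, IsDiscreteValuationRing ↥V := by
  intro V hV
  rcases (mem_t4vwVer O π hπ W O' π' C M V).mp hV with rfl | rfl | rfl
  · exact t4vOinf_dvr O π hπ hqO
  · exact t4vOmid_dvr O π hπ O' π' C M
  · exact t4vO0_dvr O π hπ W hqO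

include hqO in
theorem t4vwVer_q : ∀ V ∈ t4vwVer O π hπ W O' π' C M,
    V.valuation (algebraMap L ↥(TaF L (N' * q * q)) ((q : ℕ) : L)) < 1 := by
  intro V hV
  rcases (mem_t4vwVer O π hπ W O' π' C M V).mp hV with rfl | rfl | rfl
  · exact t4vs_valuation_lt_one _ (t4vQ_mem_inf O π hπ) (t4vQ_inv_notMem_inf O π hπ hqO)
  · exact t4vs_valuation_lt_one _ (t4vQ_mem_mid O π hπ O' π' C M)
      (t4vQ_inv_notMem_mid O π hπ O' π' C M)
  · exact t4vs_valuation_lt_one _ (t4vQ_mem_zero O π hπ W) (t4vQ_inv_notMem_zero O π hπ W hqO)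

/-- `𝒪` is the intersection of the vertical valuation rings -/
theorem mem_Ov_iff_forall_t4vwVer (f : ↥(TaF L (N' * q * q))) :
    f ∈ (t4vInput O π hπ hN' W1 Fr W hqO O' π' C M).Ov ↔
      ∀ V ∈ t4vwVer O π hπ W O' π' C M, f ∈ V := by
  rw [mem_t4vInput_Ov_iff]
  constructor
  · rintro ⟨h1, h2, h3⟩ V hV
    rcases (mem_t4vwVer O π hπ W O' π' C M V).mp hV with rfl | rfl | rfl
    · exact h1
    · exact h3
    · exact h2
  · intro h
    exact ⟨h _ ((mem_t4vwVer O π hπ W O' π' C M _).mpr (Or.inl rfl)),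
      h _ ((mem_t4vwVer O π hπ W O' π' C M _).mpr (Or.inr (Or.inr rfl))),
      h _ ((mem_t4vwVer O π hπ W O' π' C M _).mpr (Or.inr (Or.inl rfl)))⟩

/-- **(tr)**: primitive polynomials in a coordinate `y` whose three reductions are transcendental
over `k` are units at the three vertical valuations -/
theorem t4vw_tr (y : ↥(TaF L (N' * q * q)))
    (h1 : TaGauss O π (y : LaurentSeries L))
    (t1 : Transcendental k (taRhoFun O π (y : LaurentSeries L)))
    (h2 : TaGauss O' π' (M.ι y)) (t2 : Transcendental k (taRhoFun O' π' (M.ι y)))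
    (h3 : TaGauss O π ((W.w y : ↥(TaF L (N' * q * q))) : LaurentSeries L))
    (t3 : Transcendental k
      (taRhoFun O π ((W.w y : ↥(TaF L (N' * q * q))) : LaurentSeries L)))
    (P : Polynomial L) (hP : ∀ n, P.coeff n ∈ O) (hu : ∃ n, O.valuation (P.coeff n) = 1) :
    ∀ V ∈ t4vwVer O π hπ W O' π' C M, V.valuation (Polynomial.aeval y P) = 1 := by
  intro V hV
  rcases (mem_t4vwVer O π hπ W O' π' C M V).mp hV with rfl | rfl | rfl
  · -- `O_inf`
    obtain ⟨a0, a1, a2⟩ := t4vw_tr_one O π O π (RingHom.id L) (fun a => a.2) (fun a => rfl)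
      (algebraMap ↥(TaF L (N' * q * q)) (LaurentSeries L))
      (fun c => coe_algebraMap_taF (N := N' * q * q) c) y h1 t1 P hP hu
    have hne : Polynomial.aeval y P ≠ 0 := fun h0 => a0 (by rw [h0, map_zero])
    refine t4vs_valuation_unit _ hne a1 ?_
    show TaGauss O π (((Polynomial.aeval y P)⁻¹ : ↥(TaF L (N' * q * q))) : LaurentSeries L)
    have : (((Polynomial.aeval y P)⁻¹ : ↥(TaF L (N' * q * q))) : LaurentSeries L) =
        (algebraMap ↥(TaF L (N' * q * q)) (LaurentSeries L) (Polynomial.aeval y P))⁻¹ :=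
      map_inv₀ (algebraMap ↥(TaF L (N' * q * q)) (LaurentSeries L)) _
    rw [this]
    exact a2
  · -- `O_mid`
    obtain ⟨a0, a1, a2⟩ := t4vw_tr_one O π O' π' (algebraMap L L') C.map_mem C.π_map
      M.ι (fun c => M.ι_const c) y h2 t2 P hP hu
    have hne : Polynomial.aeval y P ≠ 0 := fun h0 => a0 (by rw [h0, map_zero])
    refine t4vs_valuation_unit _ hne a1 ?_
    show TaGauss O' π' (M.ι (Polynomial.aeval y P)⁻¹)
    rw [map_inv₀]
    exact a2
  · -- `O_0`
    obtain ⟨a0, a1, a2⟩ := t4vw_tr_one O π O π (RingHom.id L) (fun a => a.2) (fun a => rfl)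
      ((algebraMap ↥(TaF L (N' * q * q)) (LaurentSeries L)).comp
        (W.w : ↥(TaF L (N' * q * q)) →+* ↥(TaF L (N' * q * q))))
      (fun c => by
        show ((W.w (algebraMap L ↥(TaF L (N' * q * q)) c) : ↥(TaF L (N' * q * q))) :
          LaurentSeries L) = _
        rw [AlgEquiv.commutes]
        exact coe_algebraMap_taF (N := N' * q * q) c) y h3 t3 P hP hu
    have hne : Polynomial.aeval y P ≠ 0 := fun h0 => a0 (by rw [h0, map_zero])
    refine t4vs_valuation_unit _ hne a1 ?_
    show TaGauss O π ((W.w (Polynomial.aeval y P)⁻¹ : ↥(TaF L (N' * q * q))) : LaurentSeries L)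
    have : ((W.w (Polynomial.aeval y P)⁻¹ : ↥(TaF L (N' * q * q))) : LaurentSeries L) =
        (((algebraMap ↥(TaF L (N' * q * q)) (LaurentSeries L)).comp
          (W.w : ↥(TaF L (N' * q * q)) →+* ↥(TaF L (N' * q * q)))) (Polynomial.aeval y P))⁻¹ := by
      rw [map_inv₀]
      exact map_inv₀ (algebraMap ↥(TaF L (N' * q * q)) (LaurentSeries L)) _
    rw [this]
    exact a2

/-! ### The chart presentations -/

/-- the hypotheses on a chart coordinate `y`: a separating generator of `F / L` whose three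
reductions are Gauss-integral and transcendental over `k` -/
structure T4vwHyp (y : ↥(TaF L (N' * q * q))) : Prop where
  gen : Fermat.Agent.Curve.IsFunctionFieldGen L ↥(TaF L (N' * q * q)) y
  g1 : TaGauss O π (y : LaurentSeries L)
  t1 : Transcendental k (taRhoFun O π (y : LaurentSeries L))
  g2 : TaGauss O' π' (M.ι y)
  t2 : Transcendental k (taRhoFun O' π' (M.ι y))
  g3 : TaGauss O π ((W.w y : ↥(TaF L (N' * q * q))) : LaurentSeries L)
  t3 : Transcendental k (taRhoFun O π ((W.w y : ↥(TaF L (N' * q * q))) : LaurentSeries L))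

/-- the Chinese remainder theorem for the three vertical valuations -/
def T4vwCrt : Prop :=
  ∀ V ∈ t4vwVer O π hπ W O' π' C M, ∀ n : ℕ, ∃ e : ↥(TaF L (N' * q * q)),
    (∀ V' ∈ t4vwVer O π hπ W O' π' C M, e ∈ V') ∧ V.valuation e = 1 ∧
    ∀ V' ∈ t4vwVer O π hπ W O' π' C M, V' ≠ V →
      V'.valuation e ≤ V'.valuation (algebraMap L ↥(TaF L (N' * q * q)) ((q : ℕ) : L)) ^ n

variable {O π hπ W O' π' C M}

theorem T4vwHyp.isSeparable {y : ↥(TaF L (N' * q * q))} (Hy : T4vwHyp O π W O' π' C M y) :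
    Algebra.IsSeparable ↥L⟮y⟯ ↥(TaF L (N' * q * q)) := by
  haveI := Hy.gen.finite
  haveI : CharZero L := algebraRat.charZero L
  exact Algebra.IsAlgebraic.isSeparable_of_perfectField

/-- **the presentation data of the chart `y`** at level `N'q²`: horizontal = places of `F / L` at
which `y` is regular, vertical = `{O_inf, O_mid, O_0}` -/
def t4vwData {y : ↥(TaF L (N' * q * q))} (Hy : T4vwHyp O π W O' π' C M y)
    (hcrt : T4vwCrt O π hπ W O' π' C M) : T4vpData ↥(TaF L (N' * q * q)) :=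
  haveI := Hy.isSeparable
  t4vpChart Hy.gen O ((q : ℕ) : L) (ta_coe_unif_ne_zero hqO) (t4vwVer O π hπ W O' π' C M)
    (t4vwVer_finite O π hπ W O' π' C M) (t4vwVer_dvr O π hπ W hqO O' π' C M)
    (t4vwVer_q O π hπ W hqO O' π' C M) hcrt
    (t4vw_tr O π hπ W O' π' C M y Hy.g1 Hy.t1 Hy.g2 Hy.t2 Hy.g3 Hy.t3)

/-- **the presentation of the chart ring `IntCl(L[y]) ∩ 𝒪`** -/
def t4vwPres {y : ↥(TaF L (N' * q * q))} (Hy : T4vwHyp O π W O' π' C M y)
    (hcrt : T4vwCrt O π hπ W O' π' C M) : T4Pres ↥(TaF L (N' * q * q)) :=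
  (t4vwData hqO Hy hcrt).pres

variable {y : ↥(TaF L (N' * q * q))} (Hy : T4vwHyp O π W O' π' C M y)
  (hcrt : T4vwCrt O π hπ W O' π' C M)

theorem t4vwPres_vals :
    (t4vwPres hqO Hy hcrt).vals = t4vpHor L y ∪ t4vwVer O π hπ W O' π' C M := rfl

theorem t4vwPres_vert :
    (t4vwPres hqO Hy hcrt).vert (algebraMap L ↥(TaF L (N' * q * q)) ((q : ℕ) : L)) =
      t4vwVer O π hπ W O' π' C M :=
  (t4vwData hqO Hy hcrt).pres_vert

/-- `B = IntCl(L[y]) ∩ 𝒪` (helper5's `hB`) -/
theorem mem_t4vwPres_B (hN' : (N' : k) ≠ 0) (W1 : T2iAL L N' q) (Fr : T2iFrob k N' q)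
    (f : ↥(TaF L (N' * q * q))) :
    f ∈ (t4vwPres hqO Hy hcrt).B ↔
      f ∈ t2Int (K := L) y ∧ f ∈ (t4vInput O π hπ hN' W1 Fr W hqO O' π' C M).Ov := by
  haveI := Hy.isSeparable
  rw [mem_Ov_iff_forall_t4vwVer]
  exact mem_t4vpChart_B Hy.gen O ((q : ℕ) : L) (ta_coe_unif_ne_zero hqO)
    (t4vwVer O π hπ W O' π' C M) (t4vwVer_finite O π hπ W O' π' C M)
    (t4vwVer_dvr O π hπ W hqO O' π' C M) (t4vwVer_q O π hπ W hqO O' π' C M) hcrt
    (t4vw_tr O π hπ W O' π' C M y Hy.g1 Hy.t1 Hy.g2 Hy.t2 Hy.g3 Hy.t3) f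

/-- `ov q = 𝒪` (helper5's `hOv`) -/
theorem mem_t4vwPres_ov (hN' : (N' : k) ≠ 0) (W1 : T2iAL L N' q) (Fr : T2iFrob k N' q)
    (f : ↥(TaF L (N' * q * q))) :
    f ∈ (t4vwPres hqO Hy hcrt).ov (algebraMap L ↥(TaF L (N' * q * q)) ((q : ℕ) : L)) ↔
      f ∈ (t4vInput O π hπ hN' W1 Fr W hqO O' π' C M).Ov := by
  rw [mem_Ov_iff_forall_t4vwVer]
  exact (t4vwData hqO Hy hcrt).mem_pres_ov

end Ver

end Fermat.Agent.T4
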