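/-
T4-V7 (helper2): **the chart-1 presentations of levels `N'q` and `N'q²` and helper8's `T4rtTop`.**

* `t4vX1 L N' q Q = j^Q - j` at level `N'q`, `t4vX1_eq`, `t4vX_eq_alpha`.
* `t4vwHyp1_a0`, **`t4vwHyp1_X1`** : `T4vwHyp1` (PresLow.lean) for the chart coordinate of level `N'q`
  (given that it is a separating generator).
* **`t4vz_top`** : helper8's `T4rtTop O π hπ W1 W O' π' C M (t4vX1 L N' q Q) (t4vX L N' q Q) P1 P` for
  any presentations with the dictionaries of `PresLow.lean` / `PresInst.lean`, given the two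
  horizontal integrality facts of the `β`-structure (lead's `t4vj_X_betaX`, `t4vj_betaX_X`);
  `t4vz_top_pres` : the same for `P1 = t4vwPres1 …`, `P = t4vwPres …`.
-/
import Fermat.Agent.Lib.T4.Inst.PresAlpha
import Fermat.Agent.Lib.T4.Reg.TopReg

set_option autoImplicit false
set_option linter.unusedSectionVars false
set_option linter.unusedVariables false
set_option linter.style.haveILetI false
set_option synthInstance.maxHeartbeats 400000

open HahnSeries ModularCurve Fermat.Agent.T1 Fermat.Agent.T2 IntermediateField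

noncomputable section

namespace Fermat.Agent.T4

section Top

variable {L : Type} [Field L] [Algebra ℚ L] (O : ValuationSubring L) {k : Type*} [Field k]
  (π : ↥O →+* k) [IsDiscreteValuationRing ↥O] (hπ : Function.Surjective π) [IsAlgClosed k]
  {N' q : ℕ} [NeZero N'] [hq : Fact q.Prime] [CharP k q] (hN' : (N' : k) ≠ 0)
  (W1 : T2iAL L N' q) (Fr : T2iFrob k N' q) (W : T4iAL L N' q)
  (hqO : Irreducible ((q : ℕ) : ↥O))
  {L' : Type*} [Field L'] [Algebra L L'] (O' : ValuationSubring L')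
  [IsDiscreteValuationRing ↥O'] (π' : ↥O' →+* k) (C : T4iCyc O O' π π' q)
  (M : T4iMid L L' N' q C.ζ) {Q : ℕ} (hQ : 2 ≤ Q)

attribute [local instance] t2iAlgebra t2i_isScalarTower

/-- the chart `X¹ = j^Q - j` at level `N' q` -/
def t4vX1 (L : Type) [Field L] [Algebra ℚ L] (N' q Q : ℕ) [NeZero N'] [NeZero q] :
    ↥(TaF L (N' * q)) := taJ (N' * q) ^ Q - taJ (N' * q)

theorem t4vX1_eq :
    t4vX1 L N' q Q = algebraMap ↥(TaF L N') ↥(TaF L (N' * q)) (t4vX' L N' Q) := by
  have h : algebraMap ↥(TaF L N') ↥(TaF L (N' * q)) (taJ N') = taJ (N' * q) := t2i_alpha_taJ N' q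
  rw [t4vX1, t4vX', map_sub, map_pow, h]

theorem t4vX_eq_alpha :
    t4vX L N' q Q = algebraMap ↥(TaF L (N' * q)) ↥(TaF L (N' * q * q)) (t4vX1 L N' q Q) := by
  have h : algebraMap ↥(TaF L (N' * q)) ↥(TaF L (N' * q * q)) (taJ (N' * q)) =
      taJ (N' * q * q) := t2i_alpha_taJ (N' * q) q
  rw [t4vX1, t4vX, map_sub, map_pow, h]

/-- **the hypotheses on the coordinate `α₁ f`** of level `N' q` -/
theorem t4vwHyp1_a0 {f : ↥(TaF L N')} (hf : TaGauss O π (f : LaurentSeries L))
    (ht : Transcendental k (taRhoFun O π (f : LaurentSeries L)))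
    (hgen : Fermat.Agent.Curve.IsFunctionFieldGen L ↥(TaF L (N' * q))
      (algebraMap ↥(TaF L N') ↥(TaF L (N' * q)) f)) :
    T4vwHyp1 O π W1 (algebraMap ↥(TaF L N') ↥(TaF L (N' * q)) f) := by
  have e1 : ((algebraMap ↥(TaF L N') ↥(TaF L (N' * q)) f : ↥(TaF L (N' * q))) :
      LaurentSeries L) = (f : LaurentSeries L) := coe_t2i_algebraMap L N' q f
  have e3 : ((W1.w (algebraMap ↥(TaF L N') ↥(TaF L (N' * q)) f) : ↥(TaF L (N' * q))) :
      LaurentSeries L) = qExpand L q (f : LaurentSeries L) := by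
    have h1 : W1.w (algebraMap ↥(TaF L N') ↥(TaF L (N' * q)) f) = heckeBetaBar L N' q f :=
      W1.w_alpha f
    rw [h1, coe_heckeBetaBar]
  refine ⟨hgen, ?_, ?_, ?_, ?_⟩
  · rw [e1]
    exact hf
  · rw [e1]
    exact ht
  · rw [e3]
    exact t2i_taGauss_qExpand O π q hf
  · rw [e3, t2i_taRhoFun_qExpand O π q hf]
    exact t4vw_transcendental_qExpand ht

include hπ hQ in
/-- **the chart `X¹ = j^Q - j`** of level `N' q` -/
theorem t4vwHyp1_X1
    (hgen : Fermat.Agent.Curve.IsFunctionFieldGen L ↥(TaF L (N' * q)) (t4vX1 L N' q Q)) :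
    T4vwHyp1 O π W1 (t4vX1 L N' q Q) := by
  have hres := t4vX'_res (N' := N') (Q := Q) O π hπ
  rw [taResN_eq_taRhoFun] at hres
  have h := t4vwHyp1_a0 O π W1 (f := t4vX' L N' Q) (t4vX'_mem O π hπ)
    (by
      show Transcendental k (taRhoFun O π ((t4vX' L N' Q : ↥(TaF L N')) : LaurentSeries L))
      rw [hres]
      exact t4v_xbar_transcendental hQ)
    (by rw [← t4vX1_eq]; exact hgen)
  rw [← t4vX1_eq] at h
  exact h

/-- **helper8's `T4rtTop`** for chart presentations with the dictionaries of `PresLow.lean` and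
`PresInst.lean` -/
theorem t4vz_top (P1 : T4Pres ↥(TaF L (N' * q))) (P : T4Pres ↥(TaF L (N' * q * q)))
    (hvals1 : P1.vals = t4vpHor L (t4vX1 L N' q Q) ∪ t4vwVer1 O π hπ W1)
    (hvals : P.vals = t4vpHor L (t4vX L N' q Q) ∪ t4vwVer O π hπ W O' π' C M)
    (hB1 : ∀ f, f ∈ P1.B ↔ f ∈ t2Int (K := L) (t4vX1 L N' q Q) ∧
      f ∈ (t2iBase2 O π hπ hN' W1 Fr).Ov)
    (hB : ∀ f, f ∈ P.B ↔ f ∈ t2Int (K := L) (t4vX L N' q Q) ∧
      f ∈ (t4vInput O π hπ hN' W1 Fr W hqO O' π' C M).Ov)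
    (hgen1 : Fermat.Agent.Curve.IsFunctionFieldGen L ↥(TaF L (N' * q)) (t4vX1 L N' q Q))
    (hx : IsIntegral ↥(Algebra.adjoin L {heckeBetaBar L (N' * q) q (t4vX1 L N' q Q)})
      (t4vX L N' q Q))
    (hx' : IsIntegral ↥(Algebra.adjoin L {t4vX L N' q Q})
      (heckeBetaBar L (N' * q) q (t4vX1 L N' q Q))) :
    T4rtTop O π hπ W1 W O' π' C M (t4vX1 L N' q Q) (t4vX L N' q Q) P1 P where
  vals := hvals
  vals1 := hvals1
  gen1 := ⟨_, hgen1⟩
  overA := t4vy_presOver_alpha' O π hπ hN' W1 Fr W hqO O' π' C M P1 P hvals1 hB1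
    (by rw [← t4vX_eq_alpha]; exact hB)
  overB := t4vy_presOver_beta O π hπ hN' W1 Fr W hqO O' π' C M P1 P hvals1 hB1 hB hx hx'
  horA := by
    intro V hV
    obtain ⟨v, rfl, hxV⟩ := hV
    have h : heckeAlphaBar L (N' * q) q (t4vX1 L N' q Q) = t4vX L N' q Q :=
      (t4vX_eq_alpha (L := L) (N' := N') (q := q) (Q := Q)).symm
    rw [h]
    exact hxV
  horB := by
    intro V hV
    obtain ⟨v, rfl, hxV⟩ := hV
    -- `β₂ x¹` is integral over `L[x] ⊆ V`
    have hle : ∀ r : ↥(Algebra.adjoin L {t4vX L N' q Q}),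
        (r : ↥(TaF L (N' * q * q))) ∈ v.toValuationSubring := by
      intro r
      obtain ⟨r, hr⟩ := r
      show r ∈ v.toValuationSubring
      induction hr using Algebra.adjoin_induction with
      | mem y hy =>
        rw [Set.mem_singleton_iff] at hy
        rw [hy]
        exact hxV
      | algebraMap a => exact v.algebraMap_mem' a
      | add y z _ _ hy hz => exact v.toValuationSubring.add_mem _ _ hy hz
      | mul y z _ _ hy hz => exact v.toValuationSubring.mul_mem _ _ hy hz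
    exact ta_mem_of_isIntegral _ hle hx'

end Top

end Fermat.Agent.T4
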