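/-
T4-V6 (helper2), part 2: the chart `X = j^Q - j` at a DVR level `L_H = tbFix 𝔓 H`, ANY level `N`
(in the application `N = N' * p * p`, `Q = p ^ 2`), for an ABSTRACT base
`d : T2Base L_H (tbLevF 𝔓 N H) k Fb` (in the application helper9's three-valuation base with
`Fb = 𝒪 ⧸ (p)`):

* `t4vcX`, `tbPhiF_t4vcX`, `t4vc_gen_X`, `t4vc_finrank_X` (`[F_K : ℚ̄(X)] = Q ψ(N)`), `t4vcX_ne_zero`;
* `t4vc_exists_setup` : a `T4Setup d` with chart `X`, exponent `m`, and the Riemann–Roch numbers of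
  `F_K = modularFunctionFieldBar N` (T2-D), from the three base facts `X, X⁻¹ ∈ 𝒪`,
  `res X` transcendental, (Int) and (Cl) for the chart `X`;
* `t4vc_exists_twist` : the `T4Twist` of a Kummer function `z` with `res z = 1`;
* `t4vc_exists_root` : a common nonzero section of the two twisted chart modules makes `z` an `m`-th
  power over `ℚ̄` (= `T2.t2g_exists_root_mod`).
-/
import Fermat.Agent.Lib.T4.Core.Setup
import Fermat.Agent.Lib.T4.Inst.ChartFin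
import Fermat.Agent.Lib.T2.Desc.LevelMod
import Fermat.Agent.Lib.T2.Desc.AdjoinMod
import Fermat.Agent.Lib.T2.Inst.DegreeMod
import Fermat.Agent.Lib.T2.Gal.Core

set_option autoImplicit false
set_option linter.unusedSectionVars false
set_option linter.unusedVariables false
set_option linter.style.haveILetI false
set_option synthInstance.maxHeartbeats 400000
set_option maxHeartbeats 1000000

namespace Fermat.Agent.T4

open ModularCurve Module AlgebraicCurve IntermediateField Fermat.Agent.Curve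
  Fermat.Agent.T1 Fermat.Agent.TW Fermat.Agent.T2

local notation "Qb" => AlgebraicClosure ℚ

variable (𝔓 : FFPlace) (N : ℕ) [NeZero N] (H : Subgroup 𝔓.I)

/-- the chart `X = j^Q - j` at the level `H` -/
noncomputable def t4vcX (Q : ℕ) : ↥(tbLevF 𝔓 N H) := tbLevJ 𝔓 N H ^ Q - tbLevJ 𝔓 N H

theorem tbPhiF_t4vcX (Q : ℕ) : tbPhiF 𝔓 N H (t4vcX 𝔓 N H Q) = tbJ N ^ Q - tbJ N := by
  rw [t4vcX, map_sub, map_pow, tbPhiF_tbLevJ]

variable {Q : ℕ} (hQ : 2 ≤ Q)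

include hQ

/-- the chart is a generator over `ℚ̄` -/
theorem t4vc_gen_X :
    IsFunctionFieldGen Qb ↥(modularFunctionFieldBar N) (tbPhiF 𝔓 N H (t4vcX 𝔓 N H Q)) := by
  rw [tbPhiF_t4vcX]
  exact t2dg_isFunctionFieldGen_X N hQ

/-- `[F_K : ℚ̄(X)] = Q ψ(N)` -/
theorem t4vc_finrank_X :
    finrank ↥Qb⟮tbPhiF 𝔓 N H (t4vcX 𝔓 N H Q)⟯ ↥(modularFunctionFieldBar N) = Q * dedekindPsi N := by
  rw [tbPhiF_t4vcX]
  exact t2dg_finrank_X N hQ

/-- the chart is a generator at the level `H` -/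
theorem t4vc_gen_X_level :
    IsFunctionFieldGen ↥(tbFix 𝔓 H) ↥(tbLevF 𝔓 N H) (t4vcX 𝔓 N H Q) :=
  t2d_isFunctionFieldGen_mod 𝔓 N H (t4vc_gen_X 𝔓 N H hQ)

theorem t4vcX_ne_zero : t4vcX 𝔓 N H Q ≠ 0 := fun h0 =>
  (t4vc_gen_X_level 𝔓 N H hQ).transcendental (h0 ▸ isAlgebraic_zero)

variable {k Fb : Type*} [Field k] [CommRing Fb] [Algebra k Fb]
  (d : T2Base ↥(tbFix 𝔓 H) ↥(tbLevF 𝔓 N H) k Fb) [IsDiscreteValuationRing ↥d.A]

/-- **the `T4Setup` for the chart `X = j^Q - j`** over an abstract base at the level `H` -/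
theorem t4vc_exists_setup (hℓA : ((𝔓.p : ℕ) : ↥(tbFix 𝔓 H)) ∈ d.A.nonunits)
    (hx : t4vcX 𝔓 N H Q ∈ d.Ov) (hxi : (t4vcX 𝔓 N H Q)⁻¹ ∈ d.Ov)
    (htr : Transcendental k (d.res ⟨t4vcX 𝔓 N H Q, hx⟩))
    (hInt : ∀ f : ↥(tbLevF 𝔓 N H), f ∈ d.Ov → f ∈ t2Int (K := ↥(tbFix 𝔓 H)) (t4vcX 𝔓 N H Q) →
      IsIntegral ↥(Algebra.adjoin ↥d.A {t4vcX 𝔓 N H Q}) f)
    (hCl : ∀ f : ↥(tbLevF 𝔓 N H), IsIntegral ↥(Algebra.adjoin ↥d.A {t4vcX 𝔓 N H Q}) f → f ∈ d.Ov)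
    (m : ℕ) (hm : Nat.Coprime m 𝔓.p) :
    ∃ su : T4Setup d, su.m = m ∧ su.x = t4vcX 𝔓 N H Q ∧ su.ℓ = 𝔓.p ∧
      (su.n : ℤ) = finrank ↥Qb⟮tbPhiF 𝔓 N H su.x⟯ ↥(modularFunctionFieldBar N) ∧
      su.c = 1 - CurveP.genusR Qb ↥(modularFunctionFieldBar N) ∧
      su.a0 = 2 * CurveP.genusR Qb ↥(modularFunctionFieldBar N) := by
  have hX := t4vc_gen_X 𝔓 N H hQ
  have hXl := t4vc_gen_X_level 𝔓 N H hQ
  have hx0 := t4vcX_ne_zero 𝔓 N H hQ
  obtain ⟨ϖ, hϖ⟩ := IsDiscreteValuationRing.exists_irreducible ↥d.A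
  let Ch : T2sChart d :=
    { x := t4vcX 𝔓 N H Q
      tr := hXl.transcendental
      mem := hx
      trρ := htr
      ϖ := ϖ
      irr := hϖ }
  haveI : FiniteDimensional ↥((↥(tbFix 𝔓 H))⟮Ch.x⟯) ↥(tbLevF 𝔓 N H) := hXl.finite
  haveI : CharZero ↥(tbFix 𝔓 H) := algebraRat.charZero _
  haveI : Algebra.IsSeparable ↥((↥(tbFix 𝔓 H))⟮Ch.x⟯) ↥(tbLevF 𝔓 N H) :=
    Algebra.IsAlgebraic.isSeparable_of_perfectField
  obtain ⟨e, he⟩ := t4vc_fin Ch hInt hCl hx0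
  refine ⟨{ ℓ := 𝔓.p
            hℓ := 𝔓.hp
            hℓA := hℓA
            hℓ0 := Nat.cast_ne_zero.mpr 𝔓.hp.ne_zero
            m := m
            hm := hm
            x := t4vcX 𝔓 N H Q
            hx0 := hx0
            hx := hx
            hxi := hxi
            e := e
            fin1 := he
            ex2 := fun f hf => t2_exists_pow_mul_mem_t2Int hx0 hf
            n := finrank ↥Qb⟮tbPhiF 𝔓 N H (t4vcX 𝔓 N H Q)⟯ ↥(modularFunctionFieldBar N)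
            c := 1 - CurveP.genusR Qb ↥(modularFunctionFieldBar N)
            a0 := 2 * CurveP.genusR Qb ↥(modularFunctionFieldBar N)
            finL0 := t2d_finiteDimensional_tbLbar_mod 𝔓 N H hX
            dim0 := fun a b hab => t2d_dim0_mod 𝔓 N H hX a b (by omega) },
    rfl, rfl, rfl, rfl, rfl, rfl⟩

omit hQ

set_option maxHeartbeats 4000000 in
/-- **the `T4Twist` of a Kummer function** `z` with `res z = 1` -/
theorem t4vc_exists_twist {d : T2Base ↥(tbFix 𝔓 H) ↥(tbLevF 𝔓 N H) k Fb} (su : T4Setup d)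
    (hX : IsFunctionFieldGen Qb ↥(modularFunctionFieldBar N) (tbPhiF 𝔓 N H su.x))
    (hn : (su.n : ℤ) = finrank ↥Qb⟮tbPhiF 𝔓 N H su.x⟯ ↥(modularFunctionFieldBar N))
    (hc : su.c = 1 - CurveP.genusR Qb ↥(modularFunctionFieldBar N))
    {z : ↥(tbLevF 𝔓 N H)} (hz0 : z ≠ 0) (hz : z ∈ d.Ov) (hz1 : d.res ⟨z, hz⟩ = 1)
    (hdiv : ∀ v : Place Qb ↥(modularFunctionFieldBar N), (su.m : ℤ) ∣ v.ord (tbPhiF 𝔓 N H z)) :
    ∃ tw : T4Twist su, tw.y = z ∧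
      (∀ s, s ∈ tw.L1 ↔ s ^ su.m * z ∈ t2Int (K := ↥(tbFix 𝔓 H)) su.x) ∧
      (∀ s, s ∈ tw.L2 ↔ s ^ su.m * z ∈ t2Int (K := ↥(tbFix 𝔓 H)) su.x⁻¹) := by
  obtain ⟨L1, L2, hL1, hL2, hmul1, hmul2, hex1, hex2, hfin, hdim⟩ :=
    t2d_exists_twist_mod 𝔓 N H hX hz0 su.m_pos hdiv
  refine ⟨{ y := z
            hy := hz
            hy1 := hz1
            L1 := L1
            L2 := L2
            mul_mem1 := fun f s hf hs => hmul1 f s hf hs
            mul_mem2 := fun f s hf hs => hmul2 f s hf hs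
            pow1 := fun s hs => (hL1 s).mp hs
            pow2 := fun s hs => (hL2 s).mp hs
            exists1 := hex1
            exists2 := hex2
            finL := hfin
            dimgen := fun a b _ => by
              have := hdim a b
              rw [hn, hc]
              exact this }, rfl, fun s => hL1 s, fun s => hL2 s⟩

/-- **a common nonzero section of the two twisted chart modules makes `z` an `m`-th power over
`ℚ̄`** -/
theorem t4vc_exists_root {x : ↥(tbLevF 𝔓 N H)}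
    (hX : IsFunctionFieldGen Qb ↥(modularFunctionFieldBar N) (tbPhiF 𝔓 N H x))
    {z s : ↥(tbLevF 𝔓 N H)} {m : ℕ} (hz : z ≠ 0) (hm : 0 < m)
    (hdiv : ∀ v : Place Qb ↥(modularFunctionFieldBar N), (m : ℤ) ∣ v.ord (tbPhiF 𝔓 N H z))
    (hs0 : s ≠ 0) (h1 : s ^ m * z ∈ t2Int (K := ↥(tbFix 𝔓 H)) x)
    (h2 : s ^ m * z ∈ t2Int (K := ↥(tbFix 𝔓 H)) x⁻¹) :
    ∃ g : ↥(modularFunctionFieldBar N), g ^ m = tbPhiF 𝔓 N H z :=
  t2g_exists_root_mod 𝔓 N H hX hz hm hdiv hs0 h1 h2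

end Fermat.Agent.T4
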