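/-
T4-V6 (helper2), part 3: (Int) for the chart `X = j^Q - j` at a level `N` ABOVE a level `N'` of good
reduction, generic DVR level `(L, O, π, k)`.

`φ : F_{N',L} → F_{N,L}` any `L`-embedding with `φ j = j` (in the application the composite of the two
degeneracy maps `heckeAlphaBar`), `𝒪 ⊆ F_{N,L}` a subring all of whose elements are integral over the
Gauss valuation ring `taOv` of `F_{N',L}` (via `φ`).  Then every `f ∈ 𝒪` which is integral over `L[X]`
is integral over `O[X]` (`t4vc_int_of_level`): tower lemma `t4vc_int_tower` + (Int) at level `N'`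
(`T1.ta_int_fin`) + change of chart `j ⇝ j^Q - j`.
-/
import Fermat.Agent.Lib.T4.Inst.ChartFin
import Fermat.Agent.Lib.T1.GoodRed.Core

set_option autoImplicit false
set_option linter.unusedSectionVars false
set_option linter.unusedVariables false
set_option linter.style.haveILetI false
set_option synthInstance.maxHeartbeats 400000
set_option maxHeartbeats 1000000

open HahnSeries ModularCurve Fermat.Agent.T1

noncomputable section

namespace Fermat.Agent.T4

variable {L : Type*} [Field L] [Algebra ℚ L] (O : ValuationSubring L)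
  {k : Type*} [Field k] (π : ↥O →+* k)
  [IsDiscreteValuationRing ↥O] (hπ : Function.Surjective π) (N' N : ℕ) [NeZero N'] [NeZero N]

/-- **(Int) at level `N'` for the chart `j^Q - j`** -/
theorem t4vc_int_level_X (hN' : (N' : k) ≠ 0) {Q : ℕ} (hQ : 2 ≤ Q) {g : ↥(TaF L N')}
    (hg : g ∈ taOv O π hπ N')
    (hint : IsIntegral ↥(Algebra.adjoin L {taJ (L := L) N' ^ Q - taJ N'}) g) :
    IsIntegral ↥(Algebra.adjoin ↥O {taJ (L := L) N' ^ Q - taJ N'}) g :=
  t4vc_int_of_mem O (t4vc_pow_sub_mem O (taJ N') Q) (t4vc_isIntegral_pow_sub O (taJ N') hQ)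
    (fun h => ta_int_fin O π hπ N' hN' hg h) hint

/-- **(Int) at a level above `N'` for the chart `j^Q - j`** -/
theorem t4vc_int_of_level (hN' : (N' : k) ≠ 0) (φ : ↥(TaF L N') →ₐ[L] ↥(TaF L N))
    (hφ : φ (taJ N') = taJ N) {Q : ℕ} (hQ : 2 ≤ Q) {f : ↥(TaF L N)}
    (hf' : ((φ : ↥(TaF L N') →+* ↥(TaF L N)).comp (taOv O π hπ N').subtype).IsIntegralElem f)
    (hf : IsIntegral ↥(Algebra.adjoin L {taJ (L := L) N ^ Q - taJ N}) f) :
    IsIntegral ↥(Algebra.adjoin ↥O {taJ (L := L) N ^ Q - taJ N}) f := by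
  letI : Algebra ↥(TaF L N') ↥(TaF L N) := (φ : ↥(TaF L N') →+* ↥(TaF L N)).toAlgebra
  haveI : IsScalarTower L ↥(TaF L N') ↥(TaF L N) :=
    IsScalarTower.of_algebraMap_eq (fun a => (φ.commutes a).symm)
  have hX : algebraMap ↥(TaF L N') ↥(TaF L N) (taJ (L := L) N' ^ Q - taJ N') =
      taJ (L := L) N ^ Q - taJ N := by
    show φ (taJ (L := L) N' ^ Q - taJ N') = _
    rw [map_sub, map_pow, hφ]
  have key := t4vc_int_tower (K := L) (F' := ↥(TaF L N')) (F := ↥(TaF L N)) O (taOv O π hπ N')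
    (taJ (L := L) N' ^ Q - taJ N')
    (fun g hg hint => t4vc_int_level_X O π hπ N' hN' hQ hg hint) (f := f) hf' (by rw [hX]; exact hf)
  rw [hX] at key
  exact key

end Fermat.Agent.T4
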