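/-
T4-V (helper9): the chart `X = j^Q - j` on the three-valuation base `t4vBase` (generic level):
the base facts required by helper2's `t4vc_exists_setup`:

* `t4vX_mem`, `t4vX_inv_mem` : `X, X⁻¹ ∈ 𝒪`;
* `t4vX_transcendental` : `res X` is transcendental over `k`;
* `t4v_cl` : (Cl) elements integral over `O[X]` lie in `𝒪`;
* `t4v_isIntegralElem` : `𝒪` is integral over `a0 (𝒪')` (finite module: `𝒪 = ⊕ a0(𝒪') Y^l Z^i`);
* `t4v_int` : (Int) elements of `𝒪` integral over `L[X]` are integral over `O[X]`.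
-/
import Fermat.Agent.Lib.T4.Inst.ValSub
import Fermat.Agent.Lib.T4.Inst.ChartInt

set_option autoImplicit false
set_option linter.unusedSectionVars false
set_option linter.unusedVariables false
set_option linter.style.haveILetI false
set_option synthInstance.maxHeartbeats 400000

open HahnSeries ModularCurve Fermat.Agent.T1 Fermat.Agent.T2 IntermediateField

noncomputable section

namespace Fermat.Agent.T4

section Chart

variable {L : Type} [Field L] [Algebra ℚ L] (O : ValuationSubring L) {k : Type*} [Field k]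
  (π : ↥O →+* k) [IsDiscreteValuationRing ↥O] (hπ : Function.Surjective π) [IsAlgClosed k]
  {N' q : ℕ} [NeZero N'] [hq : Fact q.Prime] [CharP k q] (hN' : (N' : k) ≠ 0)
  (W1 : T2iAL L N' q) (Fr : T2iFrob k N' q) (W : T4iAL L N' q)
  (hqO : Irreducible ((q : ℕ) : ↥O))
  {L' : Type*} [Field L'] [Algebra L L'] (O' : ValuationSubring L')
  [IsDiscreteValuationRing ↥O'] (π' : ↥O' →+* k) (C : T4iCyc O O' π π' q)
  (M : T4iMid L L' N' q C.ζ) {Q : ℕ} (hQ : 2 ≤ Q)

attribute [local instance] t2iAlgebra t2i_isScalarTower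

/-- the chart `X = j^Q - j` at level `N' q q` -/
def t4vX (L : Type) [Field L] [Algebra ℚ L] (N' q Q : ℕ) [NeZero N'] [NeZero q] :
    ↥(TaF L (N' * q * q)) := taJ (N' * q * q) ^ Q - taJ (N' * q * q)

/-- the chart at level `N'` -/
def t4vX' (L : Type) [Field L] [Algebra ℚ L] (N' Q : ℕ) [NeZero N'] : ↥(TaF L N') :=
  taJ N' ^ Q - taJ N'

theorem t4vA0_taJ : t4vA0 L N' q (taJ N') = taJ (N' * q * q) := by
  apply Subtype.ext
  rw [coe_t4vA0]
  rfl

theorem t4vX_eq : t4vX L N' q Q = t4vA0 L N' q (t4vX' L N' Q) := by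
  rw [t4vX, t4vX', map_sub, map_pow, t4vA0_taJ]

theorem t4vX'_mem : t4vX' L N' Q ∈ taOv O π hπ N' :=
  sub_mem (pow_mem (taJ_mem_taOv O π hπ N') Q) (taJ_mem_taOv O π hπ N')

theorem t4vX'_res : taResN O π hπ N' ⟨t4vX' L N' Q, t4vX'_mem O π hπ⟩ =
    jqModC k ^ Q - jqModC k := by
  have h : (⟨t4vX' L N' Q, t4vX'_mem O π hπ⟩ : ↥(taOv O π hπ N')) =
      ⟨taJ N', taJ_mem_taOv O π hπ N'⟩ ^ Q - ⟨taJ N', taJ_mem_taOv O π hπ N'⟩ := rfl
  rw [h, map_sub, map_pow, taResN_taJ]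

include hQ in
theorem t4v_xbar_ne_zero : jqModC k ^ Q - jqModC k ≠ 0 := by
  intro h
  have h1 := congrArg (fun f : LaurentSeries k => f.coeff (-((Q : ℕ) : ℤ))) h
  simp only [HahnSeries.coeff_sub, HahnSeries.coeff_zero] at h1
  rw [coeff_jqModC_pow_self, coeff_jqModC_of_lt] at h1
  · simp at h1
  · have h2 : (2 : ℤ) ≤ Q := by exact_mod_cast hQ
    omega

include hQ in
theorem t4vX'_inv_mem : (t4vX' L N' Q)⁻¹ ∈ taOv O π hπ N' := by
  refine inv_mem_taOv_of_taResN_ne_zero O π hπ N' ⟨t4vX' L N' Q, t4vX'_mem O π hπ⟩ ?_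
  rw [t4vX'_res]
  exact t4v_xbar_ne_zero hQ

theorem t4vX_mem : t4vX L N' q Q ∈ (t4vInput O π hπ hN' W1 Fr W hqO O' π' C M).Ov := by
  rw [t4vX_eq]
  exact t4v_a0_mem O π hπ hN' W1 Fr W hqO O' π' C M (t4vX'_mem O π hπ)

include hQ in
theorem t4vX_inv_mem :
    (t4vX L N' q Q)⁻¹ ∈ (t4vInput O π hπ hN' W1 Fr W hqO O' π' C M).Ov := by
  rw [t4vX_eq, ← map_inv₀]
  exact t4v_a0_mem O π hπ hN' W1 Fr W hqO O' π' C M (t4vX'_inv_mem O π hπ hQ)

theorem t4vX_ρ₁ : (t4vInput O π hπ hN' W1 Fr W hqO O' π' C M).ρ₁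
    ⟨t4vX L N' q Q, t4vX_mem O π hπ hN' W1 Fr W hqO O' π' C M⟩ = jqModC k ^ Q - jqModC k := by
  have h := t4v_ρ₁_a0 O π hπ hN' W1 Fr W hqO O' π' C M (t4vX'_mem (Q := Q) O π hπ)
  have h2 := t4vX'_res (N' := N') (Q := Q) O π hπ
  rw [taResN_eq_taRhoFun] at h2
  rw [← h2, ← h]
  congr 1

/-! ### Transcendence of the residue of the chart -/

/-- the first reduction factors through `𝒪 / (q)` -/
def t4vRho1Bar : (t4vInput O π hπ hN' W1 Fr W hqO O' π' C M).Fb →+* LaurentSeries k :=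
  Ideal.Quotient.lift _ (t4vInput O π hπ hN' W1 Fr W hqO O' π' C M).ρ₁ (fun a ha => by
    obtain ⟨c, rfl⟩ := Ideal.mem_span_singleton'.mp ha
    rw [map_mul, (t4vInput O π hπ hN' W1 Fr W hqO O' π' C M).ρ₁_pO, mul_zero])

theorem t4vRho1Bar_res (f : ↥(t4vInput O π hπ hN' W1 Fr W hqO O' π' C M).Ov) :
    t4vRho1Bar O π hπ hN' W1 Fr W hqO O' π' C M
      ((t4vInput O π hπ hN' W1 Fr W hqO O' π' C M).res f) =
      (t4vInput O π hπ hN' W1 Fr W hqO O' π' C M).ρ₁ f := rfl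

theorem t4vRho1Bar_algebraMap (c : k) :
    t4vRho1Bar O π hπ hN' W1 Fr W hqO O' π' C M
      (algebraMap k (t4vInput O π hπ hN' W1 Fr W hqO O' π' C M).Fb c) =
      algebraMap k (LaurentSeries k) c := by
  obtain ⟨a, rfl⟩ := hπ c
  have h1 := (t4vInput O π hπ hN' W1 Fr W hqO O' π' C M).κ_resA a
  rw [T4kInput.algebraMap_Fb]
  have h2 : (t4vInput O π hπ hN' W1 Fr W hqO O' π' C M).κ (π a) =
      (t4vInput O π hπ hN' W1 Fr W hqO O' π' C M).res
        ((t4vInput O π hπ hN' W1 Fr W hqO O' π' C M).toOv a) := h1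
  rw [h2, t4vRho1Bar_res]
  show (t4vInput O π hπ hN' W1 Fr W hqO O' π' C M).ρ₁
    ((t4vInput O π hπ hN' W1 Fr W hqO O' π' C M).αO
      ((t4vInput O π hπ hN' W1 Fr W hqO O' π' C M).d1.toOv a)) = _
  rw [T4kInput.ρ₁_α]
  exact (t2iInput O π hπ hN' W1 Fr).ρ₁_algebraMap a

include hQ in
theorem t4v_xbar_transcendental : Transcendental k (jqModC k ^ Q - jqModC k) := by
  have h1 := Fermat.Agent.Igusa.transcendental_jqModC k
  have h2 : jqModC k ^ Q - jqModC k =
      Polynomial.aeval (jqModC k) ((Polynomial.X : Polynomial k) ^ Q - Polynomial.X) := by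
    simp
  rw [h2]
  have hdeg : ((Polynomial.X : Polynomial k) ^ Q - Polynomial.X).natDegree = Q := by
    rw [Polynomial.natDegree_sub_eq_left_of_natDegree_lt]
    · exact Polynomial.natDegree_X_pow Q
    · rw [Polynomial.natDegree_X_pow, Polynomial.natDegree_X]
      omega
  have hlc : ((Polynomial.X : Polynomial k) ^ Q - Polynomial.X).leadingCoeff = 1 := by
    have hm : ((Polynomial.X : Polynomial k) ^ Q - Polynomial.X).Monic :=
      Polynomial.monic_X_pow_sub (by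
        rw [Polynomial.degree_X]
        exact_mod_cast (by omega : 1 < Q))
    exact hm
  refine h1.aeval _ (by rw [hdeg]; omega) ?_
  rw [hlc]
  exact one_mem _

include hQ in
/-- **`res X` is transcendental over `k`** -/
theorem t4vX_transcendental' :
    Transcendental k ((t4vInput O π hπ hN' W1 Fr W hqO O' π' C M).res
      ⟨t4vX L N' q Q, t4vX_mem O π hπ hN' W1 Fr W hqO O' π' C M⟩) := by
  refine Transcendental.of_ringHom_of_comp_eq (f := RingHom.id k)
    (g := t4vRho1Bar O π hπ hN' W1 Fr W hqO O' π' C M) ?_ Function.injective_id ?_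
  · rw [t4vRho1Bar_res, t4vX_ρ₁]
    exact t4v_xbar_transcendental hQ
  · exact RingHom.ext fun c => (t4vRho1Bar_algebraMap O π hπ hN' W1 Fr W hqO O' π' C M c).symm

include hQ in
theorem t4vX_transcendental
    (hx : t4vX L N' q Q ∈ (t4vBase O π hπ hN' W1 Fr W hqO O' π' C M).Ov) :
    Transcendental k ((t4vBase O π hπ hN' W1 Fr W hqO O' π' C M).res ⟨t4vX L N' q Q, hx⟩) :=
  t4vX_transcendental' O π hπ hN' W1 Fr W hqO O' π' C M hQ

/-! ### (Cl): `𝒪` is integrally closed and contains `O[X]` -/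

theorem t4v_adjoin_le (V : ValuationSubring ↥(TaF L (N' * q * q)))
    (hO : ∀ a : ↥O, algebraMap L ↥(TaF L (N' * q * q)) (a : L) ∈ V) {x : ↥(TaF L (N' * q * q))}
    (hx : x ∈ V) (r : ↥(Algebra.adjoin ↥O {x})) : (r : ↥(TaF L (N' * q * q))) ∈ V := by
  obtain ⟨r, hr⟩ := r
  show r ∈ V
  induction hr using Algebra.adjoin_induction with
  | mem y hy =>
    rw [Set.mem_singleton_iff] at hy
    rw [hy]
    exact hx
  | algebraMap a => exact hO a
  | add y z _ _ hy hz => exact V.add_mem _ _ hy hz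
  | mul y z _ _ hy hz => exact V.mul_mem _ _ hy hz

/-- **(Cl)** -/
theorem t4v_cl (f : ↥(TaF L (N' * q * q)))
    (hf : IsIntegral ↥(Algebra.adjoin ↥(t4vBase O π hπ hN' W1 Fr W hqO O' π' C M).A
      {t4vX L N' q Q}) f) : f ∈ (t4vBase O π hπ hN' W1 Fr W hqO O' π' C M).Ov := by
  have hX := t4vX_mem (Q := Q) O π hπ hN' W1 Fr W hqO O' π' C M
  have hO : ∀ a : ↥O, algebraMap L ↥(TaF L (N' * q * q)) (a : L) ∈
      (t4vInput O π hπ hN' W1 Fr W hqO O' π' C M).Ov := fun a =>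
    (t4vInput O π hπ hN' W1 Fr W hqO O' π' C M).algebraMap_mem_Ov a
  rw [mem_t4vInput_Ov_iff] at hX
  have hO' := fun a => (mem_t4vInput_Ov_iff O π hπ hN' W1 Fr W hqO O' π' C M _).mp (hO a)
  show f ∈ (t4vInput O π hπ hN' W1 Fr W hqO O' π' C M).Ov
  rw [mem_t4vInput_Ov_iff]
  refine ⟨?_, ?_, ?_⟩
  · exact ta_mem_of_isIntegral _ (t4v_adjoin_le O _ (fun a => (hO' a).1) hX.1) hf
  · exact ta_mem_of_isIntegral _ (t4v_adjoin_le O _ (fun a => (hO' a).2.1) hX.2.1) hf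
  · exact ta_mem_of_isIntegral _ (t4v_adjoin_le O _ (fun a => (hO' a).2.2) hX.2.2) hf

/-! ### `𝒪` is a finite module over `a0 (𝒪')` -/

/-- **every element of `𝒪` is integral over `a0 (𝒪')`**, `𝒪'` the Gauss ring of level `N'` -/
theorem t4v_isIntegralElem (f : ↥(TaF L (N' * q * q)))
    (hf : f ∈ (t4vInput O π hπ hN' W1 Fr W hqO O' π' C M).Ov) :
    ((t4vA0 L N' q : ↥(TaF L N') →+* ↥(TaF L (N' * q * q))).comp
      (taOv O π hπ N').subtype).IsIntegralElem f := by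
  classical
  set I := t4vInput O π hπ hN' W1 Fr W hqO O' π' C M with hI
  set I1 := t2iInput O π hπ hN' W1 Fr with hI1
  set g : ↥(taOv O π hπ N') →+* ↥(TaF L (N' * q * q)) :=
    (t4vA0 L N' q : ↥(TaF L N') →+* ↥(TaF L (N' * q * q))).comp (taOv O π hπ N').subtype with hg
  letI : Algebra ↥(taOv O π hπ N') ↥(TaF L (N' * q * q)) := g.toAlgebra
  have hgmem : ∀ r : ↥(taOv O π hπ N'), g r ∈ I.Ov := fun r =>
    t4v_a0_mem O π hπ hN' W1 Fr W hqO O' π' C M r.2
  -- `𝒪` as a subalgebra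
  let S : Subalgebra ↥(taOv O π hπ N') ↥(TaF L (N' * q * q)) :=
    { I.Ov.toSubsemiring with algebraMap_mem' := hgmem }
  -- the generators
  let Yb : ↥(TaF L (N' * q * q)) :=
    algebraMap ↥(TaF L (N' * q)) ↥(TaF L (N' * q * q)) I1.Y
  have hYb : Yb ∈ I.Ov := I.α_mem_Ov ⟨I1.Y, I1.Y_mem_Ov⟩
  let T : Finset ↥(TaF L (N' * q * q)) :=
    (Finset.univ : Finset (Fin q × Fin (q + 1))).image (fun il => Yb ^ (il.2 : ℕ) * I.Z ^ (il.1 : ℕ))
  have hT : ∀ t ∈ T, t ∈ I.Ov := by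
    intro t ht
    obtain ⟨il, -, rfl⟩ := Finset.mem_image.mp ht
    exact mul_mem (pow_mem hYb _) (pow_mem I.Z_mem_Ov _)
  have hspan : Subalgebra.toSubmodule S = Submodule.span ↥(taOv O π hπ N') (T : Set _) := by
    apply le_antisymm
    · intro y hy
      have hy' : y ∈ I.Ov := hy
      obtain ⟨b, hb⟩ := I.decomp ⟨y, hy'⟩
      have hyb : y = ∑ i, algebraMap ↥(TaF L (N' * q)) ↥(TaF L (N' * q * q))
          ((b i : ↥I.d1.Ov) : ↥(TaF L (N' * q))) * I.Z ^ (i : ℕ) := by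
        have := congrArg Subtype.val hb
        rw [I.coe_comb] at this
        exact this
      rw [hyb]
      refine Submodule.sum_mem _ fun i _ => ?_
      obtain ⟨c, hc⟩ := I1.decomp (b i)
      have hbc : ((b i : ↥I.d1.Ov) : ↥(TaF L (N' * q))) =
          ∑ l, algebraMap ↥(TaF L N') ↥(TaF L (N' * q)) ((c l : ↥I1.d'.Ov) : ↥(TaF L N')) *
            I1.Y ^ (l : ℕ) := by
        have := congrArg Subtype.val hc
        rw [I1.coe_comb] at this
        exact this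
      rw [hbc, map_sum, Finset.sum_mul]
      refine Submodule.sum_mem _ fun l _ => ?_
      have hterm : algebraMap ↥(TaF L (N' * q)) ↥(TaF L (N' * q * q))
            (algebraMap ↥(TaF L N') ↥(TaF L (N' * q)) ((c l : ↥I1.d'.Ov) : ↥(TaF L N')) *
              I1.Y ^ (l : ℕ)) * I.Z ^ (i : ℕ) =
          (⟨((c l : ↥I1.d'.Ov) : ↥(TaF L N')), (c l).2⟩ : ↥(taOv O π hπ N')) •
            (Yb ^ (l : ℕ) * I.Z ^ (i : ℕ)) := by
        rw [Algebra.smul_def, map_mul, map_pow]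
        exact mul_assoc _ _ _
      rw [hterm]
      refine Submodule.smul_mem _ _ (Submodule.subset_span ?_)
      exact Finset.mem_coe.mpr (Finset.mem_image.mpr ⟨(i, l), Finset.mem_univ _, rfl⟩)
    · rw [Submodule.span_le]
      intro t ht
      exact hT t (Finset.mem_coe.mp ht)
  have hfg : (Subalgebra.toSubmodule S).FG := ⟨T, hspan.symm⟩
  exact IsIntegral.of_mem_of_fg S hfg f hf

/-! ### (Int) -/

include hQ in
/-- **(Int)** -/
theorem t4v_int (f : ↥(TaF L (N' * q * q)))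
    (hf : f ∈ (t4vBase O π hπ hN' W1 Fr W hqO O' π' C M).Ov)
    (hint : f ∈ t2Int (K := L) (t4vX L N' q Q)) :
    IsIntegral ↥(Algebra.adjoin ↥(t4vBase O π hπ hN' W1 Fr W hqO O' π' C M).A
      {t4vX L N' q Q}) f :=
  t4vc_int_of_level O π hπ N' (N' * q * q) hN' (t4vA0 L N' q) t4vA0_taJ hQ
    (t4v_isIntegralElem O π hπ hN' W1 Fr W hqO O' π' C M f hf) hint

end Chart

end Fermat.Agent.T4
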