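/-
T4-V3' (lead), part 5: `t4m 𝕜 N' q hq hqN z hz1 hz2 : barField 𝕜 (N' * q * q) →ₐ[𝕜] LaurentSeries 𝕜`, the
embedding `ι_mid` attached to an ARBITRARY primitive `q`-th root of unity `z ∈ 𝕜ˣ` (`z ^ q = 1`, `z ≠ 1`):
`ι (a0 f) = f`, `ι (a1 f) = f(𝔮^q)`, `ι (a2 f) = f(z𝔮)`; uniqueness (`t4m_ext`) and equivariance under the
coefficientwise Galois action of automorphisms fixing `z` (`t4m_comm`).
-/
import Mathlib
import Fermat.Agent.Lib.T4.Inst.MidEx4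
import Fermat.Agent.Lib.T2.AL.Comm

set_option autoImplicit false
set_option linter.unusedSectionVars false
set_option linter.style.haveILetI false
set_option linter.unusedVariables false

namespace Fermat.Agent.T4

open Fermat.Agent.S24Lib Fermat.Agent.T1 Fermat.Agent.T1.KMod Fermat.Agent.T2
open UpperHalfPlane Matrix MatrixGroups ModularCurve HahnSeries

attribute [local instance] charZero_k

/-- the divisors of `N' q q` (`q` prime), refined: `D = d`, `q d` or `d q q` with `d ∣ N'` -/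
theorem t4m_dvd_cases3 (N' q : ℕ) (hq : q.Prime) {D : ℕ} (hD : D ∣ N' * q * q) :
    ∃ d, d ∣ N' ∧ (D = d ∨ D = q * d ∨ D = d * q * q) := by
  rw [mul_assoc] at hD
  obtain ⟨d, e, hd, he, rfl⟩ := (Nat.dvd_mul).mp hD
  have he' : e ∣ q ^ 2 := by rwa [pow_two]
  obtain ⟨m, hm, rfl⟩ := (Nat.dvd_prime_pow hq).mp he'
  refine ⟨d, hd, ?_⟩
  interval_cases m
  · left; ring
  · right; left; ring
  · right; right; ring

section Ext

variable (𝕜 : Type) [Field 𝕜] [Algebra ℚ 𝕜] (N' q : ℕ) [NeZero N'] [NeZero q] (hq : q.Prime)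

include hq in
/-- a ring homomorphism from the function field of level `N' q q` to a division ring is determined by its
values on the constants and on the images of the three degeneracy maps -/
theorem t4m_ext {R : Type*} [DivisionRing R] (φ ψ : barField 𝕜 (N' * q * q) →+* R)
    (hc : ∀ c : 𝕜, φ (algebraMap 𝕜 _ c) = ψ (algebraMap 𝕜 _ c))
    (haa : ∀ f : barField 𝕜 N',
      φ (heckeAlphaBar 𝕜 (N' * q) q (heckeAlphaBar 𝕜 N' q f))
        = ψ (heckeAlphaBar 𝕜 (N' * q) q (heckeAlphaBar 𝕜 N' q f)))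
    (hab : ∀ f : barField 𝕜 N',
      φ (heckeAlphaBar 𝕜 (N' * q) q (heckeBetaBar 𝕜 N' q f))
        = ψ (heckeAlphaBar 𝕜 (N' * q) q (heckeBetaBar 𝕜 N' q f)))
    (hbb : ∀ f : barField 𝕜 N',
      φ (heckeBetaBar 𝕜 (N' * q) q (heckeBetaBar 𝕜 N' q f))
        = ψ (heckeBetaBar 𝕜 (N' * q) q (heckeBetaBar 𝕜 N' q f))) : φ = ψ := by
  apply t2w_ringHom_ext 𝕜 (N' * q * q) φ ψ hc
  intro D hD
  obtain ⟨d, hd, h | h | h⟩ := t4m_dvd_cases3 N' q hq hD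
  · subst h
    have h1 := haa (t2wJd 𝕜 N' D hd)
    rwa [t4m_aa_jd] at h1
  · subst h
    have h1 := hab (t2wJd 𝕜 N' d hd)
    rwa [t4m_ab_jd] at h1
  · subst h
    have h1 := hbb (t2wJd 𝕜 N' d hd)
    rwa [t4m_bb_jd] at h1

end Ext

section Prim

variable (𝕜 : Type) [Field 𝕜] [IsAlgClosed 𝕜] [Algebra 𝕜 ℂ] [Algebra ℚ 𝕜]
variable (N' q : ℕ) [NeZero N'] [NeZero q] (hq : q.Prime) (hqN : ¬ q ∣ N')
variable (z : 𝕜ˣ) (hz1 : z ^ q = 1) (hz2 : z ≠ 1)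

include hq hqN hz1 hz2 in
/-- Bezout data for the matrix `γ₀` adapted to the root of unity `z` -/
theorem t4m_exists_data :
    ∃ b C u : ℤ, (N' : ℤ) * b * C + q * u = 1 ∧
      algebraMap 𝕜 ℂ (z : 𝕜) = Complex.exp (2 * Real.pi * Complex.I * b / (q : ℤ)) := by
  haveI : Fact q.Prime := ⟨hq⟩
  have hprim : IsPrimitiveRoot z q := by
    have h1 : orderOf z = q := orderOf_eq_prime hz1 hz2
    rw [← h1]
    exact IsPrimitiveRoot.orderOf z
  have hprim' : IsPrimitiveRoot (algebraMap 𝕜 ℂ (z : 𝕜)) q :=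
    (IsPrimitiveRoot.coe_units_iff.mpr hprim).map_of_injective (algebraMap 𝕜 ℂ).injective
  obtain ⟨i, -, hi, hexp⟩ := (Complex.isPrimitiveRoot_iff _ q hq.ne_zero).mp hprim'
  have hcop : Nat.Coprime (N' * i) q := by
    apply Nat.Coprime.mul_left _ hi
    exact ((Nat.Prime.coprime_iff_not_dvd hq).mpr hqN).symm
  have hb := Int.gcd_eq_gcd_ab ((N' * i : ℕ) : ℤ) (q : ℤ)
  rw [Int.gcd_natCast_natCast, hcop] at hb
  refine ⟨(i : ℤ), Int.gcdA ((N' * i : ℕ) : ℤ) (q : ℤ), Int.gcdB ((N' * i : ℕ) : ℤ) (q : ℤ), ?_, ?_⟩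
  · push_cast at hb ⊢
    linarith
  · rw [← hexp]
    congr 1
    push_cast
    ring

/-- **`ι_mid` over `𝕜`** attached to the primitive `q`-th root of unity `z` -/
noncomputable def t4m : barField 𝕜 (N' * q * q) →ₐ[𝕜] LaurentSeries 𝕜 :=
  t4mHom 𝕜 N' q hq
    (t4m_exists_data 𝕜 N' q hq hqN z hz1 hz2).choose
    (t4m_exists_data 𝕜 N' q hq hqN z hz1 hz2).choose_spec.choose
    (t4m_exists_data 𝕜 N' q hq hqN z hz1 hz2).choose_spec.choose_spec.choose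
    (t4m_exists_data 𝕜 N' q hq hqN z hz1 hz2).choose_spec.choose_spec.choose_spec.1 z
    (t4m_exists_data 𝕜 N' q hq hqN z hz1 hz2).choose_spec.choose_spec.choose_spec.2

/-- `ι (a0 f) = f` -/
theorem t4m_aa (f : barField 𝕜 N') :
    t4m 𝕜 N' q hq hqN z hz1 hz2 (heckeAlphaBar 𝕜 (N' * q) q (heckeAlphaBar 𝕜 N' q f))
      = (f : LaurentSeries 𝕜) :=
  t4mHom_aa 𝕜 N' q hq _ _ _ _ z _ f

/-- `ι (a1 f) = f(𝔮^q)` -/
theorem t4m_ab (f : barField 𝕜 N') :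
    t4m 𝕜 N' q hq hqN z hz1 hz2 (heckeAlphaBar 𝕜 (N' * q) q (heckeBetaBar 𝕜 N' q f))
      = qExpand 𝕜 q (f : LaurentSeries 𝕜) :=
  t4mHom_ab 𝕜 N' q hq _ _ _ _ z _ f

/-- `ι (a2 f) = f(z𝔮)` -/
theorem t4m_bb (f : barField 𝕜 N') :
    t4m 𝕜 N' q hq hqN z hz1 hz2 (heckeBetaBar 𝕜 (N' * q) q (heckeBetaBar 𝕜 N' q f))
      = t4vSig z (f : LaurentSeries 𝕜) :=
  t4mHom_bb 𝕜 N' q hq _ _ _ _ z _ f

/-- the degeneracy maps commute with the coefficientwise Galois action -/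
theorem t4m_arith_alpha (M ℓ : ℕ) [NeZero M] [NeZero ℓ] (σ : 𝕜 ≃ₐ[ℚ] 𝕜) (f : barField 𝕜 M) :
    arithmeticRingAut (modularFunctionFieldFull (M * ℓ)) σ (heckeAlphaBar 𝕜 M ℓ f)
      = heckeAlphaBar 𝕜 M ℓ (arithmeticRingAut (modularFunctionFieldFull M) σ f) := by
  apply Subtype.ext
  rw [coe_arithmeticRingAut_apply, coe_heckeAlphaBar, coe_heckeAlphaBar,
    coe_arithmeticRingAut_apply]

theorem t4m_arith_beta (M ℓ : ℕ) [NeZero M] [NeZero ℓ] (σ : 𝕜 ≃ₐ[ℚ] 𝕜) (f : barField 𝕜 M) :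
    arithmeticRingAut (modularFunctionFieldFull (M * ℓ)) σ (heckeBetaBar 𝕜 M ℓ f)
      = heckeBetaBar 𝕜 M ℓ (arithmeticRingAut (modularFunctionFieldFull M) σ f) := by
  apply Subtype.ext
  rw [coe_arithmeticRingAut_apply, coe_heckeBetaBar, coe_heckeBetaBar,
    coe_arithmeticRingAut_apply, coeffMap_qExpand]

/-- **Galois equivariance**: for `σ` fixing `z`, `σ(ι x) = ι(σ x)` coefficientwise -/
theorem t4m_comm (σ : 𝕜 ≃ₐ[ℚ] 𝕜) (hσ : σ (z : 𝕜) = (z : 𝕜)) (x : barField 𝕜 (N' * q * q)) :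
    coeffMap (σ : 𝕜 →+* 𝕜) (t4m 𝕜 N' q hq hqN z hz1 hz2 x)
      = t4m 𝕜 N' q hq hqN z hz1 hz2
          (arithmeticRingAut (modularFunctionFieldFull (N' * q * q)) σ x) := by
  have key : (coeffMap (σ : 𝕜 →+* 𝕜)).comp
        (t4m 𝕜 N' q hq hqN z hz1 hz2 : barField 𝕜 (N' * q * q) →+* LaurentSeries 𝕜)
      = (t4m 𝕜 N' q hq hqN z hz1 hz2 : barField 𝕜 (N' * q * q) →+* LaurentSeries 𝕜).comp
        ((arithmeticRingAut (modularFunctionFieldFull (N' * q * q)) σ :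
            barField 𝕜 (N' * q * q) ≃+* barField 𝕜 (N' * q * q)) :
          barField 𝕜 (N' * q * q) →+* barField 𝕜 (N' * q * q)) := by
    apply t4m_ext 𝕜 N' q hq
    · intro c
      show coeffMap (σ : 𝕜 →+* 𝕜) (t4m 𝕜 N' q hq hqN z hz1 hz2 (algebraMap 𝕜 _ c))
        = t4m 𝕜 N' q hq hqN z hz1 hz2 (arithmeticRingAut _ σ (algebraMap 𝕜 _ c))
      rw [arithmeticRingAut_algebraMap, AlgHom.commutes, AlgHom.commutes]
      exact coeffMap_algebraMap (σ : 𝕜 →+* 𝕜) c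
    · intro f
      show coeffMap (σ : 𝕜 →+* 𝕜) (t4m 𝕜 N' q hq hqN z hz1 hz2 _)
        = t4m 𝕜 N' q hq hqN z hz1 hz2 (arithmeticRingAut _ σ _)
      rw [t4m_arith_alpha, t4m_arith_alpha, t4m_aa, t4m_aa, coe_arithmeticRingAut_apply]
    · intro f
      show coeffMap (σ : 𝕜 →+* 𝕜) (t4m 𝕜 N' q hq hqN z hz1 hz2 _)
        = t4m 𝕜 N' q hq hqN z hz1 hz2 (arithmeticRingAut _ σ _)
      rw [t4m_arith_alpha, t4m_arith_beta, t4m_ab, t4m_ab, coe_arithmeticRingAut_apply,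
        coeffMap_qExpand]
    · intro f
      show coeffMap (σ : 𝕜 →+* 𝕜) (t4m 𝕜 N' q hq hqN z hz1 hz2 _)
        = t4m 𝕜 N' q hq hqN z hz1 hz2 (arithmeticRingAut _ σ _)
      rw [t4m_arith_beta, t4m_arith_beta, t4m_bb, t4m_bb, coe_arithmeticRingAut_apply]
      ext n
      rw [coeffMap_coeff, t4vSig_coeff, t4vSig_coeff, coeffMap_coeff, map_mul]
      congr 1
      rw [Units.val_zpow_eq_zpow_val]
      show σ ((z : 𝕜) ^ n) = _
      rw [map_zpow₀, hσ]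
  exact RingHom.congr_fun key x

end Prim

end Fermat.Agent.T4
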