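/-
T4-V3' (lead), part 6: restriction of `ι_mid` to the finite levels.  For inertia levels `H₂ ≤ H₁ ≤ 𝔓.I`
(`L_i = tbFix 𝔓 H_i`, `L₁ ⊆ L₂`), `q = 𝔓.p ∤ N'` and a primitive `q`-th root of unity `ζ ∈ L₂`:
`t4mLev … : F_{H₁} = tbLevF 𝔓 (N' q q) H₁ →+* LaurentSeries L₂`, and **the instance
`t4iMidFix … : T4iMid L₁ L₂ N' q ζ`** of helper9's interface structure (for helper8's `t4cyAlgebra`).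
-/
import Mathlib
import Fermat.Agent.Lib.T4.Inst.MidEx5
import Fermat.Agent.Lib.T4.Inst.Mid
import Fermat.Agent.Lib.T4.Inst.CycLevel
import Fermat.Agent.Lib.T2.AL.Level

set_option autoImplicit false
set_option linter.unusedSectionVars false
set_option linter.style.haveILetI false
set_option linter.unusedVariables false
set_option synthInstance.maxHeartbeats 400000

namespace Fermat.Agent.T4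

open Fermat.Agent.S24Lib Fermat.Agent.T1 Fermat.Agent.T1.KMod Fermat.Agent.T2
open ModularCurve HahnSeries Fermat.Agent.TW Fermat.Agent.S05Lib

local notation "Qb" => AlgebraicClosure ℚ
local notation "GQ" => (AlgebraicClosure ℚ ≃ₐ[ℚ] AlgebraicClosure ℚ)

section PhiDegen

variable (𝔓 : FFPlace) (H : Subgroup 𝔓.I) (M ℓ : ℕ) [NeZero M] [NeZero ℓ]

theorem t4m_tbPhiF_alpha (x : tbLevF 𝔓 M H) :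
    tbPhiF 𝔓 (M * ℓ) H (heckeAlphaBar ↥(tbFix 𝔓 H) M ℓ x)
      = heckeAlphaBar Qb M ℓ (tbPhiF 𝔓 M H x) := by
  apply Subtype.ext
  rw [coe_tbPhiF, coe_heckeAlphaBar, coe_heckeAlphaBar, coe_tbPhiF]

theorem t4m_tbPhiF_beta (x : tbLevF 𝔓 M H) :
    tbPhiF 𝔓 (M * ℓ) H (heckeBetaBar ↥(tbFix 𝔓 H) M ℓ x)
      = heckeBetaBar Qb M ℓ (tbPhiF 𝔓 M H x) := by
  apply Subtype.ext
  rw [coe_tbPhiF, coe_heckeBetaBar, coe_heckeBetaBar, coe_tbPhiF, tbPhi, coeffMap_qExpand]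

end PhiDegen

section Lev

variable (𝔓 : FFPlace) {H₁ H₂ : Subgroup 𝔓.I} (hH : H₂ ≤ H₁) (N' : ℕ) [NeZero N']
  (hN' : ¬ 𝔓.p ∣ N')
variable (ζ : (↥(tbFix 𝔓 H₂))ˣ) (hζ1 : ζ ^ 𝔓.p = 1) (hζ2 : ζ ≠ 1)

/-- the root of unity over `ℚ̄` -/
noncomputable def t4mZ : Qbˣ :=
  Units.map ((algebraMap ↥(tbFix 𝔓 H₂) Qb : ↥(tbFix 𝔓 H₂) →+* Qb) : ↥(tbFix 𝔓 H₂) →* Qb) ζ

theorem coe_t4mZ : ((t4mZ 𝔓 ζ : Qbˣ) : Qb) = ((ζ : ↥(tbFix 𝔓 H₂)) : Qb) := rfl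

include hζ1 in
theorem t4mZ_pow : t4mZ 𝔓 ζ ^ 𝔓.p = 1 := by
  rw [t4mZ, ← map_pow, hζ1, map_one]

include hζ2 in
theorem t4mZ_ne : t4mZ 𝔓 ζ ≠ 1 := by
  intro h
  apply hζ2
  apply Units.ext
  apply Subtype.ext
  have h1 := congrArg (fun u : Qbˣ => (u : Qb)) h
  simpa [coe_t4mZ] using h1

theorem t4mZ_fixed (σ : 𝔓.I) (hσ : σ ∈ H₂) :
    ((σ : 𝔓.I) : GQ) ((t4mZ 𝔓 ζ : Qbˣ) : Qb) = ((t4mZ 𝔓 ζ : Qbˣ) : Qb) :=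
  (mem_tbFix 𝔓 H₂ _).mp (ζ : ↥(tbFix 𝔓 H₂)).2 σ hσ

/-- `ι_mid` over `ℚ̄` for the root of unity `ζ` -/
noncomputable def t4mQb : barField Qb (N' * 𝔓.p * 𝔓.p) →ₐ[Qb] LaurentSeries Qb :=
  t4m Qb N' 𝔓.p 𝔓.hp hN' (t4mZ 𝔓 ζ) (t4mZ_pow 𝔓 ζ hζ1) (t4mZ_ne 𝔓 ζ hζ2)

include hH in
theorem t4m_exists_lev (f : tbLevF 𝔓 (N' * 𝔓.p * 𝔓.p) H₁) :
    ∃ s : LaurentSeries ↥(tbFix 𝔓 H₂), tbPhi 𝔓 H₂ s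
      = t4mQb 𝔓 N' hN' ζ hζ1 hζ2 (tbPhiF 𝔓 (N' * 𝔓.p * 𝔓.p) H₁ f) := by
  apply tdd_mem_range_coeffMap
  intro n
  have hmem : (t4mQb 𝔓 N' hN' ζ hζ1 hζ2 (tbPhiF 𝔓 (N' * 𝔓.p * 𝔓.p) H₁ f)).coeff n
      ∈ tbFix 𝔓 H₂ := by
    rw [mem_tbFix]
    intro σ hσ
    have h1 := t4m_comm Qb N' 𝔓.p 𝔓.hp hN' (t4mZ 𝔓 ζ) (t4mZ_pow 𝔓 ζ hζ1) (t4mZ_ne 𝔓 ζ hζ2)
      ((σ : 𝔓.I) : GQ) (t4mZ_fixed 𝔓 ζ σ hσ) (tbPhiF 𝔓 (N' * 𝔓.p * 𝔓.p) H₁ f)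
    rw [t2w_arith_tbPhiF 𝔓 (N' * 𝔓.p * 𝔓.p) H₁ σ (hH hσ)] at h1
    have h2 := congrArg (fun x : LaurentSeries Qb => x.coeff n) h1
    simp only [coeffMap_coeff] at h2
    exact h2
  exact ⟨⟨_, hmem⟩, rfl⟩

/-- the underlying function of `ι_mid` at the levels `H₂ ≤ H₁` -/
noncomputable def t4mLevFun (f : tbLevF 𝔓 (N' * 𝔓.p * 𝔓.p) H₁) : LaurentSeries ↥(tbFix 𝔓 H₂) :=
  (t4m_exists_lev 𝔓 hH N' hN' ζ hζ1 hζ2 f).choose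

theorem tbPhi_t4mLevFun (f : tbLevF 𝔓 (N' * 𝔓.p * 𝔓.p) H₁) :
    tbPhi 𝔓 H₂ (t4mLevFun 𝔓 hH N' hN' ζ hζ1 hζ2 f)
      = t4mQb 𝔓 N' hN' ζ hζ1 hζ2 (tbPhiF 𝔓 (N' * 𝔓.p * 𝔓.p) H₁ f) :=
  (t4m_exists_lev 𝔓 hH N' hN' ζ hζ1 hζ2 f).choose_spec

theorem t4mLevFun_eq_iff (f : tbLevF 𝔓 (N' * 𝔓.p * 𝔓.p) H₁) (s : LaurentSeries ↥(tbFix 𝔓 H₂)) :
    t4mLevFun 𝔓 hH N' hN' ζ hζ1 hζ2 f = s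
      ↔ tbPhi 𝔓 H₂ s = t4mQb 𝔓 N' hN' ζ hζ1 hζ2 (tbPhiF 𝔓 (N' * 𝔓.p * 𝔓.p) H₁ f) := by
  constructor
  · rintro rfl
    exact tbPhi_t4mLevFun 𝔓 hH N' hN' ζ hζ1 hζ2 f
  · intro hs
    apply tbPhi_injective 𝔓 H₂
    rw [tbPhi_t4mLevFun, hs]

/-- **`ι_mid` at the levels `H₂ ≤ H₁`** -/
noncomputable def t4mLev : tbLevF 𝔓 (N' * 𝔓.p * 𝔓.p) H₁ →+* LaurentSeries ↥(tbFix 𝔓 H₂) where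
  toFun := t4mLevFun 𝔓 hH N' hN' ζ hζ1 hζ2
  map_one' := by rw [t4mLevFun_eq_iff]; simp
  map_mul' x y := by
    rw [t4mLevFun_eq_iff, map_mul, map_mul, map_mul, tbPhi_t4mLevFun, tbPhi_t4mLevFun]
  map_zero' := by rw [t4mLevFun_eq_iff]; simp
  map_add' x y := by
    rw [t4mLevFun_eq_iff, map_add, map_add, map_add, tbPhi_t4mLevFun, tbPhi_t4mLevFun]

/-- compatibility with `ι_mid` over `ℚ̄` -/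
theorem tbPhi_t4mLev (f : tbLevF 𝔓 (N' * 𝔓.p * 𝔓.p) H₁) :
    tbPhi 𝔓 H₂ (t4mLev 𝔓 hH N' hN' ζ hζ1 hζ2 f)
      = t4mQb 𝔓 N' hN' ζ hζ1 hζ2 (tbPhiF 𝔓 (N' * 𝔓.p * 𝔓.p) H₁ f) :=
  tbPhi_t4mLevFun 𝔓 hH N' hN' ζ hζ1 hζ2 f

theorem t4m_tbPhi_incl (s : LaurentSeries ↥(tbFix 𝔓 H₁)) :
    letI := t4cyAlgebra 𝔓 hH
    tbPhi 𝔓 H₂ (coeffMap (algebraMap ↥(tbFix 𝔓 H₁) ↥(tbFix 𝔓 H₂)) s) = tbPhi 𝔓 H₁ s := by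
  letI := t4cyAlgebra 𝔓 hH
  rw [tbPhi, tbPhi, coeffMap_coeffMap]
  exact coeffMap_congr (RingHom.ext fun x => rfl) s

/-- `ι (a0 f) = f` -/
theorem t4mLev_aa (f : ↥(TaF ↥(tbFix 𝔓 H₁) N')) :
    letI := t4cyAlgebra 𝔓 hH
    t4mLev 𝔓 hH N' hN' ζ hζ1 hζ2 (heckeAlphaBar ↥(tbFix 𝔓 H₁) (N' * 𝔓.p) 𝔓.p
        (heckeAlphaBar ↥(tbFix 𝔓 H₁) N' 𝔓.p f))
      = coeffMap (algebraMap ↥(tbFix 𝔓 H₁) ↥(tbFix 𝔓 H₂)) (f : LaurentSeries ↥(tbFix 𝔓 H₁)) := by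
  letI := t4cyAlgebra 𝔓 hH
  apply tbPhi_injective 𝔓 H₂
  rw [tbPhi_t4mLev, t4m_tbPhiF_alpha, t4m_tbPhiF_alpha, t4mQb, t4m_aa, coe_tbPhiF,
    t4m_tbPhi_incl]

/-- `ι (a1 f) = f(𝔮^q)` -/
theorem t4mLev_ab (f : ↥(TaF ↥(tbFix 𝔓 H₁) N')) :
    letI := t4cyAlgebra 𝔓 hH
    t4mLev 𝔓 hH N' hN' ζ hζ1 hζ2 (heckeAlphaBar ↥(tbFix 𝔓 H₁) (N' * 𝔓.p) 𝔓.p
        (heckeBetaBar ↥(tbFix 𝔓 H₁) N' 𝔓.p f))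
      = coeffMap (algebraMap ↥(tbFix 𝔓 H₁) ↥(tbFix 𝔓 H₂))
          (qExpand ↥(tbFix 𝔓 H₁) 𝔓.p (f : LaurentSeries ↥(tbFix 𝔓 H₁))) := by
  letI := t4cyAlgebra 𝔓 hH
  apply tbPhi_injective 𝔓 H₂
  rw [tbPhi_t4mLev, t4m_tbPhiF_alpha, t4m_tbPhiF_beta, t4mQb, t4m_ab, coe_tbPhiF,
    t4m_tbPhi_incl, tbPhi, coeffMap_qExpand]

/-- `ι (a2 f) = f(ζ𝔮)` -/
theorem t4mLev_bb (f : ↥(TaF ↥(tbFix 𝔓 H₁) N')) :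
    letI := t4cyAlgebra 𝔓 hH
    t4mLev 𝔓 hH N' hN' ζ hζ1 hζ2 (heckeBetaBar ↥(tbFix 𝔓 H₁) (N' * 𝔓.p) 𝔓.p
        (heckeBetaBar ↥(tbFix 𝔓 H₁) N' 𝔓.p f))
      = t4vSig ζ (coeffMap (algebraMap ↥(tbFix 𝔓 H₁) ↥(tbFix 𝔓 H₂))
          (f : LaurentSeries ↥(tbFix 𝔓 H₁))) := by
  letI := t4cyAlgebra 𝔓 hH
  apply tbPhi_injective 𝔓 H₂
  rw [tbPhi_t4mLev, t4m_tbPhiF_beta, t4m_tbPhiF_beta, t4mQb, t4m_bb, coe_tbPhiF]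
  conv_rhs => rw [tbPhi, coeffMap_t4vSig]
  rw [← t4m_tbPhi_incl 𝔓 hH]
  rfl

/-- **the middle embedding at the levels `L_{H₁} ⊆ L_{H₂}`** (instance of helper9's `T4iMid`) -/
noncomputable def t4iMidFix :
    letI := t4cyAlgebra 𝔓 hH
    T4iMid ↥(tbFix 𝔓 H₁) ↥(tbFix 𝔓 H₂) N' 𝔓.p ζ :=
  letI := t4cyAlgebra 𝔓 hH
  { ι := t4mLev 𝔓 hH N' hN' ζ hζ1 hζ2
    ι_aa := t4mLev_aa 𝔓 hH N' hN' ζ hζ1 hζ2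
    ι_ab := t4mLev_ab 𝔓 hH N' hN' ζ hζ1 hζ2
    ι_bb := t4mLev_bb 𝔓 hH N' hN' ζ hζ1 hζ2 }

end Lev

end Fermat.Agent.T4
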