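/-
T4-V (helper9): **the three-valuation base at the inertia level** `L = tbFix 𝔓 ⊤` (uniformiser `p`),
with the cyclotomic level `L' = tbFix 𝔓 (t4cyH 𝔓 ζ)` above it.

* `t4vInputFix 𝔓 N' h hζ : T4kInput L (tbLevF 𝔓 (N' p) ⊤) (tbLevF 𝔓 (N' p p) ⊤) κ κ((𝔮)) L'((𝔮)) (E × E)`;
* `t4vBaseFix 𝔓 N' h hζ : T2Base L (tbLevF 𝔓 (N' p p) ⊤) κ (𝒪 / p)`.
-/
import Fermat.Agent.Lib.T4.Inst.Val
import Fermat.Agent.Lib.T4.Inst.CycData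
import Fermat.Agent.Lib.T4.Inst.MidEx6
import Fermat.Agent.Lib.T2.Inst.LevelH

set_option autoImplicit false
set_option linter.unusedSectionVars false
set_option linter.unusedVariables false
set_option linter.style.haveILetI false
set_option synthInstance.maxHeartbeats 400000

open HahnSeries ModularCurve Fermat.Agent.T1 Fermat.Agent.T2 Fermat.Agent.TW Fermat.Agent.S05Lib

noncomputable section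

namespace Fermat.Agent.T4

local notation "Qb" => AlgebraicClosure ℚ

attribute [local instance] t2i_dvr t2i_isAlgClosed t2i_charP t2i_fact t2iAlgebra t2i_isScalarTower

variable (𝔓 : FFPlace) (N' : ℕ) [NeZero N'] (h : ¬ 𝔓.p ∣ N') {ζ : Qb}
  (hζ : IsPrimitiveRoot ζ 𝔓.p)

/-- the middle embedding at the levels `⊤`, `t4cyH 𝔓 ζ` -/
def t4vMidFix :
    letI := t4cyAlgebra 𝔓 (le_top : t4cyH 𝔓 ζ ≤ ⊤)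
    T4iMid ↥(tbFix 𝔓 (⊤ : Subgroup 𝔓.I)) ↥(tbFix 𝔓 (t4cyH 𝔓 ζ)) N' 𝔓.p (t4iCycFix 𝔓 hζ).ζ :=
  letI := t4cyAlgebra 𝔓 (le_top : t4cyH 𝔓 ζ ≤ ⊤)
  t4iMidFix 𝔓 le_top N' h (t4iCycFix 𝔓 hζ).ζ (t4iCycFix 𝔓 hζ).ζ_pow (t4iCycFix 𝔓 hζ).ζ_ne

/-- **the Kronecker input of the three-valuation base at the inertia level** -/
def t4vInputFix :
    T4kInput ↥(tbFix 𝔓 (⊤ : Subgroup 𝔓.I)) ↥(tbLevF 𝔓 (N' * 𝔓.p) ⊤)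
      ↥(tbLevF 𝔓 (N' * 𝔓.p * 𝔓.p) ⊤) (IsLocalRing.ResidueField ↥𝔓.P)
      (LaurentSeries (IsLocalRing.ResidueField ↥𝔓.P))
      (LaurentSeries ↥(tbFix 𝔓 (t4cyH 𝔓 ζ))) (↥(tbBarF 𝔓 N') × ↥(tbBarF 𝔓 N')) :=
  letI := t4cyAlgebra 𝔓 (le_top : t4cyH 𝔓 ζ ≤ ⊤)
  t4vInput (tbFixO 𝔓 ⊤) (tbFixRes 𝔓 ⊤) (tbFixRes_surjective 𝔓 ⊤) (t2i_natCast_ne_zero 𝔓 h)
    (t2iALFix 𝔓 ⊤ N' h) (t2iFrobFix 𝔓 N') (t4iALFix 𝔓 ⊤ N' h) (t4cy_irreducible_p 𝔓)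
    (tbFixO 𝔓 (t4cyH 𝔓 ζ)) (tbFixRes 𝔓 (t4cyH 𝔓 ζ)) (t4iCycFix 𝔓 hζ) (t4vMidFix 𝔓 N' h hζ)

/-- **the three-valuation base of level `N' p²` at the inertia level** -/
def t4vBaseFix :
    T2Base ↥(tbFix 𝔓 (⊤ : Subgroup 𝔓.I)) ↥(tbLevF 𝔓 (N' * 𝔓.p * 𝔓.p) ⊤)
      (IsLocalRing.ResidueField ↥𝔓.P) (t4vInputFix 𝔓 N' h hζ).Fb :=
  letI := t4cyAlgebra 𝔓 (le_top : t4cyH 𝔓 ζ ≤ ⊤)
  t4vBase (tbFixO 𝔓 ⊤) (tbFixRes 𝔓 ⊤) (tbFixRes_surjective 𝔓 ⊤) (t2i_natCast_ne_zero 𝔓 h)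
    (t2iALFix 𝔓 ⊤ N' h) (t2iFrobFix 𝔓 N') (t4iALFix 𝔓 ⊤ N' h) (t4cy_irreducible_p 𝔓)
    (tbFixO 𝔓 (t4cyH 𝔓 ζ)) (tbFixRes 𝔓 (t4cyH 𝔓 ζ)) (t4iCycFix 𝔓 hζ) (t4vMidFix 𝔓 N' h hζ)

theorem t4vBaseFix_A : (t4vBaseFix 𝔓 N' h hζ).A = tbFixO 𝔓 ⊤ := rfl

theorem t4vBaseFix_resA : (t4vBaseFix 𝔓 N' h hζ).resA = tbFixRes 𝔓 ⊤ := rfl

theorem t4vBaseFix_Ov : (t4vBaseFix 𝔓 N' h hζ).Ov = (t4vInputFix 𝔓 N' h hζ).Ov := rfl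

/-- `O_⊤` is a discrete valuation ring with uniformiser `p`, and `p` is a non-unit of `A` -/
theorem t4vBaseFix_p_mem :
    ((𝔓.p : ℕ) : ↥(tbFix 𝔓 (⊤ : Subgroup 𝔓.I))) ∈ (t4vBaseFix 𝔓 N' h hζ).A.nonunits := by
  rw [t4vBaseFix_A, ValuationSubring.mem_nonunits_iff_exists_mem_maximalIdeal]
  refine ⟨natCast_mem _ _, ?_⟩
  rw [IsLocalRing.mem_maximalIdeal, mem_nonunits_iff]
  exact (t4cy_irreducible_p 𝔓).not_isUnit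

end Fermat.Agent.T4
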