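/-
T4-V (helper9): **the `T4Setup` of the chart `X = j^Q - j` on the three-valuation base at the inertia
level** (`t4vBaseFix`), by helper2's `t4vc_exists_setup` and the base facts of `ValChart.lean`.
-/
import Fermat.Agent.Lib.T4.Inst.ValChart
import Fermat.Agent.Lib.T4.Inst.ValH
import Fermat.Agent.Lib.T4.Inst.ChartRR

set_option autoImplicit false
set_option linter.unusedSectionVars false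
set_option linter.unusedVariables false
set_option linter.style.haveILetI false
set_option synthInstance.maxHeartbeats 400000
set_option maxHeartbeats 1000000

open HahnSeries ModularCurve Module AlgebraicCurve IntermediateField Fermat.Agent.Curve
  Fermat.Agent.T1 Fermat.Agent.T2 Fermat.Agent.TW Fermat.Agent.S05Lib

noncomputable section

namespace Fermat.Agent.T4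

local notation "Qb" => AlgebraicClosure ℚ

attribute [local instance] t2i_dvr t2i_isAlgClosed t2i_charP t2i_fact t2iAlgebra t2i_isScalarTower

variable (𝔓 : FFPlace) (N' : ℕ) [NeZero N'] (h : ¬ 𝔓.p ∣ N') {ζ : Qb}
  (hζ : IsPrimitiveRoot ζ 𝔓.p) {Q : ℕ} (hQ : 2 ≤ Q)

theorem t4vcX_eq_t4vX :
    t4vcX 𝔓 (N' * 𝔓.p * 𝔓.p) ⊤ Q = t4vX ↥(tbFix 𝔓 (⊤ : Subgroup 𝔓.I)) N' 𝔓.p Q := rfl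

theorem t4vBaseFix_X_mem : t4vcX 𝔓 (N' * 𝔓.p * 𝔓.p) ⊤ Q ∈ (t4vBaseFix 𝔓 N' h hζ).Ov :=
  letI := t4cyAlgebra 𝔓 (le_top : t4cyH 𝔓 ζ ≤ ⊤)
  t4vX_mem (tbFixO 𝔓 ⊤) (tbFixRes 𝔓 ⊤) (tbFixRes_surjective 𝔓 ⊤) (t2i_natCast_ne_zero 𝔓 h)
    (t2iALFix 𝔓 ⊤ N' h) (t2iFrobFix 𝔓 N') (t4iALFix 𝔓 ⊤ N' h) (t4cy_irreducible_p 𝔓)
    (tbFixO 𝔓 (t4cyH 𝔓 ζ)) (tbFixRes 𝔓 (t4cyH 𝔓 ζ)) (t4iCycFix 𝔓 hζ) (t4vMidFix 𝔓 N' h hζ)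

include hQ in
theorem t4vBaseFix_X_inv_mem :
    (t4vcX 𝔓 (N' * 𝔓.p * 𝔓.p) ⊤ Q)⁻¹ ∈ (t4vBaseFix 𝔓 N' h hζ).Ov :=
  letI := t4cyAlgebra 𝔓 (le_top : t4cyH 𝔓 ζ ≤ ⊤)
  t4vX_inv_mem (tbFixO 𝔓 ⊤) (tbFixRes 𝔓 ⊤) (tbFixRes_surjective 𝔓 ⊤) (t2i_natCast_ne_zero 𝔓 h)
    (t2iALFix 𝔓 ⊤ N' h) (t2iFrobFix 𝔓 N') (t4iALFix 𝔓 ⊤ N' h) (t4cy_irreducible_p 𝔓)
    (tbFixO 𝔓 (t4cyH 𝔓 ζ)) (tbFixRes 𝔓 (t4cyH 𝔓 ζ)) (t4iCycFix 𝔓 hζ) (t4vMidFix 𝔓 N' h hζ) hQ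

include hQ in
theorem t4vBaseFix_X_transcendental
    (hx : t4vcX 𝔓 (N' * 𝔓.p * 𝔓.p) ⊤ Q ∈ (t4vBaseFix 𝔓 N' h hζ).Ov) :
    Transcendental (IsLocalRing.ResidueField ↥𝔓.P)
      ((t4vBaseFix 𝔓 N' h hζ).res ⟨t4vcX 𝔓 (N' * 𝔓.p * 𝔓.p) ⊤ Q, hx⟩) :=
  letI := t4cyAlgebra 𝔓 (le_top : t4cyH 𝔓 ζ ≤ ⊤)
  t4vX_transcendental (tbFixO 𝔓 ⊤) (tbFixRes 𝔓 ⊤) (tbFixRes_surjective 𝔓 ⊤)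
    (t2i_natCast_ne_zero 𝔓 h) (t2iALFix 𝔓 ⊤ N' h) (t2iFrobFix 𝔓 N') (t4iALFix 𝔓 ⊤ N' h)
    (t4cy_irreducible_p 𝔓) (tbFixO 𝔓 (t4cyH 𝔓 ζ)) (tbFixRes 𝔓 (t4cyH 𝔓 ζ)) (t4iCycFix 𝔓 hζ)
    (t4vMidFix 𝔓 N' h hζ) hQ hx

theorem t4vBaseFix_cl (f : ↥(tbLevF 𝔓 (N' * 𝔓.p * 𝔓.p) ⊤))
    (hf : IsIntegral ↥(Algebra.adjoin ↥(t4vBaseFix 𝔓 N' h hζ).A
      {t4vcX 𝔓 (N' * 𝔓.p * 𝔓.p) ⊤ Q}) f) : f ∈ (t4vBaseFix 𝔓 N' h hζ).Ov :=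
  letI := t4cyAlgebra 𝔓 (le_top : t4cyH 𝔓 ζ ≤ ⊤)
  t4v_cl (tbFixO 𝔓 ⊤) (tbFixRes 𝔓 ⊤) (tbFixRes_surjective 𝔓 ⊤) (t2i_natCast_ne_zero 𝔓 h)
    (t2iALFix 𝔓 ⊤ N' h) (t2iFrobFix 𝔓 N') (t4iALFix 𝔓 ⊤ N' h) (t4cy_irreducible_p 𝔓)
    (tbFixO 𝔓 (t4cyH 𝔓 ζ)) (tbFixRes 𝔓 (t4cyH 𝔓 ζ)) (t4iCycFix 𝔓 hζ) (t4vMidFix 𝔓 N' h hζ) f hf

include hQ in
theorem t4vBaseFix_int (f : ↥(tbLevF 𝔓 (N' * 𝔓.p * 𝔓.p) ⊤))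
    (hf : f ∈ (t4vBaseFix 𝔓 N' h hζ).Ov)
    (hint : f ∈ t2Int (K := ↥(tbFix 𝔓 (⊤ : Subgroup 𝔓.I))) (t4vcX 𝔓 (N' * 𝔓.p * 𝔓.p) ⊤ Q)) :
    IsIntegral ↥(Algebra.adjoin ↥(t4vBaseFix 𝔓 N' h hζ).A {t4vcX 𝔓 (N' * 𝔓.p * 𝔓.p) ⊤ Q}) f :=
  letI := t4cyAlgebra 𝔓 (le_top : t4cyH 𝔓 ζ ≤ ⊤)
  t4v_int (tbFixO 𝔓 ⊤) (tbFixRes 𝔓 ⊤) (tbFixRes_surjective 𝔓 ⊤) (t2i_natCast_ne_zero 𝔓 h)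
    (t2iALFix 𝔓 ⊤ N' h) (t2iFrobFix 𝔓 N') (t4iALFix 𝔓 ⊤ N' h) (t4cy_irreducible_p 𝔓)
    (tbFixO 𝔓 (t4cyH 𝔓 ζ)) (tbFixRes 𝔓 (t4cyH 𝔓 ζ)) (t4iCycFix 𝔓 hζ) (t4vMidFix 𝔓 N' h hζ) hQ f
    hf hint

include hQ in
/-- **the `T4Setup` on the three-valuation base at the inertia level** -/
theorem t4v_exists_setup_fix (m : ℕ) (hm : Nat.Coprime m 𝔓.p) :
    ∃ su : T4Setup (t4vBaseFix 𝔓 N' h hζ), su.m = m ∧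
      su.x = t4vcX 𝔓 (N' * 𝔓.p * 𝔓.p) ⊤ Q ∧ su.ℓ = 𝔓.p ∧
      (su.n : ℤ) = finrank ↥Qb⟮tbPhiF 𝔓 (N' * 𝔓.p * 𝔓.p) ⊤ su.x⟯
        ↥(modularFunctionFieldBar (N' * 𝔓.p * 𝔓.p)) ∧
      su.c = 1 - CurveP.genusR Qb ↥(modularFunctionFieldBar (N' * 𝔓.p * 𝔓.p)) ∧
      su.a0 = 2 * CurveP.genusR Qb ↥(modularFunctionFieldBar (N' * 𝔓.p * 𝔓.p)) := by
  haveI : IsDiscreteValuationRing ↥(t4vBaseFix 𝔓 N' h hζ).A := t2i_dvr 𝔓 ⊤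
  exact t4vc_exists_setup 𝔓 (N' * 𝔓.p * 𝔓.p) ⊤ hQ (t4vBaseFix 𝔓 N' h hζ)
    (t4vBaseFix_p_mem 𝔓 N' h hζ) (t4vBaseFix_X_mem 𝔓 N' h hζ)
    (t4vBaseFix_X_inv_mem 𝔓 N' h hζ hQ)
    (t4vBaseFix_X_transcendental 𝔓 N' h hζ hQ (t4vBaseFix_X_mem 𝔓 N' h hζ))
    (t4vBaseFix_int 𝔓 N' h hζ hQ) (t4vBaseFix_cl 𝔓 N' h hζ) m hm

end Fermat.Agent.T4
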