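/-
T4-V (helper9): the three vertical valuation rings at the inertia level (`L = tbFix 𝔓 ⊤`), for the
base `t4vBaseFix 𝔓 N' h hζ` of `ValH.lean`:

`t4vOinfFix 𝔓 N'`, `t4vO0Fix 𝔓 N' h`, `t4vOmidFix 𝔓 N' h hζ : ValuationSubring (tbLevF 𝔓 (N' p p) ⊤)`,
DVRs with uniformisers `p`, `p`, `t4vPi` (`p = t4vPi^(p-1) · unit` at `O_mid`), and
`mem_t4vBaseFix_Ov_iff`: `(t4vBaseFix …).Ov` is their intersection.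
-/
import Fermat.Agent.Lib.T4.Inst.ValSub
import Fermat.Agent.Lib.T4.Inst.ValH

set_option autoImplicit false
set_option linter.unusedSectionVars false
set_option linter.unusedVariables false
set_option linter.style.haveILetI false
set_option synthInstance.maxHeartbeats 400000

open HahnSeries ModularCurve Fermat.Agent.T1 Fermat.Agent.T2 Fermat.Agent.TW Fermat.Agent.S05Lib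

noncomputable section

namespace Fermat.Agent.T4

local notation "Qb" => AlgebraicClosure ℚ

attribute [local instance] t2i_dvr t2i_isAlgClosed t2i_charP t2i_fact t2iAlgebra t2i_isScalarTower

variable (𝔓 : FFPlace) (N' : ℕ) [NeZero N'] (h : ¬ 𝔓.p ∣ N') {ζ : Qb}
  (hζ : IsPrimitiveRoot ζ 𝔓.p)

/-- `O_inf` at the inertia level -/
def t4vOinfFix : ValuationSubring ↥(tbLevF 𝔓 (N' * 𝔓.p * 𝔓.p) ⊤) :=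
  t4vOinf (N' := N') (q := 𝔓.p) (tbFixO 𝔓 ⊤) (tbFixRes 𝔓 ⊤) (tbFixRes_surjective 𝔓 ⊤)

/-- `O_0` at the inertia level -/
def t4vO0Fix : ValuationSubring ↥(tbLevF 𝔓 (N' * 𝔓.p * 𝔓.p) ⊤) :=
  t4vO0 (tbFixO 𝔓 ⊤) (tbFixRes 𝔓 ⊤) (tbFixRes_surjective 𝔓 ⊤) (t4iALFix 𝔓 ⊤ N' h)

/-- `O_mid` at the inertia level -/
def t4vOmidFix : ValuationSubring ↥(tbLevF 𝔓 (N' * 𝔓.p * 𝔓.p) ⊤) :=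
  letI := t4cyAlgebra 𝔓 (le_top : t4cyH 𝔓 ζ ≤ ⊤)
  t4vOmid (tbFixO 𝔓 ⊤) (tbFixRes 𝔓 ⊤) (tbFixRes_surjective 𝔓 ⊤) (tbFixO 𝔓 (t4cyH 𝔓 ζ))
    (tbFixRes 𝔓 (t4cyH 𝔓 ζ)) (t4iCycFix 𝔓 hζ) (t4vMidFix 𝔓 N' h hζ)

/-- **`𝒪 = O_inf ∩ O_0 ∩ O_mid`** at the inertia level -/
theorem mem_t4vBaseFix_Ov_iff (f : ↥(tbLevF 𝔓 (N' * 𝔓.p * 𝔓.p) ⊤)) :
    f ∈ (t4vBaseFix 𝔓 N' h hζ).Ov ↔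
      f ∈ t4vOinfFix 𝔓 N' ∧ f ∈ t4vO0Fix 𝔓 N' h ∧ f ∈ t4vOmidFix 𝔓 N' h hζ :=
  letI := t4cyAlgebra 𝔓 (le_top : t4cyH 𝔓 ζ ≤ ⊤)
  mem_t4vInput_Ov_iff (tbFixO 𝔓 ⊤) (tbFixRes 𝔓 ⊤) (tbFixRes_surjective 𝔓 ⊤)
    (t2i_natCast_ne_zero 𝔓 h) (t2iALFix 𝔓 ⊤ N' h) (t2iFrobFix 𝔓 N') (t4iALFix 𝔓 ⊤ N' h)
    (t4cy_irreducible_p 𝔓) (tbFixO 𝔓 (t4cyH 𝔓 ζ)) (tbFixRes 𝔓 (t4cyH 𝔓 ζ)) (t4iCycFix 𝔓 hζ)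
    (t4vMidFix 𝔓 N' h hζ) f

theorem t4vOinfFix_dvr : IsDiscreteValuationRing ↥(t4vOinfFix 𝔓 N') :=
  t4vOinf_dvr (tbFixO 𝔓 ⊤) (tbFixRes 𝔓 ⊤) (tbFixRes_surjective 𝔓 ⊤) (t4cy_irreducible_p 𝔓)

theorem t4vO0Fix_dvr : IsDiscreteValuationRing ↥(t4vO0Fix 𝔓 N' h) :=
  t4vO0_dvr (tbFixO 𝔓 ⊤) (tbFixRes 𝔓 ⊤) (tbFixRes_surjective 𝔓 ⊤) (t4iALFix 𝔓 ⊤ N' h)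
    (t4cy_irreducible_p 𝔓)

theorem t4vOmidFix_dvr : IsDiscreteValuationRing ↥(t4vOmidFix 𝔓 N' h hζ) :=
  letI := t4cyAlgebra 𝔓 (le_top : t4cyH 𝔓 ζ ≤ ⊤)
  t4vOmid_dvr (tbFixO 𝔓 ⊤) (tbFixRes 𝔓 ⊤) (tbFixRes_surjective 𝔓 ⊤) (tbFixO 𝔓 (t4cyH 𝔓 ζ))
    (tbFixRes 𝔓 (t4cyH 𝔓 ζ)) (t4iCycFix 𝔓 hζ) (t4vMidFix 𝔓 N' h hζ)

/-- the constant `p` of `F` -/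
def t4vQFix : ↥(tbLevF 𝔓 (N' * 𝔓.p * 𝔓.p) ⊤) := t4vQ ↥(tbFix 𝔓 (⊤ : Subgroup 𝔓.I)) N' 𝔓.p

/-- the uniformiser `a2 j - a0 j` of `O_mid` -/
def t4vPiFix : ↥(tbLevF 𝔓 (N' * 𝔓.p * 𝔓.p) ⊤) := t4vPi ↥(tbFix 𝔓 (⊤ : Subgroup 𝔓.I)) N' 𝔓.p

theorem t4vQFix_eq : t4vQFix 𝔓 N' =
    algebraMap ↥(tbFix 𝔓 (⊤ : Subgroup 𝔓.I)) ↥(tbLevF 𝔓 (N' * 𝔓.p * 𝔓.p) ⊤)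
      ((𝔓.p : ℕ) : ↥(tbFix 𝔓 (⊤ : Subgroup 𝔓.I))) := rfl

/-- `p` is a non-unit of the three rings -/
theorem t4vQFix_inf : t4vQFix 𝔓 N' ∈ t4vOinfFix 𝔓 N' ∧ (t4vQFix 𝔓 N')⁻¹ ∉ t4vOinfFix 𝔓 N' :=
  ⟨t4vQ_mem_inf (tbFixO 𝔓 ⊤) (tbFixRes 𝔓 ⊤) (tbFixRes_surjective 𝔓 ⊤),
    t4vQ_inv_notMem_inf (tbFixO 𝔓 ⊤) (tbFixRes 𝔓 ⊤) (tbFixRes_surjective 𝔓 ⊤)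
      (t4cy_irreducible_p 𝔓)⟩

theorem t4vQFix_zero : t4vQFix 𝔓 N' ∈ t4vO0Fix 𝔓 N' h ∧ (t4vQFix 𝔓 N')⁻¹ ∉ t4vO0Fix 𝔓 N' h :=
  ⟨t4vQ_mem_zero (tbFixO 𝔓 ⊤) (tbFixRes 𝔓 ⊤) (tbFixRes_surjective 𝔓 ⊤) (t4iALFix 𝔓 ⊤ N' h),
    t4vQ_inv_notMem_zero (tbFixO 𝔓 ⊤) (tbFixRes 𝔓 ⊤) (tbFixRes_surjective 𝔓 ⊤)
      (t4iALFix 𝔓 ⊤ N' h) (t4cy_irreducible_p 𝔓)⟩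

theorem t4vQFix_mid :
    t4vQFix 𝔓 N' ∈ t4vOmidFix 𝔓 N' h hζ ∧ (t4vQFix 𝔓 N')⁻¹ ∉ t4vOmidFix 𝔓 N' h hζ :=
  letI := t4cyAlgebra 𝔓 (le_top : t4cyH 𝔓 ζ ≤ ⊤)
  ⟨t4vQ_mem_mid (tbFixO 𝔓 ⊤) (tbFixRes 𝔓 ⊤) (tbFixRes_surjective 𝔓 ⊤) (tbFixO 𝔓 (t4cyH 𝔓 ζ))
      (tbFixRes 𝔓 (t4cyH 𝔓 ζ)) (t4iCycFix 𝔓 hζ) (t4vMidFix 𝔓 N' h hζ),
    t4vQ_inv_notMem_mid (tbFixO 𝔓 ⊤) (tbFixRes 𝔓 ⊤) (tbFixRes_surjective 𝔓 ⊤)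
      (tbFixO 𝔓 (t4cyH 𝔓 ζ)) (tbFixRes 𝔓 (t4cyH 𝔓 ζ)) (t4iCycFix 𝔓 hζ) (t4vMidFix 𝔓 N' h hζ)⟩

/-- decompositions `f = ϖ^n · unit` -/
theorem t4vOinfFix_exists_zpow (f : ↥(tbLevF 𝔓 (N' * 𝔓.p * 𝔓.p) ⊤)) (hf : f ≠ 0) :
    ∃ (n : ℤ) (u : ↥(tbLevF 𝔓 (N' * 𝔓.p * 𝔓.p) ⊤)), u ∈ t4vOinfFix 𝔓 N' ∧
      u⁻¹ ∈ t4vOinfFix 𝔓 N' ∧ f = t4vQFix 𝔓 N' ^ n * u :=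
  t4vOinf_exists_zpow (tbFixO 𝔓 ⊤) (tbFixRes 𝔓 ⊤) (tbFixRes_surjective 𝔓 ⊤)
    (t4cy_irreducible_p 𝔓) f hf

theorem t4vO0Fix_exists_zpow (f : ↥(tbLevF 𝔓 (N' * 𝔓.p * 𝔓.p) ⊤)) (hf : f ≠ 0) :
    ∃ (n : ℤ) (u : ↥(tbLevF 𝔓 (N' * 𝔓.p * 𝔓.p) ⊤)), u ∈ t4vO0Fix 𝔓 N' h ∧
      u⁻¹ ∈ t4vO0Fix 𝔓 N' h ∧ f = t4vQFix 𝔓 N' ^ n * u :=
  t4vO0_exists_zpow (tbFixO 𝔓 ⊤) (tbFixRes 𝔓 ⊤) (tbFixRes_surjective 𝔓 ⊤) (t4iALFix 𝔓 ⊤ N' h)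
    (t4cy_irreducible_p 𝔓) f hf

theorem t4vOmidFix_exists_zpow (f : ↥(tbLevF 𝔓 (N' * 𝔓.p * 𝔓.p) ⊤)) (hf : f ≠ 0) :
    ∃ (n : ℤ) (u : ↥(tbLevF 𝔓 (N' * 𝔓.p * 𝔓.p) ⊤)), u ∈ t4vOmidFix 𝔓 N' h hζ ∧
      u⁻¹ ∈ t4vOmidFix 𝔓 N' h hζ ∧ f = t4vPiFix 𝔓 N' ^ n * u :=
  letI := t4cyAlgebra 𝔓 (le_top : t4cyH 𝔓 ζ ≤ ⊤)
  t4vOmid_exists_zpow (tbFixO 𝔓 ⊤) (tbFixRes 𝔓 ⊤) (tbFixRes_surjective 𝔓 ⊤)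
    (tbFixO 𝔓 (t4cyH 𝔓 ζ)) (tbFixRes 𝔓 (t4cyH 𝔓 ζ)) (t4iCycFix 𝔓 hζ) (t4vMidFix 𝔓 N' h hζ) f hf

/-- `p = ϖ^(p-1) · unit` at `O_mid` -/
theorem t4vQFix_mid_eq : ∃ u : ↥(tbLevF 𝔓 (N' * 𝔓.p * 𝔓.p) ⊤), u ∈ t4vOmidFix 𝔓 N' h hζ ∧
    u⁻¹ ∈ t4vOmidFix 𝔓 N' h hζ ∧ t4vQFix 𝔓 N' = t4vPiFix 𝔓 N' ^ (𝔓.p - 1) * u :=
  letI := t4cyAlgebra 𝔓 (le_top : t4cyH 𝔓 ζ ≤ ⊤)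
  t4vQ_mid (tbFixO 𝔓 ⊤) (tbFixRes 𝔓 ⊤) (tbFixRes_surjective 𝔓 ⊤) (tbFixO 𝔓 (t4cyH 𝔓 ζ))
    (tbFixRes 𝔓 (t4cyH 𝔓 ζ)) (t4iCycFix 𝔓 hζ) (t4vMidFix 𝔓 N' h hζ)

end Fermat.Agent.T4
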