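/-
T4-V7 (helper2): **the chart presentations at the inertia level** `L = tbFix 𝔓 ⊤`, chart exponent
`Q = 𝔓.p * 𝔓.p`.

* `t4vyP1Fix 𝔓 N' h` : level `N' p`, chart `X¹ = j^Q - j` (`= t4vwPres1 …`);
* `t4vyPFix 𝔓 N' h hζ` : level `N' p²`, chart `X = j^Q - j` (`= t4vwPres …`);
* `t4vyP2Fix 𝔓 N' h hζ` : level `N' p²`, chart `X⁻¹`;
with the dictionaries `mem_t4vyP1Fix_B`, `t4vyP1Fix_vals`, `mem_t4vyPFix_B`, `mem_t4vyPFix_ov`,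
`t4vyPFix_vals`, `t4vyPFix_vert`, `mem_t4vyP2Fix_B`, `mem_t4vyP2Fix_ov`, `t4vyP2Fix_vals`,
`t4vyP2Fix_vert`, and **`t4vyTopFix : T4rtTop … (t4vyP1Fix …) (t4vyPFix …)`** (helper8's contract).
-/
import Fermat.Agent.Lib.T4.Inst.PresTop
import Fermat.Agent.Lib.T4.Inst.ValChartH
import Fermat.Agent.Lib.T4.Inst.ValSubH
import Fermat.Agent.Lib.T4.Reg.CuspBeta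
import Fermat.Agent.Lib.T4.Inst.PresRoot
import Fermat.Agent.Lib.T4.Inst.PresNoeth

set_option autoImplicit false
set_option linter.unusedSectionVars false
set_option linter.unusedVariables false
set_option linter.style.haveILetI false
set_option synthInstance.maxHeartbeats 400000
set_option maxHeartbeats 1000000

open HahnSeries ModularCurve Fermat.Agent.T1 Fermat.Agent.T2 Fermat.Agent.TW Fermat.Agent.S05Lib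
  IntermediateField

noncomputable section

namespace Fermat.Agent.T4

local notation "Qb" => AlgebraicClosure ℚ

attribute [local instance] t2i_dvr t2i_isAlgClosed t2i_charP t2i_fact t2iAlgebra t2i_isScalarTower

variable (𝔓 : FFPlace) (N' : ℕ) [NeZero N'] (h : ¬ 𝔓.p ∣ N') {ζ : Qb}
  (hζ : IsPrimitiveRoot ζ 𝔓.p)

/-- the chart exponent `Q = p * p` is at least `2` -/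
theorem t4vy_two_le : 2 ≤ 𝔓.p * 𝔓.p := by
  have h2 := 𝔓.hp.two_le
  nlinarith

/-! ### Level `N' p` -/

/-- the chart `X¹` is a separating generator of `F1 / L` -/
theorem t4vy_gen1 : Fermat.Agent.Curve.IsFunctionFieldGen ↥(tbFix 𝔓 (⊤ : Subgroup 𝔓.I))
    ↥(tbLevF 𝔓 (N' * 𝔓.p) ⊤) (t4vX1 ↥(tbFix 𝔓 (⊤ : Subgroup 𝔓.I)) N' 𝔓.p (𝔓.p * 𝔓.p)) :=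
  t4vc_gen_X_level 𝔓 (N' * 𝔓.p) ⊤ (t4vy_two_le 𝔓)

theorem t4vy_hyp1 : T4vwHyp1 (tbFixO 𝔓 ⊤) (tbFixRes 𝔓 ⊤) (t2iALFix 𝔓 ⊤ N' h)
    (t4vX1 ↥(tbFix 𝔓 (⊤ : Subgroup 𝔓.I)) N' 𝔓.p (𝔓.p * 𝔓.p)) :=
  t4vwHyp1_X1 (tbFixO 𝔓 ⊤) (tbFixRes 𝔓 ⊤) (tbFixRes_surjective 𝔓 ⊤) (t2iALFix 𝔓 ⊤ N' h)
    (t4vy_two_le 𝔓) (t4vy_gen1 𝔓 N')

/-- **the chart-1 presentation of level `N' p` at the inertia level** -/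
def t4vyP1Fix : T4Pres ↥(tbLevF 𝔓 (N' * 𝔓.p) (⊤ : Subgroup 𝔓.I)) :=
  t4vwPres1 (hπ := tbFixRes_surjective 𝔓 ⊤) (t4cy_irreducible_p 𝔓) (t4vy_hyp1 𝔓 N' h)

theorem t4vyP1Fix_vals :
    (t4vyP1Fix 𝔓 N' h).vals =
      t4vpHor ↥(tbFix 𝔓 (⊤ : Subgroup 𝔓.I))
        (t4vX1 ↥(tbFix 𝔓 (⊤ : Subgroup 𝔓.I)) N' 𝔓.p (𝔓.p * 𝔓.p)) ∪
      t4vwVer1 (tbFixO 𝔓 ⊤) (tbFixRes 𝔓 ⊤) (tbFixRes_surjective 𝔓 ⊤) (t2iALFix 𝔓 ⊤ N' h) := rfl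

theorem mem_t4vyP1Fix_B (f : ↥(tbLevF 𝔓 (N' * 𝔓.p) (⊤ : Subgroup 𝔓.I))) :
    f ∈ (t4vyP1Fix 𝔓 N' h).B ↔
      f ∈ t2Int (K := ↥(tbFix 𝔓 (⊤ : Subgroup 𝔓.I)))
        (t4vX1 ↥(tbFix 𝔓 (⊤ : Subgroup 𝔓.I)) N' 𝔓.p (𝔓.p * 𝔓.p)) ∧
      f ∈ (t2iBase2 (tbFixO 𝔓 ⊤) (tbFixRes 𝔓 ⊤) (tbFixRes_surjective 𝔓 ⊤)
        (t2i_natCast_ne_zero 𝔓 h) (t2iALFix 𝔓 ⊤ N' h) (t2iFrobFix 𝔓 N')).Ov :=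
  mem_t4vwPres1_B (t4cy_irreducible_p 𝔓) (t4vy_hyp1 𝔓 N' h) (t2i_natCast_ne_zero 𝔓 h)
    (t2iFrobFix 𝔓 N') f

/-! ### Level `N' p²` -/

/-- the chart `X` is a separating generator of `F / L` -/
theorem t4vy_gen : Fermat.Agent.Curve.IsFunctionFieldGen ↥(tbFix 𝔓 (⊤ : Subgroup 𝔓.I))
    ↥(tbLevF 𝔓 (N' * 𝔓.p * 𝔓.p) ⊤) (t4vX ↥(tbFix 𝔓 (⊤ : Subgroup 𝔓.I)) N' 𝔓.p (𝔓.p * 𝔓.p)) :=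
  t4vc_gen_X_level 𝔓 (N' * 𝔓.p * 𝔓.p) ⊤ (t4vy_two_le 𝔓)

theorem t4vy_hyp :
    letI := t4cyAlgebra 𝔓 (le_top : t4cyH 𝔓 ζ ≤ ⊤)
    T4vwHyp (tbFixO 𝔓 ⊤) (tbFixRes 𝔓 ⊤) (t4iALFix 𝔓 ⊤ N' h) (tbFixO 𝔓 (t4cyH 𝔓 ζ))
      (tbFixRes 𝔓 (t4cyH 𝔓 ζ)) (t4iCycFix 𝔓 hζ) (t4vMidFix 𝔓 N' h hζ)
      (t4vX ↥(tbFix 𝔓 (⊤ : Subgroup 𝔓.I)) N' 𝔓.p (𝔓.p * 𝔓.p)) :=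
  letI := t4cyAlgebra 𝔓 (le_top : t4cyH 𝔓 ζ ≤ ⊤)
  t4vwHyp_X (tbFixO 𝔓 ⊤) (tbFixRes 𝔓 ⊤) (tbFixRes_surjective 𝔓 ⊤) (t2i_natCast_ne_zero 𝔓 h)
    (t2iALFix 𝔓 ⊤ N' h) (t2iFrobFix 𝔓 N') (t4iALFix 𝔓 ⊤ N' h) (t4cy_irreducible_p 𝔓)
    (tbFixO 𝔓 (t4cyH 𝔓 ζ)) (tbFixRes 𝔓 (t4cyH 𝔓 ζ)) (t4iCycFix 𝔓 hζ) (t4vMidFix 𝔓 N' h hζ)
    (t4vy_two_le 𝔓) (t4vy_gen 𝔓 N')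

theorem t4vy_hyp_inv :
    letI := t4cyAlgebra 𝔓 (le_top : t4cyH 𝔓 ζ ≤ ⊤)
    T4vwHyp (tbFixO 𝔓 ⊤) (tbFixRes 𝔓 ⊤) (t4iALFix 𝔓 ⊤ N' h) (tbFixO 𝔓 (t4cyH 𝔓 ζ))
      (tbFixRes 𝔓 (t4cyH 𝔓 ζ)) (t4iCycFix 𝔓 hζ) (t4vMidFix 𝔓 N' h hζ)
      (t4vX ↥(tbFix 𝔓 (⊤ : Subgroup 𝔓.I)) N' 𝔓.p (𝔓.p * 𝔓.p))⁻¹ :=
  letI := t4cyAlgebra 𝔓 (le_top : t4cyH 𝔓 ζ ≤ ⊤)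
  t4vwHyp_X_inv (tbFixO 𝔓 ⊤) (tbFixRes 𝔓 ⊤) (tbFixRes_surjective 𝔓 ⊤) (t2i_natCast_ne_zero 𝔓 h)
    (t2iALFix 𝔓 ⊤ N' h) (t2iFrobFix 𝔓 N') (t4iALFix 𝔓 ⊤ N' h) (t4cy_irreducible_p 𝔓)
    (tbFixO 𝔓 (t4cyH 𝔓 ζ)) (tbFixRes 𝔓 (t4cyH 𝔓 ζ)) (t4iCycFix 𝔓 hζ) (t4vMidFix 𝔓 N' h hζ)
    (t4vy_two_le 𝔓) (t4vy_gen 𝔓 N')

theorem t4vy_crt :
    letI := t4cyAlgebra 𝔓 (le_top : t4cyH 𝔓 ζ ≤ ⊤)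
    T4vwCrt (tbFixO 𝔓 ⊤) (tbFixRes 𝔓 ⊤) (tbFixRes_surjective 𝔓 ⊤) (t4iALFix 𝔓 ⊤ N' h)
      (tbFixO 𝔓 (t4cyH 𝔓 ζ)) (tbFixRes 𝔓 (t4cyH 𝔓 ζ)) (t4iCycFix 𝔓 hζ) (t4vMidFix 𝔓 N' h hζ) :=
  letI := t4cyAlgebra 𝔓 (le_top : t4cyH 𝔓 ζ ≤ ⊤)
  t4vw_crt (tbFixO 𝔓 ⊤) (tbFixRes 𝔓 ⊤) (tbFixRes_surjective 𝔓 ⊤) (t2i_natCast_ne_zero 𝔓 h)
    (t2iALFix 𝔓 ⊤ N' h) (t2iFrobFix 𝔓 N') (t4iALFix 𝔓 ⊤ N' h) (t4cy_irreducible_p 𝔓)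
    (tbFixO 𝔓 (t4cyH 𝔓 ζ)) (tbFixRes 𝔓 (t4cyH 𝔓 ζ)) (t4iCycFix 𝔓 hζ) (t4vMidFix 𝔓 N' h hζ)

/-- **the chart-1 presentation of level `N' p²` at the inertia level** (chart `X = j^Q - j`) -/
def t4vyPFix : T4Pres ↥(tbLevF 𝔓 (N' * 𝔓.p * 𝔓.p) (⊤ : Subgroup 𝔓.I)) :=
  letI := t4cyAlgebra 𝔓 (le_top : t4cyH 𝔓 ζ ≤ ⊤)
  t4vwPres (t4cy_irreducible_p 𝔓) (t4vy_hyp 𝔓 N' h hζ) (t4vy_crt 𝔓 N' h hζ)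

/-- **the chart-2 presentation of level `N' p²` at the inertia level** (chart `X⁻¹`) -/
def t4vyP2Fix : T4Pres ↥(tbLevF 𝔓 (N' * 𝔓.p * 𝔓.p) (⊤ : Subgroup 𝔓.I)) :=
  letI := t4cyAlgebra 𝔓 (le_top : t4cyH 𝔓 ζ ≤ ⊤)
  t4vwPres (t4cy_irreducible_p 𝔓) (t4vy_hyp_inv 𝔓 N' h hζ) (t4vy_crt 𝔓 N' h hζ)

/-- the three vertical valuation rings at the inertia level -/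
theorem t4vy_ver_eq :
    letI := t4cyAlgebra 𝔓 (le_top : t4cyH 𝔓 ζ ≤ ⊤)
    t4vwVer (tbFixO 𝔓 ⊤) (tbFixRes 𝔓 ⊤) (tbFixRes_surjective 𝔓 ⊤) (t4iALFix 𝔓 ⊤ N' h)
      (tbFixO 𝔓 (t4cyH 𝔓 ζ)) (tbFixRes 𝔓 (t4cyH 𝔓 ζ)) (t4iCycFix 𝔓 hζ) (t4vMidFix 𝔓 N' h hζ) =
      {t4vOinfFix 𝔓 N', t4vOmidFix 𝔓 N' h hζ, t4vO0Fix 𝔓 N' h} := rfl

theorem t4vyPFix_vals :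
    letI := t4cyAlgebra 𝔓 (le_top : t4cyH 𝔓 ζ ≤ ⊤)
    (t4vyPFix 𝔓 N' h hζ).vals =
      t4vpHor ↥(tbFix 𝔓 (⊤ : Subgroup 𝔓.I))
        (t4vX ↥(tbFix 𝔓 (⊤ : Subgroup 𝔓.I)) N' 𝔓.p (𝔓.p * 𝔓.p)) ∪
      t4vwVer (tbFixO 𝔓 ⊤) (tbFixRes 𝔓 ⊤) (tbFixRes_surjective 𝔓 ⊤) (t4iALFix 𝔓 ⊤ N' h)
        (tbFixO 𝔓 (t4cyH 𝔓 ζ)) (tbFixRes 𝔓 (t4cyH 𝔓 ζ)) (t4iCycFix 𝔓 hζ)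
        (t4vMidFix 𝔓 N' h hζ) := rfl

theorem t4vyP2Fix_vals :
    letI := t4cyAlgebra 𝔓 (le_top : t4cyH 𝔓 ζ ≤ ⊤)
    (t4vyP2Fix 𝔓 N' h hζ).vals =
      t4vpHor ↥(tbFix 𝔓 (⊤ : Subgroup 𝔓.I))
        (t4vX ↥(tbFix 𝔓 (⊤ : Subgroup 𝔓.I)) N' 𝔓.p (𝔓.p * 𝔓.p))⁻¹ ∪
      t4vwVer (tbFixO 𝔓 ⊤) (tbFixRes 𝔓 ⊤) (tbFixRes_surjective 𝔓 ⊤) (t4iALFix 𝔓 ⊤ N' h)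
        (tbFixO 𝔓 (t4cyH 𝔓 ζ)) (tbFixRes 𝔓 (t4cyH 𝔓 ζ)) (t4iCycFix 𝔓 hζ)
        (t4vMidFix 𝔓 N' h hζ) := rfl

theorem t4vyPFix_vert :
    (t4vyPFix 𝔓 N' h hζ).vert (t4vQFix 𝔓 N') =
      {t4vOinfFix 𝔓 N', t4vOmidFix 𝔓 N' h hζ, t4vO0Fix 𝔓 N' h} :=
  letI := t4cyAlgebra 𝔓 (le_top : t4cyH 𝔓 ζ ≤ ⊤)
  t4vwPres_vert (t4cy_irreducible_p 𝔓) (t4vy_hyp 𝔓 N' h hζ) (t4vy_crt 𝔓 N' h hζ)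

theorem t4vyP2Fix_vert :
    (t4vyP2Fix 𝔓 N' h hζ).vert (t4vQFix 𝔓 N') =
      {t4vOinfFix 𝔓 N', t4vOmidFix 𝔓 N' h hζ, t4vO0Fix 𝔓 N' h} :=
  letI := t4cyAlgebra 𝔓 (le_top : t4cyH 𝔓 ζ ≤ ⊤)
  t4vwPres_vert (t4cy_irreducible_p 𝔓) (t4vy_hyp_inv 𝔓 N' h hζ) (t4vy_crt 𝔓 N' h hζ)

/-- `B₁ = IntCl(L[X]) ∩ 𝒪` (helper4's `hB₁`) -/
theorem mem_t4vyPFix_B (f : ↥(tbLevF 𝔓 (N' * 𝔓.p * 𝔓.p) (⊤ : Subgroup 𝔓.I))) :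
    f ∈ (t4vyPFix 𝔓 N' h hζ).B ↔
      f ∈ t2Int (K := ↥(tbFix 𝔓 (⊤ : Subgroup 𝔓.I)))
        (t4vcX 𝔓 (N' * 𝔓.p * 𝔓.p) ⊤ (𝔓.p * 𝔓.p)) ∧ f ∈ (t4vBaseFix 𝔓 N' h hζ).Ov :=
  letI := t4cyAlgebra 𝔓 (le_top : t4cyH 𝔓 ζ ≤ ⊤)
  mem_t4vwPres_B (t4cy_irreducible_p 𝔓) (t4vy_hyp 𝔓 N' h hζ) (t4vy_crt 𝔓 N' h hζ)
    (t2i_natCast_ne_zero 𝔓 h) (t2iALFix 𝔓 ⊤ N' h) (t2iFrobFix 𝔓 N') f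

/-- `B₂ = IntCl(L[X⁻¹]) ∩ 𝒪` (helper4's `hB₂`) -/
theorem mem_t4vyP2Fix_B (f : ↥(tbLevF 𝔓 (N' * 𝔓.p * 𝔓.p) (⊤ : Subgroup 𝔓.I))) :
    f ∈ (t4vyP2Fix 𝔓 N' h hζ).B ↔
      f ∈ t2Int (K := ↥(tbFix 𝔓 (⊤ : Subgroup 𝔓.I)))
        (t4vcX 𝔓 (N' * 𝔓.p * 𝔓.p) ⊤ (𝔓.p * 𝔓.p))⁻¹ ∧ f ∈ (t4vBaseFix 𝔓 N' h hζ).Ov :=
  letI := t4cyAlgebra 𝔓 (le_top : t4cyH 𝔓 ζ ≤ ⊤)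
  mem_t4vwPres_B (t4cy_irreducible_p 𝔓) (t4vy_hyp_inv 𝔓 N' h hζ) (t4vy_crt 𝔓 N' h hζ)
    (t2i_natCast_ne_zero 𝔓 h) (t2iALFix 𝔓 ⊤ N' h) (t2iFrobFix 𝔓 N') f

/-- `ov q = 𝒪` (helper4's `hOv₁`) -/
theorem mem_t4vyPFix_ov (f : ↥(tbLevF 𝔓 (N' * 𝔓.p * 𝔓.p) (⊤ : Subgroup 𝔓.I))) :
    f ∈ (t4vyPFix 𝔓 N' h hζ).ov (t4vQFix 𝔓 N') ↔ f ∈ (t4vBaseFix 𝔓 N' h hζ).Ov :=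
  letI := t4cyAlgebra 𝔓 (le_top : t4cyH 𝔓 ζ ≤ ⊤)
  mem_t4vwPres_ov (t4cy_irreducible_p 𝔓) (t4vy_hyp 𝔓 N' h hζ) (t4vy_crt 𝔓 N' h hζ)
    (t2i_natCast_ne_zero 𝔓 h) (t2iALFix 𝔓 ⊤ N' h) (t2iFrobFix 𝔓 N') f

/-- `ov q = 𝒪` (helper4's `hOv₂`) -/
theorem mem_t4vyP2Fix_ov (f : ↥(tbLevF 𝔓 (N' * 𝔓.p * 𝔓.p) (⊤ : Subgroup 𝔓.I))) :
    f ∈ (t4vyP2Fix 𝔓 N' h hζ).ov (t4vQFix 𝔓 N') ↔ f ∈ (t4vBaseFix 𝔓 N' h hζ).Ov :=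
  letI := t4cyAlgebra 𝔓 (le_top : t4cyH 𝔓 ζ ≤ ⊤)
  mem_t4vwPres_ov (t4cy_irreducible_p 𝔓) (t4vy_hyp_inv 𝔓 N' h hζ) (t4vy_crt 𝔓 N' h hζ)
    (t2i_natCast_ne_zero 𝔓 h) (t2iALFix 𝔓 ⊤ N' h) (t2iFrobFix 𝔓 N') f

/-! ### helper8's `T4rtTop` -/

/-- **helper8's `T4rtTop` at the inertia level** -/
theorem t4vyTopFix :
    letI := t4cyAlgebra 𝔓 (le_top : t4cyH 𝔓 ζ ≤ ⊤)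
    T4rtTop (tbFixO 𝔓 ⊤) (tbFixRes 𝔓 ⊤) (tbFixRes_surjective 𝔓 ⊤) (t2iALFix 𝔓 ⊤ N' h)
      (t4iALFix 𝔓 ⊤ N' h) (tbFixO 𝔓 (t4cyH 𝔓 ζ)) (tbFixRes 𝔓 (t4cyH 𝔓 ζ)) (t4iCycFix 𝔓 hζ)
      (t4vMidFix 𝔓 N' h hζ) (t4vX1 ↥(tbFix 𝔓 (⊤ : Subgroup 𝔓.I)) N' 𝔓.p (𝔓.p * 𝔓.p))
      (t4vX ↥(tbFix 𝔓 (⊤ : Subgroup 𝔓.I)) N' 𝔓.p (𝔓.p * 𝔓.p)) (t4vyP1Fix 𝔓 N' h)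
      (t4vyPFix 𝔓 N' h hζ) :=
  letI := t4cyAlgebra 𝔓 (le_top : t4cyH 𝔓 ζ ≤ ⊤)
  t4vz_top (tbFixO 𝔓 ⊤) (tbFixRes 𝔓 ⊤) (tbFixRes_surjective 𝔓 ⊤) (t2i_natCast_ne_zero 𝔓 h)
    (t2iALFix 𝔓 ⊤ N' h) (t2iFrobFix 𝔓 N') (t4iALFix 𝔓 ⊤ N' h) (t4cy_irreducible_p 𝔓)
    (tbFixO 𝔓 (t4cyH 𝔓 ζ)) (tbFixRes 𝔓 (t4cyH 𝔓 ζ)) (t4iCycFix 𝔓 hζ) (t4vMidFix 𝔓 N' h hζ)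
    (t4vyP1Fix 𝔓 N' h) (t4vyPFix 𝔓 N' h hζ) (t4vyP1Fix_vals 𝔓 N' h) (t4vyPFix_vals 𝔓 N' h hζ)
    (mem_t4vyP1Fix_B 𝔓 N' h) (mem_t4vyPFix_B 𝔓 N' h hζ) (t4vy_gen1 𝔓 N')
    (t4rcb_isIntegral_x_of_xβ 𝔓 N' ⊤ h (t4vy_two_le 𝔓))
    (t4rcb_isIntegral_xβ_of_x 𝔓 N' ⊤ (t4vy_two_le 𝔓))

/-! ### `hroot` and the noetherian property -/

/-- **`hroot` for chart 1** (from the Kummer hypothesis `m ∣ ord_v z` at all places of `F / L`) -/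
theorem t4vyPFix_hroot {z : ↥(tbLevF 𝔓 (N' * 𝔓.p * 𝔓.p) (⊤ : Subgroup 𝔓.I))} (hz : z ≠ 0) {m : ℕ}
    (hdiv : ∀ v : AlgebraicCurve.Place ↥(tbFix 𝔓 (⊤ : Subgroup 𝔓.I))
      ↥(tbLevF 𝔓 (N' * 𝔓.p * 𝔓.p) (⊤ : Subgroup 𝔓.I)), (m : ℤ) ∣ v.ord z) :
    ∀ V ∈ (t4vyPFix 𝔓 N' h hζ).vals, V ∉ (t4vyPFix 𝔓 N' h hζ).vert (t4vQFix 𝔓 N') →
      ∃ t : ↥(tbLevF 𝔓 (N' * 𝔓.p * 𝔓.p) (⊤ : Subgroup 𝔓.I)), V.valuation (t ^ m * z) = 1 :=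
  letI := t4cyAlgebra 𝔓 (le_top : t4cyH 𝔓 ζ ≤ ⊤)
  t4vq_hroot_chart (t4vyPFix 𝔓 N' h hζ) _ (t4vQFix 𝔓 N') _ (t4vyPFix_vals 𝔓 N' h hζ)
    ((t4vyPFix_vert 𝔓 N' h hζ).trans (t4vy_ver_eq 𝔓 N' h hζ).symm) hz hdiv

/-- **`hroot` for chart 2** -/
theorem t4vyP2Fix_hroot {z : ↥(tbLevF 𝔓 (N' * 𝔓.p * 𝔓.p) (⊤ : Subgroup 𝔓.I))} (hz : z ≠ 0) {m : ℕ}
    (hdiv : ∀ v : AlgebraicCurve.Place ↥(tbFix 𝔓 (⊤ : Subgroup 𝔓.I))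
      ↥(tbLevF 𝔓 (N' * 𝔓.p * 𝔓.p) (⊤ : Subgroup 𝔓.I)), (m : ℤ) ∣ v.ord z) :
    ∀ V ∈ (t4vyP2Fix 𝔓 N' h hζ).vals, V ∉ (t4vyP2Fix 𝔓 N' h hζ).vert (t4vQFix 𝔓 N') →
      ∃ t : ↥(tbLevF 𝔓 (N' * 𝔓.p * 𝔓.p) (⊤ : Subgroup 𝔓.I)), V.valuation (t ^ m * z) = 1 :=
  letI := t4cyAlgebra 𝔓 (le_top : t4cyH 𝔓 ζ ≤ ⊤)
  t4vq_hroot_chart (t4vyP2Fix 𝔓 N' h hζ) _ (t4vQFix 𝔓 N') _ (t4vyP2Fix_vals 𝔓 N' h hζ)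
    ((t4vyP2Fix_vert 𝔓 N' h hζ).trans (t4vy_ver_eq 𝔓 N' h hζ).symm) hz hdiv

/-- **the chart-1 ring `B₁` is noetherian** -/
theorem t4vyPFix_noeth : IsNoetherianRing ↥(t4vyPFix 𝔓 N' h hζ).B := by
  haveI : IsDiscreteValuationRing ↥(t4vBaseFix 𝔓 N' h hζ).A := t2i_dvr 𝔓 ⊤
  obtain ⟨su, -, hx, -⟩ :=
    t4v_exists_setup_fix 𝔓 N' h hζ (t4vy_two_le 𝔓) 1 (Nat.coprime_one_left _)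
  have hfin := su.fin1
  rw [hx] at hfin
  exact t4vq_isNoetherianRing (t4vBaseFix 𝔓 N' h hζ) hfin (t4vBaseFix_X_mem 𝔓 N' h hζ) _
    (mem_t4vyPFix_B 𝔓 N' h hζ)

end Fermat.Agent.T4
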