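/-
T4-V7 (helper2): **(Int) for the chart `u = (j^Q - j)⁻¹` from (Int) for the chart `w = j⁻¹`** (pure
algebra).

With `w = j⁻¹`, `u = (j^Q - j)⁻¹`, `s = 1 - w^(Q-1)`, `t = s⁻¹ = 1 + u j`:
* `t4vu_isIntegral_inv` : `w` is integral over `R[u]` (`w^Q + u w^(Q-1) - u = 0`);
* `t4vu_isIntegral_mul` : `u j` is integral over `R[u]` (`z^Q = u^(Q-1) (z + 1)`);
* `t4vu_clear` : `f` integral over `K[u]` ⟹ `s^D f` integral over `K[w]` for some `D`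
  (`s u = w^Q`, `s ∈ K[w]`);
* `t4vu_int_inv` : (Int) for the chart `u` on a valuation ring `𝒪' ∋ w` from (Int) for the chart `w`.
-/
import Fermat.Agent.Lib.T4.Inst.ChartFin

set_option autoImplicit false
set_option linter.unusedSectionVars false
set_option linter.unusedVariables false
set_option linter.style.haveILetI false
set_option synthInstance.maxHeartbeats 200000

open Polynomial

noncomputable section

namespace Fermat.Agent.T4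

open T2 (t2c_isIntegral_trans t2c_isIntegral_of_mem_adjoin t2d_isIntegral_adjoin_iff)

section Alg

variable {R F : Type*} [CommRing R] [Field F] [Algebra R F]

/-- `j⁻¹` is integral over `R[(j^Q - j)⁻¹]` -/
theorem t4vu_isIntegral_inv (j : F) {Q : ℕ} (hQ : 2 ≤ Q) (hj : j ≠ 0) (hx : j ^ Q - j ≠ 0) :
    IsIntegral ↥(Algebra.adjoin R {(j ^ Q - j)⁻¹}) j⁻¹ := by
  set S := Algebra.adjoin R {(j ^ Q - j)⁻¹} with hS
  let u : ↥S := ⟨(j ^ Q - j)⁻¹, Algebra.self_mem_adjoin_singleton R _⟩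
  refine ⟨X ^ Q + (C u * X ^ (Q - 1) - C u), ?_, ?_⟩
  · apply Polynomial.monic_X_pow_add
    refine lt_of_le_of_lt (Polynomial.degree_sub_le _ _) ?_
    rw [max_lt_iff]
    constructor
    · refine lt_of_le_of_lt (Polynomial.degree_C_mul_X_pow_le _ _) ?_
      exact_mod_cast (by omega : Q - 1 < Q)
    · refine lt_of_le_of_lt Polynomial.degree_C_le ?_
      exact_mod_cast (by omega : 0 < Q)
  · simp only [eval₂_add, eval₂_sub, eval₂_mul, eval₂_pow, eval₂_X, eval₂_C]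
    show j⁻¹ ^ Q + ((j ^ Q - j)⁻¹ * j⁻¹ ^ (Q - 1) - (j ^ Q - j)⁻¹) = 0
    obtain ⟨n, rfl⟩ : ∃ n, Q = n + 1 := ⟨Q - 1, by omega⟩
    simp only [Nat.add_sub_cancel]
    have h1 : j⁻¹ ^ (n + 1) * (j ^ (n + 1) - j) + (j⁻¹ ^ n - 1) = 0 := by
      rw [inv_pow, inv_pow, mul_sub, inv_mul_cancel₀ (pow_ne_zero _ hj), pow_succ, mul_inv,
        mul_assoc, inv_mul_cancel₀ hj]
      ring
    have h2 : j⁻¹ ^ (n + 1) + ((j ^ (n + 1) - j)⁻¹ * j⁻¹ ^ n - (j ^ (n + 1) - j)⁻¹) =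
        (j ^ (n + 1) - j)⁻¹ * (j⁻¹ ^ (n + 1) * (j ^ (n + 1) - j) + (j⁻¹ ^ n - 1)) := by
      rw [mul_add, mul_left_comm, inv_mul_cancel₀ hx]
      ring
    rw [h2, h1, mul_zero]

/-- `(j^Q - j)⁻¹ j` is integral over `R[(j^Q - j)⁻¹]` -/
theorem t4vu_isIntegral_mul (j : F) {Q : ℕ} (hQ : 2 ≤ Q) (hx : j ^ Q - j ≠ 0) :
    IsIntegral ↥(Algebra.adjoin R {(j ^ Q - j)⁻¹}) ((j ^ Q - j)⁻¹ * j) := by
  set S := Algebra.adjoin R {(j ^ Q - j)⁻¹} with hS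
  let u : ↥S := ⟨(j ^ Q - j)⁻¹, Algebra.self_mem_adjoin_singleton R _⟩
  refine ⟨X ^ Q - (C (u ^ (Q - 1)) * X + C (u ^ (Q - 1))), ?_, ?_⟩
  · apply Polynomial.monic_X_pow_sub
    refine lt_of_le_of_lt Polynomial.degree_linear_le ?_
    exact_mod_cast (by omega : 1 < Q)
  · simp only [eval₂_add, eval₂_sub, eval₂_mul, eval₂_pow, eval₂_X, eval₂_C]
    show ((j ^ Q - j)⁻¹ * j) ^ Q -
      ((j ^ Q - j)⁻¹ ^ (Q - 1) * ((j ^ Q - j)⁻¹ * j) + (j ^ Q - j)⁻¹ ^ (Q - 1)) = 0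
    obtain ⟨n, rfl⟩ : ∃ n, Q = n + 1 := ⟨Q - 1, by omega⟩
    simp only [Nat.add_sub_cancel]
    have h0 : j ^ (n + 1) = (j ^ (n + 1) - j) + j := by ring
    generalize j ^ (n + 1) - j = x at hx h0 ⊢
    have h1 : x⁻¹ ^ n = x⁻¹ ^ (n + 1) * x := by
      rw [pow_succ, mul_assoc, inv_mul_cancel₀ hx, mul_one]
    calc (x⁻¹ * j) ^ (n + 1) - (x⁻¹ ^ n * (x⁻¹ * j) + x⁻¹ ^ n)
        = x⁻¹ ^ (n + 1) * j ^ (n + 1) - x⁻¹ ^ (n + 1) * j - x⁻¹ ^ n := by ring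
      _ = x⁻¹ ^ (n + 1) * (x + j) - x⁻¹ ^ (n + 1) * j - x⁻¹ ^ (n + 1) * x := by rw [h0, h1]
      _ = 0 := by ring

/-- `1 + (j^Q - j)⁻¹ j` is the inverse of `1 - (j⁻¹)^(Q-1)` -/
theorem t4vu_mul_eq_one (j : F) {Q : ℕ} (hQ : 2 ≤ Q) (hj : j ≠ 0) (hx : j ^ Q - j ≠ 0) :
    (1 - j⁻¹ ^ (Q - 1)) * (1 + (j ^ Q - j)⁻¹ * j) = 1 := by
  obtain ⟨n, rfl⟩ : ∃ n, Q = n + 1 := ⟨Q - 1, by omega⟩
  simp only [Nat.add_sub_cancel]
  have h1 : 1 + (j ^ (n + 1) - j)⁻¹ * j = (j ^ (n + 1) - j)⁻¹ * j ^ (n + 1) := by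
    have : (1 : F) = (j ^ (n + 1) - j)⁻¹ * (j ^ (n + 1) - j) := (inv_mul_cancel₀ hx).symm
    conv_lhs => rw [this]
    ring
  have h2 : (1 - j⁻¹ ^ n) * j ^ (n + 1) = j ^ (n + 1) - j := by
    rw [sub_mul, one_mul, pow_succ, ← mul_assoc, inv_pow, inv_mul_cancel₀ (pow_ne_zero _ hj),
      one_mul]
  rw [h1, mul_left_comm, h2, inv_mul_cancel₀ hx]

/-- `(1 - (j⁻¹)^(Q-1)) (j^Q - j)⁻¹ = (j⁻¹)^Q` -/
theorem t4vu_mul_eq_pow (j : F) {Q : ℕ} (hQ : 2 ≤ Q) (hj : j ≠ 0) (hx : j ^ Q - j ≠ 0) :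
    (1 - j⁻¹ ^ (Q - 1)) * (j ^ Q - j)⁻¹ = j⁻¹ ^ Q := by
  obtain ⟨n, rfl⟩ : ∃ n, Q = n + 1 := ⟨Q - 1, by omega⟩
  simp only [Nat.add_sub_cancel]
  have h2 : (1 - j⁻¹ ^ n) * j ^ (n + 1) = j ^ (n + 1) - j := by
    rw [sub_mul, one_mul, pow_succ, ← mul_assoc, inv_pow, inv_mul_cancel₀ (pow_ne_zero _ hj),
      one_mul]
  have h3 : (1 - j⁻¹ ^ n) = (j ^ (n + 1) - j) * (j ^ (n + 1))⁻¹ :=
    (eq_mul_inv_iff_mul_eq₀ (pow_ne_zero _ hj)).mpr h2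
  rw [h3, mul_right_comm, mul_inv_cancel₀ hx, one_mul, inv_pow]

end Alg

section Clear

variable {K F : Type*} [Field K] [Field F] [Algebra K F]

/-- clearing the denominators of a polynomial in `u` (`s u = w^Q`, `s ∈ K[w]`) -/
theorem t4vu_clear_aeval {w u s : F} {Q : ℕ} (hsu : s * u = w ^ Q)
    (hs : s ∈ Algebra.adjoin K {w}) (p : K[X]) {n : ℕ} (hn : p.natDegree ≤ n) :
    s ^ n * aeval u p ∈ Algebra.adjoin K {w} := by
  rw [Polynomial.aeval_eq_sum_range, Finset.mul_sum]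
  refine Subalgebra.sum_mem _ fun i hi => ?_
  have hin : i ≤ n := by
    have := Finset.mem_range.mp hi
    omega
  obtain ⟨c, rfl⟩ := Nat.exists_eq_add_of_le hin
  have h1 : s ^ (i + c) * (p.coeff i • u ^ i) = p.coeff i • (s ^ c * (w ^ Q) ^ i) := by
    rw [← hsu, mul_pow, mul_smul_comm, pow_add]
    congr 1
    ring
  rw [h1]
  exact Subalgebra.smul_mem _ (Subalgebra.mul_mem _ (Subalgebra.pow_mem _ hs _)
    (Subalgebra.pow_mem _ (Subalgebra.pow_mem _ (Algebra.self_mem_adjoin_singleton K w) _) _)) _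

/-- **clearing denominators**: `f` integral over `K[u]` ⟹ `s^D f` integral over `K[w]` -/
theorem t4vu_clear {w u s : F} {Q : ℕ} (hsu : s * u = w ^ Q) (hs : s ∈ Algebra.adjoin K {w})
    {f : F} (hf : IsIntegral ↥(Algebra.adjoin K {u}) f) :
    ∃ D : ℕ, IsIntegral ↥(Algebra.adjoin K {w}) (s ^ D * f) := by
  obtain ⟨d, q, hq⟩ := (t2d_isIntegral_adjoin_iff (K := K) u f).mp hf
  set D : ℕ := Finset.univ.sup (fun i : Fin d => (q i).natDegree) with hD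
  have hDi : ∀ i : Fin d, (q i).natDegree ≤ D * (d - (i : ℕ)) := by
    intro i
    have h1 : (q i).natDegree ≤ D := Finset.le_sup (f := fun i : Fin d => (q i).natDegree)
      (Finset.mem_univ i)
    have h2 : 1 ≤ d - (i : ℕ) := by have := i.2; omega
    calc (q i).natDegree ≤ D * 1 := by rw [mul_one]; exact h1
      _ ≤ D * (d - (i : ℕ)) := Nat.mul_le_mul_left D h2
  have hmem : ∀ i : Fin d, ∃ q' : K[X], aeval w q' = s ^ (D * (d - (i : ℕ))) * aeval u (q i) := by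
    intro i
    have h := t4vu_clear_aeval (K := K) hsu hs (q i) (hDi i)
    rw [Algebra.adjoin_singleton_eq_range_aeval] at h
    exact h
  choose q' hq' using hmem
  refine ⟨D, (t2d_isIntegral_adjoin_iff (K := K) w (s ^ D * f)).mpr ⟨d, q', ?_⟩⟩
  have h1 : ∀ i : Fin d, aeval w (q' i) * (s ^ D * f) ^ (i : ℕ) =
      s ^ (D * d) * (aeval u (q i) * f ^ (i : ℕ)) := by
    intro i
    rw [hq' i, mul_pow, ← pow_mul]
    have h2 : D * d = D * (d - (i : ℕ)) + D * (i : ℕ) := by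
      rw [← Nat.mul_add]
      congr 1
      have := i.2
      omega
    rw [h2, pow_add]
    ring
  rw [Finset.sum_congr rfl (fun i _ => h1 i), ← Finset.mul_sum, mul_pow, ← pow_mul, ← mul_add, hq,
    mul_zero]

end Clear

section Main

variable {K F' : Type*} [Field K] [Field F'] [Algebra K F']

/-- **(Int) for the chart `(j^Q - j)⁻¹`** on a valuation ring `𝒪' ∋ j⁻¹` from (Int) for the chart
`j⁻¹` -/
theorem t4vu_int_inv (A : ValuationSubring K) (Ov' : ValuationSubring F') {j : F'} {Q : ℕ}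
    (hQ : 2 ≤ Q) (hj : j ≠ 0) (hx : j ^ Q - j ≠ 0) (hw : j⁻¹ ∈ Ov')
    (hIntw : ∀ g : F', g ∈ Ov' → IsIntegral ↥(Algebra.adjoin K {j⁻¹}) g →
      IsIntegral ↥(Algebra.adjoin ↥A {j⁻¹}) g)
    {f : F'} (hf : f ∈ Ov') (hint : IsIntegral ↥(Algebra.adjoin K {(j ^ Q - j)⁻¹}) f) :
    IsIntegral ↥(Algebra.adjoin ↥A {(j ^ Q - j)⁻¹}) f := by
  set s : F' := 1 - j⁻¹ ^ (Q - 1) with hs
  set t : F' := 1 + (j ^ Q - j)⁻¹ * j with ht
  have hst : s * t = 1 := t4vu_mul_eq_one j hQ hj hx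
  have hsu : s * (j ^ Q - j)⁻¹ = j⁻¹ ^ Q := t4vu_mul_eq_pow j hQ hj hx
  have hsK : s ∈ Algebra.adjoin K {j⁻¹} :=
    Subalgebra.sub_mem _ (Subalgebra.one_mem _)
      (Subalgebra.pow_mem _ (Algebra.self_mem_adjoin_singleton K _) _)
  have hsO : s ∈ Ov' := sub_mem Ov'.one_mem (pow_mem hw _)
  obtain ⟨D, hD⟩ := t4vu_clear (K := K) hsu hsK hint
  have hgO : s ^ D * f ∈ Ov' := Ov'.mul_mem _ _ (pow_mem hsO _) hf
  have h1 : IsIntegral ↥(Algebra.adjoin ↥A {(j ^ Q - j)⁻¹}) (s ^ D * f) :=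
    t2c_isIntegral_trans (t4vu_isIntegral_inv (R := ↥A) j hQ hj hx) (hIntw _ hgO hD)
  have h2 : IsIntegral ↥(Algebra.adjoin ↥A {(j ^ Q - j)⁻¹}) t :=
    isIntegral_one.add (t4vu_isIntegral_mul (R := ↥A) j hQ hx)
  have h3 : f = t ^ D * (s ^ D * f) := by
    rw [← mul_assoc, ← mul_pow, mul_comm t s, hst, one_pow, one_mul]
  rw [h3]
  exact (h2.pow D).mul h1

end Main

end Fermat.Agent.T4
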