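/-
T4-V7 (helper2): **the chart ring of the chart `X⁻¹ = (j^Q - j)⁻¹` on the three-valuation base is
noetherian** (generic level).

* `t4vu_int_level` : (Int) for the chart `(j^Q - j)⁻¹` at the level `N'` of good reduction (from T1's
  `ta_int_inf`, chart `j⁻¹`, by `t4vu_int_inv`);
* `t4vu_int` : (Int) for the chart `X⁻¹` on `t4vBase` (tower lemma `t4vc_int_tower`);
* `t4vu_cl` : (Cl) for the chart `X⁻¹`;
* `t4vu_fin2` : `T2Fin (t4vBase …) X⁻¹ e` for some `e`;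
* `t4vu_noeth` : every `B` with `f ∈ B ↔ f ∈ IntCl(L[X⁻¹]) ∧ f ∈ 𝒪` is noetherian.
-/
import Fermat.Agent.Lib.T4.Inst.ValChart
import Fermat.Agent.Lib.T4.Inst.ChartInv
import Fermat.Agent.Lib.T4.Inst.PresNoeth
import Fermat.Agent.Lib.CurveP.Global

set_option autoImplicit false
set_option linter.unusedSectionVars false
set_option linter.unusedVariables false
set_option linter.style.haveILetI false
set_option synthInstance.maxHeartbeats 400000
set_option maxHeartbeats 1000000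

open HahnSeries ModularCurve Fermat.Agent.T1 Fermat.Agent.T2 IntermediateField

noncomputable section

namespace Fermat.Agent.T4

section Level

variable {L : Type*} [Field L] [Algebra ℚ L] (O : ValuationSubring L)
  {k : Type*} [Field k] (π : ↥O →+* k)
  [IsDiscreteValuationRing ↥O] (hπ : Function.Surjective π) (N' N : ℕ) [NeZero N'] [NeZero N]

theorem t4vu_taJ_ne_zero : taJ (L := L) N' ≠ 0 := by
  intro h0
  have h1 : ((taJ (L := L) N' : ↥(TaF L N')) : LaurentSeries L) = 0 := by rw [h0]; rfl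
  rw [coe_taJ] at h1
  exact jqModC_ne_zero_of_nontrivial L h1

theorem t4vu_taJ_inv_mem : (taJ (L := L) N')⁻¹ ∈ taOv O π hπ N' := by
  refine inv_mem_taOv_of_taResN_ne_zero O π hπ N' ⟨taJ N', taJ_mem_taOv O π hπ N'⟩ ?_
  rw [taResN_taJ]
  exact jqModC_ne_zero_of_nontrivial k

theorem t4vu_pow_sub_ne_zero {Q : ℕ} (hQ : 2 ≤ Q) : taJ (L := L) N' ^ Q - taJ N' ≠ 0 := by
  intro h0
  have h1 : ((taJ (L := L) N' ^ Q - taJ N' : ↥(TaF L N')) : LaurentSeries L) = 0 := by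
    rw [h0]; rfl
  have h2 : ((taJ (L := L) N' ^ Q - taJ N' : ↥(TaF L N')) : LaurentSeries L) =
      jqModC L ^ Q - jqModC L := rfl
  rw [h2] at h1
  have h3 := congrArg (fun f : LaurentSeries L => f.coeff (-((Q : ℕ) : ℤ))) h1
  simp only [HahnSeries.coeff_sub, HahnSeries.coeff_zero] at h3
  rw [coeff_jqModC_pow_self, coeff_jqModC_of_lt] at h3
  · simp at h3
  · have h4 : (2 : ℤ) ≤ Q := by exact_mod_cast hQ
    omega

/-- **(Int) at level `N'` for the chart `(j^Q - j)⁻¹`** -/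
theorem t4vu_int_level (hN' : (N' : k) ≠ 0) {Q : ℕ} (hQ : 2 ≤ Q) {g : ↥(TaF L N')}
    (hg : g ∈ taOv O π hπ N')
    (hint : IsIntegral ↥(Algebra.adjoin L {(taJ (L := L) N' ^ Q - taJ N')⁻¹}) g) :
    IsIntegral ↥(Algebra.adjoin ↥O {(taJ (L := L) N' ^ Q - taJ N')⁻¹}) g :=
  t4vu_int_inv O (taOv O π hπ N') hQ (t4vu_taJ_ne_zero N')
    (t4vu_pow_sub_ne_zero N' hQ) (t4vu_taJ_inv_mem O π hπ N')
    (fun g hg h => ta_int_inf O π hπ N' hN' hg h) hg hint

/-- **(Int) at a level above `N'`**, for any chart `φ x'` coming from a chart `x'` of level `N'` with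
(Int) -/
theorem t4vu_int_of_level (φ : ↥(TaF L N') →ₐ[L] ↥(TaF L N)) (x' : ↥(TaF L N'))
    (hInt' : ∀ g : ↥(TaF L N'), g ∈ taOv O π hπ N' → IsIntegral ↥(Algebra.adjoin L {x'}) g →
      IsIntegral ↥(Algebra.adjoin ↥O {x'}) g) {f : ↥(TaF L N)}
    (hf' : ((φ : ↥(TaF L N') →+* ↥(TaF L N)).comp (taOv O π hπ N').subtype).IsIntegralElem f)
    (hf : IsIntegral ↥(Algebra.adjoin L {φ x'}) f) :
    IsIntegral ↥(Algebra.adjoin ↥O {φ x'}) f := by
  letI : Algebra ↥(TaF L N') ↥(TaF L N) := (φ : ↥(TaF L N') →+* ↥(TaF L N)).toAlgebra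
  haveI : IsScalarTower L ↥(TaF L N') ↥(TaF L N) :=
    IsScalarTower.of_algebraMap_eq (fun a => (φ.commutes a).symm)
  exact t4vc_int_tower (K := L) (F' := ↥(TaF L N')) (F := ↥(TaF L N)) O (taOv O π hπ N') x'
    hInt' (f := f) hf' hf

end Level

section Chart

variable {L : Type} [Field L] [Algebra ℚ L] (O : ValuationSubring L) {k : Type*} [Field k]
  (π : ↥O →+* k) [IsDiscreteValuationRing ↥O] (hπ : Function.Surjective π) [IsAlgClosed k]
  {N' q : ℕ} [NeZero N'] [hq : Fact q.Prime] [CharP k q] (hN' : (N' : k) ≠ 0)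
  (W1 : T2iAL L N' q) (Fr : T2iFrob k N' q) (W : T4iAL L N' q)
  (hqO : Irreducible ((q : ℕ) : ↥O))
  {L' : Type*} [Field L'] [Algebra L L'] (O' : ValuationSubring L')
  [IsDiscreteValuationRing ↥O'] (π' : ↥O' →+* k) (C : T4iCyc O O' π π' q)
  (M : T4iMid L L' N' q C.ζ) {Q : ℕ} (hQ : 2 ≤ Q)

attribute [local instance] t2iAlgebra t2i_isScalarTower

theorem t4vu_X_inv_eq : (t4vX L N' q Q)⁻¹ = t4vA0 L N' q (t4vX' L N' Q)⁻¹ := by
  rw [map_inv₀, ← t4vX_eq]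

include hQ in
/-- **(Int) for the chart `X⁻¹`** -/
theorem t4vu_int (f : ↥(TaF L (N' * q * q)))
    (hf : f ∈ (t4vBase O π hπ hN' W1 Fr W hqO O' π' C M).Ov)
    (hint : f ∈ t2Int (K := L) (t4vX L N' q Q)⁻¹) :
    IsIntegral ↥(Algebra.adjoin ↥(t4vBase O π hπ hN' W1 Fr W hqO O' π' C M).A
      {(t4vX L N' q Q)⁻¹}) f := by
  have hint' : IsIntegral ↥(Algebra.adjoin L {t4vA0 L N' q (t4vX' L N' Q)⁻¹}) f := by
    rw [← t4vu_X_inv_eq]
    exact hint
  have key := t4vu_int_of_level O π hπ N' (N' * q * q) (t4vA0 L N' q) (t4vX' L N' Q)⁻¹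
    (fun g hg hgi => t4vu_int_level O π hπ N' hN' hQ hg hgi)
    (t4v_isIntegralElem O π hπ hN' W1 Fr W hqO O' π' C M f hf) hint'
  rw [← t4vu_X_inv_eq] at key
  exact key

include hQ in
/-- **(Cl) for the chart `X⁻¹`** -/
theorem t4vu_cl (f : ↥(TaF L (N' * q * q)))
    (hf : IsIntegral ↥(Algebra.adjoin ↥(t4vBase O π hπ hN' W1 Fr W hqO O' π' C M).A
      {(t4vX L N' q Q)⁻¹}) f) : f ∈ (t4vBase O π hπ hN' W1 Fr W hqO O' π' C M).Ov := by
  have hX := t4vX_inv_mem (Q := Q) O π hπ hN' W1 Fr W hqO O' π' C M hQ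
  have hO : ∀ a : ↥O, algebraMap L ↥(TaF L (N' * q * q)) (a : L) ∈
      (t4vInput O π hπ hN' W1 Fr W hqO O' π' C M).Ov := fun a =>
    (t4vInput O π hπ hN' W1 Fr W hqO O' π' C M).algebraMap_mem_Ov a
  rw [mem_t4vInput_Ov_iff] at hX
  have hO' := fun a => (mem_t4vInput_Ov_iff O π hπ hN' W1 Fr W hqO O' π' C M _).mp (hO a)
  show f ∈ (t4vInput O π hπ hN' W1 Fr W hqO O' π' C M).Ov
  rw [mem_t4vInput_Ov_iff]
  refine ⟨?_, ?_, ?_⟩
  · exact ta_mem_of_isIntegral _ (t4v_adjoin_le O _ (fun a => (hO' a).1) hX.1) hf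
  · exact ta_mem_of_isIntegral _ (t4v_adjoin_le O _ (fun a => (hO' a).2.1) hX.2.1) hf
  · exact ta_mem_of_isIntegral _ (t4v_adjoin_le O _ (fun a => (hO' a).2.2) hX.2.2) hf

include hQ in
/-- the residue of `X⁻¹` is transcendental -/
theorem t4vX_inv_transcendental
    (hxi : (t4vX L N' q Q)⁻¹ ∈ (t4vBase O π hπ hN' W1 Fr W hqO O' π' C M).Ov) :
    Transcendental k
      ((t4vBase O π hπ hN' W1 Fr W hqO O' π' C M).res ⟨(t4vX L N' q Q)⁻¹, hxi⟩) := by
  have hx : t4vX L N' q Q ∈ (t4vBase O π hπ hN' W1 Fr W hqO O' π' C M).Ov :=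
    t4vX_mem O π hπ hN' W1 Fr W hqO O' π' C M
  have htr := t4vX_transcendental O π hπ hN' W1 Fr W hqO O' π' C M hQ hx
  have hx0 : t4vX L N' q Q ≠ 0 := by
    intro h0
    apply htr
    have : (⟨t4vX L N' q Q, hx⟩ : ↥(t4vBase O π hπ hN' W1 Fr W hqO O' π' C M).Ov) = 0 :=
      Subtype.ext h0
    rw [this, map_zero]
    exact isAlgebraic_zero
  have hmul := t2f_res_inv_mul (t4vBase O π hπ hN' W1 Fr W hqO O' π' C M) hx0 hx hxi
  intro halg
  apply htr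
  letI : Invertible ((t4vBase O π hπ hN' W1 Fr W hqO O' π' C M).res ⟨(t4vX L N' q Q)⁻¹, hxi⟩) :=
    ⟨(t4vBase O π hπ hN' W1 Fr W hqO O' π' C M).res ⟨t4vX L N' q Q, hx⟩,
      (mul_comm _ _).trans hmul, hmul⟩
  exact IsAlgebraic.invOf halg

include hQ in
/-- **finiteness of the chart ring of `X⁻¹`** -/
theorem t4vu_fin2
    (hgen : Fermat.Agent.Curve.IsFunctionFieldGen L ↥(TaF L (N' * q * q)) (t4vX L N' q Q)) :
    ∃ e : ℕ, T2Fin (t4vBase O π hπ hN' W1 Fr W hqO O' π' C M) (t4vX L N' q Q)⁻¹ e := by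
  haveI : IsDiscreteValuationRing ↥(t4vBase O π hπ hN' W1 Fr W hqO O' π' C M).A :=
    ‹IsDiscreteValuationRing ↥O›
  have hgi := Fermat.Agent.CurveP.isFunctionFieldGen_inv hgen
  have hxi := t4vX_inv_mem (Q := Q) O π hπ hN' W1 Fr W hqO O' π' C M hQ
  obtain ⟨ϖ, hϖ⟩ := IsDiscreteValuationRing.exists_irreducible
    ↥(t4vBase O π hπ hN' W1 Fr W hqO O' π' C M).A
  let Ch : T2sChart (t4vBase O π hπ hN' W1 Fr W hqO O' π' C M) :=
    { x := (t4vX L N' q Q)⁻¹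
      tr := hgi.transcendental
      mem := hxi
      trρ := t4vX_inv_transcendental O π hπ hN' W1 Fr W hqO O' π' C M hQ hxi
      ϖ := ϖ
      irr := hϖ }
  haveI : FiniteDimensional ↥(L⟮Ch.x⟯) ↥(TaF L (N' * q * q)) := hgi.finite
  haveI : CharZero L := algebraRat.charZero _
  haveI : Algebra.IsSeparable ↥(L⟮Ch.x⟯) ↥(TaF L (N' * q * q)) :=
    Algebra.IsAlgebraic.isSeparable_of_perfectField
  have hx0 : Ch.x ≠ 0 := inv_ne_zero (fun h0 => by
    apply hgen.transcendental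
    rw [h0]
    exact isAlgebraic_zero)
  exact t4vc_fin Ch (fun f hf hint => t4vu_int O π hπ hN' W1 Fr W hqO O' π' C M hQ f hf hint)
    (fun f hf => t4vu_cl O π hπ hN' W1 Fr W hqO O' π' C M hQ f hf) hx0

include hQ in
/-- **the chart ring of `X⁻¹` is noetherian** -/
theorem t4vu_noeth
    (hgen : Fermat.Agent.Curve.IsFunctionFieldGen L ↥(TaF L (N' * q * q)) (t4vX L N' q Q))
    (B : Subring ↥(TaF L (N' * q * q)))
    (hB : ∀ f, f ∈ B ↔ f ∈ t2Int (K := L) (t4vX L N' q Q)⁻¹ ∧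
      f ∈ (t4vBase O π hπ hN' W1 Fr W hqO O' π' C M).Ov) : IsNoetherianRing ↥B := by
  haveI : IsNoetherianRing ↥(t4vBase O π hπ hN' W1 Fr W hqO O' π' C M).A :=
    (inferInstance : IsNoetherianRing ↥O)
  obtain ⟨e, he⟩ := t4vu_fin2 O π hπ hN' W1 Fr W hqO O' π' C M hQ hgen
  exact t4vq_isNoetherianRing (t4vBase O π hπ hN' W1 Fr W hqO O' π' C M) he
    (t4vX_inv_mem (Q := Q) O π hπ hN' W1 Fr W hqO O' π' C M hQ) B hB

end Chart

end Fermat.Agent.T4
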