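/-
T4-V7 (helper2): **the chart-2 ring `B₂` at the inertia level is noetherian**
(`t4vyP2Fix_noeth`), by the generic `t4vu_noeth` (`PresNoeth2.lean`).
-/
import Fermat.Agent.Lib.T4.Inst.PresFix
import Fermat.Agent.Lib.T4.Inst.PresNoeth2

set_option autoImplicit false
set_option linter.unusedSectionVars false
set_option linter.unusedVariables false
set_option linter.style.haveILetI false
set_option synthInstance.maxHeartbeats 400000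
set_option maxHeartbeats 1000000

open HahnSeries ModularCurve Fermat.Agent.T1 Fermat.Agent.T2 Fermat.Agent.TW Fermat.Agent.S05Lib
  IntermediateField

noncomputable section

namespace Fermat.Agent.T4

local notation "Qb" => AlgebraicClosure ℚ

attribute [local instance] t2i_dvr t2i_isAlgClosed t2i_charP t2i_fact t2iAlgebra t2i_isScalarTower

variable (𝔓 : FFPlace) (N' : ℕ) [NeZero N'] (h : ¬ 𝔓.p ∣ N') {ζ : Qb}
  (hζ : IsPrimitiveRoot ζ 𝔓.p)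

/-- **the chart-2 ring `B₂` is noetherian** -/
theorem t4vyP2Fix_noeth : IsNoetherianRing ↥(t4vyP2Fix 𝔓 N' h hζ).B :=
  letI := t4cyAlgebra 𝔓 (le_top : t4cyH 𝔓 ζ ≤ ⊤)
  t4vu_noeth (tbFixO 𝔓 ⊤) (tbFixRes 𝔓 ⊤) (tbFixRes_surjective 𝔓 ⊤) (t2i_natCast_ne_zero 𝔓 h)
    (t2iALFix 𝔓 ⊤ N' h) (t2iFrobFix 𝔓 N') (t4iALFix 𝔓 ⊤ N' h) (t4cy_irreducible_p 𝔓)
    (tbFixO 𝔓 (t4cyH 𝔓 ζ)) (tbFixRes 𝔓 (t4cyH 𝔓 ζ)) (t4iCycFix 𝔓 hζ) (t4vMidFix 𝔓 N' h hζ)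
    (t4vy_two_le 𝔓) (t4vy_gen 𝔓 N') _ (mem_t4vyP2Fix_B 𝔓 N' h hζ)

end Fermat.Agent.T4
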