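/-
T4-V7 support (lead), (I6)(iii): the charts `x = j^Q - j` and `x_β = β(j^Q - j)` are integral over
each other over the base field, at the DVR levels `L_H = tbFix 𝔓 H`.

* abstract: `t4vj_isIntegral_self` (`j` is integral over `R[j^Q - j]`), `t4vj_chart`
  (`J` integral over `K[Y]` ⟹ `J^Q - J` integral over `K[Y^Q - Y]`);
* level `N' p`: `t4vj_Y_J`, `t4vj_J_Y` (`J = j`, `Y = β j = j(pτ)` are integral over each other's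
  polynomial rings: cusp package of `Lib/T2/Inst/CuspAL` descended by `t2d_isIntegral_tbPhiF_iff`),
  `t4vj_betaX_lev1` (`β₁ (j^Q - j)` is integral over `L[j^Q - j]`, the generic-fibre input of `β_B`),
  `t4vj_lev1_betaX` (converse);
* level `N' p p`: `t4vj_a1_a0`, `t4vj_a0_a1` (`a0 j = j`, `a1 j = β₂ j = j(pτ)`),
  `t4vj_X_betaX`, `t4vj_betaX_X` (`hx`, `hx'` of `t4vq_presOver_chart` for the `β`-structure).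
-/
import Fermat.Agent.Lib.T2.Inst.ChartAlg
import Fermat.Agent.Lib.T4.Inst.MidEx6
import Fermat.Agent.Lib.T4.Inst.ValChart

set_option autoImplicit false
set_option linter.unusedSectionVars false
set_option linter.unusedVariables false
set_option linter.style.haveILetI false
set_option synthInstance.maxHeartbeats 400000
set_option maxHeartbeats 1000000

open HahnSeries ModularCurve Fermat.Agent.T1 Fermat.Agent.T2 Fermat.Agent.TW Fermat.Agent.S24Lib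
  Fermat.Agent.S05Lib

noncomputable section

namespace Fermat.Agent.T4

local notation "Qb" => AlgebraicClosure ℚ

section Abstract

/-- `j` is integral over `R[j^Q - j]` -/
theorem t4vj_isIntegral_self {R A : Type*} [CommRing R] [CommRing A] [Algebra R A] (j : A)
    {Q : ℕ} (hQ : 2 ≤ Q) : IsIntegral ↥(Algebra.adjoin R {j ^ Q - j}) j := by
  classical
  set S := Algebra.adjoin R {j ^ Q - j} with hS
  rcases subsingleton_or_nontrivial ↥S with hsub | hnt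
  · have h01 : (0 : ↥S) = 1 := Subsingleton.elim _ _
    have h01' : (0 : A) = 1 := by
      have := congrArg (Subtype.val : ↥S → A) h01
      simpa using this
    refine ⟨1, Polynomial.monic_one, ?_⟩
    rw [Polynomial.eval₂_one]
    exact h01'.symm
  let xR : ↥S := ⟨j ^ Q - j, Algebra.self_mem_adjoin_singleton R _⟩
  refine ⟨Polynomial.X ^ Q - Polynomial.X - Polynomial.C xR, ?_, ?_⟩
  · have h1 : (Polynomial.X ^ Q - Polynomial.X - Polynomial.C xR : Polynomial ↥S) =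
        Polynomial.X ^ Q - (Polynomial.X + Polynomial.C xR) := by ring
    rw [h1]
    apply Polynomial.monic_X_pow_sub
    refine lt_of_le_of_lt (Polynomial.degree_X_add_C _).le ?_
    exact_mod_cast (by omega : 1 < Q)
  · simp only [Polynomial.eval₂_sub, Polynomial.eval₂_pow, Polynomial.eval₂_X, Polynomial.eval₂_C]
    show j ^ Q - j - (j ^ Q - j) = 0
    ring

variable {K F : Type*} [Field K] [Field F] [Algebra K F]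

/-- `J` integral over `K[Y]` ⟹ `J^Q - J` integral over `K[Y^Q - Y]` -/
theorem t4vj_chart {J Y : F} {Q : ℕ} (hQ : 2 ≤ Q) (h : IsIntegral ↥(Algebra.adjoin K {Y}) J) :
    IsIntegral ↥(Algebra.adjoin K {Y ^ Q - Y}) (J ^ Q - J) := by
  have h1 : IsIntegral ↥(Algebra.adjoin K {Y ^ Q - Y}) J :=
    t2c_isIntegral_trans (t4vj_isIntegral_self (R := K) Y hQ) h
  exact (h1.pow Q).sub h1

end Abstract

section Lev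

variable (𝔓 : FFPlace) (H : Subgroup 𝔓.I) (N' : ℕ) [NeZero N'] (h : ¬ 𝔓.p ∣ N')

attribute [local instance] t2i_fact

/-- the image of `Y = β j` in `F_ℚ̄` at level `N' p` -/
theorem t4vj_tbPhiF_Y :
    tbPhiF 𝔓 (N' * 𝔓.p) H (t2iY ↥(tbFix 𝔓 H) N' 𝔓.p) = t2cpYw N' 𝔓.p := by
  apply Subtype.ext
  rw [coe_tbPhiF, coe_t2iY, tbPhi, coeffMap_qExpand, coeffMap_jqModC]
  rfl

theorem t4vj_taJ_eq (N : ℕ) [NeZero N] : taJ (L := ↥(tbFix 𝔓 H)) N = tbLevJ 𝔓 N H := rfl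

/-- `Y = j(pτ)` is integral over `L[j]` at level `N' p` -/
theorem t4vj_Y_J :
    IsIntegral ↥(Algebra.adjoin ↥(tbFix 𝔓 H) {taJ (L := ↥(tbFix 𝔓 H)) (N' * 𝔓.p)})
      (t2iY ↥(tbFix 𝔓 H) N' 𝔓.p) := by
  rw [t2d_isIntegral_tbPhiF_iff, t4vj_tbPhiF_Y, t4vj_taJ_eq, tbPhiF_tbLevJ]
  exact t2cp_isIntegral_Yw N' 𝔓.p

include h in
/-- `j` is integral over `L[Y]`, `Y = j(pτ)`, at level `N' p` -/
theorem t4vj_J_Y :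
    IsIntegral ↥(Algebra.adjoin ↥(tbFix 𝔓 H) {t2iY ↥(tbFix 𝔓 H) N' 𝔓.p})
      (taJ (L := ↥(tbFix 𝔓 H)) (N' * 𝔓.p)) := by
  rw [t2d_isIntegral_tbPhiF_iff, t4vj_tbPhiF_Y, t4vj_taJ_eq, tbPhiF_tbLevJ]
  exact t2cp_isIntegral_J_of_Y N' 𝔓.p h

variable {Q : ℕ} (hQ : 2 ≤ Q)

include hQ in
/-- `β₁ (j^Q - j)` is integral over `L[j^Q - j]` at level `N' p` -/
theorem t4vj_betaX_lev1 :
    IsIntegral ↥(Algebra.adjoin ↥(tbFix 𝔓 H)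
        {taJ (L := ↥(tbFix 𝔓 H)) (N' * 𝔓.p) ^ Q - taJ (N' * 𝔓.p)})
      (heckeBetaBar ↥(tbFix 𝔓 H) N' 𝔓.p (taJ (L := ↥(tbFix 𝔓 H)) N' ^ Q - taJ N')) := by
  rw [map_sub, map_pow, ← t2iY_eq_beta]
  exact t4vj_chart hQ (t4vj_Y_J 𝔓 H N')

include h hQ in
/-- `j^Q - j` is integral over `L[β₁ (j^Q - j)]` at level `N' p` -/
theorem t4vj_lev1_betaX :
    IsIntegral ↥(Algebra.adjoin ↥(tbFix 𝔓 H)
        {heckeBetaBar ↥(tbFix 𝔓 H) N' 𝔓.p (taJ (L := ↥(tbFix 𝔓 H)) N' ^ Q - taJ N')})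
      (taJ (L := ↥(tbFix 𝔓 H)) (N' * 𝔓.p) ^ Q - taJ (N' * 𝔓.p)) := by
  rw [map_sub, map_pow, ← t2iY_eq_beta]
  exact t4vj_chart hQ (t4vj_J_Y 𝔓 H N' h)

/-! ### Level `N' p p` -/

theorem t4vj_alpha_taJ :
    heckeAlphaBar ↥(tbFix 𝔓 H) (N' * 𝔓.p) 𝔓.p (taJ (L := ↥(tbFix 𝔓 H)) (N' * 𝔓.p)) =
      taJ (L := ↥(tbFix 𝔓 H)) (N' * 𝔓.p * 𝔓.p) := by
  apply Subtype.ext
  rw [coe_heckeAlphaBar]
  rfl

theorem t4vj_alpha_Y :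
    heckeAlphaBar ↥(tbFix 𝔓 H) (N' * 𝔓.p) 𝔓.p (t2iY ↥(tbFix 𝔓 H) N' 𝔓.p) =
      heckeBetaBar ↥(tbFix 𝔓 H) (N' * 𝔓.p) 𝔓.p (taJ (L := ↥(tbFix 𝔓 H)) (N' * 𝔓.p)) := by
  apply Subtype.ext
  rw [coe_heckeAlphaBar, coe_heckeBetaBar, coe_t2iY]
  rfl

/-- `a1 j = β₂ j` is integral over `L[j]` at level `N' p p` -/
theorem t4vj_a1_a0 :
    IsIntegral ↥(Algebra.adjoin ↥(tbFix 𝔓 H) {taJ (L := ↥(tbFix 𝔓 H)) (N' * 𝔓.p * 𝔓.p)})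
      (heckeBetaBar ↥(tbFix 𝔓 H) (N' * 𝔓.p) 𝔓.p (taJ (L := ↥(tbFix 𝔓 H)) (N' * 𝔓.p))) := by
  have h1 := t2d_isIntegral_map (K := ↥(tbFix 𝔓 H)) (K' := ↥(tbFix 𝔓 H))
    (F := ↥(TaF ↥(tbFix 𝔓 H) (N' * 𝔓.p))) (F' := ↥(TaF ↥(tbFix 𝔓 H) (N' * 𝔓.p * 𝔓.p)))
    (RingHom.id ↥(tbFix 𝔓 H))
    ((heckeAlphaBar ↥(tbFix 𝔓 H) (N' * 𝔓.p) 𝔓.p : ↥(TaF ↥(tbFix 𝔓 H) (N' * 𝔓.p)) →ₐ[↥(tbFix 𝔓 H)]
      ↥(TaF ↥(tbFix 𝔓 H) (N' * 𝔓.p * 𝔓.p))) : ↥(TaF ↥(tbFix 𝔓 H) (N' * 𝔓.p)) →+*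
      ↥(TaF ↥(tbFix 𝔓 H) (N' * 𝔓.p * 𝔓.p)))
    (fun c => (heckeAlphaBar ↥(tbFix 𝔓 H) (N' * 𝔓.p) 𝔓.p).commutes c) (t4vj_Y_J 𝔓 H N')
  rw [RingHom.coe_coe, t4vj_alpha_taJ, t4vj_alpha_Y] at h1
  exact h1

include h in
/-- `j` is integral over `L[a1 j]`, `a1 j = β₂ j`, at level `N' p p` -/
theorem t4vj_a0_a1 :
    IsIntegral ↥(Algebra.adjoin ↥(tbFix 𝔓 H)
        {heckeBetaBar ↥(tbFix 𝔓 H) (N' * 𝔓.p) 𝔓.p (taJ (L := ↥(tbFix 𝔓 H)) (N' * 𝔓.p))})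
      (taJ (L := ↥(tbFix 𝔓 H)) (N' * 𝔓.p * 𝔓.p)) := by
  have h1 := t2d_isIntegral_map (K := ↥(tbFix 𝔓 H)) (K' := ↥(tbFix 𝔓 H))
    (F := ↥(TaF ↥(tbFix 𝔓 H) (N' * 𝔓.p))) (F' := ↥(TaF ↥(tbFix 𝔓 H) (N' * 𝔓.p * 𝔓.p)))
    (RingHom.id ↥(tbFix 𝔓 H))
    ((heckeAlphaBar ↥(tbFix 𝔓 H) (N' * 𝔓.p) 𝔓.p : ↥(TaF ↥(tbFix 𝔓 H) (N' * 𝔓.p)) →ₐ[↥(tbFix 𝔓 H)]
      ↥(TaF ↥(tbFix 𝔓 H) (N' * 𝔓.p * 𝔓.p))) : ↥(TaF ↥(tbFix 𝔓 H) (N' * 𝔓.p)) →+*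
      ↥(TaF ↥(tbFix 𝔓 H) (N' * 𝔓.p * 𝔓.p)))
    (fun c => (heckeAlphaBar ↥(tbFix 𝔓 H) (N' * 𝔓.p) 𝔓.p).commutes c) (t4vj_J_Y 𝔓 H N' h)
  rw [RingHom.coe_coe, t4vj_alpha_taJ, t4vj_alpha_Y] at h1
  exact h1

include h hQ in
/-- **`hx` of `t4vq_presOver_chart` for the `β`-structure**: the chart `x = j^Q - j` of level
`N' p p` is integral over `L[β₂ (j^Q - j)]` -/
theorem t4vj_X_betaX :
    IsIntegral ↥(Algebra.adjoin ↥(tbFix 𝔓 H)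
        {heckeBetaBar ↥(tbFix 𝔓 H) (N' * 𝔓.p) 𝔓.p
          (taJ (L := ↥(tbFix 𝔓 H)) (N' * 𝔓.p) ^ Q - taJ (N' * 𝔓.p))})
      (t4vX ↥(tbFix 𝔓 H) N' 𝔓.p Q) := by
  rw [map_sub, map_pow, t4vX]
  exact t4vj_chart hQ (t4vj_a0_a1 𝔓 H N' h)

include hQ in
/-- **`hx'` of `t4vq_presOver_chart` for the `β`-structure**: `β₂ (j^Q - j)` is integral over
`L[x]`, `x = j^Q - j` the chart of level `N' p p` -/
theorem t4vj_betaX_X :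
    IsIntegral ↥(Algebra.adjoin ↥(tbFix 𝔓 H) {t4vX ↥(tbFix 𝔓 H) N' 𝔓.p Q})
      (heckeBetaBar ↥(tbFix 𝔓 H) (N' * 𝔓.p) 𝔓.p
          (taJ (L := ↥(tbFix 𝔓 H)) (N' * 𝔓.p) ^ Q - taJ (N' * 𝔓.p))) := by
  rw [map_sub, map_pow, t4vX]
  exact t4vj_chart hQ (t4vj_a1_a0 𝔓 H N')

end Lev

end Fermat.Agent.T4
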