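/-
T4-V (helper5): the two norm relations at the triple points of chart 1 (`T4nCChart.hcase`).

In the situation `T4rtTop` of `Reg/TopReg.lean` (chart presentations `P1`, `P` at levels `N' q`,
`N' q²`, with `T4PresOver` for both `α₂` and `β₂`), for a Kummer element `z` with
`N_α z = c_α · f_α ^ m`, `N_β z = c_β · f_β ^ m` (constants `c` units of `O`; `f_α ≡ 1` on
`V¹_inf`, `≡ a` on `V¹_0`; `f_β ≡ 1` on `V¹_0`, `≡ b` on `V¹_inf`; `a, b` units of `O`):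
at every closed point `𝔫` of `P` either at most one vertical valuation ring passes through `𝔫`
or all three do and, for every local generator `s` of `z`,
`κi κm^(q-1) = κ0^q · a`,  `κ0 κm^(q-1) = κi^q · b`   in `B / 𝔫`.

The inputs `hAi, hAm, hB0, hBm` (every element of `B` is congruent on the vertical valuation ring
to an element coming from `B₁`) are `T4vmGood.lift_*` of `ResInt.lean` combined with
`α'(B') ⊆ B₁`, `β'(B') ⊆ B₁`.
-/
import Fermat.Agent.Lib.T4.Reg.TopReg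
import Fermat.Agent.Lib.T4.Local.NormRel
import Fermat.Agent.Lib.T4.Inst.NormCong

set_option autoImplicit false
set_option linter.unusedSectionVars false
set_option linter.style.haveILetI false

namespace Fermat.Agent.T4

open HahnSeries ModularCurve Fermat.Agent.T1 Fermat.Agent.T2

section Rel

variable {L : Type} [Field L] [Algebra ℚ L] (O : ValuationSubring L) {k : Type*} [Field k]
  (π : ↥O →+* k) [IsDiscreteValuationRing ↥O] (hπ : Function.Surjective π) [IsAlgClosed k]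
  {N' q : ℕ} [NeZero N'] [hq : Fact q.Prime] [CharP k q] (hN' : (N' : k) ≠ 0)
  (W1 : T2iAL L N' q) (Fr : T2iFrob k N' q) (W : T4iAL L N' q)
  (hqO : Irreducible ((q : ℕ) : ↥O))
  {L' : Type*} [Field L'] [Algebra L L'] (O' : ValuationSubring L')
  [IsDiscreteValuationRing ↥O'] (π' : ↥O' →+* k) (C : T4iCyc O O' π π' q)
  (M : T4iMid L L' N' q C.ζ)

variable {O π hπ W1 W O' π' C M}
variable {x1 : ↥(TaF L (N' * q))} {x : ↥(TaF L (N' * q * q))}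
  {P1 : T4Pres ↥(TaF L (N' * q))} {P : T4Pres ↥(TaF L (N' * q * q))}

attribute [local instance] t2iAlgebra t2i_isScalarTower in
include hN' W1 Fr hqO in
/-- the constants of `O` lie in `B` -/
theorem t4vk_const_mem_B (hvals : P.vals = t4vpHor L x ∪ t4vwVer O π hπ W O' π' C M) (c : ↥O) :
    algebraMap L ↥(TaF L (N' * q * q)) (c : L) ∈ P.B := by
  rw [P.mem_iff]
  intro V hV
  rw [hvals] at hV
  rcases hV with hV | hV
  · exact t4vp_algebraMap_mem_hor hV _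
  · have h := (mem_t4vInput_Ov_iff O π hπ hN' W1 Fr W hqO O' π' C M _).mp
      ((t4vInput O π hπ hN' W1 Fr W hqO O' π' C M).algebraMap_mem_Ov c)
    rcases (mem_t4vwVer O π hπ W O' π' C M V).mp hV with rfl | rfl | rfl
    · exact h.1
    · exact h.2.2
    · exact h.2.1

/-- the constants of `O` lie in `B₁` -/
theorem t4vk_const_mem_B1 (hvals1 : P1.vals = t4vpHor L x1 ∪ t4rtVer1 O π hπ W1) (c : ↥O) :
    algebraMap L ↥(TaF L (N' * q)) (c : L) ∈ P1.B := by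
  rw [P1.mem_iff]
  intro V hV
  rw [hvals1] at hV
  rcases hV with hV | hV
  · exact t4vp_algebraMap_mem_hor hV _
  · rcases hV with rfl | hV
    · exact algebraMap_mem_taOv O π hπ (N' * q) c
    · rw [Set.mem_singleton_iff] at hV
      rw [hV]
      show W1.w (algebraMap L ↥(TaF L (N' * q)) (c : L)) ∈ taOv O π hπ (N' * q)
      rw [AlgEquiv.commutes]
      exact algebraMap_mem_taOv O π hπ (N' * q) c

/-- a unit constant has valuation `1` on every valuation ring of `P1` -/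
theorem t4vk_const_valuation1 (hvals1 : P1.vals = t4vpHor L x1 ∪ t4rtVer1 O π hπ W1) {c : L}
    (hc : c ∈ O) (hci : c⁻¹ ∈ O) (hc0 : c ≠ 0) {V1 : ValuationSubring ↥(TaF L (N' * q))}
    (hV1 : V1 ∈ P1.vals) : V1.valuation (algebraMap L ↥(TaF L (N' * q)) c) = 1 := by
  have h1 := P1.B_le hV1 (t4vk_const_mem_B1 hvals1 ⟨c, hc⟩)
  have h2 := P1.B_le hV1 (t4vk_const_mem_B1 hvals1 ⟨c⁻¹, hci⟩)
  refine t4vs_valuation_unit V1 ((map_ne_zero _).mpr hc0) h1 ?_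
  rw [← map_inv₀]
  exact h2

/-- a unit of `O` gives a unit of `B₁`, hence lies in no proper ideal -/
theorem t4vk_const_not_mem1 (hvals1 : P1.vals = t4vpHor L x1 ∪ t4rtVer1 O π hπ W1) {a : ↥O}
    (ha : IsUnit a) {φ : P1.B} (hφ : (φ : ↥(TaF L (N' * q))) = algebraMap L _ (a : L))
    (𝔫1 : Ideal P1.B) (h𝔫1 : 𝔫1 ≠ ⊤) : φ ∉ 𝔫1 := by
  obtain ⟨u, rfl⟩ := ha
  intro hmem
  apply h𝔫1
  have hu : (⟨algebraMap L ↥(TaF L (N' * q)) ((↑u⁻¹ : ↥O) : L),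
      t4vk_const_mem_B1 hvals1 _⟩ : P1.B) * φ = 1 := by
    apply Subtype.ext
    rw [Subring.coe_mul, hφ, Subring.coe_one, ← map_mul, ← Subring.coe_mul, Units.inv_mul,
      Subring.coe_one, map_one]
  rw [Ideal.eq_top_iff_one, ← hu]
  exact 𝔫1.mul_mem_left _ hmem

/-! #### The `α`-relation -/

section A

attribute [local instance] t2iAlgebra

include hN' Fr hqO in
/-- **the `α`-relation at a triple point**: `κi · κm^(q-1) · 1 = κ0^q · a` -/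
theorem T4rtTop.rel_alpha (T : T4rtTop O π hπ W1 W O' π' C M x1 x P1 P)
    (hG : T4rtRegG O π hπ W1 P1) (𝔫 : Ideal P.B) [h𝔫 : 𝔫.IsMaximal]
    (hi : t4vOinf (N' := N') (q := q) O π hπ ∈ P.through 𝔫)
    (hmid : t4vOmid O π hπ O' π' C M ∈ P.through 𝔫)
    (h0 : t4vO0 O π hπ W ∈ P.through 𝔫)
    (hAi : ∀ b ∈ P.B, ∃ b' ∈ P1.B, (t4vOinf (N' := N') (q := q) O π hπ).valuation
      (b - heckeAlphaBar L (N' * q) q b') < 1)
    (hAm : ∀ b ∈ P.B, ∃ b' ∈ P1.B, (t4vOmid O π hπ O' π' C M).valuation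
      (b - heckeAlphaBar L (N' * q) q b') < 1)
    {m : ℕ} (hm : m ≠ 0) {z s : ↥(TaF L (N' * q * q))}
    (hs : ∀ V ∈ P.through 𝔫, V.valuation (s ^ m * z) = 1)
    {c : L} (hc : c ∈ O) (hci : c⁻¹ ∈ O) (hc0 : c ≠ 0) {f : ↥(TaF L (N' * q))} {a : ↥O}
    (ha : IsUnit a)
    (hN : t4vnNormA L N' q z = algebraMap L ↥(TaF L (N' * q)) c * f ^ m)
    (hf1 : (taOv O π hπ (N' * q)).valuation (f - 1) < 1)
    (hf2 : (t4rtO10 O π hπ W1).valuation (f - algebraMap L ↥(TaF L (N' * q)) (a : L)) < 1)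
    {a2 : P.B} (ha2 : (a2 : ↥(TaF L (N' * q * q))) = algebraMap L _ (a : L))
    {κi κm κ0 : P.B ⧸ 𝔫}
    (hκi : P.BranchVal 𝔫 (t4vOinf (N' := N') (q := q) O π hπ) s κi)
    (hκm : P.BranchVal 𝔫 (t4vOmid O π hπ O' π' C M) s κm)
    (hκ0 : P.BranchVal 𝔫 (t4vO0 O π hπ W) s κ0) (hi0 : κi ≠ 0) (hm0 : κm ≠ 0) (h00 : κ0 ≠ 0) :
    κi * κm ^ (q - 1) * Ideal.Quotient.mk 𝔫 1 = κ0 ^ q * Ideal.Quotient.mk 𝔫 a2 := by
  have hcomap := T.hcomapA hN' Fr hqO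
  obtain ⟨huniq, -⟩ := T.glued_alpha hN' Fr hqO hG 𝔫 h0 (Or.inl hi)
  have h1inf : taOv O π hπ (N' * q) ∈ P1.through (T.overA.under 𝔫) := by
    have := T.overA.comap_mem_through hi (hcomap _ hi.1)
    rwa [t4rt_comapA_inf] at this
  have h10 : t4rtO10 O π hπ W1 ∈ P1.through (T.overA.under 𝔫) := by
    have := T.overA.comap_mem_through h0 (hcomap _ h0.1)
    rwa [t4rt_comapA_zero] at this
  have hne : T.overA.under 𝔫 ≠ ⊤ := (T.overA.under_isMaximal 𝔫).ne_top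
  set φ' : P1.B := ⟨algebraMap L ↥(TaF L (N' * q)) (a : L), t4vk_const_mem_B1 T.vals1 a⟩
    with hφ'
  have hφ1 : (1 : P1.B) ∉ T.overA.under 𝔫 := fun h => hne ((Ideal.eq_top_iff_one _).mpr h)
  have hφ'n : φ' ∉ T.overA.under 𝔫 := t4vk_const_not_mem1 T.vals1 ha rfl _ hne
  have hrel := T.overA.norm_relation 𝔫 huniq hm hs (c := algebraMap L ↥(TaF L (N' * q)) c)
    (f := f) hN (fun V1 hV1 => t4vk_const_valuation1 T.vals1 hc hci hc0 hV1.1)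
    (V1 := taOv O π hπ (N' * q)) h1inf hi hmid (e := q - 1)
    (fun y a a' ha ha' _ _ h1 h2 =>
      t4vn_hsplit_alpha O π hπ hN' W1 Fr W hqO O' π' C M y a a' (ha _ h1inf) (ha' _ h1inf) h1 h2)
    (fun x hx => T.overA.exists_loc_congr 𝔫 hi hAi hx)
    (fun x hx => T.overA.exists_loc_congr 𝔫 hmid hAm hx)
    (φ := 1) hφ1 (by rw [Subring.coe_one]; exact hf1)
    (V1' := t4rtO10 O π hπ W1) h10 h0
    (fun x hx => t4vn_hover_alpha O π hπ W1 W x hx) (Q := q)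
    (fun y hy => t4vn_hfrob_alpha O π hπ hN' W1 Fr W hqO O' π' C M y hy)
    (φ' := φ') hφ'n hf2 hκi hκm hκ0 hi0 hm0 h00
  rw [map_one] at hrel
  have e2 : T.overA.incl φ' = a2 := by
    apply Subtype.ext
    rw [T4PresOver.coe_incl, ha2]
    exact (heckeAlphaBar L (N' * q) q).commutes _
  rw [← e2]
  exact hrel

end A

/-! #### The `β`-relation -/

section B

attribute [local instance] t4vnAlgB

include hN' Fr hqO in
/-- **the `β`-relation at a triple point**: `κ0 · κm^(q-1) · 1 = κi^q · b` -/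
theorem T4rtTop.rel_beta (T : T4rtTop O π hπ W1 W O' π' C M x1 x P1 P)
    (hG : T4rtRegG O π hπ W1 P1) (𝔫 : Ideal P.B) [h𝔫 : 𝔫.IsMaximal]
    (hi : t4vOinf (N' := N') (q := q) O π hπ ∈ P.through 𝔫)
    (hmid : t4vOmid O π hπ O' π' C M ∈ P.through 𝔫)
    (h0 : t4vO0 O π hπ W ∈ P.through 𝔫)
    (hB0 : ∀ b ∈ P.B, ∃ b' ∈ P1.B, (t4vO0 O π hπ W).valuation
      (b - heckeBetaBar L (N' * q) q b') < 1)
    (hBm : ∀ b ∈ P.B, ∃ b' ∈ P1.B, (t4vOmid O π hπ O' π' C M).valuation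
      (b - heckeBetaBar L (N' * q) q b') < 1)
    {m : ℕ} (hm : m ≠ 0) {z s : ↥(TaF L (N' * q * q))}
    (hs : ∀ V ∈ P.through 𝔫, V.valuation (s ^ m * z) = 1)
    {c : L} (hc : c ∈ O) (hci : c⁻¹ ∈ O) (hc0 : c ≠ 0) {f : ↥(TaF L (N' * q))} {b : ↥O}
    (hb : IsUnit b)
    (hN : t4vnNormB L N' q z = algebraMap L ↥(TaF L (N' * q)) c * f ^ m)
    (hf1 : (t4rtO10 O π hπ W1).valuation (f - 1) < 1)
    (hf2 : (taOv O π hπ (N' * q)).valuation (f - algebraMap L ↥(TaF L (N' * q)) (b : L)) < 1)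
    {b2 : P.B} (hb2 : (b2 : ↥(TaF L (N' * q * q))) = algebraMap L _ (b : L))
    {κi κm κ0 : P.B ⧸ 𝔫}
    (hκi : P.BranchVal 𝔫 (t4vOinf (N' := N') (q := q) O π hπ) s κi)
    (hκm : P.BranchVal 𝔫 (t4vOmid O π hπ O' π' C M) s κm)
    (hκ0 : P.BranchVal 𝔫 (t4vO0 O π hπ W) s κ0) (hi0 : κi ≠ 0) (hm0 : κm ≠ 0) (h00 : κ0 ≠ 0) :
    κ0 * κm ^ (q - 1) * Ideal.Quotient.mk 𝔫 1 = κi ^ q * Ideal.Quotient.mk 𝔫 b2 := by
  have hcomap := T.hcomapB hN' Fr hqO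
  obtain ⟨huniq, -⟩ := T.glued_beta hN' Fr hqO hG 𝔫 hi (Or.inl hmid)
  have h1inf : taOv O π hπ (N' * q) ∈ P1.through (T.overB.under 𝔫) := by
    have := T.overB.comap_mem_through hi (hcomap _ hi.1)
    rwa [t4rt_comapB_inf O π hπ W1 W] at this
  have h10 : t4rtO10 O π hπ W1 ∈ P1.through (T.overB.under 𝔫) := by
    have := T.overB.comap_mem_through h0 (hcomap _ h0.1)
    rwa [t4rt_comapB_zero] at this
  have hne : T.overB.under 𝔫 ≠ ⊤ := (T.overB.under_isMaximal 𝔫).ne_top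
  set φ' : P1.B := ⟨algebraMap L ↥(TaF L (N' * q)) (b : L), t4vk_const_mem_B1 T.vals1 b⟩
    with hφ'
  have hφ1 : (1 : P1.B) ∉ T.overB.under 𝔫 := fun h => hne ((Ideal.eq_top_iff_one _).mpr h)
  have hφ'n : φ' ∉ T.overB.under 𝔫 := t4vk_const_not_mem1 T.vals1 hb rfl _ hne
  have hrel := T.overB.norm_relation 𝔫 huniq hm hs (c := algebraMap L ↥(TaF L (N' * q)) c)
    (f := f) hN (fun V1 hV1 => t4vk_const_valuation1 T.vals1 hc hci hc0 hV1.1)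
    (V1 := t4rtO10 O π hπ W1) h10 h0 hmid (e := q - 1)
    (fun y a a' ha ha' _ _ h1 h2 =>
      t4vn_hsplit_beta O π hπ hN' W1 Fr W hqO O' π' C M y a a' (ha _ h10) (ha' _ h10) h1 h2)
    (fun x hx => T.overB.exists_loc_congr 𝔫 h0 hB0 hx)
    (fun x hx => T.overB.exists_loc_congr 𝔫 hmid hBm hx)
    (φ := 1) hφ1 (by rw [Subring.coe_one]; exact hf1)
    (V1' := taOv O π hπ (N' * q)) h1inf hi
    (fun x hx => t4vn_hover_beta O π hπ x hx) (Q := q)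
    (fun y hy => t4vn_hfrob_beta O π hπ hN' W1 Fr W hqO O' π' C M y hy)
    (φ' := φ') hφ'n hf2 hκ0 hκm hκi h00 hm0 hi0
  rw [map_one] at hrel
  have e2 : T.overB.incl φ' = b2 := by
    apply Subtype.ext
    rw [T4PresOver.coe_incl, hb2]
    exact (heckeBetaBar L (N' * q) q).commutes _
  rw [← e2]
  exact hrel

end B

/-! #### `hcase` on chart 1 -/

include hN' Fr hqO in
/-- **`T4nCChart.hcase` on chart 1** (`a1 = b1 = 1`, `a2 = a`, `b2 = b` constants) -/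
theorem T4rtTop.hcase (T : T4rtTop O π hπ W1 W O' π' C M x1 x P1 P)
    (hG : T4rtRegG O π hπ W1 P1)
    (hAi : ∀ b ∈ P.B, ∃ b' ∈ P1.B, (t4vOinf (N' := N') (q := q) O π hπ).valuation
      (b - heckeAlphaBar L (N' * q) q b') < 1)
    (hAm : ∀ b ∈ P.B, ∃ b' ∈ P1.B, (t4vOmid O π hπ O' π' C M).valuation
      (b - heckeAlphaBar L (N' * q) q b') < 1)
    (hB0 : ∀ b ∈ P.B, ∃ b' ∈ P1.B, (t4vO0 O π hπ W).valuation
      (b - heckeBetaBar L (N' * q) q b') < 1)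
    (hBm : ∀ b ∈ P.B, ∃ b' ∈ P1.B, (t4vOmid O π hπ O' π' C M).valuation
      (b - heckeBetaBar L (N' * q) q b') < 1)
    {m : ℕ} (hm : m ≠ 0) {z : ↥(TaF L (N' * q * q))}
    {ca cb : L} (hca : ca ∈ O) (hcai : ca⁻¹ ∈ O) (hca0 : ca ≠ 0)
    (hcb : cb ∈ O) (hcbi : cb⁻¹ ∈ O) (hcb0 : cb ≠ 0)
    {fa fb : ↥(TaF L (N' * q))} {a b : ↥O} (ha : IsUnit a) (hb : IsUnit b)
    (hNa : t4vnNormA L N' q z = algebraMap L ↥(TaF L (N' * q)) ca * fa ^ m)
    (hfa1 : (taOv O π hπ (N' * q)).valuation (fa - 1) < 1)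
    (hfa2 : (t4rtO10 O π hπ W1).valuation (fa - algebraMap L ↥(TaF L (N' * q)) (a : L)) < 1)
    (hNb : t4vnNormB L N' q z = algebraMap L ↥(TaF L (N' * q)) cb * fb ^ m)
    (hfb1 : (t4rtO10 O π hπ W1).valuation (fb - 1) < 1)
    (hfb2 : (taOv O π hπ (N' * q)).valuation (fb - algebraMap L ↥(TaF L (N' * q)) (b : L)) < 1)
    {a2 b2 : P.B} (ha2 : (a2 : ↥(TaF L (N' * q * q))) = algebraMap L _ (a : L))
    (hb2 : (b2 : ↥(TaF L (N' * q * q))) = algebraMap L _ (b : L))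
    (𝔫 : Ideal P.B) (h𝔫 : 𝔫.IsMaximal) (s : ↥(TaF L (N' * q * q)))
    (hs : ∀ V ∈ P.through 𝔫, V.valuation (s ^ m * z) = 1) :
    (∀ V ∈ P.through 𝔫, V ∈ P.vert (t4vQ L N' q) →
        ∀ V' ∈ P.through 𝔫, V' ∈ P.vert (t4vQ L N' q) → V = V') ∨
      ((∀ V ∈ P.through 𝔫, V ∈ P.vert (t4vQ L N' q) →
          V = t4vOinf (N' := N') (q := q) O π hπ ∨ V = t4vOmid O π hπ O' π' C M ∨
            V = t4vO0 O π hπ W) ∧
        t4vOinf (N' := N') (q := q) O π hπ ∈ P.through 𝔫 ∧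
        t4vOmid O π hπ O' π' C M ∈ P.through 𝔫 ∧ t4vO0 O π hπ W ∈ P.through 𝔫 ∧
        t4vOinf (N' := N') (q := q) O π hπ ∈ P.vert (t4vQ L N' q) ∧
        t4vOmid O π hπ O' π' C M ∈ P.vert (t4vQ L N' q) ∧
        t4vO0 O π hπ W ∈ P.vert (t4vQ L N' q) ∧
        ∀ κi κm κ0 : P.B ⧸ 𝔫,
          P.BranchVal 𝔫 (t4vOinf (N' := N') (q := q) O π hπ) s κi →
          P.BranchVal 𝔫 (t4vOmid O π hπ O' π' C M) s κm →
          P.BranchVal 𝔫 (t4vO0 O π hπ W) s κ0 → κi ≠ 0 → κm ≠ 0 → κ0 ≠ 0 →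
          κi * κm ^ (q - 1) * Ideal.Quotient.mk 𝔫 1 = κ0 ^ q * Ideal.Quotient.mk 𝔫 a2 ∧
          κ0 * κm ^ (q - 1) * Ideal.Quotient.mk 𝔫 1 = κi ^ q * Ideal.Quotient.mk 𝔫 b2) := by
  haveI := h𝔫
  rcases T.trichotomy hN' Fr hqO hG 𝔫 with hone | ⟨h3, hi, hmid, h0, hiq, hmq, h0q⟩
  · exact Or.inl hone
  · refine Or.inr ⟨h3, hi, hmid, h0, hiq, hmq, h0q, ?_⟩
    intro κi κm κ0 hκi hκm hκ0 hi0 hm0 h00
    exact ⟨T.rel_alpha hN' Fr hqO hG 𝔫 hi hmid h0 hAi hAm hm hs hca hcai hca0 ha hNa hfa1 hfa2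
        ha2 hκi hκm hκ0 hi0 hm0 h00,
      T.rel_beta hN' Fr hqO hG 𝔫 hi hmid h0 hB0 hBm hm hs hcb hcbi hcb0 hb hNb hfb1 hfb2
        hb2 hκi hκm hκ0 hi0 hm0 h00⟩

end Rel

end Fermat.Agent.T4
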