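/-
T4-V "Val2" (lead), part 1: **residue homs of the three vertical valuation rings, unit criterion,
divisibility by the uniformisers, the degeneracy maps `a0, a1, a2 : 𝒪' → 𝒪` with the reduction table,
and the basic elements** `A = a2 j - (a1 j)^q`, `A' = a0 j - (a1 j)^q`, `B = a2 j - a0 j = ϖ` of
`𝒪 = (t4vInput …).Ov` with their reductions `(0, δ, δ)`, `(δ, δ, 0)`, `(-δ, 0, δ)`,
`δ = j̄ - j̄(𝔮^{q²}) ≠ 0`.  Same data as `Val.lean` / `ValSub.lean`.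
-/
import Fermat.Agent.Lib.T4.Inst.ValSub

set_option autoImplicit false
set_option linter.unusedSectionVars false
set_option linter.unusedVariables false
set_option linter.style.haveILetI false
set_option synthInstance.maxHeartbeats 400000

open HahnSeries ModularCurve Fermat.Agent.T1 Fermat.Agent.T2 IntermediateField

noncomputable section

namespace Fermat.Agent.T4

section Sub

variable {L : Type} [Field L] [Algebra ℚ L] (O : ValuationSubring L) {k : Type*} [Field k]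
  (π : ↥O →+* k) [IsDiscreteValuationRing ↥O] (hπ : Function.Surjective π) [IsAlgClosed k]
  {N' q : ℕ} [NeZero N'] [hq : Fact q.Prime] [CharP k q] (hN' : (N' : k) ≠ 0)
  (W1 : T2iAL L N' q) (Fr : T2iFrob k N' q) (W : T4iAL L N' q)
  (hqO : Irreducible ((q : ℕ) : ↥O))
  {L' : Type*} [Field L'] [Algebra L L'] (O' : ValuationSubring L')
  [IsDiscreteValuationRing ↥O'] (π' : ↥O' →+* k) (C : T4iCyc O O' π π' q)
  (M : T4iMid L L' N' q C.ζ)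

attribute [local instance] t2iAlgebra t2i_isScalarTower

/-- the residue map of `O_inf` -/
def t4veRinf : ↥(t4vOinf (N' := N') (q := q) O π hπ) →+* LaurentSeries k :=
  taResN O π hπ (N' * q * q)

/-- the residue map of `O_0` -/
def t4veR0 : ↥(t4vO0 O π hπ W) →+* LaurentSeries k :=
  (taResN O π hπ (N' * q * q)).comp
    (((W.w : ↥(TaF L (N' * q * q)) →+* ↥(TaF L (N' * q * q))).comp
      (t4vO0 O π hπ W).subtype).codRestrict (taOv O π hπ (N' * q * q)).toSubring (fun f => f.2))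

/-- the residue map of `O_mid` -/
def t4veRmid : ↥(t4vOmid O π hπ O' π' C M) →+* LaurentSeries k :=
  (taRho O' π').comp
    ((M.ι.comp (t4vOmid O π hπ O' π' C M).subtype).codRestrict (taGaussSubring O' π')
      (fun f => f.2))

theorem t4veRinf_apply (f : ↥(t4vOinf (N' := N') (q := q) O π hπ)) :
    t4veRinf O π hπ f = taRhoFun O π ((f : ↥(TaF L (N' * q * q))) : LaurentSeries L) := rfl

theorem t4veR0_apply (f : ↥(t4vO0 O π hπ W)) :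
    t4veR0 O π hπ W f =
      taRhoFun O π ((W.w (f : ↥(TaF L (N' * q * q))) : ↥(TaF L (N' * q * q))) :
        LaurentSeries L) := rfl

theorem t4veRmid_apply (f : ↥(t4vOmid O π hπ O' π' C M)) :
    t4veRmid O π hπ O' π' C M f = taRhoFun O' π' (M.ι (f : ↥(TaF L (N' * q * q)))) := rfl


/-! ### Units: non-zero residue -/

theorem t4ve_inv_mem_inf (f : ↥(t4vOinf (N' := N') (q := q) O π hπ))
    (h : t4veRinf O π hπ f ≠ 0) :
    ((f : ↥(TaF L (N' * q * q))))⁻¹ ∈ t4vOinf (N' := N') (q := q) O π hπ :=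
  inv_mem_taOv_of_taResN_ne_zero O π hπ (N' * q * q) f h

theorem t4ve_inv_mem_zero (f : ↥(t4vO0 O π hπ W)) (h : t4veR0 O π hπ W f ≠ 0) :
    ((f : ↥(TaF L (N' * q * q))))⁻¹ ∈ t4vO0 O π hπ W := by
  rw [mem_t4vO0, map_inv₀]
  exact inv_mem_taOv_of_taResN_ne_zero O π hπ (N' * q * q)
    ⟨W.w (f : ↥(TaF L (N' * q * q))), f.2⟩ h

theorem t4ve_inv_mem_mid (f : ↥(t4vOmid O π hπ O' π' C M))
    (h : t4veRmid O π hπ O' π' C M f ≠ 0) :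
    ((f : ↥(TaF L (N' * q * q))))⁻¹ ∈ t4vOmid O π hπ O' π' C M := by
  rw [mem_t4vOmid, map_inv₀]
  exact taGauss_inv_of_taRho_ne_zero O' π' ⟨M.ι (f : ↥(TaF L (N' * q * q))), f.2⟩ h

/-- a unit has non-zero residue -/
theorem t4ve_rinf_ne_zero (f : ↥(t4vOinf (N' := N') (q := q) O π hπ))
    (hf0 : (f : ↥(TaF L (N' * q * q))) ≠ 0)
    (hfi : ((f : ↥(TaF L (N' * q * q))))⁻¹ ∈ t4vOinf (N' := N') (q := q) O π hπ) :
    t4veRinf O π hπ f ≠ 0 := by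
  intro h
  have h1 : f * ⟨_, hfi⟩ = 1 := Subtype.ext (mul_inv_cancel₀ hf0)
  have h2 := congrArg (t4veRinf O π hπ) h1
  rw [map_mul, h, zero_mul, map_one] at h2
  exact zero_ne_one h2

theorem t4ve_r0_ne_zero (f : ↥(t4vO0 O π hπ W))
    (hf0 : (f : ↥(TaF L (N' * q * q))) ≠ 0)
    (hfi : ((f : ↥(TaF L (N' * q * q))))⁻¹ ∈ t4vO0 O π hπ W) :
    t4veR0 O π hπ W f ≠ 0 := by
  intro h
  have h1 : f * ⟨_, hfi⟩ = 1 := Subtype.ext (mul_inv_cancel₀ hf0)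
  have h2 := congrArg (t4veR0 O π hπ W) h1
  rw [map_mul, h, zero_mul, map_one] at h2
  exact zero_ne_one h2

theorem t4ve_rmid_ne_zero (f : ↥(t4vOmid O π hπ O' π' C M))
    (hf0 : (f : ↥(TaF L (N' * q * q))) ≠ 0)
    (hfi : ((f : ↥(TaF L (N' * q * q))))⁻¹ ∈ t4vOmid O π hπ O' π' C M) :
    t4veRmid O π hπ O' π' C M f ≠ 0 := by
  intro h
  have h1 : f * ⟨_, hfi⟩ = 1 := Subtype.ext (mul_inv_cancel₀ hf0)
  have h2 := congrArg (t4veRmid O π hπ O' π' C M) h1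
  rw [map_mul, h, zero_mul, map_one] at h2
  exact zero_ne_one h2

/-! ### Zero residue: divisibility by the uniformiser -/

include hqO in
theorem t4ve_dvd_inf (f : ↥(t4vOinf (N' := N') (q := q) O π hπ)) (h : t4veRinf O π hπ f = 0) :
    ∃ o ∈ t4vOinf (N' := N') (q := q) O π hπ,
      (f : ↥(TaF L (N' * q * q))) = t4vQ L N' q * o := by
  obtain ⟨f', hf'⟩ := (taResN_eq_zero_iff O π hπ (N' * q * q) hqO f).mp h
  exact ⟨f', f'.2, hf'⟩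

include hqO in
theorem t4ve_dvd_zero (f : ↥(t4vO0 O π hπ W)) (h : t4veR0 O π hπ W f = 0) :
    ∃ o ∈ t4vO0 O π hπ W, (f : ↥(TaF L (N' * q * q))) = t4vQ L N' q * o := by
  obtain ⟨f', hf'⟩ := (taResN_eq_zero_iff O π hπ (N' * q * q) hqO
    ⟨W.w (f : ↥(TaF L (N' * q * q))), f.2⟩).mp h
  refine ⟨W.w (f' : ↥(TaF L (N' * q * q))), ?_, ?_⟩
  · rw [mem_t4vO0, W.w_w]
    exact f'.2
  · have h1 := congrArg W.w hf'
    rw [W.w_w, map_mul] at h1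
    rw [h1]
    congr 1
    exact AlgEquiv.commutes _ _

include hπ in
theorem t4ve_dvd_mid (f : ↥(t4vOmid O π hπ O' π' C M)) (h : t4veRmid O π hπ O' π' C M f = 0) :
    ∃ o ∈ t4vOmid O π hπ O' π' C M, (f : ↥(TaF L (N' * q * q))) = t4vPi L N' q * o := by
  obtain ⟨f', hf', e⟩ := (taRho_eq_zero_iff (C.π'_surjective hπ) C.unif
    ⟨M.ι (f : ↥(TaF L (N' * q * q))), f.2⟩).mp h
  have hPi0 := t4vPi_ne_zero O π hπ O' π' C M
  have hP0 := t4v_C_lam_ne_zero O π O' π' C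
  have hth0 := t4v_th_ne_zero O π hπ O' π' C
  have hthi := t4v_gauss_th_inv O π hπ O' π' C
  refine ⟨(t4vPi L N' q)⁻¹ * (f : ↥(TaF L (N' * q * q))), ?_, ?_⟩
  · rw [mem_t4vOmid, map_mul, map_inv₀, t4v_ι_Pi O π O' π' C M]
    have e' : M.ι (f : ↥(TaF L (N' * q * q))) = HahnSeries.C ((C.lam : ↥O') : L') * f' := e
    rw [e']
    have h2 : (HahnSeries.C ((C.lam : ↥O') : L') * -t4vDel C.ζ (jqModC L'))⁻¹ *
        (HahnSeries.C ((C.lam : ↥O') : L') * f') = (-t4vDel C.ζ (jqModC L'))⁻¹ * f' := by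
      field_simp
    rw [h2]
    exact (taGaussSubring O' π').mul_mem hthi hf'
  · rw [← mul_assoc, mul_inv_cancel₀ hPi0, one_mul]


/-! ### Powers of elements with zero residue are divisible by powers of `q` -/

/-- generic: `x ^ (q - 1) = Q * o` gives `x ^ (n * (q - 1)) = Q ^ n * o ^ n` -/
theorem t4ve_pow_aux {F : Type*} [Field F] (V : ValuationSubring F) {x Q : F} {e : ℕ}
    (h : ∃ o ∈ V, x ^ e = Q * o) (n : ℕ) : ∃ o ∈ V, x ^ (n * e) = Q ^ n * o := by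
  obtain ⟨o, ho, e1⟩ := h
  refine ⟨o ^ n, V.pow_mem ho n, ?_⟩
  rw [mul_comm n e, pow_mul, e1, mul_pow]

include hqO in
theorem t4ve_pow_inf (f : ↥(t4vOinf (N' := N') (q := q) O π hπ)) (h : t4veRinf O π hπ f = 0)
    (n : ℕ) : ∃ o ∈ t4vOinf (N' := N') (q := q) O π hπ,
      (f : ↥(TaF L (N' * q * q))) ^ (n * (q - 1)) = t4vQ L N' q ^ n * o := by
  refine t4ve_pow_aux _ ?_ n
  obtain ⟨o, ho, e⟩ := t4ve_dvd_inf O π hπ hqO f h
  have hq1 : q - 1 = (q - 2) + 1 := by have := hq.out.two_le; omega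
  refine ⟨t4vQ L N' q ^ (q - 2) * o ^ (q - 1), mul_mem (pow_mem (t4vQ_mem_inf O π hπ) _)
    (pow_mem ho _), ?_⟩
  rw [e, mul_pow]
  nth_rewrite 1 [hq1]
  rw [pow_succ]
  ring

include hqO in
theorem t4ve_pow_zero (f : ↥(t4vO0 O π hπ W)) (h : t4veR0 O π hπ W f = 0)
    (n : ℕ) : ∃ o ∈ t4vO0 O π hπ W,
      (f : ↥(TaF L (N' * q * q))) ^ (n * (q - 1)) = t4vQ L N' q ^ n * o := by
  refine t4ve_pow_aux _ ?_ n
  obtain ⟨o, ho, e⟩ := t4ve_dvd_zero O π hπ W hqO f h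
  have hq1 : q - 1 = (q - 2) + 1 := by have := hq.out.two_le; omega
  refine ⟨t4vQ L N' q ^ (q - 2) * o ^ (q - 1), mul_mem (pow_mem (t4vQ_mem_zero O π hπ W) _)
    (pow_mem ho _), ?_⟩
  rw [e, mul_pow]
  nth_rewrite 1 [hq1]
  rw [pow_succ]
  ring

include hπ in
theorem t4ve_pow_mid (f : ↥(t4vOmid O π hπ O' π' C M)) (h : t4veRmid O π hπ O' π' C M f = 0)
    (n : ℕ) : ∃ o ∈ t4vOmid O π hπ O' π' C M,
      (f : ↥(TaF L (N' * q * q))) ^ (n * (q - 1)) = t4vQ L N' q ^ n * o := by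
  refine t4ve_pow_aux _ ?_ n
  obtain ⟨o, ho, e⟩ := t4ve_dvd_mid O π hπ O' π' C M f h
  obtain ⟨u, hu, hui, eu⟩ := t4vQ_mid O π hπ O' π' C M
  have hu0 : u ≠ 0 := by
    rintro rfl
    rw [mul_zero] at eu
    exact t4vQ_ne_zero eu
  refine ⟨u⁻¹ * o ^ (q - 1), mul_mem hui (pow_mem ho _), ?_⟩
  rw [e, mul_pow, eu]
  field_simp


/-! ### The ring `𝒪` and its three reductions -/

theorem t4ve_mem_inf (f : ↥(t4vInput O π hπ hN' W1 Fr W hqO O' π' C M).Ov) :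
    (f : ↥(TaF L (N' * q * q))) ∈ t4vOinf (N' := N') (q := q) O π hπ :=
  ((mem_t4vInput_Ov_iff O π hπ hN' W1 Fr W hqO O' π' C M _).mp f.2).1

theorem t4ve_mem_zero (f : ↥(t4vInput O π hπ hN' W1 Fr W hqO O' π' C M).Ov) :
    (f : ↥(TaF L (N' * q * q))) ∈ t4vO0 O π hπ W :=
  ((mem_t4vInput_Ov_iff O π hπ hN' W1 Fr W hqO O' π' C M _).mp f.2).2.1

theorem t4ve_mem_mid (f : ↥(t4vInput O π hπ hN' W1 Fr W hqO O' π' C M).Ov) :
    (f : ↥(TaF L (N' * q * q))) ∈ t4vOmid O π hπ O' π' C M :=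
  ((mem_t4vInput_Ov_iff O π hπ hN' W1 Fr W hqO O' π' C M _).mp f.2).2.2

theorem t4ve_ρ₁_eq (f : ↥(t4vInput O π hπ hN' W1 Fr W hqO O' π' C M).Ov) :
    (t4vInput O π hπ hN' W1 Fr W hqO O' π' C M).ρ₁ f =
      t4veRinf O π hπ ⟨(f : ↥(TaF L (N' * q * q))), t4ve_mem_inf O π hπ hN' W1 Fr W hqO O' π' C M f⟩ := by
  rw [t4vInput_ρ₁, t4veRinf_apply]

theorem t4ve_ρ₂_eq (f : ↥(t4vInput O π hπ hN' W1 Fr W hqO O' π' C M).Ov) :
    (t4vInput O π hπ hN' W1 Fr W hqO O' π' C M).ρ₂ f =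
      t4veRmid O π hπ O' π' C M ⟨(f : ↥(TaF L (N' * q * q))), t4ve_mem_mid O π hπ hN' W1 Fr W hqO O' π' C M f⟩ := by
  rw [t4vInput_ρ₂, t4veRmid_apply]

theorem t4ve_ρ₃_eq (f : ↥(t4vInput O π hπ hN' W1 Fr W hqO O' π' C M).Ov) :
    (t4vInput O π hπ hN' W1 Fr W hqO O' π' C M).ρ₃ f =
      t4veR0 O π hπ W ⟨(f : ↥(TaF L (N' * q * q))), t4ve_mem_zero O π hπ hN' W1 Fr W hqO O' π' C M f⟩ := by
  rw [t4vInput_ρ₃, t4veR0_apply]

/-- **unit criterion for `𝒪`** -/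
theorem t4ve_inv_mem (f : ↥(t4vInput O π hπ hN' W1 Fr W hqO O' π' C M).Ov)
    (h1 : (t4vInput O π hπ hN' W1 Fr W hqO O' π' C M).ρ₁ f ≠ 0)
    (h2 : (t4vInput O π hπ hN' W1 Fr W hqO O' π' C M).ρ₂ f ≠ 0)
    (h3 : (t4vInput O π hπ hN' W1 Fr W hqO O' π' C M).ρ₃ f ≠ 0) :
    ((f : ↥(TaF L (N' * q * q))))⁻¹ ∈ (t4vInput O π hπ hN' W1 Fr W hqO O' π' C M).Ov := by
  have e1 := t4ve_ρ₁_eq O π hπ hN' W1 Fr W hqO O' π' C M f
  have e2 := t4ve_ρ₂_eq O π hπ hN' W1 Fr W hqO O' π' C M f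
  have e3 := t4ve_ρ₃_eq O π hπ hN' W1 Fr W hqO O' π' C M f
  refine (mem_t4vInput_Ov_iff O π hπ hN' W1 Fr W hqO O' π' C M _).mpr ⟨?_, ?_, ?_⟩
  · exact t4ve_inv_mem_inf O π hπ
      ⟨(f : ↥(TaF L (N' * q * q))), t4ve_mem_inf O π hπ hN' W1 Fr W hqO O' π' C M f⟩
      (fun h => h1 (e1.trans h))
  · exact t4ve_inv_mem_zero O π hπ W
      ⟨(f : ↥(TaF L (N' * q * q))), t4ve_mem_zero O π hπ hN' W1 Fr W hqO O' π' C M f⟩
      (fun h => h3 (e3.trans h))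
  · exact t4ve_inv_mem_mid O π hπ O' π' C M
      ⟨(f : ↥(TaF L (N' * q * q))), t4ve_mem_mid O π hπ hN' W1 Fr W hqO O' π' C M f⟩
      (fun h => h2 (e2.trans h))

/-! ### The three degeneracy maps on the Gauss rings -/

/-- `a0 : 𝒪' → 𝒪` -/
def t4veA0 : ↥(taOv O π hπ N') →+* ↥(t4vInput O π hπ hN' W1 Fr W hqO O' π' C M).Ov :=
  (((t4vA0 L N' q : ↥(TaF L N') →ₐ[L] ↥(TaF L (N' * q * q))) :
    ↥(TaF L N') →+* ↥(TaF L (N' * q * q))).comp (taOv O π hπ N').subtype).codRestrict _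
    (fun f => t4v_a0_mem O π hπ hN' W1 Fr W hqO O' π' C M f.2)

/-- `a1 : 𝒪' → 𝒪` -/
def t4veA1 : ↥(taOv O π hπ N') →+* ↥(t4vInput O π hπ hN' W1 Fr W hqO O' π' C M).Ov :=
  (((t4vA1 L N' q : ↥(TaF L N') →ₐ[L] ↥(TaF L (N' * q * q))) :
    ↥(TaF L N') →+* ↥(TaF L (N' * q * q))).comp (taOv O π hπ N').subtype).codRestrict _
    (fun f => t4v_a1_mem O π hπ hN' W1 Fr W hqO O' π' C M f.2)

/-- `a2 : 𝒪' → 𝒪` -/
def t4veA2 : ↥(taOv O π hπ N') →+* ↥(t4vInput O π hπ hN' W1 Fr W hqO O' π' C M).Ov :=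
  (((t4vA2 L N' q : ↥(TaF L N') →ₐ[L] ↥(TaF L (N' * q * q))) :
    ↥(TaF L N') →+* ↥(TaF L (N' * q * q))).comp (taOv O π hπ N').subtype).codRestrict _
    (fun f => t4v_a2_mem O π hπ hN' W1 Fr W hqO O' π' C M f.2)

theorem coe_t4veA0 (f : ↥(taOv O π hπ N')) :
    ((t4veA0 O π hπ hN' W1 Fr W hqO O' π' C M f :
      ↥(t4vInput O π hπ hN' W1 Fr W hqO O' π' C M).Ov) : ↥(TaF L (N' * q * q))) =
      t4vA0 L N' q (f : ↥(TaF L N')) := rfl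

theorem coe_t4veA1 (f : ↥(taOv O π hπ N')) :
    ((t4veA1 O π hπ hN' W1 Fr W hqO O' π' C M f :
      ↥(t4vInput O π hπ hN' W1 Fr W hqO O' π' C M).Ov) : ↥(TaF L (N' * q * q))) =
      t4vA1 L N' q (f : ↥(TaF L N')) := rfl

theorem coe_t4veA2 (f : ↥(taOv O π hπ N')) :
    ((t4veA2 O π hπ hN' W1 Fr W hqO O' π' C M f :
      ↥(t4vInput O π hπ hN' W1 Fr W hqO O' π' C M).Ov) : ↥(TaF L (N' * q * q))) =
      t4vA2 L N' q (f : ↥(TaF L N')) := rfl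

/-! the reduction table -/

theorem t4ve_ρ₁_A0 (f : ↥(taOv O π hπ N')) :
    (t4vInput O π hπ hN' W1 Fr W hqO O' π' C M).ρ₁ (t4veA0 O π hπ hN' W1 Fr W hqO O' π' C M f) =
      taResN O π hπ N' f := t4v_ρ₁_a0 O π hπ hN' W1 Fr W hqO O' π' C M f.2

theorem t4ve_ρ₂_A0 (f : ↥(taOv O π hπ N')) :
    (t4vInput O π hπ hN' W1 Fr W hqO O' π' C M).ρ₂ (t4veA0 O π hπ hN' W1 Fr W hqO O' π' C M f) =
      taResN O π hπ N' f := t4v_ρ₂_a0 O π hπ hN' W1 Fr W hqO O' π' C M f.2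

theorem t4ve_ρ₃_A0 (f : ↥(taOv O π hπ N')) :
    (t4vInput O π hπ hN' W1 Fr W hqO O' π' C M).ρ₃ (t4veA0 O π hπ hN' W1 Fr W hqO O' π' C M f) =
      qExpand k q (qExpand k q (taResN O π hπ N' f)) :=
  t4v_ρ₃_a0 O π hπ hN' W1 Fr W hqO O' π' C M f.2

theorem t4ve_ρ₁_A1 (f : ↥(taOv O π hπ N')) :
    (t4vInput O π hπ hN' W1 Fr W hqO O' π' C M).ρ₁ (t4veA1 O π hπ hN' W1 Fr W hqO O' π' C M f) =
      qExpand k q (taResN O π hπ N' f) := t4v_ρ₁_a1 O π hπ hN' W1 Fr W hqO O' π' C M f.2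

theorem t4ve_ρ₂_A1 (f : ↥(taOv O π hπ N')) :
    (t4vInput O π hπ hN' W1 Fr W hqO O' π' C M).ρ₂ (t4veA1 O π hπ hN' W1 Fr W hqO O' π' C M f) =
      qExpand k q (taResN O π hπ N' f) := t4v_ρ₂_a1 O π hπ hN' W1 Fr W hqO O' π' C M f.2

theorem t4ve_ρ₃_A1 (f : ↥(taOv O π hπ N')) :
    (t4vInput O π hπ hN' W1 Fr W hqO O' π' C M).ρ₃ (t4veA1 O π hπ hN' W1 Fr W hqO O' π' C M f) =
      qExpand k q (taResN O π hπ N' f) := t4v_ρ₃_a1 O π hπ hN' W1 Fr W hqO O' π' C M f.2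

theorem t4ve_ρ₁_A2 (f : ↥(taOv O π hπ N')) :
    (t4vInput O π hπ hN' W1 Fr W hqO O' π' C M).ρ₁ (t4veA2 O π hπ hN' W1 Fr W hqO O' π' C M f) =
      qExpand k q (qExpand k q (taResN O π hπ N' f)) :=
  t4v_ρ₁_a2 O π hπ hN' W1 Fr W hqO O' π' C M f.2

theorem t4ve_ρ₂_A2 (f : ↥(taOv O π hπ N')) :
    (t4vInput O π hπ hN' W1 Fr W hqO O' π' C M).ρ₂ (t4veA2 O π hπ hN' W1 Fr W hqO O' π' C M f) =
      taResN O π hπ N' f := t4v_ρ₂_a2 O π hπ hN' W1 Fr W hqO O' π' C M f.2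

theorem t4ve_ρ₃_A2 (f : ↥(taOv O π hπ N')) :
    (t4vInput O π hπ hN' W1 Fr W hqO O' π' C M).ρ₃ (t4veA2 O π hπ hN' W1 Fr W hqO O' π' C M f) =
      taResN O π hπ N' f := t4v_ρ₃_a2 O π hπ hN' W1 Fr W hqO O' π' C M f.2


/-! ### The basic elements -/

/-- `δ = j̄ - j̄^(q²)`, the residue of the discriminant-like element -/
def t4veDelta (k : Type*) [Field k] (q : ℕ) [NeZero q] : LaurentSeries k :=
  jqModC k - qExpand k q (qExpand k q (jqModC k))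

theorem t4veDelta_ne_zero : t4veDelta k q ≠ 0 := fun h =>
  t4v_Z_res_ne (k := k) (q := q) (sub_eq_zero.mp h).symm

theorem t4ve_frob : qExpand k q (jqModC k) ^ q = qExpand k q (qExpand k q (jqModC k)) := by
  rw [← map_pow, t2i_jq_pow]

theorem t4ve_frob2 : jqModC k ^ (q * q) = qExpand k q (qExpand k q (jqModC k)) := by
  rw [pow_mul, t2i_jq_pow, t4ve_frob]

/-- `j` as an element of the Gauss ring of level `N'` -/
def t4veJ : ↥(taOv O π hπ N') := ⟨taJ N', taJ_mem_taOv O π hπ N'⟩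

theorem t4veJ_res : taResN O π hπ N' (t4veJ O π hπ) = jqModC k := taResN_taJ O π hπ N'

/-- `δ̃ = j - j^(q²)` in the Gauss ring of level `N'` -/
def t4veDel : ↥(taOv O π hπ N') := t4veJ O π hπ - t4veJ O π hπ ^ (q * q)

theorem t4veDel_res : taResN O π hπ N' (t4veDel (N' := N') (q := q) O π hπ) = t4veDelta k q := by
  rw [t4veDel, map_sub, map_pow, t4veJ_res, t4ve_frob2]
  rfl

/-- `A = a2 j - (a1 j)^q`, valuations `(≥ 1, 0, 0)` -/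
def t4veA : ↥(t4vInput O π hπ hN' W1 Fr W hqO O' π' C M).Ov :=
  t4veA2 O π hπ hN' W1 Fr W hqO O' π' C M (t4veJ O π hπ) -
    t4veA1 O π hπ hN' W1 Fr W hqO O' π' C M (t4veJ O π hπ) ^ q

/-- `A' = a0 j - (a1 j)^q = w A`, valuations `(0, 0, ≥ 1)` -/
def t4veA' : ↥(t4vInput O π hπ hN' W1 Fr W hqO O' π' C M).Ov :=
  t4veA0 O π hπ hN' W1 Fr W hqO O' π' C M (t4veJ O π hπ) -
    t4veA1 O π hπ hN' W1 Fr W hqO O' π' C M (t4veJ O π hπ) ^ q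

/-- `B = a2 j - a0 j = ϖ`, valuations `(0, 1, 0)` -/
def t4veB : ↥(t4vInput O π hπ hN' W1 Fr W hqO O' π' C M).Ov :=
  t4veA2 O π hπ hN' W1 Fr W hqO O' π' C M (t4veJ O π hπ) -
    t4veA0 O π hπ hN' W1 Fr W hqO O' π' C M (t4veJ O π hπ)

theorem coe_t4veB : ((t4veB O π hπ hN' W1 Fr W hqO O' π' C M :
    ↥(t4vInput O π hπ hN' W1 Fr W hqO O' π' C M).Ov) : ↥(TaF L (N' * q * q))) =
      t4vPi L N' q := rfl

theorem t4ve_ρ₁_A : (t4vInput O π hπ hN' W1 Fr W hqO O' π' C M).ρ₁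
    (t4veA O π hπ hN' W1 Fr W hqO O' π' C M) = 0 := by
  rw [t4veA, map_sub, map_pow, t4ve_ρ₁_A2, t4ve_ρ₁_A1, t4veJ_res, t4ve_frob, sub_self]

theorem t4ve_ρ₂_A : (t4vInput O π hπ hN' W1 Fr W hqO O' π' C M).ρ₂
    (t4veA O π hπ hN' W1 Fr W hqO O' π' C M) = t4veDelta k q := by
  rw [t4veA, map_sub, map_pow, t4ve_ρ₂_A2, t4ve_ρ₂_A1, t4veJ_res, t4ve_frob]
  rfl

theorem t4ve_ρ₃_A : (t4vInput O π hπ hN' W1 Fr W hqO O' π' C M).ρ₃
    (t4veA O π hπ hN' W1 Fr W hqO O' π' C M) = t4veDelta k q := by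
  rw [t4veA, map_sub, map_pow, t4ve_ρ₃_A2, t4ve_ρ₃_A1, t4veJ_res, t4ve_frob]
  rfl

theorem t4ve_ρ₁_A' : (t4vInput O π hπ hN' W1 Fr W hqO O' π' C M).ρ₁
    (t4veA' O π hπ hN' W1 Fr W hqO O' π' C M) = t4veDelta k q := by
  rw [t4veA', map_sub, map_pow, t4ve_ρ₁_A0, t4ve_ρ₁_A1, t4veJ_res, t4ve_frob]
  rfl

theorem t4ve_ρ₂_A' : (t4vInput O π hπ hN' W1 Fr W hqO O' π' C M).ρ₂
    (t4veA' O π hπ hN' W1 Fr W hqO O' π' C M) = t4veDelta k q := by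
  rw [t4veA', map_sub, map_pow, t4ve_ρ₂_A0, t4ve_ρ₂_A1, t4veJ_res, t4ve_frob]
  rfl

theorem t4ve_ρ₃_A' : (t4vInput O π hπ hN' W1 Fr W hqO O' π' C M).ρ₃
    (t4veA' O π hπ hN' W1 Fr W hqO O' π' C M) = 0 := by
  rw [t4veA', map_sub, map_pow, t4ve_ρ₃_A0, t4ve_ρ₃_A1, t4veJ_res, t4ve_frob, sub_self]

theorem t4ve_ρ₁_B : (t4vInput O π hπ hN' W1 Fr W hqO O' π' C M).ρ₁
    (t4veB O π hπ hN' W1 Fr W hqO O' π' C M) = -t4veDelta k q := by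
  rw [t4veB, map_sub, t4ve_ρ₁_A2, t4ve_ρ₁_A0, t4veJ_res, t4veDelta, neg_sub]

theorem t4ve_ρ₂_B : (t4vInput O π hπ hN' W1 Fr W hqO O' π' C M).ρ₂
    (t4veB O π hπ hN' W1 Fr W hqO O' π' C M) = 0 := by
  rw [t4veB, map_sub, t4ve_ρ₂_A2, t4ve_ρ₂_A0, sub_self]

theorem t4ve_ρ₃_B : (t4vInput O π hπ hN' W1 Fr W hqO O' π' C M).ρ₃
    (t4veB O π hπ hN' W1 Fr W hqO O' π' C M) = t4veDelta k q := by
  rw [t4veB, map_sub, t4ve_ρ₃_A2, t4ve_ρ₃_A0, t4veJ_res]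
  rfl

end Sub

end Fermat.Agent.T4
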