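/-
T4-V "Val2" (lead), part 2 = (E3): **the three reductions of `𝒪 = (t4vInput …).Ov` have values in
`E' = modularFunctionFieldFullC k N'`** (`t4ve_ρ₁_mem`, `t4ve_ρ₂_mem`, `t4ve_ρ₃_mem`) and **the
Chinese remainder theorem for residues** (`t4ve_crt`, `t4ve_crt_unit`).
-/
import Fermat.Agent.Lib.T4.Inst.ValElts1

set_option autoImplicit false
set_option linter.unusedSectionVars false
set_option linter.unusedVariables false
set_option linter.style.haveILetI false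
set_option synthInstance.maxHeartbeats 400000

open HahnSeries ModularCurve Fermat.Agent.T1 Fermat.Agent.T2 IntermediateField

noncomputable section

namespace Fermat.Agent.T4

section Sub

variable {L : Type} [Field L] [Algebra ℚ L] (O : ValuationSubring L) {k : Type*} [Field k]
  (π : ↥O →+* k) [IsDiscreteValuationRing ↥O] (hπ : Function.Surjective π) [IsAlgClosed k]
  {N' q : ℕ} [NeZero N'] [hq : Fact q.Prime] [CharP k q] (hN' : (N' : k) ≠ 0)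
  (W1 : T2iAL L N' q) (Fr : T2iFrob k N' q) (W : T4iAL L N' q)
  (hqO : Irreducible ((q : ℕ) : ↥O))
  {L' : Type*} [Field L'] [Algebra L L'] (O' : ValuationSubring L')
  [IsDiscreteValuationRing ↥O'] (π' : ↥O' →+* k) (C : T4iCyc O O' π π' q)
  (M : T4iMid L L' N' q C.ζ)

attribute [local instance] t2iAlgebra t2i_isScalarTower

/-! ### The reductions have values in `E' = k(j̄(𝔮^d) : d ∣ N')` -/

include Fr in
theorem t4ve_qExpand_mem {x : LaurentSeries k} (hx : x ∈ modularFunctionFieldFullC k N') :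
    qExpand k q x ∈ modularFunctionFieldFullC k N' := by
  rw [← Fr.coe_Φ ⟨x, hx⟩]
  exact (Fr.Φ ⟨x, hx⟩).2

theorem t4ve_ZO_eq : (t4vInput O π hπ hN' W1 Fr W hqO O' π' C M).ZO =
    t4veA2 O π hπ hN' W1 Fr W hqO O' π' C M (t4veJ O π hπ) := Subtype.ext rfl

theorem t4ve_r1_mem (b : ↥(t4vInput O π hπ hN' W1 Fr W hqO O' π' C M).d1.Ov) :
    (t4vInput O π hπ hN' W1 Fr W hqO O' π' C M).r1 b ∈ modularFunctionFieldFullC k N' :=
  (t2iInput O π hπ hN' W1 Fr).ρ₁_mem b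

theorem t4ve_r2_mem (b : ↥(t4vInput O π hπ hN' W1 Fr W hqO O' π' C M).d1.Ov) :
    (t4vInput O π hπ hN' W1 Fr W hqO O' π' C M).r2 b ∈ modularFunctionFieldFullC k N' :=
  (t2iInput O π hπ hN' W1 Fr).ρ₂_mem b

theorem t4ve_ρ₁_mem (f : ↥(t4vInput O π hπ hN' W1 Fr W hqO O' π' C M).Ov) :
    (t4vInput O π hπ hN' W1 Fr W hqO O' π' C M).ρ₁ f ∈ modularFunctionFieldFullC k N' := by
  obtain ⟨b, rfl⟩ := (t4vInput O π hπ hN' W1 Fr W hqO O' π' C M).decomp f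
  rw [T4kInput.comb, map_sum]
  refine sum_mem fun i _ => ?_
  rw [map_mul, map_pow, T4kInput.ρ₁_α, t4ve_ZO_eq, t4ve_ρ₁_A2, t4veJ_res, ← t4ve_frob2]
  exact mul_mem (t4ve_r1_mem O π hπ hN' W1 Fr W hqO O' π' C M _)
    (pow_mem (pow_mem (jqModC_mem_full k N') _) _)

theorem t4ve_ρ₂_mem (f : ↥(t4vInput O π hπ hN' W1 Fr W hqO O' π' C M).Ov) :
    (t4vInput O π hπ hN' W1 Fr W hqO O' π' C M).ρ₂ f ∈ modularFunctionFieldFullC k N' := by
  obtain ⟨b, rfl⟩ := (t4vInput O π hπ hN' W1 Fr W hqO O' π' C M).decomp f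
  rw [T4kInput.comb, map_sum]
  refine sum_mem fun i _ => ?_
  rw [map_mul, map_pow, T4kInput.ρ₂_α, t4ve_ZO_eq, t4ve_ρ₂_A2, t4veJ_res]
  exact mul_mem (t4ve_r1_mem O π hπ hN' W1 Fr W hqO O' π' C M _)
    (pow_mem (jqModC_mem_full k N') _)

theorem t4ve_ρ₃_mem (f : ↥(t4vInput O π hπ hN' W1 Fr W hqO O' π' C M).Ov) :
    (t4vInput O π hπ hN' W1 Fr W hqO O' π' C M).ρ₃ f ∈ modularFunctionFieldFullC k N' := by
  obtain ⟨b, rfl⟩ := (t4vInput O π hπ hN' W1 Fr W hqO O' π' C M).decomp f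
  rw [T4kInput.comb, map_sum]
  refine sum_mem fun i _ => ?_
  rw [map_mul, map_pow, T4kInput.ρ₃_α, t4ve_ZO_eq, t4ve_ρ₃_A2, t4veJ_res]
  exact mul_mem (t4ve_qExpand_mem Fr (t4ve_r2_mem O π hπ hN' W1 Fr W hqO O' π' C M _))
    (pow_mem (jqModC_mem_full k N') _)


/-! ### The Chinese remainder theorem for residues -/

include O π hπ hN' in
theorem t4veDelta_mem : t4veDelta k q ∈ modularFunctionFieldFullC k N' := by
  rw [← t4veDel_res (N' := N') O π hπ]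
  exact taResN_mem_full O π hπ N' hN' _

/-- generic computation for the CRT element -/
theorem t4ve_crt_aux {R K : Type*} [CommRing R] [Field K] (ρ : R →+* K) (x1 x2 x3 A A' B : R) :
    ρ (x1 * (-(A' * B)) + x2 * (A * A') + x3 * (A * B)) =
      ρ x1 * (-(ρ A' * ρ B)) + ρ x2 * (ρ A * ρ A') + ρ x3 * (ρ A * ρ B) := by
  simp only [map_add, map_mul, map_neg]

/-- **CRT for residues**: every triple of elements of `E'` is the triple of reductions of an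
element of `𝒪` -/
theorem t4ve_crt {a b c : LaurentSeries k} (ha : a ∈ modularFunctionFieldFullC k N')
    (hb : b ∈ modularFunctionFieldFullC k N') (hc : c ∈ modularFunctionFieldFullC k N') :
    ∃ g : ↥(t4vInput O π hπ hN' W1 Fr W hqO O' π' C M).Ov,
      (t4vInput O π hπ hN' W1 Fr W hqO O' π' C M).ρ₁ g = a ∧
      (t4vInput O π hπ hN' W1 Fr W hqO O' π' C M).ρ₂ g = b ∧
      (t4vInput O π hπ hN' W1 Fr W hqO O' π' C M).ρ₃ g = c := by
  have hδ := t4veDelta_mem (q := q) O π hπ hN'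
  have hδ0 := t4veDelta_ne_zero (k := k) (q := q)
  have hδi : ((t4veDelta k q) ^ 2)⁻¹ ∈ modularFunctionFieldFullC k N' :=
    inv_mem (pow_mem hδ 2)
  obtain ⟨a', ha'⟩ := exists_taResN_eq_of_mem_full O π hπ N' (mul_mem ha hδi)
  obtain ⟨b', hb'⟩ := exists_taResN_eq_of_mem_full O π hπ N' (mul_mem hb hδi)
  obtain ⟨c', hc'⟩ := exists_taResN_eq_of_mem_full O π hπ N' (mul_mem hc hδi)
  refine ⟨t4veA0 O π hπ hN' W1 Fr W hqO O' π' C M a' *
      (-(t4veA' O π hπ hN' W1 Fr W hqO O' π' C M * t4veB O π hπ hN' W1 Fr W hqO O' π' C M)) +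
    t4veA0 O π hπ hN' W1 Fr W hqO O' π' C M b' *
      (t4veA O π hπ hN' W1 Fr W hqO O' π' C M * t4veA' O π hπ hN' W1 Fr W hqO O' π' C M) +
    t4veA2 O π hπ hN' W1 Fr W hqO O' π' C M c' *
      (t4veA O π hπ hN' W1 Fr W hqO O' π' C M * t4veB O π hπ hN' W1 Fr W hqO O' π' C M),
    ?_, ?_, ?_⟩
  · rw [t4ve_crt_aux, t4ve_ρ₁_A, t4ve_ρ₁_A', t4ve_ρ₁_B, t4ve_ρ₁_A0, ha']
    field_simp
    ring
  · rw [t4ve_crt_aux, t4ve_ρ₂_A, t4ve_ρ₂_A', t4ve_ρ₂_B, t4ve_ρ₂_A0, t4ve_ρ₂_A0, hb']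
    field_simp
    ring
  · rw [t4ve_crt_aux, t4ve_ρ₃_A, t4ve_ρ₃_A', t4ve_ρ₃_B, t4ve_ρ₃_A2, hc']
    field_simp
    ring

/-- **CRT for residues, units**: a triple of non-zero elements of `E'` is the triple of reductions
of a unit of `𝒪` -/
theorem t4ve_crt_unit {a b c : LaurentSeries k} (ha : a ∈ modularFunctionFieldFullC k N')
    (hb : b ∈ modularFunctionFieldFullC k N') (hc : c ∈ modularFunctionFieldFullC k N')
    (ha0 : a ≠ 0) (hb0 : b ≠ 0) (hc0 : c ≠ 0) :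
    ∃ g : ↥(t4vInput O π hπ hN' W1 Fr W hqO O' π' C M).Ov,
      ((g : ↥(TaF L (N' * q * q))))⁻¹ ∈ (t4vInput O π hπ hN' W1 Fr W hqO O' π' C M).Ov ∧
      (t4vInput O π hπ hN' W1 Fr W hqO O' π' C M).ρ₁ g = a ∧
      (t4vInput O π hπ hN' W1 Fr W hqO O' π' C M).ρ₂ g = b ∧
      (t4vInput O π hπ hN' W1 Fr W hqO O' π' C M).ρ₃ g = c := by
  obtain ⟨g, h1, h2, h3⟩ := t4ve_crt O π hπ hN' W1 Fr W hqO O' π' C M ha hb hc
  exact ⟨g, t4ve_inv_mem O π hπ hN' W1 Fr W hqO O' π' C M g (h1 ▸ ha0) (h2 ▸ hb0) (h3 ▸ hc0),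
    h1, h2, h3⟩

end Sub

end Fermat.Agent.T4
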