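/-
T4-V (helper5): **reductions of chart-integral elements** at level `N'q²`, and lifting of reductions to
the level `N'` of good reduction.  Prefix `t4vm`.

* `t4vm_isIntegral_res_tower` : (abstract) reduction of integral elements along a tower;
* `t4vmR1 / t4vmR2 / t4vmR3 : 𝒪 →+* E'` : the three reductions of `t4vInput`, with values in
  `E' = modularFunctionFieldFullC k N'`; `t4vmPhi2 = Φ²`; the table on `a0`, `a2`;
* `t4vm_int_R1 / _R2 / _R3` : if `f ∈ 𝒪` is integral over `L[a0 y₀]`, then `R_i f` is integral over `A₀`,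
  provided the residue map of level `N'` sends elements integral over `L[y₀]` to elements integral
  over `A₀` (and `Φ² A₀ ⊆ A₀` for `R3`); works for ANY chart `y₀` (`x₀` and `x₀⁻¹`);
* `T4vmGood y₀` : good reduction of the chart `y₀` at level `N'` ((Int) in residue form, (GR), Frobenius);
* `T4vmGood.lift_inf / lift_mid / lift_mid' / lift_zero` : every `f ∈ IntCl(L[a0 y₀]) ∩ 𝒪` is congruent
  to `a0 f₀` on `O_inf`, `O_mid`, resp. to `a2 f₀` on `O_mid`, `O_0`, with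
  `f₀ ∈ IntCl(L[y₀]) ∩ taOv(N')`.
-/
import Fermat.Agent.Lib.T4.Inst.ValRes
import Fermat.Agent.Lib.T4.Inst.ValElts2
import Fermat.Agent.Lib.T4.Inst.ValChart
import Fermat.Agent.Lib.T4.Inst.ChartFin

set_option autoImplicit false
set_option linter.unusedSectionVars false
set_option linter.unusedVariables false
set_option linter.style.haveILetI false
set_option synthInstance.maxHeartbeats 400000

open HahnSeries ModularCurve Fermat.Agent.T1 Fermat.Agent.T2 IntermediateField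

noncomputable section

namespace Fermat.Agent.T4

/-- integrality is preserved by reduction -/
theorem t4vm_isIntegral_map {R S T k : Type*} [CommRing R] [CommRing S] [CommRing T]
    [CommRing k] [Algebra k T] (ι : R →+* S) (ρ : S →+* T) (A0 : Subalgebra k T)
    (hA0 : ∀ r : R, ρ (ι r) ∈ A0) {b : S} (hb : ι.IsIntegralElem b) : IsIntegral ↥A0 (ρ b) := by
  obtain ⟨p, hmonic, hp⟩ := hb
  set φ : R →+* ↥A0 := (ρ.comp ι).codRestrict A0 hA0 with hφ
  have hφc : (algebraMap ↥A0 T).comp φ = ρ.comp ι := by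
    ext r
    rfl
  refine ⟨p.map φ, hmonic.map φ, ?_⟩
  rw [Polynomial.eval₂_map, hφc, ← Polynomial.hom_eval₂, hp, map_zero]

/-- a ring endomorphism preserving `A₀` preserves integrality over `A₀` -/
theorem t4vm_isIntegral_endo {T k : Type*} [CommRing T] [CommRing k] [Algebra k T]
    (θ : T →+* T) (A0 : Subalgebra k T) (hθ : ∀ a ∈ A0, θ a ∈ A0) {t : T}
    (ht : IsIntegral ↥A0 t) : IsIntegral ↥A0 (θ t) :=
  t4vm_isIntegral_map (algebraMap ↥A0 T) θ A0 (fun r => hθ _ r.2) ht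

/-- **reduction of integral elements along a tower**: `S ⊆ F` integral over the valuation ring
`𝒪' ⊆ F'`; `ρ : S → T` a reduction which is `ρ''` on `𝒪'`; if `ρ''` sends elements of `𝒪'`
integral over `K[y₀]` to elements integral over `A₀ ⊆ T`, then `ρ` sends elements of `S` integral
over `K[y₀]` to elements integral over `A₀` -/
theorem t4vm_isIntegral_res_tower {K F' F T k : Type*} [Field K] [Field F'] [Field F]
    [Algebra K F'] [Algebra K F] [Algebra F' F] [IsScalarTower K F' F] [CommRing T] [Nontrivial T] [CommRing k]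
    [Algebra k T] (Ov' : ValuationSubring F') (S : Subring F)
    (hS' : ∀ c : ↥Ov', algebraMap F' F (c : F') ∈ S)
    (ρ : ↥S →+* T) (ρ'' : ↥Ov' →+* T)
    (hρ : ∀ c : ↥Ov', ρ ⟨algebraMap F' F (c : F'), hS' c⟩ = ρ'' c)
    (A0 : Subalgebra k T) (y0 : F')
    (hInt : ∀ g : ↥Ov', IsIntegral ↥(Algebra.adjoin K {y0}) (g : F') → IsIntegral ↥A0 (ρ'' g))
    {f : F} (hfS : f ∈ S) (hf' : ((algebraMap F' F).comp Ov'.subtype).IsIntegralElem f)
    (hf : IsIntegral ↥(Algebra.adjoin K {algebraMap F' F y0}) f) :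
    IsIntegral ↥A0 (ρ ⟨f, hfS⟩) := by
  classical
  have hfF' : IsIntegral F' f := by
    obtain ⟨p, hp, hpf⟩ := hf'
    refine ⟨p.map Ov'.subtype, hp.map _, ?_⟩
    rw [Polynomial.eval₂_map]
    exact hpf
  have h1 : ∀ i, (minpoly F' f).coeff i ∈ Ov' := by
    intro i
    have h := t4vc_isIntegral_coeff_minpoly (S := ↥Ov') (F' := F') (F := F) (f := f) hf' i
    obtain ⟨y, hy⟩ := (IsIntegrallyClosed.isIntegral_iff (R := ↥Ov') (K := F')).mp h
    rw [← hy]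
    exact y.2
  have h2 : ∀ i, IsIntegral ↥(Algebra.adjoin K {y0}) ((minpoly F' f).coeff i) := fun i =>
    t4vc_isIntegral_coeff_minpoly (t4vc_isIntegralElem_of_isIntegral (R := K) y0 hf) i
  -- the minimal polynomial with coefficients in `𝒪'`
  have hc : (↑(minpoly F' f).coeffs : Set F') ⊆ ↑Ov'.toSubring := by
    intro c hc
    obtain ⟨n, -, rfl⟩ := Polynomial.mem_coeffs_iff.mp (Finset.mem_coe.mp hc)
    exact h1 n
  set mO : Polynomial ↥Ov' := (minpoly F' f).toSubring Ov'.toSubring hc with hmO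
  have hmOmap : mO.map Ov'.subtype = minpoly F' f :=
    Polynomial.map_toSubring (minpoly F' f) Ov'.toSubring hc
  have hmOcoeff : ∀ n, ((mO.coeff n : ↥Ov') : F') = (minpoly F' f).coeff n := fun n =>
    Polynomial.coeff_toSubring (minpoly F' f) Ov'.toSubring hc
  have hmonic : mO.Monic := (Polynomial.monic_toSubring _ _ _).mpr (minpoly.monic hfF')
  -- `f` is a root in `S`
  set incl : ↥Ov' →+* ↥S :=
    ((algebraMap F' F).comp Ov'.subtype).codRestrict S hS' with hincl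
  have hroot : Polynomial.eval₂ incl ⟨f, hfS⟩ mO = 0 := by
    apply Subtype.ext
    have h3 := Polynomial.hom_eval₂ mO incl S.subtype ⟨f, hfS⟩
    rw [ZeroMemClass.coe_zero]
    refine h3.trans ?_
    have h4 : S.subtype.comp incl = (algebraMap F' F).comp Ov'.subtype := rfl
    rw [h4, ← Polynomial.eval₂_map, hmOmap]
    exact minpoly.aeval F' f
  have hρincl : ρ.comp incl = ρ'' := RingHom.ext hρ
  have hroot' : Polynomial.eval (ρ ⟨f, hfS⟩) (mO.map ρ'') = 0 := by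
    rw [Polynomial.eval_map, ← hρincl, ← Polynomial.hom_eval₂, hroot, map_zero]
  refine IsIntegral.of_aeval_monic_of_isIntegral_coeff (p := mO.map ρ'') (hmonic.map _) ?_ ?_ ?_
  · rw [hmonic.natDegree_map]
    have : mO.natDegree = (minpoly F' f).natDegree := Polynomial.natDegree_toSubring _ _ _
    rw [this]
    exact (minpoly.natDegree_pos hfF').ne'
  · rw [hroot']
    exact isIntegral_zero
  · intro i
    rw [Polynomial.coeff_map]
    apply hInt
    rw [hmOcoeff]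
    exact h2 i

section Inst

variable {L : Type} [Field L] [Algebra ℚ L] (O : ValuationSubring L) {k : Type*} [Field k]
  (π : ↥O →+* k) [IsDiscreteValuationRing ↥O] (hπ : Function.Surjective π) [IsAlgClosed k]
  {N' q : ℕ} [NeZero N'] [hq : Fact q.Prime] [CharP k q] (hN' : (N' : k) ≠ 0)
  (W1 : T2iAL L N' q) (Fr : T2iFrob k N' q) (W : T4iAL L N' q)
  (hqO : Irreducible ((q : ℕ) : ↥O))
  {L' : Type*} [Field L'] [Algebra L L'] (O' : ValuationSubring L')
  [IsDiscreteValuationRing ↥O'] (π' : ↥O' →+* k) (C : T4iCyc O O' π π' q)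
  (M : T4iMid L L' N' q C.ζ)

attribute [local instance] t2iAlgebra t2i_isScalarTower

/-! ### The reductions with values in `E'` -/

/-- the reduction at `∞`, with values in `E'` -/
def t4vmR1 : ↥(t4vInput O π hπ hN' W1 Fr W hqO O' π' C M).Ov →+*
    ↥(modularFunctionFieldFullC k N') :=
  (t4vInput O π hπ hN' W1 Fr W hqO O' π' C M).ρ₁.codRestrict (modularFunctionFieldFullC k N')
    (t4ve_ρ₁_mem O π hπ hN' W1 Fr W hqO O' π' C M)

/-- the middle reduction, with values in `E'` -/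
def t4vmR2 : ↥(t4vInput O π hπ hN' W1 Fr W hqO O' π' C M).Ov →+*
    ↥(modularFunctionFieldFullC k N') :=
  (t4vInput O π hπ hN' W1 Fr W hqO O' π' C M).ρ₂.codRestrict (modularFunctionFieldFullC k N')
    (t4ve_ρ₂_mem O π hπ hN' W1 Fr W hqO O' π' C M)

/-- the reduction at `0`, with values in `E'` -/
def t4vmR3 : ↥(t4vInput O π hπ hN' W1 Fr W hqO O' π' C M).Ov →+*
    ↥(modularFunctionFieldFullC k N') :=
  (t4vInput O π hπ hN' W1 Fr W hqO O' π' C M).ρ₃.codRestrict (modularFunctionFieldFullC k N')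
    (t4ve_ρ₃_mem O π hπ hN' W1 Fr W hqO O' π' C M)

theorem coe_t4vmR1 (f : ↥(t4vInput O π hπ hN' W1 Fr W hqO O' π' C M).Ov) :
    ((t4vmR1 O π hπ hN' W1 Fr W hqO O' π' C M f : ↥(modularFunctionFieldFullC k N')) :
      LaurentSeries k) = (t4vInput O π hπ hN' W1 Fr W hqO O' π' C M).ρ₁ f := rfl

theorem coe_t4vmR2 (f : ↥(t4vInput O π hπ hN' W1 Fr W hqO O' π' C M).Ov) :
    ((t4vmR2 O π hπ hN' W1 Fr W hqO O' π' C M f : ↥(modularFunctionFieldFullC k N')) :
      LaurentSeries k) = (t4vInput O π hπ hN' W1 Fr W hqO O' π' C M).ρ₂ f := rfl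

theorem coe_t4vmR3 (f : ↥(t4vInput O π hπ hN' W1 Fr W hqO O' π' C M).Ov) :
    ((t4vmR3 O π hπ hN' W1 Fr W hqO O' π' C M f : ↥(modularFunctionFieldFullC k N')) :
      LaurentSeries k) = (t4vInput O π hπ hN' W1 Fr W hqO O' π' C M).ρ₃ f := rfl

/-- `Φ²` on `E'` -/
def t4vmPhi2 : ↥(modularFunctionFieldFullC k N') →+* ↥(modularFunctionFieldFullC k N') :=
  Fr.Φ.comp Fr.Φ

theorem coe_t4vmPhi2 (t : ↥(modularFunctionFieldFullC k N')) :
    ((t4vmPhi2 Fr t : ↥(modularFunctionFieldFullC k N')) : LaurentSeries k) =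
      qExpand k q (qExpand k q (t : LaurentSeries k)) := by
  show ((Fr.Φ (Fr.Φ t) : ↥(modularFunctionFieldFullC k N')) : LaurentSeries k) = _
  rw [Fr.coe_Φ, Fr.coe_Φ]

theorem t4vm_R1_A0 (c : ↥(taOv O π hπ N')) :
    t4vmR1 O π hπ hN' W1 Fr W hqO O' π' C M (t4veA0 O π hπ hN' W1 Fr W hqO O' π' C M c) =
      t2iRes O π hπ N' hN' c :=
  Subtype.ext (t4ve_ρ₁_A0 O π hπ hN' W1 Fr W hqO O' π' C M c)

theorem t4vm_R2_A0 (c : ↥(taOv O π hπ N')) :
    t4vmR2 O π hπ hN' W1 Fr W hqO O' π' C M (t4veA0 O π hπ hN' W1 Fr W hqO O' π' C M c) =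
      t2iRes O π hπ N' hN' c :=
  Subtype.ext (t4ve_ρ₂_A0 O π hπ hN' W1 Fr W hqO O' π' C M c)

theorem t4vm_R3_A0 (c : ↥(taOv O π hπ N')) :
    t4vmR3 O π hπ hN' W1 Fr W hqO O' π' C M (t4veA0 O π hπ hN' W1 Fr W hqO O' π' C M c) =
      t4vmPhi2 Fr (t2iRes O π hπ N' hN' c) := by
  apply Subtype.ext
  rw [coe_t4vmPhi2]
  exact t4ve_ρ₃_A0 O π hπ hN' W1 Fr W hqO O' π' C M c

theorem t4vm_R2_A2 (c : ↥(taOv O π hπ N')) :
    t4vmR2 O π hπ hN' W1 Fr W hqO O' π' C M (t4veA2 O π hπ hN' W1 Fr W hqO O' π' C M c) =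
      t2iRes O π hπ N' hN' c :=
  Subtype.ext (t4ve_ρ₂_A2 O π hπ hN' W1 Fr W hqO O' π' C M c)

theorem t4vm_R3_A2 (c : ↥(taOv O π hπ N')) :
    t4vmR3 O π hπ hN' W1 Fr W hqO O' π' C M (t4veA2 O π hπ hN' W1 Fr W hqO O' π' C M c) =
      t2iRes O π hπ N' hN' c :=
  Subtype.ext (t4ve_ρ₃_A2 O π hπ hN' W1 Fr W hqO O' π' C M c)


/-! ### Reductions of chart-integral elements -/

section Int

variable {y0 : ↥(TaF L N')} (A0 : Subalgebra k ↥(modularFunctionFieldFullC k N'))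
  (hInt : ∀ g : ↥(taOv O π hπ N'), IsIntegral ↥(Algebra.adjoin L {y0}) (g : ↥(TaF L N')) →
    IsIntegral ↥A0 (t2iRes O π hπ N' hN' g))
  {f : ↥(TaF L (N' * q * q))} (hf : f ∈ (t4vInput O π hπ hN' W1 Fr W hqO O' π' C M).Ov)
  (hfint : IsIntegral ↥(Algebra.adjoin L {t4vA0 L N' q y0}) f)

include hInt hfint in
/-- the reduction at `∞` of an element of `𝒪` integral over `L[a0 y₀]` is integral over `A₀` -/
theorem t4vm_int_R1 : IsIntegral ↥A0 (t4vmR1 O π hπ hN' W1 Fr W hqO O' π' C M ⟨f, hf⟩) := by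
  letI : Algebra ↥(TaF L N') ↥(TaF L (N' * q * q)) :=
    ((t4vA0 L N' q : ↥(TaF L N') →ₐ[L] ↥(TaF L (N' * q * q))) :
      ↥(TaF L N') →+* ↥(TaF L (N' * q * q))).toAlgebra
  haveI : IsScalarTower L ↥(TaF L N') ↥(TaF L (N' * q * q)) :=
    IsScalarTower.of_algebraMap_eq (fun a => ((t4vA0 L N' q).commutes a).symm)
  exact t4vm_isIntegral_res_tower (K := L) (taOv O π hπ N')
    (t4vInput O π hπ hN' W1 Fr W hqO O' π' C M).Ov
    (fun c => t4v_a0_mem O π hπ hN' W1 Fr W hqO O' π' C M c.2)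
    (t4vmR1 O π hπ hN' W1 Fr W hqO O' π' C M) (t2iRes O π hπ N' hN')
    (t4vm_R1_A0 O π hπ hN' W1 Fr W hqO O' π' C M) A0 y0 hInt hf
    (t4v_isIntegralElem O π hπ hN' W1 Fr W hqO O' π' C M f hf) hfint

include hInt hfint in
/-- the middle reduction of an element of `𝒪` integral over `L[a0 y₀]` is integral over `A₀` -/
theorem t4vm_int_R2 : IsIntegral ↥A0 (t4vmR2 O π hπ hN' W1 Fr W hqO O' π' C M ⟨f, hf⟩) := by
  letI : Algebra ↥(TaF L N') ↥(TaF L (N' * q * q)) :=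
    ((t4vA0 L N' q : ↥(TaF L N') →ₐ[L] ↥(TaF L (N' * q * q))) :
      ↥(TaF L N') →+* ↥(TaF L (N' * q * q))).toAlgebra
  haveI : IsScalarTower L ↥(TaF L N') ↥(TaF L (N' * q * q)) :=
    IsScalarTower.of_algebraMap_eq (fun a => ((t4vA0 L N' q).commutes a).symm)
  exact t4vm_isIntegral_res_tower (K := L) (taOv O π hπ N')
    (t4vInput O π hπ hN' W1 Fr W hqO O' π' C M).Ov
    (fun c => t4v_a0_mem O π hπ hN' W1 Fr W hqO O' π' C M c.2)
    (t4vmR2 O π hπ hN' W1 Fr W hqO O' π' C M) (t2iRes O π hπ N' hN')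
    (t4vm_R2_A0 O π hπ hN' W1 Fr W hqO O' π' C M) A0 y0 hInt hf
    (t4v_isIntegralElem O π hπ hN' W1 Fr W hqO O' π' C M f hf) hfint

include hInt hfint in
/-- the reduction at `0` of an element of `𝒪` integral over `L[a0 y₀]` is integral over `A₀`, if
`Φ²` preserves `A₀` -/
theorem t4vm_int_R3 (hΦ : ∀ a ∈ A0, t4vmPhi2 Fr a ∈ A0) :
    IsIntegral ↥A0 (t4vmR3 O π hπ hN' W1 Fr W hqO O' π' C M ⟨f, hf⟩) := by
  letI : Algebra ↥(TaF L N') ↥(TaF L (N' * q * q)) :=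
    ((t4vA0 L N' q : ↥(TaF L N') →ₐ[L] ↥(TaF L (N' * q * q))) :
      ↥(TaF L N') →+* ↥(TaF L (N' * q * q))).toAlgebra
  haveI : IsScalarTower L ↥(TaF L N') ↥(TaF L (N' * q * q)) :=
    IsScalarTower.of_algebraMap_eq (fun a => ((t4vA0 L N' q).commutes a).symm)
  exact t4vm_isIntegral_res_tower (K := L) (taOv O π hπ N')
    (t4vInput O π hπ hN' W1 Fr W hqO O' π' C M).Ov
    (fun c => t4v_a0_mem O π hπ hN' W1 Fr W hqO O' π' C M c.2)
    (t4vmR3 O π hπ hN' W1 Fr W hqO O' π' C M) ((t4vmPhi2 Fr).comp (t2iRes O π hπ N' hN'))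
    (t4vm_R3_A0 O π hπ hN' W1 Fr W hqO O' π' C M) A0 y0
    (fun g hg => t4vm_isIntegral_endo (t4vmPhi2 Fr) A0 hΦ (hInt g hg)) hf
    (t4v_isIntegralElem O π hπ hN' W1 Fr W hqO O' π' C M f hf) hfint

end Int

/-! ### Good reduction of a chart at level `N'` and lifting of reductions -/

/-- **good reduction of the chart `y₀` at level `N'`**: (Int) in residue form, (GR) lifting of
integral elements of the special fibre, and `Φ² ȳ = ȳ ^ (q²)` -/
structure T4vmGood (y0 : ↥(TaF L N')) : Prop where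
  mem : y0 ∈ taOv O π hπ N'
  int : ∀ g : ↥(taOv O π hπ N'), IsIntegral ↥(Algebra.adjoin L {y0}) (g : ↥(TaF L N')) →
    IsIntegral ↥(Algebra.adjoin k {t2iRes O π hπ N' hN' ⟨y0, mem⟩}) (t2iRes O π hπ N' hN' g)
  gr : ∀ t : ↥(modularFunctionFieldFullC k N'),
    IsIntegral ↥(Algebra.adjoin k {t2iRes O π hπ N' hN' ⟨y0, mem⟩}) t →
    ∃ f0 : ↥(taOv O π hπ N'), IsIntegral ↥(Algebra.adjoin L {y0}) (f0 : ↥(TaF L N')) ∧
      t2iRes O π hπ N' hN' f0 = t
  frob : t4vmPhi2 Fr (t2iRes O π hπ N' hN' ⟨y0, mem⟩) =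
    t2iRes O π hπ N' hN' ⟨y0, mem⟩ ^ (q * q)

theorem t4vmPhi2_algebraMap (c : k) :
    t4vmPhi2 Fr (algebraMap k ↥(modularFunctionFieldFullC k N') c) =
      algebraMap k ↥(modularFunctionFieldFullC k N') c := by
  apply Subtype.ext
  rw [coe_t4vmPhi2]
  have h : ((algebraMap k ↥(modularFunctionFieldFullC k N') c :
      ↥(modularFunctionFieldFullC k N')) : LaurentSeries k) = HahnSeries.C c := by
    rw [← ta_algebraMap_eq_C]
    rfl
  rw [h, qExpand_C (N := q), qExpand_C (N := q)]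

variable {O π hπ hN' Fr}

namespace T4vmGood

variable {y0 : ↥(TaF L N')} (G : T4vmGood O π hπ hN' Fr y0)

/-- the reduction of the chart -/
def yb : ↥(modularFunctionFieldFullC k N') := t2iRes O π hπ N' hN' ⟨y0, G.mem⟩

include G in
/-- `Φ²` preserves `k[ȳ]` -/
theorem phi_mem : ∀ a ∈ Algebra.adjoin k {G.yb}, t4vmPhi2 Fr a ∈ Algebra.adjoin k {G.yb} := by
  intro a ha
  induction ha using Algebra.adjoin_induction with
  | mem x hx =>
    rw [Set.mem_singleton_iff] at hx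
    rw [hx]
    show t4vmPhi2 Fr (t2iRes O π hπ N' hN' ⟨y0, G.mem⟩) ∈ _
    rw [G.frob]
    exact Subalgebra.pow_mem _ (Algebra.subset_adjoin (Set.mem_singleton _)) _
  | algebraMap c =>
    rw [t4vmPhi2_algebraMap]
    exact Subalgebra.algebraMap_mem _ c
  | add x z _ _ hx hz =>
    rw [map_add]
    exact add_mem hx hz
  | mul x z _ _ hx hz =>
    rw [map_mul]
    exact mul_mem hx hz

variable {f : ↥(TaF L (N' * q * q))} (hf : f ∈ (t4vInput O π hπ hN' W1 Fr W hqO O' π' C M).Ov)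
  (hfint : f ∈ t2Int (K := L) (t4vA0 L N' q y0))

include G hfint hf W1 W hqO O' π' C M in
/-- **lifting at `∞`**: every element of the chart ring is congruent on `O_inf` to `a0 f₀`, `f₀` in the
chart ring of level `N'` -/
theorem lift_inf : ∃ f0 : ↥(taOv O π hπ N'), (f0 : ↥(TaF L N')) ∈ t2Int (K := L) y0 ∧
    (t4vOinf (N' := N') (q := q) O π hπ).valuation (f - t4vA0 L N' q (f0 : ↥(TaF L N'))) < 1 := by
  obtain ⟨f0, hf0, e⟩ := G.gr _
    (t4vm_int_R1 O π hπ hN' W1 Fr W hqO O' π' C M _ G.int hf hfint)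
  refine ⟨f0, hf0, ?_⟩
  refine (t4vr_ρ₁_eq_iff O π hπ hN' W1 Fr W hqO O' π' C M ⟨f, hf⟩
    (t4veA0 O π hπ hN' W1 Fr W hqO O' π' C M f0)).mp ?_
  rw [t4ve_ρ₁_A0, ← coe_t2iRes O π hπ N' hN', e]
  rfl

include G hfint hf W1 W hqO O' π' C M in
/-- **lifting at the middle valuation**, along `a0` -/
theorem lift_mid : ∃ f0 : ↥(taOv O π hπ N'), (f0 : ↥(TaF L N')) ∈ t2Int (K := L) y0 ∧
    (t4vOmid O π hπ O' π' C M).valuation (f - t4vA0 L N' q (f0 : ↥(TaF L N'))) < 1 := by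
  obtain ⟨f0, hf0, e⟩ := G.gr _
    (t4vm_int_R2 O π hπ hN' W1 Fr W hqO O' π' C M _ G.int hf hfint)
  refine ⟨f0, hf0, ?_⟩
  refine (t4vr_ρ₂_eq_iff O π hπ hN' W1 Fr W hqO O' π' C M ⟨f, hf⟩
    (t4veA0 O π hπ hN' W1 Fr W hqO O' π' C M f0)).mp ?_
  rw [t4ve_ρ₂_A0, ← coe_t2iRes O π hπ N' hN', e]
  rfl

include G hfint hf W1 W hqO O' π' C M in
/-- **lifting at the middle valuation**, along `a2` -/
theorem lift_mid' : ∃ f0 : ↥(taOv O π hπ N'), (f0 : ↥(TaF L N')) ∈ t2Int (K := L) y0 ∧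
    (t4vOmid O π hπ O' π' C M).valuation (f - t4vA2 L N' q (f0 : ↥(TaF L N'))) < 1 := by
  obtain ⟨f0, hf0, e⟩ := G.gr _
    (t4vm_int_R2 O π hπ hN' W1 Fr W hqO O' π' C M _ G.int hf hfint)
  refine ⟨f0, hf0, ?_⟩
  refine (t4vr_ρ₂_eq_iff O π hπ hN' W1 Fr W hqO O' π' C M ⟨f, hf⟩
    (t4veA2 O π hπ hN' W1 Fr W hqO O' π' C M f0)).mp ?_
  rw [t4ve_ρ₂_A2, ← coe_t2iRes O π hπ N' hN', e]
  rfl

include G hfint hf W1 W hqO O' π' C M in
/-- **lifting at `0`**, along `a2` -/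
theorem lift_zero : ∃ f0 : ↥(taOv O π hπ N'), (f0 : ↥(TaF L N')) ∈ t2Int (K := L) y0 ∧
    (t4vO0 O π hπ W).valuation (f - t4vA2 L N' q (f0 : ↥(TaF L N'))) < 1 := by
  obtain ⟨f0, hf0, e⟩ := G.gr _
    (t4vm_int_R3 O π hπ hN' W1 Fr W hqO O' π' C M _ G.int hf hfint G.phi_mem)
  refine ⟨f0, hf0, ?_⟩
  refine (t4vr_ρ₃_eq_iff O π hπ hN' W1 Fr W hqO O' π' C M ⟨f, hf⟩
    (t4veA2 O π hπ hN' W1 Fr W hqO O' π' C M f0)).mp ?_
  rw [t4ve_ρ₃_A2, ← coe_t2iRes O π hπ N' hN', e]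
  rfl

end T4vmGood

end Inst

end Fermat.Agent.T4
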