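/-
T4-V (helper5): **smoothness of the three vertical branches on a chart presentation** at level `N'q²`.
Prefix `t4vm`.

`P` any presentation of the chart ring `B = IntCl(L[a0 y₀]) ∩ 𝒪` (dictionary `hB`), `G : T4vmGood … y₀`
the good reduction of the chart `y₀` at level `N'`, `R' = t2R ȳ = IntCl_{E'}(k[ȳ])` a Dedekind domain:

* `t4vmRP1`, `t4vmRP2 : B →+* R'` — the reductions at `∞` and in the middle, surjective
  (`t4vmRP1_surjective`: lift `a0 f₀` by (GR)), with kernel the centre of `O_inf`, `O_mid`;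
* `t4vm_smoothAt_inf`, `t4vm_smoothAt_mid` : `P.SmoothAt 𝔫 O_inf`, `P.SmoothAt 𝔫 O_mid` at every `𝔫`;
* `t4vm_smoothAt_zero` : `P.SmoothAt 𝔫 O_0`, if the elements `a2 f₀` lie in `B_𝔫` (chart 1: they lie
  in `B`; chart 2: local argument).
-/
import Fermat.Agent.Lib.T4.Inst.ResInt
import Fermat.Agent.Lib.T4.Local.SmoothDed
import Fermat.Agent.Lib.T4.Inst.PresOver

set_option autoImplicit false
set_option linter.unusedSectionVars false
set_option linter.unusedVariables false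
set_option linter.style.haveILetI false
set_option synthInstance.maxHeartbeats 400000

open HahnSeries ModularCurve Fermat.Agent.T1 Fermat.Agent.T2 IntermediateField

noncomputable section

namespace Fermat.Agent.T4

section Inst

attribute [local instance] t2iAlgebra t2i_isScalarTower

variable {L : Type} [Field L] [Algebra ℚ L] {O : ValuationSubring L} {k : Type*} [Field k]
  {π : ↥O →+* k} [IsDiscreteValuationRing ↥O] {hπ : Function.Surjective π} [IsAlgClosed k]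
  {N' q : ℕ} [NeZero N'] [hq : Fact q.Prime] [CharP k q] {hN' : (N' : k) ≠ 0}
  (W1 : T2iAL L N' q) {Fr : T2iFrob k N' q} (W : T4iAL L N' q)
  (hqO : Irreducible ((q : ℕ) : ↥O))
  {L' : Type*} [Field L'] [Algebra L L'] (O' : ValuationSubring L')
  [IsDiscreteValuationRing ↥O'] (π' : ↥O' →+* k) (C : T4iCyc O O' π π' q)
  (M : T4iMid L L' N' q C.ζ)
  {y0 : ↥(TaF L N')} (G : T4vmGood O π hπ hN' Fr y0)
  (P : T4Pres ↥(TaF L (N' * q * q)))
  (hB : ∀ f, f ∈ P.B ↔ f ∈ t2Int (K := L) (t4vA0 L N' q y0) ∧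
    f ∈ (t4vInput O π hπ hN' W1 Fr W hqO O' π' C M).Ov)

include hB in
theorem t4vm_B_le : P.B ≤ (t4vInput O π hπ hN' W1 Fr W hqO O' π' C M).Ov :=
  fun f hf => ((hB f).mp hf).2

/-- `a0 f₀` lies in the chart ring -/
theorem t4vm_a0_mem_t2Int {f0 : ↥(TaF L N')} (hf0 : f0 ∈ t2Int (K := L) y0) :
    t4vA0 L N' q f0 ∈ t2Int (K := L) (t4vA0 L N' q y0) :=
  t2d_isIntegral_map (RingHom.id L)
    ((t4vA0 L N' q : ↥(TaF L N') →ₐ[L] ↥(TaF L (N' * q * q))) :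
      ↥(TaF L N') →+* ↥(TaF L (N' * q * q)))
    (fun c => (t4vA0 L N' q).commutes c) hf0

include hB in
theorem t4vm_a0_mem_B (f0 : ↥(taOv O π hπ N')) (hf0 : (f0 : ↥(TaF L N')) ∈ t2Int (K := L) y0) :
    t4vA0 L N' q (f0 : ↥(TaF L N')) ∈ P.B :=
  (hB _).mpr ⟨t4vm_a0_mem_t2Int hf0, t4v_a0_mem O π hπ hN' W1 Fr W hqO O' π' C M f0.2⟩

/-- the reduction at `∞` on the chart ring, with values in `R' = IntCl(k[ȳ])` -/
def t4vmRP1 : ↥P.B →+* ↥(t2R (k := k) G.yb) :=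
  ((t4vmR1 O π hπ hN' W1 Fr W hqO O' π' C M).comp
    (Subring.inclusion (t4vm_B_le W1 W hqO O' π' C M P hB))).codRestrict (t2R (k := k) G.yb)
    (fun b => t4vm_int_R1 O π hπ hN' W1 Fr W hqO O' π' C M _ G.int _ ((hB _).mp b.2).1)

theorem coe_t4vmRP1 (b : P.B) :
    (((t4vmRP1 W1 W hqO O' π' C M G P hB b : ↥(t2R (k := k) G.yb)) :
      ↥(modularFunctionFieldFullC k N')) : LaurentSeries k) =
      (t4vInput O π hπ hN' W1 Fr W hqO O' π' C M).ρ₁
        ⟨(b : ↥(TaF L (N' * q * q))), t4vm_B_le W1 W hqO O' π' C M P hB b.2⟩ := rfl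

theorem t4vmRP1_eq_zero_iff (b : P.B) :
    t4vmRP1 W1 W hqO O' π' C M G P hB b = 0 ↔
      (t4vOinf (N' := N') (q := q) O π hπ).valuation (b : ↥(TaF L (N' * q * q))) < 1 := by
  rw [← t4vr_ρ₁_eq_zero_iff O π hπ hN' W1 Fr W hqO O' π' C M
    ⟨(b : ↥(TaF L (N' * q * q))), t4vm_B_le W1 W hqO O' π' C M P hB b.2⟩,
    ← coe_t4vmRP1 W1 W hqO O' π' C M G P hB b]
  constructor
  · intro h
    rw [h]
    rfl
  · intro h
    apply Subtype.ext
    apply Subtype.ext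
    exact h

theorem t4vmRP1_surjective : Function.Surjective (t4vmRP1 W1 W hqO O' π' C M G P hB) := by
  intro t
  obtain ⟨f0, hf0, e⟩ := G.gr (t : ↥(modularFunctionFieldFullC k N')) t.2
  refine ⟨⟨_, t4vm_a0_mem_B W1 W hqO O' π' C M P hB f0 hf0⟩, ?_⟩
  apply Subtype.ext
  apply Subtype.ext
  rw [coe_t4vmRP1, ← e, coe_t2iRes]
  exact t4ve_ρ₁_A0 O π hπ hN' W1 Fr W hqO O' π' C M f0

include W1 W hqO O' π' C M G hB in
/-- **the branch of `O_inf` is smooth at every point of the chart** -/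
theorem t4vm_smoothAt_inf [IsDedekindDomain ↥(t2R (k := k) G.yb)] {𝔫 : Ideal P.B}
    [h𝔫 : 𝔫.IsMaximal] (hV : t4vOinf (N' := N') (q := q) O π hπ ∈ P.through 𝔫) :
    P.SmoothAt 𝔫 _ hV :=
  P.smoothAt_of_dedekind hV (t4vmRP1 W1 W hqO O' π' C M G P hB)
    (t4vmRP1_surjective W1 W hqO O' π' C M G P hB)
    (t4vmRP1_eq_zero_iff W1 W hqO O' π' C M G P hB)

/-- the middle reduction on the chart ring, with values in `R' = IntCl(k[ȳ])` -/
def t4vmRP2 : ↥P.B →+* ↥(t2R (k := k) G.yb) :=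
  ((t4vmR2 O π hπ hN' W1 Fr W hqO O' π' C M).comp
    (Subring.inclusion (t4vm_B_le W1 W hqO O' π' C M P hB))).codRestrict (t2R (k := k) G.yb)
    (fun b => t4vm_int_R2 O π hπ hN' W1 Fr W hqO O' π' C M _ G.int _ ((hB _).mp b.2).1)

theorem coe_t4vmRP2 (b : P.B) :
    (((t4vmRP2 W1 W hqO O' π' C M G P hB b : ↥(t2R (k := k) G.yb)) :
      ↥(modularFunctionFieldFullC k N')) : LaurentSeries k) =
      (t4vInput O π hπ hN' W1 Fr W hqO O' π' C M).ρ₂
        ⟨(b : ↥(TaF L (N' * q * q))), t4vm_B_le W1 W hqO O' π' C M P hB b.2⟩ := rfl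

theorem t4vmRP2_eq_zero_iff (b : P.B) :
    t4vmRP2 W1 W hqO O' π' C M G P hB b = 0 ↔
      (t4vOmid O π hπ O' π' C M).valuation (b : ↥(TaF L (N' * q * q))) < 1 := by
  rw [← t4vr_ρ₂_eq_zero_iff O π hπ hN' W1 Fr W hqO O' π' C M
    ⟨(b : ↥(TaF L (N' * q * q))), t4vm_B_le W1 W hqO O' π' C M P hB b.2⟩,
    ← coe_t4vmRP2 W1 W hqO O' π' C M G P hB b]
  constructor
  · intro h
    rw [h]
    rfl
  · intro h
    apply Subtype.ext
    apply Subtype.ext
    exact h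

theorem t4vmRP2_surjective : Function.Surjective (t4vmRP2 W1 W hqO O' π' C M G P hB) := by
  intro t
  obtain ⟨f0, hf0, e⟩ := G.gr (t : ↥(modularFunctionFieldFullC k N')) t.2
  refine ⟨⟨_, t4vm_a0_mem_B W1 W hqO O' π' C M P hB f0 hf0⟩, ?_⟩
  apply Subtype.ext
  apply Subtype.ext
  rw [coe_t4vmRP2, ← e, coe_t2iRes]
  exact t4ve_ρ₂_A0 O π hπ hN' W1 Fr W hqO O' π' C M f0

include W1 W hqO O' π' C M G hB in
/-- **the branch of `O_mid` is smooth at every point of the chart** -/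
theorem t4vm_smoothAt_mid [IsDedekindDomain ↥(t2R (k := k) G.yb)] {𝔫 : Ideal P.B}
    [h𝔫 : 𝔫.IsMaximal] (hV : t4vOmid O π hπ O' π' C M ∈ P.through 𝔫) :
    P.SmoothAt 𝔫 _ hV :=
  P.smoothAt_of_dedekind hV (t4vmRP2 W1 W hqO O' π' C M G P hB)
    (t4vmRP2_surjective W1 W hqO O' π' C M G P hB)
    (t4vmRP2_eq_zero_iff W1 W hqO O' π' C M G P hB)

include W1 W hqO O' π' C M G hB in
/-- **the branch of `O_0` is smooth at a point `𝔫` of the chart**, if the elements `a2 f₀` lie in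
`B_𝔫` (automatic on chart 1, where `a2 f₀ ∈ B`) -/
theorem t4vm_smoothAt_zero [IsDedekindDomain ↥(t2R (k := k) G.yb)] {𝔫 : Ideal P.B}
    [h𝔫 : 𝔫.IsMaximal] (hV : t4vO0 O π hπ W ∈ P.through 𝔫)
    (ha2 : ∀ f0 : ↥(taOv O π hπ N'), (f0 : ↥(TaF L N')) ∈ t2Int (K := L) y0 →
      t4vA2 L N' q (f0 : ↥(TaF L N')) ∈ P.loc 𝔫) :
    P.SmoothAt 𝔫 _ hV := by
  have hle : P.loc 𝔫 ≤ (t4vO0 O π hπ W).toSubring := fun f hf => hf _ hV
  set ρS : ↥(P.loc 𝔫) →+* LaurentSeries k :=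
    (t4vrZero O π hπ W).comp (Subring.inclusion hle) with hρS
  set ι : ↥(t2R (k := k) G.yb) →+* LaurentSeries k :=
    (algebraMap ↥(modularFunctionFieldFullC k N') (LaurentSeries k)).comp
      (algebraMap ↥(t2R (k := k) G.yb) ↥(modularFunctionFieldFullC k N')) with hι
  refine P.smoothAt_of_dedekind_loc hV ρS ?_ ι ?_ ?_ ?_
  · intro f
    exact (t4vO0_valuation_lt_one_iff O π hπ W (hle f.2)).symm
  · intro a b h
    exact Subtype.ext (Subtype.ext h)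
  · intro b
    exact ⟨⟨t4vmR3 O π hπ hN' W1 Fr W hqO O' π' C M
        ⟨(b : ↥(TaF L (N' * q * q))), t4vm_B_le W1 W hqO O' π' C M P hB b.2⟩,
      t4vm_int_R3 O π hπ hN' W1 Fr W hqO O' π' C M _ G.int _ ((hB _).mp b.2).1 G.phi_mem⟩, rfl⟩
  · intro t
    obtain ⟨f0, hf0, e⟩ := G.gr (t : ↥(modularFunctionFieldFullC k N')) t.2
    refine ⟨⟨_, ha2 f0 hf0⟩, ?_⟩
    have h1 : ι t = taResN O π hπ N' f0 := by
      rw [← coe_t2iRes O π hπ N' hN', e]
      rfl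
    rw [h1]
    exact t4ve_ρ₃_A2 O π hπ hN' W1 Fr W hqO O' π' C M f0

end Inst

end Fermat.Agent.T4
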