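/-
T4-V (helper5): **the step-C hypotheses `T4nCChart` on chart 1**, assembled.

Inputs (generic Val.lean block): helper8's `T : T4rtTop` (chart presentations `P1`, `P` at levels
`N' q`, `N' q²`, chart `x = a0 x'`) and `T' : T4rmLow` (chart presentation `P'` at level `N'`),
REG1-G (`hG`) and REG1-M (`hM`), the good reduction `G : T4vmGood … x'` of the chart at level `N'`
with `R' = t2R x̄'` Dedekind, the dictionaries of `P.B` and `P'.B`, noetherianity, the horizontal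
Kummer condition `hroot`, and the two norm equations in the adapter shape.  Output: `T4nCChart`
with `a1 = b1 = 1` and `a2`, `b2` the constants `a`, `b`.
-/
import Fermat.Agent.Lib.T4.Inst.ChartRel
import Fermat.Agent.Lib.T4.Inst.ChartSm
import Fermat.Agent.Lib.T4.Reg.TopMid
import Fermat.Agent.Lib.T4.Core.StepCCore

set_option autoImplicit false
set_option linter.unusedSectionVars false
set_option linter.unusedVariables false
set_option linter.style.haveILetI false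
set_option synthInstance.maxHeartbeats 400000

open HahnSeries ModularCurve Fermat.Agent.T1 Fermat.Agent.T2 IntermediateField

noncomputable section

namespace Fermat.Agent.T4

section One

attribute [local instance] t2iAlgebra t2i_isScalarTower

variable {L : Type} [Field L] [Algebra ℚ L] {O : ValuationSubring L} {k : Type*} [Field k]
  {π : ↥O →+* k} [IsDiscreteValuationRing ↥O] {hπ : Function.Surjective π} [IsAlgClosed k]
  {N' q : ℕ} [NeZero N'] [hq : Fact q.Prime] [CharP k q] {hN' : (N' : k) ≠ 0}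
  {W1 : T2iAL L N' q} {Fr : T2iFrob k N' q} {W : T4iAL L N' q}
  (hqO : Irreducible ((q : ℕ) : ↥O))
  {L' : Type*} [Field L'] [Algebra L L'] {O' : ValuationSubring L'}
  [IsDiscreteValuationRing ↥O'] {π' : ↥O' →+* k} {C : T4iCyc O O' π π' q}
  {M : T4iMid L L' N' q C.ζ}
  {y0 : ↥(TaF L N')} (G : T4vmGood O π hπ hN' Fr y0)
  {P : T4Pres ↥(TaF L (N' * q * q))}
  (hB : ∀ f, f ∈ P.B ↔ f ∈ t2Int (K := L) (t4vA0 L N' q y0) ∧
    f ∈ (t4vInput O π hπ hN' W1 Fr W hqO O' π' C M).Ov)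
  {P1 : T4Pres ↥(TaF L (N' * q))}

/-! ### The four lifting statements -/

include G hB in
/-- `hAi` -/
theorem t4vk_hAi
    (hα : ∀ f0 : ↥(TaF L N'), f0 ∈ t2Int (K := L) y0 → f0 ∈ taOv O π hπ N' →
      heckeAlphaBar L N' q f0 ∈ P1.B) :
    ∀ b ∈ P.B, ∃ b' ∈ P1.B, (t4vOinf (N' := N') (q := q) O π hπ).valuation
      (b - heckeAlphaBar L (N' * q) q b') < 1 := by
  intro b hb
  obtain ⟨f0, hf0, hlt⟩ := G.lift_inf W1 W hqO O' π' C M ((hB b).mp hb).2 ((hB b).mp hb).1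
  exact ⟨_, hα _ hf0 f0.2, hlt⟩

include G hB in
/-- `hAm` -/
theorem t4vk_hAm
    (hα : ∀ f0 : ↥(TaF L N'), f0 ∈ t2Int (K := L) y0 → f0 ∈ taOv O π hπ N' →
      heckeAlphaBar L N' q f0 ∈ P1.B) :
    ∀ b ∈ P.B, ∃ b' ∈ P1.B, (t4vOmid O π hπ O' π' C M).valuation
      (b - heckeAlphaBar L (N' * q) q b') < 1 := by
  intro b hb
  obtain ⟨f0, hf0, hlt⟩ := G.lift_mid W1 W hqO O' π' C M ((hB b).mp hb).2 ((hB b).mp hb).1
  exact ⟨_, hα _ hf0 f0.2, hlt⟩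

include G hB in
/-- `hB0` -/
theorem t4vk_hB0
    (hβ : ∀ f0 : ↥(TaF L N'), f0 ∈ t2Int (K := L) y0 → f0 ∈ taOv O π hπ N' →
      heckeBetaBar L N' q f0 ∈ P1.B) :
    ∀ b ∈ P.B, ∃ b' ∈ P1.B, (t4vO0 O π hπ W).valuation
      (b - heckeBetaBar L (N' * q) q b') < 1 := by
  intro b hb
  obtain ⟨f0, hf0, hlt⟩ := G.lift_zero W1 W hqO O' π' C M ((hB b).mp hb).2 ((hB b).mp hb).1
  exact ⟨_, hβ _ hf0 f0.2, hlt⟩

include G hB in
/-- `hBm` -/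
theorem t4vk_hBm
    (hβ : ∀ f0 : ↥(TaF L N'), f0 ∈ t2Int (K := L) y0 → f0 ∈ taOv O π hπ N' →
      heckeBetaBar L N' q f0 ∈ P1.B) :
    ∀ b ∈ P.B, ∃ b' ∈ P1.B, (t4vOmid O π hπ O' π' C M).valuation
      (b - heckeBetaBar L (N' * q) q b') < 1 := by
  intro b hb
  obtain ⟨f0, hf0, hlt⟩ := G.lift_mid' W1 W hqO O' π' C M ((hB b).mp hb).2 ((hB b).mp hb).1
  exact ⟨_, hβ _ hf0 f0.2, hlt⟩

/-! ### A unit constant lies in no maximal ideal -/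

/-- a unit of `O` gives a unit of `B`, hence lies in no proper ideal -/
theorem t4vk_const_not_mem
    (hc : ∀ c : ↥O, algebraMap L ↥(TaF L (N' * q * q)) (c : L) ∈ P.B) {a : ↥O}
    (ha : IsUnit a) {φ : P.B} (hφ : (φ : ↥(TaF L (N' * q * q))) = algebraMap L _ (a : L))
    (𝔫 : Ideal P.B) (h𝔫 : 𝔫 ≠ ⊤) : φ ∉ 𝔫 := by
  obtain ⟨u, rfl⟩ := ha
  intro hmem
  apply h𝔫
  have hu : (⟨algebraMap L ↥(TaF L (N' * q * q)) ((↑u⁻¹ : ↥O) : L), hc _⟩ : P.B) * φ = 1 := by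
    apply Subtype.ext
    rw [Subring.coe_mul, hφ, Subring.coe_one, ← map_mul, ← Subring.coe_mul, Units.inv_mul,
      Subring.coe_one, map_one]
  rw [Ideal.eq_top_iff_one, ← hu]
  exact 𝔫.mul_mem_left _ hmem

/-! ### Chart 1 -/

variable {x1 : ↥(TaF L (N' * q))} {P' : T4Pres ↥(TaF L N')}

set_option maxHeartbeats 1600000 in
include G hB in
/-- **`T4nCChart` on chart 1** -/
theorem t4vk_chart1 [IsDedekindDomain ↥(t2R (k := k) G.yb)]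
    (T : T4rtTop O π hπ W1 W O' π' C M x1 (t4vA0 L N' q y0) P1 P)
    (T' : T4rmLow O π hπ y0 P' P1) (hG : T4rtRegG O π hπ W1 P1)
    (hM : T4rmRegM O π hπ W1 P' P1 T'.overA')
    (hB' : ∀ f : ↥(TaF L N'), f ∈ P'.B ↔ f ∈ t2Int (K := L) y0 ∧ f ∈ taOv O π hπ N')
    (hnoeth : IsNoetherianRing P.B) {m : ℕ} (hm : m ≠ 0) (hmO : ((m : ℕ) : L)⁻¹ ∈ O)
    {z : ↥(TaF L (N' * q * q))}
    (hroot : ∀ V ∈ P.vals, V ∉ P.vert (t4vQ L N' q) → ∃ t : ↥(TaF L (N' * q * q)),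
      V.valuation (t ^ m * z) = 1)
    {ca cb : L} (hca : ca ∈ O) (hcai : ca⁻¹ ∈ O) (hca0 : ca ≠ 0)
    (hcb : cb ∈ O) (hcbi : cb⁻¹ ∈ O) (hcb0 : cb ≠ 0)
    {fa fb : ↥(TaF L (N' * q))} {a b : ↥O} (ha : IsUnit a) (hb : IsUnit b)
    (hNa : t4vnNormA L N' q z = algebraMap L ↥(TaF L (N' * q)) ca * fa ^ m)
    (hfa1 : (taOv O π hπ (N' * q)).valuation (fa - 1) < 1)
    (hfa2 : (t4rtO10 O π hπ W1).valuation (fa - algebraMap L ↥(TaF L (N' * q)) (a : L)) < 1)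
    (hNb : t4vnNormB L N' q z = algebraMap L ↥(TaF L (N' * q)) cb * fb ^ m)
    (hfb1 : (t4rtO10 O π hπ W1).valuation (fb - 1) < 1)
    (hfb2 : (taOv O π hπ (N' * q)).valuation (fb - algebraMap L ↥(TaF L (N' * q)) (b : L)) < 1)
    {a2 b2 : P.B} (ha2 : (a2 : ↥(TaF L (N' * q * q))) = algebraMap L _ (a : L))
    (hb2 : (b2 : ↥(TaF L (N' * q * q))) = algebraMap L _ (b : L))
    {h : ↥(TaF L (N' * q * q))}
    (hh : ∀ V ∈ P.vert (t4vQ L N' q), V.valuation (h - (P.xiConst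
      (t4vOinf (N' := N') (q := q) O π hπ) (t4vO0 O π hπ W) 1 a2 1 b2 q V :
        ↥(TaF L (N' * q * q)))) < 1) :
    T4nCChart P (t4vQ L N' q) m z q (t4vOinf (N' := N') (q := q) O π hπ)
      (t4vOmid O π hπ O' π' C M) (t4vO0 O π hπ W) 1 a2 1 b2 h := by
  have hα : ∀ f0 : ↥(TaF L N'), f0 ∈ t2Int (K := L) y0 → f0 ∈ taOv O π hπ N' →
      heckeAlphaBar L N' q f0 ∈ P1.B := fun f0 h1 h2 =>
    T'.overA'.map_mem f0 ((hB' f0).mpr ⟨h1, h2⟩)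
  have hβ : ∀ f0 : ↥(TaF L N'), f0 ∈ t2Int (K := L) y0 → f0 ∈ taOv O π hπ N' →
      heckeBetaBar L N' q f0 ∈ P1.B := fun f0 h1 h2 =>
    T'.mapB' f0 ((hB' f0).mpr ⟨h1, h2⟩)
  have hvert := T.vert hqO
  have hcst : ∀ c : ↥O, algebraMap L ↥(TaF L (N' * q * q)) (c : L) ∈ P.B :=
    fun c => t4vk_const_mem_B (W1 := W1) hN' Fr hqO T.vals c
  have hsm : ∀ 𝔫 : Ideal P.B, 𝔫.IsMaximal →
      ∀ (V : ValuationSubring ↥(TaF L (N' * q * q))) (hV : V ∈ P.through 𝔫),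
        V ∈ P.vert (t4vQ L N' q) → P.SmoothAt 𝔫 V hV := by
    intro 𝔫 h𝔫 V hV hVq
    haveI := h𝔫
    rw [hvert] at hVq
    rcases (mem_t4vwVer O π hπ W O' π' C M V).mp hVq with rfl | rfl | rfl
    · exact t4vm_smoothAt_inf W1 W hqO O' π' C M G P hB hV
    · exact t4vm_smoothAt_mid W1 W hqO O' π' C M G P hB hV
    · refine t4vm_smoothAt_zero W1 W hqO O' π' C M G P hB hV (fun f0 hf0 => ?_)
      refine P.B_le_loc 𝔫 ?_
      exact @T4PresOver.map_mem _ _ _ _ (t4vnAlgB L N' q) _ _ T.overB _ (hβ _ hf0 f0.2)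
  have hne : ∀ 𝔫 : Ideal P.B, 𝔫.IsMaximal → 𝔫 ≠ ⊤ := fun 𝔫 h𝔫 => h𝔫.ne_top
  have h1 : ∀ 𝔫 : Ideal P.B, 𝔫.IsMaximal → (1 : P.B) ∉ 𝔫 := fun 𝔫 h𝔫 h =>
    hne 𝔫 h𝔫 ((Ideal.eq_top_iff_one _).mpr h)
  refine
    { noeth := hnoeth
      hq := t4rt_Q_mem_B T.vals
      hm := ?_
      hreg := fun 𝔫 h𝔫 hQ => ?_
      hsm := fun 𝔫 h𝔫 _ V hV hVq => hsm 𝔫 h𝔫 V hV hVq
      hroot := hroot
      ha1 := h1
      ha2 := fun 𝔫 h𝔫 => t4vk_const_not_mem hcst ha ha2 𝔫 (hne 𝔫 h𝔫)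
      hb1 := h1
      hb2 := fun 𝔫 h𝔫 => t4vk_const_not_mem hcst hb hb2 𝔫 (hne 𝔫 h𝔫)
      hcase := fun 𝔫 h𝔫 _ s hs => ?_
      hh := hh }
  · have := hcst ⟨_, hmO⟩
    rwa [map_inv₀, map_natCast] at this
  · haveI := h𝔫
    exact T.hreg hN' Fr hqO T' hG hM 𝔫 hQ (fun V hV hVq => hsm 𝔫 h𝔫 V hV hVq)
  · exact T.hcase hN' Fr hqO hG (t4vk_hAi hqO G hB hα) (t4vk_hAm hqO G hB hα)
      (t4vk_hB0 hqO G hB hβ) (t4vk_hBm hqO G hB hβ) hm hca hcai hca0 hcb hcbi hcb0 ha hb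
      hNa hfa1 hfa2 hNb hfb1 hfb2 ha2 hb2 𝔫 h𝔫 s hs

end One

end Fermat.Agent.T4
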