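/-
T4-V (helper5): **the residue fields of the closed points of the special fibre of a chart are `k`**.

* `t4vk_surjective_of_integral`, `t4vk_exists_const_sub_mem` : abstract (a reduction `ρ : B → E` whose
  image contains `k` and is integral over `k[ρ y]`, kernel inside the maximal ideal `𝔫` ⇒ every
  `b ∈ B` is congruent modulo `𝔫` to a constant);
* `t4vk_resField` : `P` any presentation of the chart ring `B = IntCl(L[a0 y₀]) ∩ 𝒪` (dictionary
  `hB`, `hvals`), `G : T4vmGood … y₀`, `𝔫 ∋ q` maximal: `∀ b : P.B, ∃ c : O, b - c ∈ 𝔫`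
  (= `hres` of helper8's `t4rt_hk_of_res`).
-/
import Fermat.Agent.Lib.T4.Inst.ChartSm
import Fermat.Agent.Lib.T4.Reg.TopReg

set_option autoImplicit false
set_option linter.unusedSectionVars false
set_option linter.unusedVariables false
set_option linter.style.haveILetI false
set_option synthInstance.maxHeartbeats 400000

open HahnSeries ModularCurve Fermat.Agent.T1 Fermat.Agent.T2 IntermediateField

noncomputable section

namespace Fermat.Agent.T4

/-- a field which is integral over a one-generator algebra over an algebraically closed field `k`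
is `k` -/
theorem t4vk_surjective_of_integral {k κ : Type*} [Field k] [IsAlgClosed k] [Field κ]
    [Algebra k κ] (t : κ) (h : ∀ x : κ, IsIntegral ↥(Algebra.adjoin k {t}) x) :
    Function.Surjective (algebraMap k κ) := by
  haveI : Algebra.IsIntegral ↥(Algebra.adjoin k {t}) κ := ⟨h⟩
  have hA : IsField ↥(Algebra.adjoin k {t}) :=
    isField_of_isIntegral_of_isField (R := ↥(Algebra.adjoin k {t})) (S := κ)
      Subtype.val_injective (Field.toIsField κ)
  -- `t` is algebraic over `k`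
  have ht : IsIntegral k t := by
    by_contra hnt
    have htr : Transcendental k t := fun halg => hnt halg.isIntegral
    have hinj : Function.Injective (Polynomial.aeval (R := k) t) :=
      transcendental_iff_injective.mp htr
    have e : Polynomial k ≃ₐ[k] ↥(Algebra.adjoin k {t}) :=
      (AlgEquiv.ofInjective (Polynomial.aeval (R := k) t) hinj).trans
        (Subalgebra.equivOfEq _ _ (Algebra.adjoin_singleton_eq_range_aeval k t).symm)
    exact Polynomial.not_isField k (e.toMulEquiv.isField hA)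
  haveI : Algebra.IsIntegral k ↥(Algebra.adjoin k {t}) :=
    Algebra.IsIntegral.adjoin (by
      intro s hs
      rw [Set.mem_singleton_iff] at hs
      rw [hs]
      exact ht)
  haveI : Algebra.IsIntegral k κ := ⟨fun x => isIntegral_trans x (h x)⟩
  exact (IsAlgClosed.algebraMap_bijective_of_isIntegral (k := k) (K := κ)).2

/-- integrality over a ring homomorphism gives integrality over any subalgebra containing the
image -/
theorem t4vk_isIntegral_map {R S T k : Type*} [CommRing R] [CommRing S] [CommRing T]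
    [CommRing k] [Algebra k T] (ι : R →+* S) (ρ : S →+* T) (A0 : Subalgebra k T)
    (hA0 : ∀ r : R, ρ (ι r) ∈ A0) {b : S} (hb : ι.IsIntegralElem b) : IsIntegral ↥A0 (ρ b) := by
  obtain ⟨p, hmonic, hp⟩ := hb
  set φ : R →+* ↥A0 := (ρ.comp ι).codRestrict A0 hA0 with hφ
  have hφc : (algebraMap ↥A0 T).comp φ = ρ.comp ι := by
    ext r
    rfl
  refine ⟨p.map φ, hmonic.map φ, ?_⟩
  rw [Polynomial.eval₂_map, hφc, ← Polynomial.hom_eval₂, hp, map_zero]

/-- **the residue field is `k`**: `ρ : B → E` a reduction with kernel in the maximal ideal `𝔫`,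
whose image contains the constants `k` and is integral over `k[ρ y]` -/
theorem t4vk_exists_const_sub_mem {k B E : Type*} [Field k] [IsAlgClosed k] [CommRing B]
    [CommRing E] [Algebra k E] (ρ : B →+* E) (𝔫 : Ideal B) [h𝔫 : 𝔫.IsMaximal]
    (hker : ∀ b, ρ b = 0 → b ∈ 𝔫) (cst : k → B) (hcst : ∀ c : k, ρ (cst c) = algebraMap k E c)
    (y : B) (hint : ∀ b : B, IsIntegral ↥(Algebra.adjoin k {ρ y}) (ρ b)) (b : B) :
    ∃ c : k, b - cst c ∈ 𝔫 := by
  -- the image of `ρ`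
  let S : Subalgebra k E :=
    { ρ.range with algebraMap_mem' := fun c => ⟨cst c, hcst c⟩ }
  have hmemS : ∀ b : B, ρ b ∈ S := fun b => ⟨b, rfl⟩
  let ρ' : B →+* ↥S := ρ.codRestrict S hmemS
  have hsurj : Function.Surjective ρ' := by
    rintro ⟨s, b, rfl⟩
    exact ⟨b, rfl⟩
  let ψ : B →+* B ⧸ 𝔫 := Ideal.Quotient.mk 𝔫
  have hle : RingHom.ker ρ' ≤ RingHom.ker ψ := by
    intro b hb
    rw [RingHom.mem_ker] at hb
    rw [Ideal.mk_ker]
    exact hker b (congrArg Subtype.val hb)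
  let θ : ↥S →+* B ⧸ 𝔫 := RingHom.liftOfSurjective ρ' hsurj ⟨ψ, hle⟩
  have hθ : ∀ b : B, θ (ρ' b) = ψ b := fun b =>
    RingHom.liftOfRightInverse_comp_apply _ _ _ _ b
  letI : Field (B ⧸ 𝔫) := Ideal.Quotient.field 𝔫
  letI : Algebra k (B ⧸ 𝔫) := (θ.comp (algebraMap k ↥S)).toAlgebra
  let θa : ↥S →ₐ[k] B ⧸ 𝔫 := { θ with commutes' := fun c => rfl }
  -- `A₀ = k[ρ y] ⊆ S`
  have hA0le : Algebra.adjoin k {ρ y} ≤ S := Algebra.adjoin_le (by
    intro s hs
    rw [Set.mem_singleton_iff] at hs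
    rw [hs]
    exact hmemS y)
  letI : Algebra ↥(Algebra.adjoin k {ρ y}) ↥S := (Subalgebra.inclusion hA0le).toRingHom.toAlgebra
  haveI : IsScalarTower ↥(Algebra.adjoin k {ρ y}) ↥S E :=
    IsScalarTower.of_algebraMap_eq (fun x => rfl)
  have hintS : ∀ b : B, IsIntegral ↥(Algebra.adjoin k {ρ y}) (ρ' b) := fun b =>
    IsIntegral.tower_bot (A := ↥S) (B := E) Subtype.val_injective (hint b)
  -- the image of `A₀` in the residue field lies in `k[θ ρ' y]`
  have hA0 : ∀ r : ↥(Algebra.adjoin k {ρ y}),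
      θ (algebraMap ↥(Algebra.adjoin k {ρ y}) ↥S r) ∈ Algebra.adjoin k {θ (ρ' y)} := by
    rintro ⟨r, hr⟩
    induction hr using Algebra.adjoin_induction with
    | mem x hx =>
      rw [Set.mem_singleton_iff] at hx
      subst hx
      exact Algebra.subset_adjoin (Set.mem_singleton _)
    | algebraMap c =>
      have : θ (algebraMap ↥(Algebra.adjoin k {ρ y}) ↥S ⟨algebraMap k E c, Subalgebra.algebraMap_mem _ c⟩) =
          algebraMap k (B ⧸ 𝔫) c := rfl
      rw [this]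
      exact Subalgebra.algebraMap_mem _ c
    | add x z hx hz ihx ihz =>
      have : (algebraMap ↥(Algebra.adjoin k {ρ y}) ↥S ⟨x + z, Subalgebra.add_mem _ hx hz⟩) =
          algebraMap ↥(Algebra.adjoin k {ρ y}) ↥S ⟨x, hx⟩ +
            algebraMap ↥(Algebra.adjoin k {ρ y}) ↥S ⟨z, hz⟩ := rfl
      rw [this, map_add]
      exact Subalgebra.add_mem _ ihx ihz
    | mul x z hx hz ihx ihz =>
      have : (algebraMap ↥(Algebra.adjoin k {ρ y}) ↥S ⟨x * z, Subalgebra.mul_mem _ hx hz⟩) =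
          algebraMap ↥(Algebra.adjoin k {ρ y}) ↥S ⟨x, hx⟩ *
            algebraMap ↥(Algebra.adjoin k {ρ y}) ↥S ⟨z, hz⟩ := rfl
      rw [this, map_mul]
      exact Subalgebra.mul_mem _ ihx ihz
  have hintκ : ∀ x : B ⧸ 𝔫, IsIntegral ↥(Algebra.adjoin k {θ (ρ' y)}) x := by
    intro x
    obtain ⟨b, rfl⟩ := Ideal.Quotient.mk_surjective x
    have := t4vk_isIntegral_map (algebraMap ↥(Algebra.adjoin k {ρ y}) ↥S) θ
      (Algebra.adjoin k {θ (ρ' y)}) hA0 (hintS b)
    rwa [hθ b] at this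
  obtain ⟨c, hc⟩ := t4vk_surjective_of_integral (θ (ρ' y)) hintκ (ψ b)
  refine ⟨c, ?_⟩
  have h1 : algebraMap k (B ⧸ 𝔫) c = ψ (cst c) := by
    rw [← hθ]
    show θ (algebraMap k ↥S c) = θ (ρ' (cst c))
    congr 1
    exact Subtype.ext (hcst c).symm
  rw [h1] at hc
  exact Ideal.Quotient.eq.mp hc.symm


section Inst

attribute [local instance] t2iAlgebra t2i_isScalarTower

variable {L : Type} [Field L] [Algebra ℚ L] {O : ValuationSubring L} {k : Type*} [Field k]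
  {π : ↥O →+* k} [IsDiscreteValuationRing ↥O] {hπ : Function.Surjective π} [IsAlgClosed k]
  {N' q : ℕ} [NeZero N'] [hq : Fact q.Prime] [CharP k q] {hN' : (N' : k) ≠ 0}
  (W1 : T2iAL L N' q) {Fr : T2iFrob k N' q} (W : T4iAL L N' q)
  (hqO : Irreducible ((q : ℕ) : ↥O))
  {L' : Type*} [Field L'] [Algebra L L'] (O' : ValuationSubring L')
  [IsDiscreteValuationRing ↥O'] (π' : ↥O' →+* k) (C : T4iCyc O O' π π' q)
  (M : T4iMid L L' N' q C.ζ)
  {y0 : ↥(TaF L N')} (G : T4vmGood O π hπ hN' Fr y0)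
  (P : T4Pres ↥(TaF L (N' * q * q)))
  (hB : ∀ f, f ∈ P.B ↔ f ∈ t2Int (K := L) (t4vA0 L N' q y0) ∧
    f ∈ (t4vInput O π hπ hN' W1 Fr W hqO O' π' C M).Ov)

/-- the constant `c ∈ O` as an element of `𝒪`, through `a0` -/
theorem t4vk_const_eq (c : ↥O) :
    ((t4veA0 O π hπ hN' W1 Fr W hqO O' π' C M
      ⟨algebraMap L ↥(TaF L N') (c : L), algebraMap_mem_taOv O π hπ N' c⟩ :
        ↥(t4vInput O π hπ hN' W1 Fr W hqO O' π' C M).Ov) : ↥(TaF L (N' * q * q))) =
      algebraMap L ↥(TaF L (N' * q * q)) (c : L) :=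
  (t4vA0 L N' q).commutes (c : L)

/-- the reduction of level `N'` of a constant -/
theorem t4vk_res_const (c : ↥O) :
    t2iRes O π hπ N' hN' ⟨algebraMap L ↥(TaF L N') (c : L), algebraMap_mem_taOv O π hπ N' c⟩ =
      algebraMap k ↥(modularFunctionFieldFullC k N') (π c) := by
  apply Subtype.ext
  rw [coe_t2iRes, taResN_algebraMap]
  have h : ((algebraMap k ↥(modularFunctionFieldFullC k N') (π c) :
      ↥(modularFunctionFieldFullC k N')) : LaurentSeries k) = HahnSeries.C (π c) := by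
    rw [← ta_algebraMap_eq_C]
    rfl
  rw [h]

include hB in
/-- the constants of `O` lie in the chart ring -/
theorem t4vk_const_mem (c : ↥O) : algebraMap L ↥(TaF L (N' * q * q)) (c : L) ∈ P.B := by
  have h := t4vm_a0_mem_B W1 W hqO O' π' C M P hB
    ⟨algebraMap L ↥(TaF L N') (c : L), algebraMap_mem_taOv O π hπ N' c⟩
    (show algebraMap L ↥(TaF L N') (c : L) ∈ t2Int (K := L) y0 from
      (isIntegral_algebraMap (R := ↥(Algebra.adjoin L {y0})) (A := ↥(TaF L N'))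
        (x := algebraMap L ↥(Algebra.adjoin L {y0}) (c : L))))
  rwa [(t4vA0 L N' q).commutes] at h

/-- the chart coordinate as an element of the chart ring -/
def t4vkY : P.B :=
  ⟨t4vA0 L N' q y0, t4vm_a0_mem_B W1 W hqO O' π' C M P hB ⟨y0, G.mem⟩
    (show y0 ∈ t2Int (K := L) y0 from
      isIntegral_algebraMap (R := ↥(Algebra.adjoin L {y0})) (A := ↥(TaF L N'))
        (x := ⟨y0, Algebra.subset_adjoin (Set.mem_singleton y0)⟩))⟩

/-- the constants in the chart ring -/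
def t4vkCst (c : k) : P.B :=
  ⟨algebraMap L ↥(TaF L (N' * q * q)) ((Function.surjInv hπ c : ↥O) : L),
    t4vk_const_mem W1 W hqO O' π' C M P hB (Function.surjInv hπ c)⟩

theorem t4vk_incl_cst (c : k) :
    Subring.inclusion (t4vm_B_le W1 W hqO O' π' C M P hB) (t4vkCst W1 W hqO O' π' C M P hB c) =
      t4veA0 O π hπ hN' W1 Fr W hqO O' π' C M
        ⟨algebraMap L ↥(TaF L N') ((Function.surjInv hπ c : ↥O) : L),
          algebraMap_mem_taOv O π hπ N' (Function.surjInv hπ c)⟩ :=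
  Subtype.ext (t4vk_const_eq W1 W hqO O' π' C M (Function.surjInv hπ c)).symm

theorem t4vk_incl_Y :
    Subring.inclusion (t4vm_B_le W1 W hqO O' π' C M P hB) (t4vkY W1 W hqO O' π' C M G P hB) =
      t4veA0 O π hπ hN' W1 Fr W hqO O' π' C M ⟨y0, G.mem⟩ :=
  Subtype.ext rfl

include G in
/-- residue field `k` at the points of `C_inf` -/
theorem t4vk_resField_inf {𝔫 : Ideal P.B} [h𝔫 : 𝔫.IsMaximal]
    (hV : t4vOinf (N' := N') (q := q) O π hπ ∈ P.through 𝔫) (b : P.B) :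
    ∃ c : k, b - t4vkCst W1 W hqO O' π' C M P hB c ∈ 𝔫 := by
  set ρ : ↥P.B →+* ↥(modularFunctionFieldFullC k N') :=
    (t4vmR1 O π hπ hN' W1 Fr W hqO O' π' C M).comp
      (Subring.inclusion (t4vm_B_le W1 W hqO O' π' C M P hB)) with hρ
  have hy : ρ (t4vkY W1 W hqO O' π' C M G P hB) = G.yb := by
    rw [hρ, RingHom.comp_apply, t4vk_incl_Y, t4vm_R1_A0]
    rfl
  refine t4vk_exists_const_sub_mem ρ 𝔫 ?_ (t4vkCst W1 W hqO O' π' C M P hB) ?_
    (t4vkY W1 W hqO O' π' C M G P hB) ?_ b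
  · intro b hb
    refine hV.2 b ?_
    rw [← t4vr_ρ₁_eq_zero_iff O π hπ hN' W1 Fr W hqO O' π' C M
      ⟨(b : ↥(TaF L (N' * q * q))), t4vm_B_le W1 W hqO O' π' C M P hB b.2⟩,
      ← coe_t4vmR1]
    have : (t4vmR1 O π hπ hN' W1 Fr W hqO O' π' C M)
        ⟨(b : ↥(TaF L (N' * q * q))), t4vm_B_le W1 W hqO O' π' C M P hB b.2⟩ = 0 := hb
    rw [this]
    rfl
  · intro c
    rw [hρ, RingHom.comp_apply, t4vk_incl_cst, t4vm_R1_A0, t4vk_res_const,
      Function.surjInv_eq hπ c]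
  · intro b
    rw [hy]
    exact t4vm_int_R1 O π hπ hN' W1 Fr W hqO O' π' C M _ G.int
      (t4vm_B_le W1 W hqO O' π' C M P hB b.2) ((hB _).mp b.2).1

include G in
/-- residue field `k` at the points of `C_mid` -/
theorem t4vk_resField_mid {𝔫 : Ideal P.B} [h𝔫 : 𝔫.IsMaximal]
    (hV : t4vOmid O π hπ O' π' C M ∈ P.through 𝔫) (b : P.B) :
    ∃ c : k, b - t4vkCst W1 W hqO O' π' C M P hB c ∈ 𝔫 := by
  set ρ : ↥P.B →+* ↥(modularFunctionFieldFullC k N') :=
    (t4vmR2 O π hπ hN' W1 Fr W hqO O' π' C M).comp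
      (Subring.inclusion (t4vm_B_le W1 W hqO O' π' C M P hB)) with hρ
  have hy : ρ (t4vkY W1 W hqO O' π' C M G P hB) = G.yb := by
    rw [hρ, RingHom.comp_apply, t4vk_incl_Y, t4vm_R2_A0]
    rfl
  refine t4vk_exists_const_sub_mem ρ 𝔫 ?_ (t4vkCst W1 W hqO O' π' C M P hB) ?_
    (t4vkY W1 W hqO O' π' C M G P hB) ?_ b
  · intro b hb
    refine hV.2 b ?_
    rw [← t4vr_ρ₂_eq_zero_iff O π hπ hN' W1 Fr W hqO O' π' C M
      ⟨(b : ↥(TaF L (N' * q * q))), t4vm_B_le W1 W hqO O' π' C M P hB b.2⟩,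
      ← coe_t4vmR2]
    have : (t4vmR2 O π hπ hN' W1 Fr W hqO O' π' C M)
        ⟨(b : ↥(TaF L (N' * q * q))), t4vm_B_le W1 W hqO O' π' C M P hB b.2⟩ = 0 := hb
    rw [this]
    rfl
  · intro c
    rw [hρ, RingHom.comp_apply, t4vk_incl_cst, t4vm_R2_A0, t4vk_res_const,
      Function.surjInv_eq hπ c]
  · intro b
    rw [hy]
    exact t4vm_int_R2 O π hπ hN' W1 Fr W hqO O' π' C M _ G.int
      (t4vm_B_le W1 W hqO O' π' C M P hB b.2) ((hB _).mp b.2).1

set_option maxHeartbeats 1600000 in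
include G in
/-- the reduction at `0` of an element of `𝒪` integral over `L[a0 y₀]` is integral over
`k[Φ² ȳ]` -/
theorem t4vk_int_R3 {f : ↥(TaF L (N' * q * q))}
    (hf : f ∈ (t4vInput O π hπ hN' W1 Fr W hqO O' π' C M).Ov)
    (hfint : IsIntegral ↥(Algebra.adjoin L {t4vA0 L N' q y0}) f) :
    IsIntegral ↥(Algebra.adjoin k {t4vmPhi2 Fr G.yb})
      (t4vmR3 O π hπ hN' W1 Fr W hqO O' π' C M ⟨f, hf⟩) := by
  letI : Algebra ↥(TaF L N') ↥(TaF L (N' * q * q)) :=
    ((t4vA0 L N' q : ↥(TaF L N') →ₐ[L] ↥(TaF L (N' * q * q))) :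
      ↥(TaF L N') →+* ↥(TaF L (N' * q * q))).toAlgebra
  haveI : IsScalarTower L ↥(TaF L N') ↥(TaF L (N' * q * q)) :=
    IsScalarTower.of_algebraMap_eq (fun a => ((t4vA0 L N' q).commutes a).symm)
  have hA0 : ∀ r : ↥(Algebra.adjoin k {G.yb}),
      t4vmPhi2 Fr (algebraMap ↥(Algebra.adjoin k {G.yb}) ↥(modularFunctionFieldFullC k N') r) ∈
        Algebra.adjoin k {t4vmPhi2 Fr G.yb} := by
    rintro ⟨r, hr⟩
    show t4vmPhi2 Fr r ∈ _
    induction hr using Algebra.adjoin_induction with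
    | mem x hx =>
      rw [Set.mem_singleton_iff] at hx
      rw [hx]
      exact Algebra.subset_adjoin (Set.mem_singleton _)
    | algebraMap c =>
      rw [t4vmPhi2_algebraMap]
      exact Subalgebra.algebraMap_mem _ c
    | add x z _ _ hx hz =>
      rw [map_add]
      exact add_mem hx hz
    | mul x z _ _ hx hz =>
      rw [map_mul]
      exact mul_mem hx hz
  exact t4vm_isIntegral_res_tower (K := L) (taOv O π hπ N')
    (t4vInput O π hπ hN' W1 Fr W hqO O' π' C M).Ov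
    (fun c => t4v_a0_mem O π hπ hN' W1 Fr W hqO O' π' C M c.2)
    (t4vmR3 O π hπ hN' W1 Fr W hqO O' π' C M) ((t4vmPhi2 Fr).comp (t2iRes O π hπ N' hN'))
    (t4vm_R3_A0 O π hπ hN' W1 Fr W hqO O' π' C M) (Algebra.adjoin k {t4vmPhi2 Fr G.yb}) y0
    (fun g hg => t4vm_isIntegral_map
      (algebraMap ↥(Algebra.adjoin k {G.yb}) ↥(modularFunctionFieldFullC k N')) (t4vmPhi2 Fr)
      (Algebra.adjoin k {t4vmPhi2 Fr G.yb}) hA0 (G.int g hg)) hf
    (t4v_isIntegralElem O π hπ hN' W1 Fr W hqO O' π' C M f hf) hfint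

include G in
/-- residue field `k` at the points of `C_0` -/
theorem t4vk_resField_zero {𝔫 : Ideal P.B} [h𝔫 : 𝔫.IsMaximal]
    (hV : t4vO0 O π hπ W ∈ P.through 𝔫) (b : P.B) :
    ∃ c : k, b - t4vkCst W1 W hqO O' π' C M P hB c ∈ 𝔫 := by
  set ρ : ↥P.B →+* ↥(modularFunctionFieldFullC k N') :=
    (t4vmR3 O π hπ hN' W1 Fr W hqO O' π' C M).comp
      (Subring.inclusion (t4vm_B_le W1 W hqO O' π' C M P hB)) with hρ
  have hy : ρ (t4vkY W1 W hqO O' π' C M G P hB) = t4vmPhi2 Fr G.yb := by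
    rw [hρ, RingHom.comp_apply, t4vk_incl_Y, t4vm_R3_A0]
    rfl
  refine t4vk_exists_const_sub_mem ρ 𝔫 ?_ (t4vkCst W1 W hqO O' π' C M P hB) ?_
    (t4vkY W1 W hqO O' π' C M G P hB) ?_ b
  · intro b hb
    refine hV.2 b ?_
    rw [← t4vr_ρ₃_eq_zero_iff O π hπ hN' W1 Fr W hqO O' π' C M
      ⟨(b : ↥(TaF L (N' * q * q))), t4vm_B_le W1 W hqO O' π' C M P hB b.2⟩,
      ← coe_t4vmR3]
    have : (t4vmR3 O π hπ hN' W1 Fr W hqO O' π' C M)
        ⟨(b : ↥(TaF L (N' * q * q))), t4vm_B_le W1 W hqO O' π' C M P hB b.2⟩ = 0 := hb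
    rw [this]
    rfl
  · intro c
    rw [hρ, RingHom.comp_apply, t4vk_incl_cst, t4vm_R3_A0, t4vk_res_const,
      Function.surjInv_eq hπ c, t4vmPhi2_algebraMap]
  · intro b
    rw [hy]
    exact t4vk_int_R3 W1 W hqO O' π' C M G (t4vm_B_le W1 W hqO O' π' C M P hB b.2)
      ((hB _).mp b.2).1

include G hB in
/-- **the residue field of a closed point `𝔫 ∋ q` of the chart is `k`** (the shape `hres` of
`t4rt_hk_of_res`) -/
theorem t4vk_resField {y : ↥(TaF L (N' * q * q))}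
    (hvals : P.vals = t4vpHor L y ∪ t4vwVer O π hπ W O' π' C M) (𝔫 : Ideal P.B)
    [h𝔫 : 𝔫.IsMaximal] (hQ : (⟨t4vQ L N' q, t4rt_Q_mem_B hvals⟩ : P.B) ∈ 𝔫) (b : P.B) :
    ∃ c : ↥O, ∀ hc : algebraMap L ↥(TaF L (N' * q * q)) (c : L) ∈ P.B,
      b - (⟨algebraMap L ↥(TaF L (N' * q * q)) (c : L), hc⟩ : P.B) ∈ 𝔫 := by
  haveI := h𝔫.isPrime
  obtain ⟨V, hV, hlt⟩ := P.exists_through_of_mem 𝔫 hQ t4vQ_ne_zero
  have hVq : V ∈ P.vert (t4vQ L N' q) := ⟨hV.1, hlt⟩
  rw [t4rt_vert hqO hvals] at hVq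
  have key : ∃ c : k, b - t4vkCst W1 W hqO O' π' C M P hB c ∈ 𝔫 := by
    rcases (mem_t4vwVer O π hπ W O' π' C M V).mp hVq with rfl | rfl | rfl
    · exact t4vk_resField_inf W1 W hqO O' π' C M G P hB hV b
    · exact t4vk_resField_mid W1 W hqO O' π' C M G P hB hV b
    · exact t4vk_resField_zero W1 W hqO O' π' C M G P hB hV b
  obtain ⟨c, hc⟩ := key
  exact ⟨Function.surjInv hπ c, fun _ => hc⟩

end Inst

end Fermat.Agent.T4
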