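/-
T4-V (helper9), "(G)": good reduction of the two charts `X' = j^Q - j` and `X'⁻¹` at level `N'`,
in helper5's shape `T4vmGood` (ResInt.lean), at the inertia level, and the Dedekind property of
the reduced chart rings `t2R x̄`, `t2R x̄⁻¹` (= the inputs of `t4vm_smoothAt_inf/_mid/_zero`,
ChartSm.lean).  Prefix `t4vg`.

* `t4vg_isDedekindDomain_X`, `t4vg_isDedekindDomain_X_inv` : `IntCl_{E'}(k[x̄])`, `IntCl_{E'}(k[x̄⁻¹])`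
  are Dedekind domains (`x̄ = j̄^Q - j̄`, `char k ∣ Q` for the second);
* `t4vg_frob_X`, `t4vg_frob_X_inv` : `Φ² x̄ = x̄^(q²)`, same for `x̄⁻¹`;
* **`t4vg_good_X`**, **`t4vg_good_X_inv`** : `T4vmGood … (t4vX' L N' Q)` and `T4vmGood … (t4vX' L N' Q)⁻¹`
  at the inertia level (from T2's good reduction `t2grChartX.int1/int2`, `t2gr_GR1/GR2`);
* `t4vg_yb_X`, `t4vg_yb_X_inv`, **`t4vg_dedekind_X`**, **`t4vg_dedekind_X_inv`** : the instances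
  `IsDedekindDomain ↥(t2R G.yb)` for these two.
-/
import Fermat.Agent.Lib.T4.Inst.ResInt
import Fermat.Agent.Lib.T4.Reg.LevInst3
import Fermat.Agent.Lib.T2.Inst.GoodRedH

set_option autoImplicit false
set_option linter.unusedSectionVars false
set_option linter.unusedVariables false
set_option linter.style.haveILetI false
set_option synthInstance.maxHeartbeats 400000
set_option maxHeartbeats 1000000

open HahnSeries ModularCurve Module AlgebraicCurve IntermediateField Fermat.Agent.Curve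
  Fermat.Agent.T1 Fermat.Agent.T2 Fermat.Agent.TW Fermat.Agent.S05Lib

noncomputable section

namespace Fermat.Agent.T4

universe u

/-! ### The reduced chart rings are Dedekind -/

section Ded

variable (k : Type u) [Field k] [IsAlgClosed k] (q : ℕ) [hq : Fact q.Prime] [CharP k q]
  (N' : ℕ) [NeZero N'] (hN : (N' : k) ≠ 0) {Q : ℕ}

theorem t4vg_t2R_X (hQ : 2 ≤ Q) :
    t2R (k := k) (taBarJ k N' ^ Q - taBarJ k N') = t2R (k := k) (taBarJ k N') := by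
  refine t2c_t2R_eq (k := k) ?_ ?_
  · exact Subalgebra.sub_mem _ (Subalgebra.pow_mem _ (Algebra.self_mem_adjoin_singleton k _) _)
      (Algebra.self_mem_adjoin_singleton k _)
  · set a : ↥(Algebra.adjoin k {taBarJ k N' ^ Q - taBarJ k N'}) :=
      ⟨taBarJ k N' ^ Q - taBarJ k N', Algebra.self_mem_adjoin_singleton k _⟩ with ha
    refine ⟨Polynomial.X ^ Q - (Polynomial.X + Polynomial.C a), Polynomial.monic_X_pow_sub ?_, ?_⟩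
    · rw [Polynomial.degree_X_add_C]
      exact_mod_cast (by omega : 1 < Q)
    · rw [Polynomial.eval₂_sub, Polynomial.eval₂_pow, Polynomial.eval₂_X, Polynomial.eval₂_add,
        Polynomial.eval₂_X, Polynomial.eval₂_C]
      show taBarJ k N' ^ Q - (taBarJ k N' + (taBarJ k N' ^ Q - taBarJ k N')) = 0
      ring

include hN in
/-- `IntCl(k[x̄])`, `x̄ = j̄^Q - j̄`, is a Dedekind domain -/
theorem t4vg_isDedekindDomain_X (hQ : 2 ≤ Q) :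
    IsDedekindDomain ↥(t2R (k := k) (taBarJ k N' ^ Q - taBarJ k N')) := by
  rw [t4vg_t2R_X k N' hQ]
  exact t4ri3_isDedekindDomain k N' hN

theorem t4vg_xbar_notMem_range (hQ : 2 ≤ Q) :
    taBarJ k N' ^ Q - taBarJ k N' ∉ Set.range (algebraMap k (TaBar k N')) :=
  t2gr_notMem_range (ta_bar_isFunctionFieldGen k N') hQ

theorem t4vg_xbar_inv_notMem_range (hQ : 2 ≤ Q) :
    (taBarJ k N' ^ Q - taBarJ k N')⁻¹ ∉ Set.range (algebraMap k (TaBar k N')) := by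
  rintro ⟨c, hc⟩
  apply t4vg_xbar_notMem_range k N' hQ
  refine ⟨c⁻¹, ?_⟩
  rw [map_inv₀, hc, inv_inv]

theorem t4vg_adjoin_inv (x : TaBar k N') : k⟮x⁻¹⟯ = k⟮x⟯ := by
  apply le_antisymm
  · rw [adjoin_simple_le_iff]
    exact inv_mem (mem_adjoin_simple_self k x)
  · rw [adjoin_simple_le_iff]
    have h : x⁻¹ ∈ k⟮x⁻¹⟯ := mem_adjoin_simple_self k x⁻¹
    have h2 := inv_mem h
    rwa [inv_inv] at h2

include hN in
/-- `IntCl(k[x̄⁻¹])`, `x̄ = j̄^Q - j̄`, `char k ∣ Q`, is a Dedekind domain -/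
theorem t4vg_isDedekindDomain_X_inv (hQ : 2 ≤ Q) (hqQ : q ∣ Q) :
    IsDedekindDomain ↥(t2R (k := k) (taBarJ k N' ^ Q - taBarJ k N')⁻¹) := by
  haveI : Fact (IsFunctionFieldGen k (TaBar k N') (taBarJ k N' ^ Q - taBarJ k N')⁻¹) :=
    ⟨Fermat.Agent.CurveP.isFunctionFieldGen_of_notMem_range (ta_bar_isFunctionFieldGen k N')
      (t4vg_xbar_inv_notMem_range k N' hQ)⟩
  haveI := ta_bar_isSeparable k N' hN
  have hsep : Algebra.IsSeparable ↥(k⟮taBarJ k N' ^ Q - taBarJ k N'⟯) (TaBar k N') :=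
    t2gr_isSeparable_AS q Q hqQ (taBarJ k N')
  haveI : Algebra.IsSeparable ↥(k⟮(taBarJ k N' ^ Q - taBarJ k N')⁻¹⟯) (TaBar k N') := by
    rw [t4vg_adjoin_inv]
    exact hsep
  exact (Fermat.Agent.CurveP.Bx.isDedekindDomain :
    IsDedekindDomain ↥(Fermat.Agent.CurveP.Bx k (taBarJ k N' ^ Q - taBarJ k N')⁻¹))

end Ded

/-! ### Frobenius -/

section Frob

variable {k : Type*} [Field k] [IsAlgClosed k] {N' q : ℕ} [NeZero N'] [hq : Fact q.Prime]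
  [CharP k q] (Fr : T2iFrob k N' q) (Q : ℕ)

/-- `Φ² j̄ = j̄^(q²)` -/
theorem t4vg_frob_J : t4vmPhi2 Fr (taBarJ k N') = taBarJ k N' ^ (q * q) := by
  apply Subtype.ext
  rw [coe_t4vmPhi2]
  show qExpand k q (qExpand k q (jqModC k)) = jqModC k ^ (q * q)
  rw [← t2i_jq_pow k q, map_pow, ← t2i_jq_pow k q, ← pow_mul]

/-- `Φ² x̄ = x̄^(q²)` -/
theorem t4vg_frob_X :
    t4vmPhi2 Fr (taBarJ k N' ^ Q - taBarJ k N') = (taBarJ k N' ^ Q - taBarJ k N') ^ (q * q) := by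
  haveI : CharP (TaBar k N') q :=
    charP_of_injective_algebraMap (algebraMap k (TaBar k N')).injective q
  rw [map_sub, map_pow, t4vg_frob_J, ← pow_two, sub_pow_char_pow, ← pow_mul, ← pow_mul, mul_comm]

/-- `Φ² x̄⁻¹ = (x̄⁻¹)^(q²)` -/
theorem t4vg_frob_X_inv :
    t4vmPhi2 Fr (taBarJ k N' ^ Q - taBarJ k N')⁻¹ =
      ((taBarJ k N' ^ Q - taBarJ k N')⁻¹) ^ (q * q) := by
  rw [map_inv₀, t4vg_frob_X, inv_pow]

end Frob

/-! ### The inertia level -/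

section Fix

attribute [local instance] t2i_dvr t2i_isAlgClosed t2i_charP t2i_fact

variable (𝔓 : FFPlace) (H : Subgroup 𝔓.I) [H.FiniteIndex] (N' : ℕ) [NeZero N'] (h : ¬ 𝔓.p ∣ N')
  (h49 : 4 ∣ N' ∨ 9 ∣ N') {Q : ℕ} (hQ : 2 ≤ Q) (hpQ : 𝔓.p ∣ Q)

include h

theorem t4vg_X'_mem :
    t4vX' ↥(tbFix 𝔓 H) N' Q ∈
      taOv (tbFixO 𝔓 H) (tbFixRes 𝔓 H) (tbFixRes_surjective 𝔓 H) N' :=
  t2gr_x_mem 𝔓 H N' h Q

theorem t4vg_res_X' :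
    t2iRes (tbFixO 𝔓 H) (tbFixRes 𝔓 H) (tbFixRes_surjective 𝔓 H) N' (t2i_natCast_ne_zero 𝔓 h)
      ⟨t4vX' ↥(tbFix 𝔓 H) N' Q, t4vg_X'_mem 𝔓 H N' h⟩ =
      taBarJ (IsLocalRing.ResidueField ↥𝔓.P) N' ^ Q - taBarJ (IsLocalRing.ResidueField ↥𝔓.P) N' :=
  t2gr_res_x 𝔓 H N' h Q

include hQ in
theorem t4vg_X'_inv_mem :
    (t4vX' ↥(tbFix 𝔓 H) N' Q)⁻¹ ∈
      taOv (tbFixO 𝔓 H) (tbFixRes 𝔓 H) (tbFixRes_surjective 𝔓 H) N' :=
  t2gr_x_inv_mem 𝔓 H N' h hQ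

include hQ hpQ in
theorem t4vg_res_X'_inv :
    t2iRes (tbFixO 𝔓 H) (tbFixRes 𝔓 H) (tbFixRes_surjective 𝔓 H) N' (t2i_natCast_ne_zero 𝔓 h)
      ⟨(t4vX' ↥(tbFix 𝔓 H) N' Q)⁻¹, t4vg_X'_inv_mem 𝔓 H N' h hQ⟩ =
      (taBarJ (IsLocalRing.ResidueField ↥𝔓.P) N' ^ Q -
        taBarJ (IsLocalRing.ResidueField ↥𝔓.P) N')⁻¹ := by
  have h1 := (t2grChartX 𝔓 H N' h hQ hpQ).res_x_inv
  rw [t2grChartX_xb] at h1
  exact h1

include h49 hQ hpQ in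
/-- **good reduction of the chart `X' = j^Q - j` of level `N'`** (inertia level) -/
theorem t4vg_good_X :
    T4vmGood (tbFixO 𝔓 H) (tbFixRes 𝔓 H) (tbFixRes_surjective 𝔓 H) (t2i_natCast_ne_zero 𝔓 h)
      (t2iFrobFix 𝔓 N') (t4vX' ↥(tbFix 𝔓 H) N' Q) where
  mem := t4vg_X'_mem 𝔓 H N' h
  int := fun g hg => (t2grChartX 𝔓 H N' h hQ hpQ).int1 (g : ↥(tbLevF 𝔓 N' H)) g.2 hg
  gr := fun t ht => by
    rw [t4vg_res_X' 𝔓 H N' h] at ht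
    obtain ⟨f, hf, hint, hres⟩ := t2gr_GR1 𝔓 H N' h h49 hQ hpQ ht
    exact ⟨⟨f, hf⟩, hint, hres⟩
  frob := by
    rw [t4vg_res_X' 𝔓 H N' h]
    exact t4vg_frob_X (t2iFrobFix 𝔓 N') Q

include h49 hQ hpQ in
/-- **good reduction of the chart `X'⁻¹` of level `N'`** (inertia level) -/
theorem t4vg_good_X_inv :
    T4vmGood (tbFixO 𝔓 H) (tbFixRes 𝔓 H) (tbFixRes_surjective 𝔓 H) (t2i_natCast_ne_zero 𝔓 h)
      (t2iFrobFix 𝔓 N') (t4vX' ↥(tbFix 𝔓 H) N' Q)⁻¹ where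
  mem := t4vg_X'_inv_mem 𝔓 H N' h hQ
  int := fun g hg => by
    have h1 := (t2grChartX 𝔓 H N' h hQ hpQ).int2 (g : ↥(tbLevF 𝔓 N' H)) g.2 hg
    rw [t4vg_res_X'_inv 𝔓 H N' h hQ hpQ]
    have h2 : (t2iBaseFix 𝔓 H N' h).res ⟨(t2grChartX 𝔓 H N' h hQ hpQ).x,
        (t2grChartX 𝔓 H N' h hQ hpQ).hx⟩ =
        taBarJ (IsLocalRing.ResidueField ↥𝔓.P) N' ^ Q -
          taBarJ (IsLocalRing.ResidueField ↥𝔓.P) N' := t2gr_res_x 𝔓 H N' h Q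
    rw [h2] at h1
    exact h1
  gr := fun t ht => by
    rw [t4vg_res_X'_inv 𝔓 H N' h hQ hpQ] at ht
    obtain ⟨f, hf, hint, hres⟩ := t2gr_GR2 𝔓 H N' h h49 hQ hpQ ht
    exact ⟨⟨f, hf⟩, hint, hres⟩
  frob := by
    rw [t4vg_res_X'_inv 𝔓 H N' h hQ hpQ]
    exact t4vg_frob_X_inv (t2iFrobFix 𝔓 N') Q

theorem t4vg_yb_X (G : T4vmGood (tbFixO 𝔓 H) (tbFixRes 𝔓 H) (tbFixRes_surjective 𝔓 H)
    (t2i_natCast_ne_zero 𝔓 h) (t2iFrobFix 𝔓 N') (t4vX' ↥(tbFix 𝔓 H) N' Q)) :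
    G.yb = taBarJ (IsLocalRing.ResidueField ↥𝔓.P) N' ^ Q -
      taBarJ (IsLocalRing.ResidueField ↥𝔓.P) N' :=
  t4vg_res_X' 𝔓 H N' h

include hQ hpQ in
theorem t4vg_yb_X_inv (G : T4vmGood (tbFixO 𝔓 H) (tbFixRes 𝔓 H) (tbFixRes_surjective 𝔓 H)
    (t2i_natCast_ne_zero 𝔓 h) (t2iFrobFix 𝔓 N') (t4vX' ↥(tbFix 𝔓 H) N' Q)⁻¹) :
    G.yb = (taBarJ (IsLocalRing.ResidueField ↥𝔓.P) N' ^ Q -
      taBarJ (IsLocalRing.ResidueField ↥𝔓.P) N')⁻¹ :=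
  t4vg_res_X'_inv 𝔓 H N' h hQ hpQ

include hQ in
/-- the Dedekind instance needed by `t4vm_smoothAt_*` on chart 1 -/
theorem t4vg_dedekind_X (G : T4vmGood (tbFixO 𝔓 H) (tbFixRes 𝔓 H) (tbFixRes_surjective 𝔓 H)
    (t2i_natCast_ne_zero 𝔓 h) (t2iFrobFix 𝔓 N') (t4vX' ↥(tbFix 𝔓 H) N' Q)) :
    IsDedekindDomain ↥(t2R (k := IsLocalRing.ResidueField ↥𝔓.P) G.yb) := by
  rw [t4vg_yb_X 𝔓 H N' h G]
  exact t4vg_isDedekindDomain_X _ N' (t2i_natCast_ne_zero 𝔓 h) hQ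

include hQ hpQ in
/-- the Dedekind instance needed by `t4vm_smoothAt_*` on chart 2 -/
theorem t4vg_dedekind_X_inv (G : T4vmGood (tbFixO 𝔓 H) (tbFixRes 𝔓 H)
    (tbFixRes_surjective 𝔓 H) (t2i_natCast_ne_zero 𝔓 h) (t2iFrobFix 𝔓 N')
    (t4vX' ↥(tbFix 𝔓 H) N' Q)⁻¹) :
    IsDedekindDomain ↥(t2R (k := IsLocalRing.ResidueField ↥𝔓.P) G.yb) := by
  rw [t4vg_yb_X_inv 𝔓 H N' h hQ hpQ G]
  exact t4vg_isDedekindDomain_X_inv _ 𝔓.p N' (t2i_natCast_ne_zero 𝔓 h) hQ hpQ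

end Fix

end Fermat.Agent.T4
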