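/-
T4-V (helper9), "SEP2": global separating elements on chart 2 (`x⁻¹` regular) at level `N' q²`.

`u := x⁻¹`, `x = (a0 j)^Q - a0 j`, `Q = q * q`.  With lead's `A = a2 j - (a1 j)^q`,
`A' = a0 j - (a1 j)^q`, `B = a2 j - a0 j` (`ValElts1.lean`):

  `e₁ := -(A' * B * u²)`,  `e₂ := A * A' * u²`   (elements of `𝒪`)

have reductions `(1, 0, 0)` and `(0, 1, 0)` at the three vertical valuations, and are integral over
`L[u]` as soon as `(a1 j) / (a0 j)^q` and `(a2 j) / (a0 j)^Q` are integral over `L[1 / a0 j]` (cusp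
package; discharged at the inertia level in `Sep2H.lean`).  Hence no two distinct vertical
valuations pass through a common closed point of chart 2.

* pure algebra: `t4vs2_isIntegral_mul_inv`, `t4vs2_isIntegral_inv`, `t4vs2_isIntegral_pow_mul_inv`,
  `t4vs2_isIntegral_e1`, `t4vs2_isIntegral_e2`;
* `t4vs2U`, `t4vs2E1`, `t4vs2E2 : 𝒪`, `coe_t4vs2E1`, `coe_t4vs2E2`, the reduction tables
  `t4vs2_ρ₁_E1 … t4vs2_ρ₃_E2`, and the valuation forms `t4vs2_val_E1`, `t4vs2_val_E2`.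
-/
import Fermat.Agent.Lib.T4.Inst.ValElts1
import Fermat.Agent.Lib.T4.Inst.ValRes
import Fermat.Agent.Lib.T4.Inst.ValChart
import Fermat.Agent.Lib.T2.Inst.NodeFin

set_option autoImplicit false
set_option linter.unusedSectionVars false
set_option linter.unusedVariables false
set_option linter.style.haveILetI false
set_option synthInstance.maxHeartbeats 400000

open HahnSeries ModularCurve Fermat.Agent.T1 Fermat.Agent.T2 IntermediateField Polynomial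

noncomputable section

namespace Fermat.Agent.T4

/-! ### Pure algebra -/

section Alg

variable {K F : Type*} [Field K] [Field F] [Algebra K F]

/-- `J u` is integral over `K[u]`, `u = (J^Q - J)⁻¹` -/
theorem t4vs2_isIntegral_mul_inv (J : F) {Q : ℕ} (hQ : 2 ≤ Q) (hx : J ^ Q - J ≠ 0) :
    IsIntegral ↥(Algebra.adjoin K {(J ^ Q - J)⁻¹}) (J * (J ^ Q - J)⁻¹) := by
  set u : F := (J ^ Q - J)⁻¹ with hu
  set a : ↥(Algebra.adjoin K {u}) := ⟨u, Algebra.self_mem_adjoin_singleton K _⟩ with ha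
  refine ⟨X ^ Q - (Polynomial.C (a ^ (Q - 1)) * X + Polynomial.C (a ^ (Q - 1))),
    Polynomial.monic_X_pow_sub ?_, ?_⟩
  · refine lt_of_le_of_lt (Polynomial.degree_add_le _ _) (max_lt ?_ ?_)
    · refine lt_of_le_of_lt (Polynomial.degree_C_mul_X_le _) ?_
      exact_mod_cast (by omega : 1 < Q)
    · refine lt_of_le_of_lt Polynomial.degree_C_le ?_
      exact_mod_cast (by omega : 0 < Q)
  · rw [Polynomial.eval₂_sub, Polynomial.eval₂_pow, Polynomial.eval₂_X, Polynomial.eval₂_add,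
      Polynomial.eval₂_mul, Polynomial.eval₂_X, Polynomial.eval₂_C]
    show (J * u) ^ Q - (u ^ (Q - 1) * (J * u) + u ^ (Q - 1)) = 0
    have hux : u * (J ^ Q - J) = 1 := inv_mul_cancel₀ hx
    obtain ⟨n, rfl⟩ : ∃ n, Q = n + 1 := ⟨Q - 1, by omega⟩
    rw [Nat.add_sub_cancel]
    have : (J * u) ^ (n + 1) - (u ^ n * (J * u) + u ^ n) = u ^ n * (u * (J ^ (n + 1) - J) - 1) := by
      ring
    rw [this, hux, sub_self, mul_zero]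

/-- `J⁻¹` is integral over `K[u]`, `u = (J^Q - J)⁻¹` -/
theorem t4vs2_isIntegral_inv (J : F) {Q : ℕ} (hQ : 2 ≤ Q) (hx : J ^ Q - J ≠ 0) (h0 : J ≠ 0) :
    IsIntegral ↥(Algebra.adjoin K {(J ^ Q - J)⁻¹}) J⁻¹ := by
  set u : F := (J ^ Q - J)⁻¹ with hu
  set a : ↥(Algebra.adjoin K {u}) := ⟨u, Algebra.self_mem_adjoin_singleton K _⟩ with ha
  refine ⟨X ^ Q - (Polynomial.C (-a) * X ^ (Q - 1) + Polynomial.C a),
    Polynomial.monic_X_pow_sub ?_, ?_⟩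
  · refine lt_of_le_of_lt (Polynomial.degree_add_le _ _) (max_lt ?_ ?_)
    · refine lt_of_le_of_lt (Polynomial.degree_C_mul_X_pow_le _ _) ?_
      exact_mod_cast (by omega : Q - 1 < Q)
    · refine lt_of_le_of_lt Polynomial.degree_C_le ?_
      exact_mod_cast (by omega : 0 < Q)
  · rw [Polynomial.eval₂_sub, Polynomial.eval₂_pow, Polynomial.eval₂_X, Polynomial.eval₂_add,
      Polynomial.eval₂_mul, Polynomial.eval₂_pow, Polynomial.eval₂_X, Polynomial.eval₂_C,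
      Polynomial.eval₂_C]
    show J⁻¹ ^ Q - (-u * J⁻¹ ^ (Q - 1) + u) = 0
    have hux : u * (J ^ Q - J) = 1 := inv_mul_cancel₀ hx
    obtain ⟨n, rfl⟩ : ∃ n, Q = n + 1 := ⟨Q - 1, by omega⟩
    rw [Nat.add_sub_cancel]
    have h1 : J⁻¹ ^ (n + 1) * J ^ (n + 1) = 1 := by
      rw [← mul_pow, inv_mul_cancel₀ h0, one_pow]
    have h2 : J⁻¹ ^ n * J ^ n = 1 := by
      rw [← mul_pow, inv_mul_cancel₀ h0, one_pow]
    have : J⁻¹ ^ (n + 1) - (-u * J⁻¹ ^ n + u) =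
        J⁻¹ ^ (n + 1) * (1 - u * (J ^ (n + 1) - J)) +
          u * (J⁻¹ ^ (n + 1) * J ^ (n + 1) - 1) - u * J⁻¹ ^ n * (J⁻¹ * J - 1) := by
      ring
    rw [this, hux, h1, inv_mul_cancel₀ h0]
    ring

/-- if `Y / J^d` is integral over `K[1/J]` and `d e = Q` then `Y^e u` is integral over `K[u]` -/
theorem t4vs2_isIntegral_pow_mul_inv (J Y : F) {Q d e : ℕ} (hQ : 2 ≤ Q) (hx : J ^ Q - J ≠ 0)
    (h0 : J ≠ 0) (hde : d * e = Q)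
    (hY : IsIntegral ↥(Algebra.adjoin K {J⁻¹}) (Y * J⁻¹ ^ d)) :
    IsIntegral ↥(Algebra.adjoin K {(J ^ Q - J)⁻¹}) (Y ^ e * (J ^ Q - J)⁻¹) := by
  set u : F := (J ^ Q - J)⁻¹ with hu
  have h1 : IsIntegral ↥(Algebra.adjoin K {u}) (Y * J⁻¹ ^ d) :=
    t2c_isIntegral_trans (t4vs2_isIntegral_inv (K := K) J hQ hx h0) hY
  have h2 : IsIntegral ↥(Algebra.adjoin K {u}) (1 + J * u) :=
    isIntegral_one.add (t4vs2_isIntegral_mul_inv (K := K) J hQ hx)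
  have hux : (J ^ Q - J) * u = 1 := mul_inv_cancel₀ hx
  have h3 : Y ^ e * u = (Y * J⁻¹ ^ d) ^ e * (1 + J * u) := by
    have h4 : J⁻¹ ^ Q * J ^ Q = 1 := by rw [← mul_pow, inv_mul_cancel₀ h0, one_pow]
    have h5 : 1 + J * u = J ^ Q * u := by
      have : J ^ Q * u = (J ^ Q - J) * u + J * u := by ring
      rw [this, hux]
    rw [h5, mul_pow, ← pow_mul, hde]
    calc Y ^ e * u = Y ^ e * (J⁻¹ ^ Q * J ^ Q) * u := by rw [h4, mul_one]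
      _ = Y ^ e * J⁻¹ ^ Q * (J ^ Q * u) := by ring
  rw [h3]
  exact (h1.pow e).mul h2

variable (J0 J1 J2 : F) {q : ℕ} (hq : 2 ≤ q) (hx : J0 ^ (q * q) - J0 ≠ 0) (h0 : J0 ≠ 0)
  (hJ1 : IsIntegral ↥(Algebra.adjoin K {J0⁻¹}) (J1 * J0⁻¹ ^ q))
  (hJ2 : IsIntegral ↥(Algebra.adjoin K {J0⁻¹}) (J2 * J0⁻¹ ^ (q * q)))

include hq hx h0 hJ1 hJ2 in
/-- `e₁ = -((J0 - J1^q)(J2 - J0) u²)` is integral over `K[u]` -/
theorem t4vs2_isIntegral_e1 :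
    IsIntegral ↥(Algebra.adjoin K {(J0 ^ (q * q) - J0)⁻¹})
      (-((J0 - J1 ^ q) * (J2 - J0) * (J0 ^ (q * q) - J0)⁻¹ ^ 2)) := by
  have hQ : 2 ≤ q * q := le_trans hq (Nat.le_mul_of_pos_right q (by omega))
  have a0 := t4vs2_isIntegral_mul_inv (K := K) J0 hQ hx
  have a1 := t4vs2_isIntegral_pow_mul_inv (K := K) J0 J1 hQ hx h0 rfl hJ1
  have a2 := t4vs2_isIntegral_pow_mul_inv (K := K) J0 J2 hQ hx h0 (mul_one (q * q)) hJ2
  rw [pow_one] at a2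
  have h : -((J0 - J1 ^ q) * (J2 - J0) * (J0 ^ (q * q) - J0)⁻¹ ^ 2) =
      -((J0 * (J0 ^ (q * q) - J0)⁻¹ - J1 ^ q * (J0 ^ (q * q) - J0)⁻¹) *
        (J2 * (J0 ^ (q * q) - J0)⁻¹ - J0 * (J0 ^ (q * q) - J0)⁻¹)) := by ring
  rw [h]
  exact ((a0.sub a1).mul (a2.sub a0)).neg

include hq hx h0 hJ1 hJ2 in
/-- `e₂ = (J2 - J1^q)(J0 - J1^q) u²` is integral over `K[u]` -/
theorem t4vs2_isIntegral_e2 :
    IsIntegral ↥(Algebra.adjoin K {(J0 ^ (q * q) - J0)⁻¹})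
      ((J2 - J1 ^ q) * (J0 - J1 ^ q) * (J0 ^ (q * q) - J0)⁻¹ ^ 2) := by
  have hQ : 2 ≤ q * q := le_trans hq (Nat.le_mul_of_pos_right q (by omega))
  have a0 := t4vs2_isIntegral_mul_inv (K := K) J0 hQ hx
  have a1 := t4vs2_isIntegral_pow_mul_inv (K := K) J0 J1 hQ hx h0 rfl hJ1
  have a2 := t4vs2_isIntegral_pow_mul_inv (K := K) J0 J2 hQ hx h0 (mul_one (q * q)) hJ2
  rw [pow_one] at a2
  have h : (J2 - J1 ^ q) * (J0 - J1 ^ q) * (J0 ^ (q * q) - J0)⁻¹ ^ 2 =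
      (J2 * (J0 ^ (q * q) - J0)⁻¹ - J1 ^ q * (J0 ^ (q * q) - J0)⁻¹) *
        (J0 * (J0 ^ (q * q) - J0)⁻¹ - J1 ^ q * (J0 ^ (q * q) - J0)⁻¹) := by ring
  rw [h]
  exact (a2.sub a1).mul (a0.sub a1)

end Alg

/-! ### The elements of `𝒪` -/

section Elts

variable {L : Type} [Field L] [Algebra ℚ L] (O : ValuationSubring L) {k : Type*} [Field k]
  (π : ↥O →+* k) [IsDiscreteValuationRing ↥O] (hπ : Function.Surjective π) [IsAlgClosed k]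
  {N' q : ℕ} [NeZero N'] [hq : Fact q.Prime] [CharP k q] (hN' : (N' : k) ≠ 0)
  (W1 : T2iAL L N' q) (Fr : T2iFrob k N' q) (W : T4iAL L N' q)
  (hqO : Irreducible ((q : ℕ) : ↥O))
  {L' : Type*} [Field L'] [Algebra L L'] (O' : ValuationSubring L')
  [IsDiscreteValuationRing ↥O'] (π' : ↥O' →+* k) (C : T4iCyc O O' π π' q)
  (M : T4iMid L L' N' q C.ζ)

attribute [local instance] t2iAlgebra t2i_isScalarTower

local notation "𝕀" => t4vInput O π hπ hN' W1 Fr W hqO O' π' C M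

theorem t4vs2_two_le : 2 ≤ q * q :=
  le_trans hq.out.two_le (Nat.le_mul_of_pos_right q hq.out.pos)

/-- `ξ = (j^{q²} - j)⁻¹` at level `N'`, as an element of `taOv` -/
def t4vs2Xi : ↥(taOv O π hπ N') :=
  ⟨(t4vX' L N' (q * q))⁻¹, t4vX'_inv_mem O π hπ t4vs2_two_le⟩

theorem taResN_t4vs2Xi :
    taResN O π hπ N' (t4vs2Xi (N' := N') (q := q) O π hπ) * t4veDelta k q = -1 := by
  have h1 : t4vs2Xi (N' := N') (q := q) O π hπ * ⟨t4vX' L N' (q * q), t4vX'_mem O π hπ⟩ = 1 := by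
    apply Subtype.ext
    show (t4vX' L N' (q * q))⁻¹ * t4vX' L N' (q * q) = 1
    refine inv_mul_cancel₀ fun h0 => ?_
    have h2 := t4vX'_res (N' := N') (Q := q * q) O π hπ
    have h3 : (⟨t4vX' L N' (q * q), t4vX'_mem O π hπ⟩ : ↥(taOv O π hπ N')) = 0 := Subtype.ext h0
    rw [h3, map_zero] at h2
    exact t4v_xbar_ne_zero (k := k) (t4vs2_two_le (q := q)) h2.symm
  have h2 := congrArg (taResN O π hπ N') h1
  rw [map_mul, map_one, t4vX'_res, t4ve_frob2] at h2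
  unfold t4veDelta
  linear_combination -h2

/-- `u = x⁻¹ = a0 (ξ)` as an element of `𝒪` -/
def t4vs2U : ↥(𝕀).Ov := t4veA0 O π hπ hN' W1 Fr W hqO O' π' C M (t4vs2Xi (q := q) O π hπ)

theorem coe_t4vs2U :
    ((t4vs2U O π hπ hN' W1 Fr W hqO O' π' C M : ↥(𝕀).Ov) : ↥(TaF L (N' * q * q))) =
      (t4vX L N' q (q * q))⁻¹ := by
  rw [t4vs2U, coe_t4veA0, t4vX_eq, ← map_inv₀]
  rfl

/-- `e₁ = -(A' B u²)`, reductions `(1, 0, 0)` -/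
def t4vs2E1 : ↥(𝕀).Ov :=
  -(t4veA' O π hπ hN' W1 Fr W hqO O' π' C M * t4veB O π hπ hN' W1 Fr W hqO O' π' C M *
    t4vs2U O π hπ hN' W1 Fr W hqO O' π' C M ^ 2)

/-- `e₂ = A A' u²`, reductions `(0, 1, 0)` -/
def t4vs2E2 : ↥(𝕀).Ov :=
  t4veA O π hπ hN' W1 Fr W hqO O' π' C M * t4veA' O π hπ hN' W1 Fr W hqO O' π' C M *
    t4vs2U O π hπ hN' W1 Fr W hqO O' π' C M ^ 2

theorem t4vs2_ρ₁_E1 : (𝕀).ρ₁ (t4vs2E1 O π hπ hN' W1 Fr W hqO O' π' C M) = 1 := by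
  have hξ := taResN_t4vs2Xi (N' := N') (q := q) O π hπ
  rw [t4vs2E1, map_neg, map_mul, map_mul, map_pow, t4ve_ρ₁_A', t4ve_ρ₁_B, t4vs2U, t4ve_ρ₁_A0]
  linear_combination (taResN O π hπ N' (t4vs2Xi (N' := N') (q := q) O π hπ) * t4veDelta k q - 1) * hξ

theorem t4vs2_ρ₂_E1 : (𝕀).ρ₂ (t4vs2E1 O π hπ hN' W1 Fr W hqO O' π' C M) = 0 := by
  rw [t4vs2E1, map_neg, map_mul, map_mul, t4ve_ρ₂_B, mul_zero, zero_mul, neg_zero]

theorem t4vs2_ρ₃_E1 : (𝕀).ρ₃ (t4vs2E1 O π hπ hN' W1 Fr W hqO O' π' C M) = 0 := by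
  rw [t4vs2E1, map_neg, map_mul, map_mul, t4ve_ρ₃_A', zero_mul, zero_mul, neg_zero]

theorem t4vs2_ρ₁_E2 : (𝕀).ρ₁ (t4vs2E2 O π hπ hN' W1 Fr W hqO O' π' C M) = 0 := by
  rw [t4vs2E2, map_mul, map_mul, t4ve_ρ₁_A, zero_mul, zero_mul]

theorem t4vs2_ρ₂_E2 : (𝕀).ρ₂ (t4vs2E2 O π hπ hN' W1 Fr W hqO O' π' C M) = 1 := by
  have hξ := taResN_t4vs2Xi (N' := N') (q := q) O π hπ
  rw [t4vs2E2, map_mul, map_mul, map_pow, t4ve_ρ₂_A, t4ve_ρ₂_A', t4vs2U, t4ve_ρ₂_A0]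
  linear_combination (taResN O π hπ N' (t4vs2Xi (N' := N') (q := q) O π hπ) * t4veDelta k q - 1) * hξ

theorem t4vs2_ρ₃_E2 : (𝕀).ρ₃ (t4vs2E2 O π hπ hN' W1 Fr W hqO O' π' C M) = 0 := by
  rw [t4vs2E2, map_mul, map_mul, t4ve_ρ₃_A', mul_zero, zero_mul]

/-- the underlying function of `e₁` -/
theorem coe_t4vs2E1 :
    ((t4vs2E1 O π hπ hN' W1 Fr W hqO O' π' C M : ↥(𝕀).Ov) : ↥(TaF L (N' * q * q))) =
      -((t4vA0 L N' q (taJ N') - t4vA1 L N' q (taJ N') ^ q) *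
        (t4vA2 L N' q (taJ N') - t4vA0 L N' q (taJ N')) * (t4vX L N' q (q * q))⁻¹ ^ 2) := by
  rw [← coe_t4vs2U O π hπ hN' W1 Fr W hqO O' π' C M]
  rfl

/-- the underlying function of `e₂` -/
theorem coe_t4vs2E2 :
    ((t4vs2E2 O π hπ hN' W1 Fr W hqO O' π' C M : ↥(𝕀).Ov) : ↥(TaF L (N' * q * q))) =
      (t4vA2 L N' q (taJ N') - t4vA1 L N' q (taJ N') ^ q) *
        (t4vA0 L N' q (taJ N') - t4vA1 L N' q (taJ N') ^ q) * (t4vX L N' q (q * q))⁻¹ ^ 2 := by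
  rw [← coe_t4vs2U O π hπ hN' W1 Fr W hqO O' π' C M]
  rfl

/-- **valuation form for `e₁`**: `e₁ ≡ 1` on `O_inf`, `e₁ ≡ 0` on `O_mid` and `O_0` -/
theorem t4vs2_val_E1 :
    (t4vOinf (N' := N') (q := q) O π hπ).valuation
      (((t4vs2E1 O π hπ hN' W1 Fr W hqO O' π' C M : ↥(𝕀).Ov) : ↥(TaF L (N' * q * q))) - 1) < 1 ∧
    (t4vOmid O π hπ O' π' C M).valuation
      ((t4vs2E1 O π hπ hN' W1 Fr W hqO O' π' C M : ↥(𝕀).Ov) : ↥(TaF L (N' * q * q))) < 1 ∧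
    (t4vO0 O π hπ W).valuation
      ((t4vs2E1 O π hπ hN' W1 Fr W hqO O' π' C M : ↥(𝕀).Ov) : ↥(TaF L (N' * q * q))) < 1 := by
  refine ⟨?_, ?_, ?_⟩
  · have h := (t4vr_ρ₁_eq_iff O π hπ hN' W1 Fr W hqO O' π' C M
      (t4vs2E1 O π hπ hN' W1 Fr W hqO O' π' C M) 1).mp
      (by rw [t4vs2_ρ₁_E1, map_one])
    exact h
  · exact (t4vr_ρ₂_eq_zero_iff O π hπ hN' W1 Fr W hqO O' π' C M _).mp
      (t4vs2_ρ₂_E1 O π hπ hN' W1 Fr W hqO O' π' C M)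
  · exact (t4vr_ρ₃_eq_zero_iff O π hπ hN' W1 Fr W hqO O' π' C M _).mp
      (t4vs2_ρ₃_E1 O π hπ hN' W1 Fr W hqO O' π' C M)

/-- **valuation form for `e₂`**: `e₂ ≡ 1` on `O_mid`, `e₂ ≡ 0` on `O_inf` and `O_0` -/
theorem t4vs2_val_E2 :
    (t4vOinf (N' := N') (q := q) O π hπ).valuation
      ((t4vs2E2 O π hπ hN' W1 Fr W hqO O' π' C M : ↥(𝕀).Ov) : ↥(TaF L (N' * q * q))) < 1 ∧
    (t4vOmid O π hπ O' π' C M).valuation
      (((t4vs2E2 O π hπ hN' W1 Fr W hqO O' π' C M : ↥(𝕀).Ov) : ↥(TaF L (N' * q * q))) - 1) < 1 ∧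
    (t4vO0 O π hπ W).valuation
      ((t4vs2E2 O π hπ hN' W1 Fr W hqO O' π' C M : ↥(𝕀).Ov) : ↥(TaF L (N' * q * q))) < 1 := by
  refine ⟨?_, ?_, ?_⟩
  · exact (t4vr_ρ₁_eq_zero_iff O π hπ hN' W1 Fr W hqO O' π' C M _).mp
      (t4vs2_ρ₁_E2 O π hπ hN' W1 Fr W hqO O' π' C M)
  · have h := (t4vr_ρ₂_eq_iff O π hπ hN' W1 Fr W hqO O' π' C M
      (t4vs2E2 O π hπ hN' W1 Fr W hqO O' π' C M) 1).mp
      (by rw [t4vs2_ρ₂_E2, map_one])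
    exact h
  · exact (t4vr_ρ₃_eq_zero_iff O π hπ hN' W1 Fr W hqO O' π' C M _).mp
      (t4vs2_ρ₃_E2 O π hπ hN' W1 Fr W hqO O' π' C M)

/-! ### Integrality over `L[x⁻¹]` (from the cusp package as hypotheses) -/

theorem t4vs2_X_eq : t4vX L N' q (q * q) =
    t4vA0 L N' q (taJ N') ^ (q * q) - t4vA0 L N' q (taJ N') := by
  rw [t4vA0_taJ]
  rfl

variable (hx0 : t4vX L N' q (q * q) ≠ 0) (hJ0 : t4vA0 L N' q (taJ N') ≠ 0)
  (hJ1 : IsIntegral ↥(Algebra.adjoin L {(t4vA0 L N' q (taJ N'))⁻¹})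
    (t4vA1 L N' q (taJ N') * (t4vA0 L N' q (taJ N'))⁻¹ ^ q))
  (hJ2 : IsIntegral ↥(Algebra.adjoin L {(t4vA0 L N' q (taJ N'))⁻¹})
    (t4vA2 L N' q (taJ N') * (t4vA0 L N' q (taJ N'))⁻¹ ^ (q * q)))

include hx0 hJ0 hJ1 hJ2 in
/-- `e₁` is integral over `L[x⁻¹]` -/
theorem t4vs2_isIntegral_E1 :
    IsIntegral ↥(Algebra.adjoin L {(t4vX L N' q (q * q))⁻¹})
      ((t4vs2E1 O π hπ hN' W1 Fr W hqO O' π' C M : ↥(𝕀).Ov) : ↥(TaF L (N' * q * q))) := by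
  rw [coe_t4vs2E1, t4vs2_X_eq]
  rw [t4vs2_X_eq] at hx0
  exact t4vs2_isIntegral_e1 _ _ _ hq.out.two_le hx0 hJ0 hJ1 hJ2

include hx0 hJ0 hJ1 hJ2 in
/-- `e₂` is integral over `L[x⁻¹]` -/
theorem t4vs2_isIntegral_E2 :
    IsIntegral ↥(Algebra.adjoin L {(t4vX L N' q (q * q))⁻¹})
      ((t4vs2E2 O π hπ hN' W1 Fr W hqO O' π' C M : ↥(𝕀).Ov) : ↥(TaF L (N' * q * q))) := by
  rw [coe_t4vs2E2, t4vs2_X_eq]
  rw [t4vs2_X_eq] at hx0
  exact t4vs2_isIntegral_e2 _ _ _ hq.out.two_le hx0 hJ0 hJ1 hJ2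

end Elts

end Fermat.Agent.T4
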