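/-
T4-V (helper9), "SEP2" at the inertia level: the separating elements `e₁ e₂` of `Sep2.lean` lie in
the chart-2 ring `t2Int x⁻¹ ∩ 𝒪` of the three-valuation base `t4vBaseFix`, `x = t4vcX … (p * p)`.

* `t4vs2_tbPhiF_a1`, `t4vs2_tbPhiF_a2` : the images of `a1 j`, `a2 j` in `F_ℚ̄` are helper3's
  `t2cpYq N p`, `t2cpYq N (p * p)`;
* `t4vs2_isIntegral_a1`, `t4vs2_isIntegral_a2` : `(a1 j)/(a0 j)^p`, `(a2 j)/(a0 j)^(p²)` are integral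
  over `L[1/a0 j]` (cusp package, descended from `ℚ̄` to the inertia field);
* **`t4vs2_sep_fix`** : the two elements with all their properties (membership in `𝒪`, integrality
  over `L[x⁻¹]`, the six congruences at the three verticals).
-/
import Fermat.Agent.Lib.T4.Inst.Sep2
import Fermat.Agent.Lib.T4.Inst.ValChartH
import Fermat.Agent.Lib.T4.Inst.ValSubH
import Fermat.Agent.Lib.T2.Inst.Cusp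
import Fermat.Agent.Lib.T2.Desc.LevelMod

set_option autoImplicit false
set_option linter.unusedSectionVars false
set_option linter.unusedVariables false
set_option linter.style.haveILetI false
set_option synthInstance.maxHeartbeats 400000
set_option maxHeartbeats 1000000

open HahnSeries ModularCurve Module AlgebraicCurve IntermediateField Fermat.Agent.Curve
  Fermat.Agent.T1 Fermat.Agent.T2 Fermat.Agent.TW Fermat.Agent.S05Lib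

noncomputable section

namespace Fermat.Agent.T4

local notation "Qb" => AlgebraicClosure ℚ

attribute [local instance] t2i_dvr t2i_isAlgClosed t2i_charP t2i_fact t2iAlgebra t2i_isScalarTower

variable (𝔓 : FFPlace) (N' : ℕ) [NeZero N'] (H : Subgroup 𝔓.I)

/-- the image of `a1 j` in `F_ℚ̄` -/
theorem t4vs2_tbPhiF_a1 :
    tbPhiF 𝔓 (N' * 𝔓.p * 𝔓.p) H (t4vA1 ↥(tbFix 𝔓 H) N' 𝔓.p (taJ N')) =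
      t2cpYq (N' * 𝔓.p * 𝔓.p) 𝔓.p ⟨N' * 𝔓.p, by ring⟩ := by
  apply Subtype.ext
  rw [coe_tbPhiF, coe_t4vA1, coe_taJ, coe_t2cpYq, tbPhi, coeffMap_qExpand, coeffMap_jqModC]

/-- the image of `a2 j` in `F_ℚ̄` -/
theorem t4vs2_tbPhiF_a2 :
    tbPhiF 𝔓 (N' * 𝔓.p * 𝔓.p) H (t4vA2 ↥(tbFix 𝔓 H) N' 𝔓.p (taJ N')) =
      t2cpYq (N' * 𝔓.p * 𝔓.p) (𝔓.p * 𝔓.p) ⟨N', by ring⟩ := by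
  apply Subtype.ext
  rw [coe_tbPhiF, coe_t4vA2, coe_taJ, coe_t2cpYq, tbPhi, coeffMap_qExpand, coeffMap_qExpand,
    coeffMap_jqModC, qExpand_qExpand]

/-- the image of `a0 j` in `F_ℚ̄` -/
theorem t4vs2_tbPhiF_a0 :
    tbPhiF 𝔓 (N' * 𝔓.p * 𝔓.p) H (t4vA0 ↥(tbFix 𝔓 H) N' 𝔓.p (taJ N')) = tbJ (N' * 𝔓.p * 𝔓.p) := by
  rw [t4vA0_taJ]
  exact tbPhiF_tbLevJ 𝔓 (N' * 𝔓.p * 𝔓.p) H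

/-- `(a1 j) / (a0 j)^p` is integral over `L[1 / a0 j]` -/
theorem t4vs2_isIntegral_a1 :
    IsIntegral ↥(Algebra.adjoin ↥(tbFix 𝔓 H) {(t4vA0 ↥(tbFix 𝔓 H) N' 𝔓.p (taJ N'))⁻¹})
      (t4vA1 ↥(tbFix 𝔓 H) N' 𝔓.p (taJ N') * (t4vA0 ↥(tbFix 𝔓 H) N' 𝔓.p (taJ N'))⁻¹ ^ 𝔓.p) := by
  rw [t2d_isIntegral_tbPhiF_iff, map_mul, map_pow, map_inv₀, t4vs2_tbPhiF_a0, t4vs2_tbPhiF_a1]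
  exact t2cp_isIntegral_Y_div (N' * 𝔓.p * 𝔓.p) 𝔓.p ⟨N' * 𝔓.p, by ring⟩

/-- `(a2 j) / (a0 j)^(p²)` is integral over `L[1 / a0 j]` -/
theorem t4vs2_isIntegral_a2 :
    IsIntegral ↥(Algebra.adjoin ↥(tbFix 𝔓 H) {(t4vA0 ↥(tbFix 𝔓 H) N' 𝔓.p (taJ N'))⁻¹})
      (t4vA2 ↥(tbFix 𝔓 H) N' 𝔓.p (taJ N') *
        (t4vA0 ↥(tbFix 𝔓 H) N' 𝔓.p (taJ N'))⁻¹ ^ (𝔓.p * 𝔓.p)) := by
  rw [t2d_isIntegral_tbPhiF_iff, map_mul, map_pow, map_inv₀, t4vs2_tbPhiF_a0, t4vs2_tbPhiF_a2]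
  exact t2cp_isIntegral_Y_div (N' * 𝔓.p * 𝔓.p) (𝔓.p * 𝔓.p) ⟨N', by ring⟩

/-! ### The separating elements at the inertia level -/

section Fix

variable (h : ¬ 𝔓.p ∣ N') {ζ : Qb} (hζ : IsPrimitiveRoot ζ 𝔓.p)

theorem t4vs2_two_le_fix : 2 ≤ 𝔓.p * 𝔓.p :=
  le_trans 𝔓.hp.two_le (Nat.le_mul_of_pos_right 𝔓.p 𝔓.hp.pos)

theorem t4vs2_a0_ne_zero :
    t4vA0 ↥(tbFix 𝔓 (⊤ : Subgroup 𝔓.I)) N' 𝔓.p (taJ N') ≠ 0 := by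
  intro h0
  have h1 := congrArg (fun f : ↥(tbLevF 𝔓 (N' * 𝔓.p * 𝔓.p) ⊤) =>
    ((f : LaurentSeries ↥(tbFix 𝔓 (⊤ : Subgroup 𝔓.I)))).coeff (-1)) h0
  simp only [coe_t4vA0, coe_taJ, coeff_jqModC_neg_one] at h1
  exact one_ne_zero h1

/-- **SEP2**: global separating elements on chart 2 of the three-valuation base at the inertia
level: `e₁ ≡ (1,0,0)`, `e₂ ≡ (0,1,0)` at `(O_inf, O_mid, O_0)`, both in `𝒪` and integral over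
`L[x⁻¹]`, `x = j^(p²) - j` -/
theorem t4vs2_sep_fix :
    ∃ e₁ e₂ : ↥(tbLevF 𝔓 (N' * 𝔓.p * 𝔓.p) ⊤),
      e₁ ∈ (t4vBaseFix 𝔓 N' h hζ).Ov ∧ e₂ ∈ (t4vBaseFix 𝔓 N' h hζ).Ov ∧
      e₁ ∈ t2Int (K := ↥(tbFix 𝔓 (⊤ : Subgroup 𝔓.I)))
        (t4vcX 𝔓 (N' * 𝔓.p * 𝔓.p) ⊤ (𝔓.p * 𝔓.p))⁻¹ ∧
      e₂ ∈ t2Int (K := ↥(tbFix 𝔓 (⊤ : Subgroup 𝔓.I)))
        (t4vcX 𝔓 (N' * 𝔓.p * 𝔓.p) ⊤ (𝔓.p * 𝔓.p))⁻¹ ∧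
      ((t4vOinfFix 𝔓 N').valuation (e₁ - 1) < 1 ∧ (t4vOmidFix 𝔓 N' h hζ).valuation e₁ < 1 ∧
        (t4vO0Fix 𝔓 N' h).valuation e₁ < 1) ∧
      ((t4vOinfFix 𝔓 N').valuation e₂ < 1 ∧ (t4vOmidFix 𝔓 N' h hζ).valuation (e₂ - 1) < 1 ∧
        (t4vO0Fix 𝔓 N' h).valuation e₂ < 1) := by
  letI := t4cyAlgebra 𝔓 (le_top : t4cyH 𝔓 ζ ≤ ⊤)
  have hx0 : t4vX ↥(tbFix 𝔓 (⊤ : Subgroup 𝔓.I)) N' 𝔓.p (𝔓.p * 𝔓.p) ≠ 0 :=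
    t4vcX_ne_zero 𝔓 (N' * 𝔓.p * 𝔓.p) ⊤ (t4vs2_two_le_fix 𝔓)
  exact ⟨_, _,
    (t4vs2E1 (tbFixO 𝔓 ⊤) (tbFixRes 𝔓 ⊤) (tbFixRes_surjective 𝔓 ⊤) (t2i_natCast_ne_zero 𝔓 h)
      (t2iALFix 𝔓 ⊤ N' h) (t2iFrobFix 𝔓 N') (t4iALFix 𝔓 ⊤ N' h) (t4cy_irreducible_p 𝔓)
      (tbFixO 𝔓 (t4cyH 𝔓 ζ)) (tbFixRes 𝔓 (t4cyH 𝔓 ζ)) (t4iCycFix 𝔓 hζ) (t4vMidFix 𝔓 N' h hζ)).2,
    (t4vs2E2 (tbFixO 𝔓 ⊤) (tbFixRes 𝔓 ⊤) (tbFixRes_surjective 𝔓 ⊤) (t2i_natCast_ne_zero 𝔓 h)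
      (t2iALFix 𝔓 ⊤ N' h) (t2iFrobFix 𝔓 N') (t4iALFix 𝔓 ⊤ N' h) (t4cy_irreducible_p 𝔓)
      (tbFixO 𝔓 (t4cyH 𝔓 ζ)) (tbFixRes 𝔓 (t4cyH 𝔓 ζ)) (t4iCycFix 𝔓 hζ) (t4vMidFix 𝔓 N' h hζ)).2,
    t4vs2_isIntegral_E1 (tbFixO 𝔓 ⊤) (tbFixRes 𝔓 ⊤) (tbFixRes_surjective 𝔓 ⊤)
      (t2i_natCast_ne_zero 𝔓 h) (t2iALFix 𝔓 ⊤ N' h) (t2iFrobFix 𝔓 N') (t4iALFix 𝔓 ⊤ N' h)
      (t4cy_irreducible_p 𝔓) (tbFixO 𝔓 (t4cyH 𝔓 ζ)) (tbFixRes 𝔓 (t4cyH 𝔓 ζ)) (t4iCycFix 𝔓 hζ)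
      (t4vMidFix 𝔓 N' h hζ) hx0 (t4vs2_a0_ne_zero 𝔓 N') (t4vs2_isIntegral_a1 𝔓 N' ⊤)
      (t4vs2_isIntegral_a2 𝔓 N' ⊤),
    t4vs2_isIntegral_E2 (tbFixO 𝔓 ⊤) (tbFixRes 𝔓 ⊤) (tbFixRes_surjective 𝔓 ⊤)
      (t2i_natCast_ne_zero 𝔓 h) (t2iALFix 𝔓 ⊤ N' h) (t2iFrobFix 𝔓 N') (t4iALFix 𝔓 ⊤ N' h)
      (t4cy_irreducible_p 𝔓) (tbFixO 𝔓 (t4cyH 𝔓 ζ)) (tbFixRes 𝔓 (t4cyH 𝔓 ζ)) (t4iCycFix 𝔓 hζ)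
      (t4vMidFix 𝔓 N' h hζ) hx0 (t4vs2_a0_ne_zero 𝔓 N') (t4vs2_isIntegral_a1 𝔓 N' ⊤)
      (t4vs2_isIntegral_a2 𝔓 N' ⊤),
    t4vs2_val_E1 (tbFixO 𝔓 ⊤) (tbFixRes 𝔓 ⊤) (tbFixRes_surjective 𝔓 ⊤) (t2i_natCast_ne_zero 𝔓 h)
      (t2iALFix 𝔓 ⊤ N' h) (t2iFrobFix 𝔓 N') (t4iALFix 𝔓 ⊤ N' h) (t4cy_irreducible_p 𝔓)
      (tbFixO 𝔓 (t4cyH 𝔓 ζ)) (tbFixRes 𝔓 (t4cyH 𝔓 ζ)) (t4iCycFix 𝔓 hζ) (t4vMidFix 𝔓 N' h hζ),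
    t4vs2_val_E2 (tbFixO 𝔓 ⊤) (tbFixRes 𝔓 ⊤) (tbFixRes_surjective 𝔓 ⊤) (t2i_natCast_ne_zero 𝔓 h)
      (t2iALFix 𝔓 ⊤ N' h) (t2iFrobFix 𝔓 N') (t4iALFix 𝔓 ⊤ N' h) (t4cy_irreducible_p 𝔓)
      (tbFixO 𝔓 (t4cyH 𝔓 ζ)) (tbFixRes 𝔓 (t4cyH 𝔓 ζ)) (t4iCycFix 𝔓 hζ) (t4vMidFix 𝔓 N' h hζ)⟩

end Fix

end Fermat.Agent.T4
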