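/-
T4-V (helper9), "SEP2" part 3: on chart 2 at most ONE vertical valuation ring passes through a closed
point (`hone` of helper8's `t4rt_regAt_of_one`, = the left alternative of `T4nCChart.hcase`).

* `T4Pres.hone_of_sep` : abstract form — two elements `e₁ e₂ ∈ P.B` with reductions `(1,0,0)`,
  `(0,1,0)` at three valuation rings `V₁ V₂ V₃` separate them pairwise, so no proper ideal `𝔫` has
  two distinct members of `{V₁, V₂, V₃}` through it (helper5's `T4Pres.not_through_of_sep`);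
* **`t4vs2_hone_fix`** : the inertia-level instance for ANY presentation `P` of chart 2
  (`P.B = t2Int x⁻¹ ∩ 𝒪`, `x = t4vcX … (p * p)`) whose vertical valuation rings are among
  `t4vOinfFix`, `t4vOmidFix`, `t4vO0Fix` (from `t4vs2_sep_fix`).
-/
import Fermat.Agent.Lib.T4.Inst.Sep2H
import Fermat.Agent.Lib.T4.Local.SmoothDed

set_option autoImplicit false
set_option linter.unusedSectionVars false
set_option linter.unusedVariables false
set_option linter.style.haveILetI false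

open HahnSeries ModularCurve Module AlgebraicCurve IntermediateField Fermat.Agent.Curve
  Fermat.Agent.T1 Fermat.Agent.T2 Fermat.Agent.TW Fermat.Agent.S05Lib

noncomputable section

namespace Fermat.Agent.T4

namespace T4Pres

variable {F : Type*} [Field F] (P : T4Pres F)

/-- `V.valuation (1 - e) < 1` from `V.valuation (e - 1) < 1` -/
theorem t4vs2_val_one_sub {V : ValuationSubring F} {e : F} (h : V.valuation (e - 1) < 1) :
    V.valuation (1 - e) < 1 := by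
  rw [← neg_sub, Valuation.map_neg]
  exact h

/-- **at most one of three separated valuation rings passes through a point**: `e₁ ≡ (1,0,0)`,
`e₂ ≡ (0,1,0)` at `(V₁, V₂, V₃)`, both in `P.B` -/
theorem hone_of_sep {V₁ V₂ V₃ : ValuationSubring F} {e₁ e₂ : F} (he₁ : e₁ ∈ P.B) (he₂ : e₂ ∈ P.B)
    (h11 : V₁.valuation (e₁ - 1) < 1) (h12 : V₂.valuation e₁ < 1) (h13 : V₃.valuation e₁ < 1)
    (h21 : V₁.valuation e₂ < 1) (h22 : V₂.valuation (e₂ - 1) < 1) (h23 : V₃.valuation e₂ < 1)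
    {S : Set (ValuationSubring F)} (hS : ∀ V ∈ S, V = V₁ ∨ V = V₂ ∨ V = V₃)
    {𝔫 : Ideal P.B} (h𝔫 : 𝔫 ≠ ⊤) :
    ∀ V ∈ P.through 𝔫, V ∈ S → ∀ V' ∈ P.through 𝔫, V' ∈ S → V = V' := by
  have hs1 : (1 - e₁) ∈ P.B := P.B.sub_mem P.B.one_mem he₁
  have hs2 : (1 - e₂) ∈ P.B := P.B.sub_mem P.B.one_mem he₂
  have h11' : V₁.valuation (1 - e₁) < 1 := t4vs2_val_one_sub h11
  have h22' : V₂.valuation (1 - e₂) < 1 := t4vs2_val_one_sub h22
  have e1' : (1 : F) - (1 - e₁) = e₁ := by ring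
  have e2' : (1 : F) - (1 - e₂) = e₂ := by ring
  -- the six separations
  have n12 : V₁ ∈ P.through 𝔫 → V₂ ∉ P.through 𝔫 := P.not_through_of_sep h𝔫 he₂ h21 h22'
  have n21 : V₂ ∈ P.through 𝔫 → V₁ ∉ P.through 𝔫 := P.not_through_of_sep h𝔫 he₁ h12 h11'
  have n13 : V₁ ∈ P.through 𝔫 → V₃ ∉ P.through 𝔫 :=
    P.not_through_of_sep h𝔫 hs1 h11' (by rw [e1']; exact h13)
  have n31 : V₃ ∈ P.through 𝔫 → V₁ ∉ P.through 𝔫 := P.not_through_of_sep h𝔫 he₁ h13 h11'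
  have n23 : V₂ ∈ P.through 𝔫 → V₃ ∉ P.through 𝔫 :=
    P.not_through_of_sep h𝔫 hs2 h22' (by rw [e2']; exact h23)
  have n32 : V₃ ∈ P.through 𝔫 → V₂ ∉ P.through 𝔫 := P.not_through_of_sep h𝔫 he₂ h23 h22'
  intro V hV hVS V' hV' hV'S
  rcases hS V hVS with rfl | rfl | rfl <;> rcases hS V' hV'S with rfl | rfl | rfl
  · rfl
  · exact absurd hV' (n12 hV)
  · exact absurd hV' (n13 hV)
  · exact absurd hV' (n21 hV)
  · rfl
  · exact absurd hV' (n23 hV)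
  · exact absurd hV' (n31 hV)
  · exact absurd hV' (n32 hV)
  · rfl

end T4Pres

/-! ### The inertia level -/

section Fix

local notation "Qb" => AlgebraicClosure ℚ

variable (𝔓 : FFPlace) (N' : ℕ) [NeZero N'] (h : ¬ 𝔓.p ∣ N') {ζ : Qb}
  (hζ : IsPrimitiveRoot ζ 𝔓.p)

/-- **`hone` on chart 2** (inertia level): for any presentation `P` of the chart-2 ring
`t2Int x⁻¹ ∩ 𝒪`, `x = j^(p²) - j`, and any set `S` of valuation rings among the three verticals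
(e.g. `S = P.vert Q`), at most one member of `S` passes through a proper ideal `𝔫` of `P.B` -/
theorem t4vs2_hone_fix (P : T4Pres ↥(tbLevF 𝔓 (N' * 𝔓.p * 𝔓.p) ⊤))
    (hB : ∀ f : ↥(tbLevF 𝔓 (N' * 𝔓.p * 𝔓.p) ⊤), f ∈ P.B ↔
      f ∈ t2Int (K := ↥(tbFix 𝔓 (⊤ : Subgroup 𝔓.I)))
        (t4vcX 𝔓 (N' * 𝔓.p * 𝔓.p) ⊤ (𝔓.p * 𝔓.p))⁻¹ ∧ f ∈ (t4vBaseFix 𝔓 N' h hζ).Ov)
    {S : Set (ValuationSubring ↥(tbLevF 𝔓 (N' * 𝔓.p * 𝔓.p) ⊤))}
    (hS : ∀ V ∈ S, V = t4vOinfFix 𝔓 N' ∨ V = t4vOmidFix 𝔓 N' h hζ ∨ V = t4vO0Fix 𝔓 N' h)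
    {𝔫 : Ideal P.B} (h𝔫 : 𝔫 ≠ ⊤) :
    ∀ V ∈ P.through 𝔫, V ∈ S → ∀ V' ∈ P.through 𝔫, V' ∈ S → V = V' := by
  obtain ⟨e₁, e₂, h1O, h2O, h1I, h2I, ⟨h11, h12, h13⟩, ⟨h21, h22, h23⟩⟩ :=
    t4vs2_sep_fix 𝔓 N' h hζ
  exact P.hone_of_sep ((hB e₁).mpr ⟨h1I, h1O⟩) ((hB e₂).mpr ⟨h2I, h2O⟩) h11 h12 h13 h21 h22 h23
    hS h𝔫

end Fix

end Fermat.Agent.T4
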