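/-
T4-V "Val2" (lead), part 3 = (E1) + (E2): **the elements with prescribed valuations and weak
approximation.**  `ϖ = t4vPi` has `(v_inf, v_mid, v_0) = (0, 1, 0)`, `C = q / ϖ^(q-1)` has `(1, 0, 1)`,
`D = C + A² ϖ` has `(1, 0, 0)`, `D' = C + A'² ϖ` has `(0, 0, 1)` (`A = a2 j - (a1 j)^q`,
`A' = a0 j - (a1 j)^q`), hence `t4ve_approx`: every triple of integers is the triple of valuations of
a non-zero function.  `T4veOrd V ϖ n x` means `x = ϖ ^ n * u`, `u` a unit of `V`.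
-/
import Fermat.Agent.Lib.T4.Inst.ValElts2

set_option autoImplicit false
set_option linter.unusedSectionVars false
set_option linter.unusedVariables false
set_option linter.style.haveILetI false
set_option synthInstance.maxHeartbeats 400000

open HahnSeries ModularCurve Fermat.Agent.T1 Fermat.Agent.T2 IntermediateField

noncomputable section

namespace Fermat.Agent.T4

/-! ### Generic: `x = ϖ ^ n · unit` -/

section Generic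

variable {F : Type*} [Field F] (V : ValuationSubring F)

/-- `x = ϖ ^ n * u` with `u` a unit of `V` -/
def T4veOrd (ϖ : F) (n : ℤ) (x : F) : Prop := ∃ u : F, u ∈ V ∧ u⁻¹ ∈ V ∧ x = ϖ ^ n * u

variable {V}

theorem t4veOrd_iff {ϖ : F} {n : ℤ} {x : F} :
    T4veOrd V ϖ n x ↔ ∃ u : F, u ∈ V ∧ u⁻¹ ∈ V ∧ x = ϖ ^ n * u := Iff.rfl

theorem t4ve_unit_zpow {u : F} (hu : u ∈ V) (hui : u⁻¹ ∈ V) (a : ℤ) : u ^ a ∈ V := by
  cases a with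
  | ofNat n =>
    rw [Int.ofNat_eq_natCast, zpow_natCast]
    exact V.pow_mem hu n
  | negSucc n =>
    rw [zpow_negSucc, ← inv_pow]
    exact V.pow_mem hui (n + 1)

theorem T4veOrd.of_unit {ϖ x : F} (hx : x ∈ V) (hxi : x⁻¹ ∈ V) : T4veOrd V ϖ 0 x :=
  ⟨x, hx, hxi, by rw [zpow_zero, one_mul]⟩

theorem T4veOrd.self (ϖ : F) : T4veOrd V ϖ 1 ϖ :=
  ⟨1, V.one_mem, by rw [inv_one]; exact V.one_mem, by rw [zpow_one, mul_one]⟩

theorem T4veOrd.mul {ϖ : F} (hϖ : ϖ ≠ 0) {n m : ℤ} {x y : F} (hx : T4veOrd V ϖ n x)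
    (hy : T4veOrd V ϖ m y) : T4veOrd V ϖ (n + m) (x * y) := by
  obtain ⟨u, hu, hui, rfl⟩ := hx
  obtain ⟨v, hv, hvi, rfl⟩ := hy
  refine ⟨u * v, V.mul_mem _ _ hu hv, ?_, ?_⟩
  · rw [mul_inv]
    exact V.mul_mem _ _ hui hvi
  · rw [zpow_add₀ hϖ]
    ring

theorem T4veOrd.zpow {ϖ : F} {n : ℤ} {x : F} (hx : T4veOrd V ϖ n x) (a : ℤ) :
    T4veOrd V ϖ (n * a) (x ^ a) := by
  obtain ⟨u, hu, hui, rfl⟩ := hx
  refine ⟨u ^ a, t4ve_unit_zpow hu hui a, ?_, ?_⟩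
  · rw [← inv_zpow]
    exact t4ve_unit_zpow hui (by rw [inv_inv]; exact hu) a
  · rw [mul_zpow, zpow_mul]

/-- unit plus non-unit is a unit -/
theorem t4ve_unit_add {K : Type*} [CommRing K] (r : ↥V →+* K)
    (hinv : ∀ f : ↥V, r f ≠ 0 → ((f : F))⁻¹ ∈ V) (x y : ↥V) (hx : r x ≠ 0) (hy : r y = 0) :
    ((x : F) + (y : F)) ∈ V ∧ ((x : F) + (y : F))⁻¹ ∈ V ∧ (x : F) + (y : F) ≠ 0 := by
  have h : r (x + y) ≠ 0 := by
    rw [map_add, hy, add_zero]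
    exact hx
  refine ⟨(x + y).2, hinv (x + y) h, fun h0 => h ?_⟩
  have : x + y = 0 := Subtype.ext h0
  rw [this, map_zero]

/-- a unit has non-zero residue -/
theorem t4ve_r_ne_zero {K : Type*} [CommRing K] [Nontrivial K] (r : ↥V →+* K) (x : ↥V)
    (hx0 : (x : F) ≠ 0) (hxi : ((x : F))⁻¹ ∈ V) : r x ≠ 0 := by
  intro h
  have h1 : x * ⟨_, hxi⟩ = 1 := Subtype.ext (mul_inv_cancel₀ hx0)
  have h2 := congrArg r h1
  rw [map_mul, h, zero_mul, map_one] at h2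
  exact zero_ne_one h2

/-- `Q u + (Q o)² b = Q · unit` -/
theorem t4ve_ord_one_add {K : Type*} [CommRing K] [Nontrivial K] (r : ↥V →+* K)
    (hinv : ∀ f : ↥V, r f ≠ 0 → ((f : F))⁻¹ ∈ V) {Q : F} (hQ : Q ∈ V) (hrQ : r ⟨Q, hQ⟩ = 0)
    {u o b : F} (hu : u ∈ V) (hui : u⁻¹ ∈ V) (hu0 : u ≠ 0) (ho : o ∈ V) (hb : b ∈ V) :
    T4veOrd V Q 1 (Q * u + (Q * o) ^ 2 * b) := by
  have h1 := t4ve_unit_add r hinv ⟨u, hu⟩ (⟨Q, hQ⟩ * ⟨o, ho⟩ ^ 2 * ⟨b, hb⟩)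
    (t4ve_r_ne_zero r ⟨u, hu⟩ hu0 hui) (by rw [map_mul, map_mul, hrQ, zero_mul, zero_mul])
  refine ⟨u + Q * o ^ 2 * b, h1.1, h1.2.1, ?_⟩
  rw [zpow_one]
  ring

end Generic


section Sub

variable {L : Type} [Field L] [Algebra ℚ L] (O : ValuationSubring L) {k : Type*} [Field k]
  (π : ↥O →+* k) [IsDiscreteValuationRing ↥O] (hπ : Function.Surjective π) [IsAlgClosed k]
  {N' q : ℕ} [NeZero N'] [hq : Fact q.Prime] [CharP k q] (hN' : (N' : k) ≠ 0)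
  (W1 : T2iAL L N' q) (Fr : T2iFrob k N' q) (W : T4iAL L N' q)
  (hqO : Irreducible ((q : ℕ) : ↥O))
  {L' : Type*} [Field L'] [Algebra L L'] (O' : ValuationSubring L')
  [IsDiscreteValuationRing ↥O'] (π' : ↥O' →+* k) (C : T4iCyc O O' π π' q)
  (M : T4iMid L L' N' q C.ζ)

attribute [local instance] t2iAlgebra t2i_isScalarTower

/-! ### Residues of `q` -/

include hqO in
theorem t4veRinf_Q : t4veRinf O π hπ ⟨t4vQ L N' q, t4vQ_mem_inf O π hπ⟩ = 0 :=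
  t4vQ_res_inf O π hπ hqO

include hqO in
theorem t4veR0_Q : t4veR0 O π hπ W ⟨t4vQ L N' q, t4vQ_mem_zero O π hπ W⟩ = 0 := by
  have h := t4vQ_res_inf (N' := N') (q := q) O π hπ hqO
  rw [← h]
  show taResN O π hπ (N' * q * q) _ = taResN O π hπ (N' * q * q) _
  congr 1
  exact Subtype.ext (W.w_Q)

/-! ### `ϖ = t4vPi`: valuations `(0, 1, 0)` -/

include hN' W1 Fr W hqO O' π' C M in
theorem t4ve_pi_inf : t4vPi L N' q ∈ t4vOinf (N' := N') (q := q) O π hπ ∧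
    (t4vPi L N' q)⁻¹ ∈ t4vOinf (N' := N') (q := q) O π hπ := by
  have hm := t4ve_mem_inf O π hπ hN' W1 Fr W hqO O' π' C M
    (t4veB O π hπ hN' W1 Fr W hqO O' π' C M)
  refine ⟨hm, t4ve_inv_mem_inf O π hπ ⟨_, hm⟩ ?_⟩
  rw [← t4ve_ρ₁_eq O π hπ hN' W1 Fr W hqO O' π' C M, t4ve_ρ₁_B, neg_ne_zero]
  exact t4veDelta_ne_zero

include hN' W1 Fr hqO O' π' C M in
theorem t4ve_pi_zero : t4vPi L N' q ∈ t4vO0 O π hπ W ∧ (t4vPi L N' q)⁻¹ ∈ t4vO0 O π hπ W := by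
  have hm := t4ve_mem_zero O π hπ hN' W1 Fr W hqO O' π' C M
    (t4veB O π hπ hN' W1 Fr W hqO O' π' C M)
  refine ⟨hm, t4ve_inv_mem_zero O π hπ W ⟨_, hm⟩ ?_⟩
  rw [← t4ve_ρ₃_eq O π hπ hN' W1 Fr W hqO O' π' C M, t4ve_ρ₃_B]
  exact t4veDelta_ne_zero


/-! ### The elements `C`, `D`, `D'` -/

/-- `A = a2 j - (a1 j)^q` as an element of `F` -/
def t4veAF (L : Type) [Field L] [Algebra ℚ L] (N' q : ℕ) [NeZero N'] [NeZero q] :
    ↥(TaF L (N' * q * q)) := t4vA2 L N' q (taJ N') - t4vA1 L N' q (taJ N') ^ q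

/-- `A' = a0 j - (a1 j)^q` as an element of `F` -/
def t4veAF' (L : Type) [Field L] [Algebra ℚ L] (N' q : ℕ) [NeZero N'] [NeZero q] :
    ↥(TaF L (N' * q * q)) := t4vA0 L N' q (taJ N') - t4vA1 L N' q (taJ N') ^ q

theorem coe_t4veA : ((t4veA O π hπ hN' W1 Fr W hqO O' π' C M :
    ↥(t4vInput O π hπ hN' W1 Fr W hqO O' π' C M).Ov) : ↥(TaF L (N' * q * q))) =
      t4veAF L N' q := rfl

theorem coe_t4veA' : ((t4veA' O π hπ hN' W1 Fr W hqO O' π' C M :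
    ↥(t4vInput O π hπ hN' W1 Fr W hqO O' π' C M).Ov) : ↥(TaF L (N' * q * q))) =
      t4veAF' L N' q := rfl

/-- `C = q / ϖ^(q-1)`, valuations `(1, 0, 1)` -/
def t4veC (L : Type) [Field L] [Algebra ℚ L] (N' q : ℕ) [NeZero N'] [NeZero q] :
    ↥(TaF L (N' * q * q)) := t4vQ L N' q * (t4vPi L N' q ^ (q - 1))⁻¹

/-- `D = C + A² ϖ`, valuations `(1, 0, 0)` -/
def t4veD (L : Type) [Field L] [Algebra ℚ L] (N' q : ℕ) [NeZero N'] [NeZero q] :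
    ↥(TaF L (N' * q * q)) := t4veC L N' q + t4veAF L N' q ^ 2 * t4vPi L N' q

/-- `D' = C + A'² ϖ`, valuations `(0, 0, 1)` -/
def t4veD' (L : Type) [Field L] [Algebra ℚ L] (N' q : ℕ) [NeZero N'] [NeZero q] :
    ↥(TaF L (N' * q * q)) := t4veC L N' q + t4veAF' L N' q ^ 2 * t4vPi L N' q

/-- `(ϖ^(q-1))⁻¹` is a unit of `O_inf` -/
theorem t4ve_piPowInv_inf {V : ValuationSubring ↥(TaF L (N' * q * q))}
    (h : t4vPi L N' q ∈ V ∧ (t4vPi L N' q)⁻¹ ∈ V) :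
    (t4vPi L N' q ^ (q - 1))⁻¹ ∈ V ∧ ((t4vPi L N' q ^ (q - 1))⁻¹)⁻¹ ∈ V := by
  refine ⟨?_, ?_⟩
  · rw [← inv_pow]
    exact V.pow_mem h.2 _
  · rw [inv_inv]
    exact V.pow_mem h.1 _

include hN' W1 Fr W hqO O' π' C M in
theorem t4veC_inf : T4veOrd (t4vOinf (N' := N') (q := q) O π hπ) (t4vQ L N' q) 1
    (t4veC L N' q) := by
  have h := t4ve_piPowInv_inf (t4ve_pi_inf O π hπ hN' W1 Fr W hqO O' π' C M)
  exact ⟨_, h.1, h.2, by rw [zpow_one]; rfl⟩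

include hN' W1 Fr hqO O' π' C M in
theorem t4veC_zero : T4veOrd (t4vO0 O π hπ W) (t4vQ L N' q) 1 (t4veC L N' q) := by
  have h := t4ve_piPowInv_inf (t4ve_pi_zero O π hπ hN' W1 Fr W hqO O' π' C M)
  exact ⟨_, h.1, h.2, by rw [zpow_one]; rfl⟩

include hπ in
theorem t4veC_mid : t4veC L N' q ∈ t4vOmid O π hπ O' π' C M ∧
    (t4veC L N' q)⁻¹ ∈ t4vOmid O π hπ O' π' C M := by
  obtain ⟨u, hu, hui, e⟩ := t4vQ_mid O π hπ O' π' C M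
  have hPi0 := t4vPi_ne_zero O π hπ O' π' C M
  have h1 : t4veC L N' q = u := by
    rw [t4veC, e]
    field_simp
  rw [h1]
  exact ⟨hu, hui⟩

include O π hπ O' π' C M in
theorem t4veC_ne_zero : t4veC L N' q ≠ 0 := by
  have hPi0 := t4vPi_ne_zero O π hπ O' π' C M
  exact mul_ne_zero t4vQ_ne_zero (inv_ne_zero (pow_ne_zero _ hPi0))


/-! #### `D` has valuations `(1, 0, 0)` -/

include hN' W1 Fr W hqO O' π' C M in
theorem t4veD_inf : T4veOrd (t4vOinf (N' := N') (q := q) O π hπ) (t4vQ L N' q) 1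
    (t4veD L N' q) := by
  have hA := t4ve_mem_inf O π hπ hN' W1 Fr W hqO O' π' C M
    (t4veA O π hπ hN' W1 Fr W hqO O' π' C M)
  obtain ⟨o, ho, e⟩ := t4ve_dvd_inf O π hπ hqO ⟨_, hA⟩
    ((t4ve_ρ₁_eq O π hπ hN' W1 Fr W hqO O' π' C M _).symm.trans
      (t4ve_ρ₁_A O π hπ hN' W1 Fr W hqO O' π' C M))
  have hpi := t4ve_pi_inf O π hπ hN' W1 Fr W hqO O' π' C M
  have hu := t4ve_piPowInv_inf hpi
  have hPi0 := t4vPi_ne_zero O π hπ O' π' C M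
  have key := t4ve_ord_one_add (t4veRinf (N' := N') (q := q) O π hπ)
    (t4ve_inv_mem_inf O π hπ) (t4vQ_mem_inf O π hπ) (t4veRinf_Q O π hπ hqO) hu.1 hu.2
    (inv_ne_zero (pow_ne_zero _ hPi0)) ho hpi.1
  have e' : t4veAF L N' q = t4vQ L N' q * o := e
  rw [t4veD, t4veC, e']
  exact key

include hN' W1 Fr W hqO in
theorem t4veD_mid : t4veD L N' q ∈ t4vOmid O π hπ O' π' C M ∧
    (t4veD L N' q)⁻¹ ∈ t4vOmid O π hπ O' π' C M ∧ t4veD L N' q ≠ 0 := by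
  have hA := t4ve_mem_mid O π hπ hN' W1 Fr W hqO O' π' C M
    (t4veA O π hπ hN' W1 Fr W hqO O' π' C M)
  have hB := t4ve_mem_mid O π hπ hN' W1 Fr W hqO O' π' C M
    (t4veB O π hπ hN' W1 Fr W hqO O' π' C M)
  have hC := t4veC_mid (N' := N') (q := q) O π hπ O' π' C M
  have hρB : t4veRmid O π hπ O' π' C M ⟨_, hB⟩ = 0 :=
    (t4ve_ρ₂_eq O π hπ hN' W1 Fr W hqO O' π' C M _).symm.trans
      (t4ve_ρ₂_B O π hπ hN' W1 Fr W hqO O' π' C M)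
  have h := t4ve_unit_add (t4veRmid O π hπ O' π' C M) (t4ve_inv_mem_mid O π hπ O' π' C M)
    ⟨t4veC L N' q, hC.1⟩ (⟨_, hA⟩ ^ 2 * ⟨_, hB⟩)
    (t4ve_r_ne_zero _ ⟨t4veC L N' q, hC.1⟩ (t4veC_ne_zero O π hπ O' π' C M) hC.2)
    (by rw [map_mul, hρB, mul_zero])
  have e : t4veD L N' q = t4veC L N' q +
      ((⟨_, hA⟩ ^ 2 * ⟨_, hB⟩ : ↥(t4vOmid O π hπ O' π' C M)) : ↥(TaF L (N' * q * q))) := by
    rw [t4veD]
    rfl
  rw [e]
  exact h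

include hN' W1 Fr hqO O' π' C M in
theorem t4veD_zero : t4veD L N' q ∈ t4vO0 O π hπ W ∧ (t4veD L N' q)⁻¹ ∈ t4vO0 O π hπ W := by
  have hA := t4ve_mem_zero O π hπ hN' W1 Fr W hqO O' π' C M
    (t4veA O π hπ hN' W1 Fr W hqO O' π' C M)
  have hB := t4ve_mem_zero O π hπ hN' W1 Fr W hqO O' π' C M
    (t4veB O π hπ hN' W1 Fr W hqO O' π' C M)
  have hρA : t4veR0 O π hπ W ⟨_, hA⟩ = t4veDelta k q :=
    (t4ve_ρ₃_eq O π hπ hN' W1 Fr W hqO O' π' C M _).symm.trans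
      (t4ve_ρ₃_A O π hπ hN' W1 Fr W hqO O' π' C M)
  have hρB : t4veR0 O π hπ W ⟨_, hB⟩ = t4veDelta k q :=
    (t4ve_ρ₃_eq O π hπ hN' W1 Fr W hqO O' π' C M _).symm.trans
      (t4ve_ρ₃_B O π hπ hN' W1 Fr W hqO O' π' C M)
  have hpi := t4ve_pi_zero O π hπ hN' W1 Fr W hqO O' π' C M
  have hu := t4ve_piPowInv_inf hpi
  have hδ0 := t4veDelta_ne_zero (k := k) (q := q)
  have h := t4ve_unit_add (t4veR0 O π hπ W) (t4ve_inv_mem_zero O π hπ W)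
    (⟨_, hA⟩ ^ 2 * ⟨_, hB⟩) (⟨t4vQ L N' q, t4vQ_mem_zero O π hπ W⟩ * ⟨_, hu.1⟩)
    (by rw [map_mul, map_pow, hρA, hρB]; exact mul_ne_zero (pow_ne_zero _ hδ0) hδ0)
    (by rw [map_mul, t4veR0_Q O π hπ W hqO, zero_mul])
  have e : t4veD L N' q = ((⟨_, hA⟩ ^ 2 * ⟨_, hB⟩ : ↥(t4vO0 O π hπ W)) : ↥(TaF L (N' * q * q))) +
      ((⟨t4vQ L N' q, t4vQ_mem_zero O π hπ W⟩ * ⟨_, hu.1⟩ : ↥(t4vO0 O π hπ W)) :
        ↥(TaF L (N' * q * q))) := by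
    rw [t4veD, t4veC, add_comm]
    rfl
  rw [e]
  exact ⟨h.1, h.2.1⟩


/-! #### `D'` has valuations `(0, 0, 1)` -/

include hN' W1 Fr hqO O' π' C M in
theorem t4veD'_zero : T4veOrd (t4vO0 O π hπ W) (t4vQ L N' q) 1 (t4veD' L N' q) := by
  have hA := t4ve_mem_zero O π hπ hN' W1 Fr W hqO O' π' C M
    (t4veA' O π hπ hN' W1 Fr W hqO O' π' C M)
  obtain ⟨o, ho, e⟩ := t4ve_dvd_zero O π hπ W hqO ⟨_, hA⟩
    ((t4ve_ρ₃_eq O π hπ hN' W1 Fr W hqO O' π' C M _).symm.trans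
      (t4ve_ρ₃_A' O π hπ hN' W1 Fr W hqO O' π' C M))
  have hpi := t4ve_pi_zero O π hπ hN' W1 Fr W hqO O' π' C M
  have hu := t4ve_piPowInv_inf hpi
  have hPi0 := t4vPi_ne_zero O π hπ O' π' C M
  have key := t4ve_ord_one_add (t4veR0 O π hπ W)
    (t4ve_inv_mem_zero O π hπ W) (t4vQ_mem_zero O π hπ W) (t4veR0_Q O π hπ W hqO) hu.1 hu.2
    (inv_ne_zero (pow_ne_zero _ hPi0)) ho hpi.1
  have e' : t4veAF' L N' q = t4vQ L N' q * o := e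
  rw [t4veD', t4veC, e']
  exact key

include hN' W1 Fr W hqO in
theorem t4veD'_mid : t4veD' L N' q ∈ t4vOmid O π hπ O' π' C M ∧
    (t4veD' L N' q)⁻¹ ∈ t4vOmid O π hπ O' π' C M ∧ t4veD' L N' q ≠ 0 := by
  have hA := t4ve_mem_mid O π hπ hN' W1 Fr W hqO O' π' C M
    (t4veA' O π hπ hN' W1 Fr W hqO O' π' C M)
  have hB := t4ve_mem_mid O π hπ hN' W1 Fr W hqO O' π' C M
    (t4veB O π hπ hN' W1 Fr W hqO O' π' C M)
  have hC := t4veC_mid (N' := N') (q := q) O π hπ O' π' C M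
  have hρB : t4veRmid O π hπ O' π' C M ⟨_, hB⟩ = 0 :=
    (t4ve_ρ₂_eq O π hπ hN' W1 Fr W hqO O' π' C M _).symm.trans
      (t4ve_ρ₂_B O π hπ hN' W1 Fr W hqO O' π' C M)
  have h := t4ve_unit_add (t4veRmid O π hπ O' π' C M) (t4ve_inv_mem_mid O π hπ O' π' C M)
    ⟨t4veC L N' q, hC.1⟩ (⟨_, hA⟩ ^ 2 * ⟨_, hB⟩)
    (t4ve_r_ne_zero _ ⟨t4veC L N' q, hC.1⟩ (t4veC_ne_zero O π hπ O' π' C M) hC.2)
    (by rw [map_mul, hρB, mul_zero])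
  have e : t4veD' L N' q = t4veC L N' q +
      ((⟨_, hA⟩ ^ 2 * ⟨_, hB⟩ : ↥(t4vOmid O π hπ O' π' C M)) : ↥(TaF L (N' * q * q))) := by
    rw [t4veD']
    rfl
  rw [e]
  exact h

include hN' W1 Fr W hqO O' π' C M in
theorem t4veD'_inf : t4veD' L N' q ∈ t4vOinf (N' := N') (q := q) O π hπ ∧
    (t4veD' L N' q)⁻¹ ∈ t4vOinf (N' := N') (q := q) O π hπ := by
  have hA := t4ve_mem_inf O π hπ hN' W1 Fr W hqO O' π' C M
    (t4veA' O π hπ hN' W1 Fr W hqO O' π' C M)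
  have hB := t4ve_mem_inf O π hπ hN' W1 Fr W hqO O' π' C M
    (t4veB O π hπ hN' W1 Fr W hqO O' π' C M)
  have hρA : t4veRinf O π hπ ⟨_, hA⟩ = t4veDelta k q :=
    (t4ve_ρ₁_eq O π hπ hN' W1 Fr W hqO O' π' C M _).symm.trans
      (t4ve_ρ₁_A' O π hπ hN' W1 Fr W hqO O' π' C M)
  have hρB : t4veRinf O π hπ ⟨_, hB⟩ = -t4veDelta k q :=
    (t4ve_ρ₁_eq O π hπ hN' W1 Fr W hqO O' π' C M _).symm.trans
      (t4ve_ρ₁_B O π hπ hN' W1 Fr W hqO O' π' C M)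
  have hpi := t4ve_pi_inf O π hπ hN' W1 Fr W hqO O' π' C M
  have hu := t4ve_piPowInv_inf hpi
  have hδ0 := t4veDelta_ne_zero (k := k) (q := q)
  have h := t4ve_unit_add (t4veRinf (N' := N') (q := q) O π hπ) (t4ve_inv_mem_inf O π hπ)
    (⟨_, hA⟩ ^ 2 * ⟨_, hB⟩) (⟨t4vQ L N' q, t4vQ_mem_inf O π hπ⟩ * ⟨_, hu.1⟩)
    (by
      rw [map_mul, map_pow, hρA, hρB]
      exact mul_ne_zero (pow_ne_zero _ hδ0) (neg_ne_zero.mpr hδ0))
    (by rw [map_mul, t4veRinf_Q O π hπ hqO, zero_mul])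
  have e : t4veD' L N' q =
      ((⟨_, hA⟩ ^ 2 * ⟨_, hB⟩ : ↥(t4vOinf (N' := N') (q := q) O π hπ)) :
        ↥(TaF L (N' * q * q))) +
      ((⟨t4vQ L N' q, t4vQ_mem_inf O π hπ⟩ * ⟨_, hu.1⟩ :
        ↥(t4vOinf (N' := N') (q := q) O π hπ)) : ↥(TaF L (N' * q * q))) := by
    rw [t4veD', t4veC, add_comm]
    rfl
  rw [e]
  exact ⟨h.1, h.2.1⟩

/-! ### (E2) weak approximation -/

include O π hπ hN' W1 Fr W hqO O' π' C M in
/-- **(E2) weak approximation**: every triple of integers is the triple of valuations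
`(v_inf, v_mid, v_0)` of a non-zero function -/
theorem t4ve_approx (a b c : ℤ) : ∃ g : ↥(TaF L (N' * q * q)), g ≠ 0 ∧
    (∃ u, u ∈ t4vOinf (N' := N') (q := q) O π hπ ∧ u⁻¹ ∈ t4vOinf (N' := N') (q := q) O π hπ ∧
      g = t4vQ L N' q ^ a * u) ∧
    (∃ u, u ∈ t4vOmid O π hπ O' π' C M ∧ u⁻¹ ∈ t4vOmid O π hπ O' π' C M ∧
      g = t4vPi L N' q ^ b * u) ∧
    (∃ u, u ∈ t4vO0 O π hπ W ∧ u⁻¹ ∈ t4vO0 O π hπ W ∧ g = t4vQ L N' q ^ c * u) := by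
  have hQ0 : t4vQ L N' q ≠ 0 := t4vQ_ne_zero
  have hPi0 := t4vPi_ne_zero O π hπ O' π' C M
  have hDm := t4veD_mid O π hπ hN' W1 Fr W hqO O' π' C M
  have hD'm := t4veD'_mid O π hπ hN' W1 Fr W hqO O' π' C M
  have hDi := t4veD_inf O π hπ hN' W1 Fr W hqO O' π' C M
  have hDz := t4veD_zero O π hπ hN' W1 Fr W hqO O' π' C M
  have hD'i := t4veD'_inf O π hπ hN' W1 Fr W hqO O' π' C M
  have hD'z := t4veD'_zero O π hπ hN' W1 Fr W hqO O' π' C M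
  have hpi := t4ve_pi_inf O π hπ hN' W1 Fr W hqO O' π' C M
  have hpz := t4ve_pi_zero O π hπ hN' W1 Fr W hqO O' π' C M
  refine ⟨t4veD L N' q ^ a * t4vPi L N' q ^ b * t4veD' L N' q ^ c,
    mul_ne_zero (mul_ne_zero (zpow_ne_zero _ hDm.2.2) (zpow_ne_zero _ hPi0))
      (zpow_ne_zero _ hD'm.2.2), ?_, ?_, ?_⟩
  · have h1 := ((hDi.zpow a).mul hQ0 ((T4veOrd.of_unit hpi.1 hpi.2).zpow b)).mul hQ0
      ((T4veOrd.of_unit hD'i.1 hD'i.2).zpow c)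
    have e : (1 : ℤ) * a + 0 * b + 0 * c = a := by ring
    rw [e] at h1
    exact h1
  · have h1 := (((T4veOrd.of_unit hDm.1 hDm.2.1).zpow a).mul hPi0
      ((T4veOrd.self (V := t4vOmid O π hπ O' π' C M) (t4vPi L N' q)).zpow b)).mul hPi0
      ((T4veOrd.of_unit hD'm.1 hD'm.2.1).zpow c)
    have e : (0 : ℤ) * a + 1 * b + 0 * c = b := by ring
    rw [e] at h1
    exact h1
  · have h1 := (((T4veOrd.of_unit hDz.1 hDz.2).zpow a).mul hQ0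
      ((T4veOrd.of_unit hpz.1 hpz.2).zpow b)).mul hQ0 (hD'z.zpow c)
    have e : (0 : ℤ) * a + 0 * b + 1 * c = c := by ring
    rw [e] at h1
    exact h1

end Sub

end Fermat.Agent.T4
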