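/-
T4-V "Val2" (lead), part 4 = (E4): **approximate idempotents and the strong Chinese remainder
theorem of `𝒪 = (t4vInput …).Ov = O_inf ∩ O_mid ∩ O_0` modulo `q^n`.**

* `t4ve_idem n`: `E₁, E₂, E₃ ∈ 𝒪` congruent to `(1,0,0)`, `(0,1,0)`, `(0,0,1)` modulo `q^n` in
  `(O_inf, O_mid, O_0)`;
* `t4ve_strong_crt n ξ₁ ξ₂ ξ₃`: `h ∈ 𝒪` with `h ≡ ξ_V` modulo `q^n O_V`;
* `t4ve_exists_h`: the element `h` of step C (`h ≡ ξ_V` mod `q O_V`, `h^m ≡ 1` mod `q 𝒪`, `h ≠ 0`);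
* `t4ve_crt_ver`: the `crt` field of `T4vpData` for `ver = {O_inf, O_mid, O_0}`;
* `t4ve_dvd_Ov`: divisibility by `q^n` in the three rings gives divisibility in `𝒪`.
-/
import Fermat.Agent.Lib.T4.Inst.ValElts3

set_option autoImplicit false
set_option linter.unusedSectionVars false
set_option linter.unusedVariables false
set_option linter.style.haveILetI false
set_option synthInstance.maxHeartbeats 400000

open HahnSeries ModularCurve Fermat.Agent.T1 Fermat.Agent.T2 IntermediateField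

noncomputable section

namespace Fermat.Agent.T4

/-! ### Generic: approximate idempotents -/

section Generic

variable {F : Type*} [Field F] {V : ValuationSubring F}

/-- `E = 1 - (1 - e^N)^N` for `e` with `e^N ∈ Q V`: `E ∈ Q V` -/
theorem t4ve_idem_zero {Q e : F} {N : ℕ} (he : e ∈ V) (h : ∃ o ∈ V, e ^ N = Q * o) :
    ∃ o ∈ V, 1 - (1 - e ^ N) ^ N = Q * o := by
  obtain ⟨o, ho, e1⟩ := h
  refine ⟨o * ∑ i ∈ Finset.range N, (1 - e ^ N) ^ i, ?_, ?_⟩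
  · refine V.mul_mem _ _ ho (sum_mem fun i _ => V.pow_mem ?_ i)
    exact sub_mem V.one_mem (V.pow_mem he N)
  · have h1 := mul_neg_geom_sum (1 - e ^ N) N
    rw [← h1, sub_sub_cancel, e1]
    ring

/-- `E = 1 - (1 - e^N)^N` for `e` with `(1 - e^N)^N ∈ Q V`: `E - 1 ∈ Q V` -/
theorem t4ve_idem_one {Q e : F} {N : ℕ} (h : ∃ o ∈ V, (1 - e ^ N) ^ N = Q * o) :
    ∃ o ∈ V, 1 - (1 - e ^ N) ^ N - 1 = Q * o := by
  obtain ⟨o, ho, e1⟩ := h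
  refine ⟨-o, V.neg_mem _ ho, ?_⟩
  rw [e1]
  ring

/-- the combination `ξ₁ E₁ + ξ₂ E₂ + ξ₃ E₃` is congruent to `ξ₁` -/
theorem t4ve_strong_aux {Q ξ₁ ξ₂ ξ₃ E₁ E₂ E₃ : F} (h1 : ξ₁ ∈ V) (h2 : ξ₂ ∈ V) (h3 : ξ₃ ∈ V)
    (hE1 : ∃ o ∈ V, E₁ - 1 = Q * o) (hE2 : ∃ o ∈ V, E₂ = Q * o) (hE3 : ∃ o ∈ V, E₃ = Q * o) :
    ∃ o ∈ V, ξ₁ * E₁ + ξ₂ * E₂ + ξ₃ * E₃ - ξ₁ = Q * o := by
  obtain ⟨o1, ho1, e1⟩ := hE1
  obtain ⟨o2, ho2, e2⟩ := hE2
  obtain ⟨o3, ho3, e3⟩ := hE3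
  refine ⟨ξ₁ * o1 + ξ₂ * o2 + ξ₃ * o3,
    V.add_mem _ _ (V.add_mem _ _ (V.mul_mem _ _ h1 ho1) (V.mul_mem _ _ h2 ho2))
      (V.mul_mem _ _ h3 ho3), ?_⟩
  have : E₁ = 1 + Q * o1 := by rw [← e1]; ring
  rw [this, e2, e3]
  ring

/-- both cases at once, for a valuation ring with a residue map -/
theorem t4ve_idem_both {K : Type*} [CommRing K] (r : ↥V →+* K) {Q : F} {d : ℕ}
    (hpow : ∀ f : ↥V, r f = 0 → ∀ n : ℕ, ∃ o ∈ V, (f : F) ^ (n * d) = Q ^ n * o) (e : ↥V)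
    (n : ℕ) :
    (r e = 0 → ∃ o ∈ V, 1 - (1 - (e : F) ^ (n * d)) ^ (n * d) = Q ^ n * o) ∧
    (r e = 1 → ∃ o ∈ V, 1 - (1 - (e : F) ^ (n * d)) ^ (n * d) - 1 = Q ^ n * o) := by
  refine ⟨fun h => t4ve_idem_zero e.2 (hpow e h n), fun h => t4ve_idem_one ?_⟩
  exact hpow (1 - e ^ (n * d)) (by rw [map_sub, map_one, map_pow, h, one_pow, sub_self]) n

theorem t4ve_valuation_lt_one {x : F} (hx : x ∈ V) (hxi : x⁻¹ ∉ V) : V.valuation x < 1 := by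
  refine lt_of_le_of_ne ((V.valuation_le_one_iff x).mpr hx) fun h => hxi ?_
  rw [← V.valuation_le_one_iff, map_inv₀, h, inv_one]

theorem t4ve_valuation_le_of_eq {x y : F} (h : ∃ o ∈ V, x = y * o) :
    V.valuation x ≤ V.valuation y := by
  obtain ⟨o, ho, rfl⟩ := h
  rw [map_mul]
  exact mul_le_of_le_one_right' ((V.valuation_le_one_iff o).mpr ho)

theorem t4ve_valuation_eq_one_of_eq {x Q : F} {n : ℕ} (hQ : V.valuation Q < 1)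
    (h : ∃ o ∈ V, x - 1 = Q ^ (n + 1) * o) : V.valuation x = 1 := by
  have h1 : V.valuation (x - 1) < 1 := by
    refine lt_of_le_of_lt (t4ve_valuation_le_of_eq h) ?_
    rw [map_pow]
    exact pow_lt_one₀ zero_le hQ (Nat.succ_ne_zero n)
  have h2 : x = 1 + (x - 1) := by ring
  rw [h2]
  exact V.valuation.map_one_add_of_lt h1

/-- `ξ ^ m ≡ 1` and `h ≡ ξ` modulo `Q V` give `h ^ m ≡ 1` -/
theorem t4ve_pow_congr {Q h ξ : F} (hh : h ∈ V) (hξ : ξ ∈ V) (m : ℕ)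
    (h1 : ∃ o ∈ V, h - ξ = Q * o) (h2 : ∃ o ∈ V, ξ ^ m - 1 = Q * o) :
    ∃ o ∈ V, h ^ m - 1 = Q * o := by
  obtain ⟨o1, ho1, e1⟩ := h1
  obtain ⟨o2, ho2, e2⟩ := h2
  obtain ⟨c, hc⟩ := sub_dvd_pow_sub_pow (⟨h, hh⟩ : ↥V) ⟨ξ, hξ⟩ m
  have hc' : h ^ m - ξ ^ m = (h - ξ) * (c : F) := congrArg Subtype.val hc
  refine ⟨o1 * c + o2, V.add_mem _ _ (V.mul_mem _ _ ho1 c.2) ho2, ?_⟩
  have : h ^ m - 1 = (h ^ m - ξ ^ m) + (ξ ^ m - 1) := by ring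
  rw [this, hc', e1, e2]
  ring

end Generic


section Sub

variable {L : Type} [Field L] [Algebra ℚ L] (O : ValuationSubring L) {k : Type*} [Field k]
  (π : ↥O →+* k) [IsDiscreteValuationRing ↥O] (hπ : Function.Surjective π) [IsAlgClosed k]
  {N' q : ℕ} [NeZero N'] [hq : Fact q.Prime] [CharP k q] (hN' : (N' : k) ≠ 0)
  (W1 : T2iAL L N' q) (Fr : T2iFrob k N' q) (W : T4iAL L N' q)
  (hqO : Irreducible ((q : ℕ) : ↥O))
  {L' : Type*} [Field L'] [Algebra L L'] (O' : ValuationSubring L')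
  [IsDiscreteValuationRing ↥O'] (π' : ↥O' →+* k) (C : T4iCyc O O' π π' q)
  (M : T4iMid L L' N' q C.ζ)

attribute [local instance] t2iAlgebra t2i_isScalarTower

/-! ### (E4) approximate idempotents and the strong Chinese remainder theorem -/

/-- the approximate idempotent `1 - (1 - e^N)^N`, `N = n (q - 1)`, attached to `e ∈ 𝒪` -/
def t4veIdem (e : ↥(t4vInput O π hπ hN' W1 Fr W hqO O' π' C M).Ov) (n : ℕ) :
    ↥(t4vInput O π hπ hN' W1 Fr W hqO O' π' C M).Ov :=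
  1 - (1 - e ^ (n * (q - 1))) ^ (n * (q - 1))

theorem coe_t4veIdem (e : ↥(t4vInput O π hπ hN' W1 Fr W hqO O' π' C M).Ov) (n : ℕ) :
    ((t4veIdem O π hπ hN' W1 Fr W hqO O' π' C M e n :
      ↥(t4vInput O π hπ hN' W1 Fr W hqO O' π' C M).Ov) : ↥(TaF L (N' * q * q))) =
      1 - (1 - (e : ↥(TaF L (N' * q * q))) ^ (n * (q - 1))) ^ (n * (q - 1)) := rfl

theorem t4veIdem_inf (e : ↥(t4vInput O π hπ hN' W1 Fr W hqO O' π' C M).Ov) (n : ℕ) :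
    ((t4vInput O π hπ hN' W1 Fr W hqO O' π' C M).ρ₁ e = 0 →
      ∃ o ∈ t4vOinf (N' := N') (q := q) O π hπ,
        ((t4veIdem O π hπ hN' W1 Fr W hqO O' π' C M e n :
          ↥(t4vInput O π hπ hN' W1 Fr W hqO O' π' C M).Ov) : ↥(TaF L (N' * q * q))) =
          t4vQ L N' q ^ n * o) ∧
    ((t4vInput O π hπ hN' W1 Fr W hqO O' π' C M).ρ₁ e = 1 →
      ∃ o ∈ t4vOinf (N' := N') (q := q) O π hπ,
        ((t4veIdem O π hπ hN' W1 Fr W hqO O' π' C M e n :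
          ↥(t4vInput O π hπ hN' W1 Fr W hqO O' π' C M).Ov) : ↥(TaF L (N' * q * q))) - 1 =
          t4vQ L N' q ^ n * o) := by
  rw [coe_t4veIdem, t4ve_ρ₁_eq]
  exact t4ve_idem_both (t4veRinf (N' := N') (q := q) O π hπ) (t4ve_pow_inf O π hπ hqO)
    ⟨(e : ↥(TaF L (N' * q * q))), t4ve_mem_inf O π hπ hN' W1 Fr W hqO O' π' C M e⟩ n

theorem t4veIdem_mid (e : ↥(t4vInput O π hπ hN' W1 Fr W hqO O' π' C M).Ov) (n : ℕ) :
    ((t4vInput O π hπ hN' W1 Fr W hqO O' π' C M).ρ₂ e = 0 →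
      ∃ o ∈ t4vOmid O π hπ O' π' C M,
        ((t4veIdem O π hπ hN' W1 Fr W hqO O' π' C M e n :
          ↥(t4vInput O π hπ hN' W1 Fr W hqO O' π' C M).Ov) : ↥(TaF L (N' * q * q))) =
          t4vQ L N' q ^ n * o) ∧
    ((t4vInput O π hπ hN' W1 Fr W hqO O' π' C M).ρ₂ e = 1 →
      ∃ o ∈ t4vOmid O π hπ O' π' C M,
        ((t4veIdem O π hπ hN' W1 Fr W hqO O' π' C M e n :
          ↥(t4vInput O π hπ hN' W1 Fr W hqO O' π' C M).Ov) : ↥(TaF L (N' * q * q))) - 1 =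
          t4vQ L N' q ^ n * o) := by
  rw [coe_t4veIdem, t4ve_ρ₂_eq]
  exact t4ve_idem_both (t4veRmid O π hπ O' π' C M) (t4ve_pow_mid O π hπ O' π' C M)
    ⟨(e : ↥(TaF L (N' * q * q))), t4ve_mem_mid O π hπ hN' W1 Fr W hqO O' π' C M e⟩ n

theorem t4veIdem_zero (e : ↥(t4vInput O π hπ hN' W1 Fr W hqO O' π' C M).Ov) (n : ℕ) :
    ((t4vInput O π hπ hN' W1 Fr W hqO O' π' C M).ρ₃ e = 0 →
      ∃ o ∈ t4vO0 O π hπ W,
        ((t4veIdem O π hπ hN' W1 Fr W hqO O' π' C M e n :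
          ↥(t4vInput O π hπ hN' W1 Fr W hqO O' π' C M).Ov) : ↥(TaF L (N' * q * q))) =
          t4vQ L N' q ^ n * o) ∧
    ((t4vInput O π hπ hN' W1 Fr W hqO O' π' C M).ρ₃ e = 1 →
      ∃ o ∈ t4vO0 O π hπ W,
        ((t4veIdem O π hπ hN' W1 Fr W hqO O' π' C M e n :
          ↥(t4vInput O π hπ hN' W1 Fr W hqO O' π' C M).Ov) : ↥(TaF L (N' * q * q))) - 1 =
          t4vQ L N' q ^ n * o) := by
  rw [coe_t4veIdem, t4ve_ρ₃_eq]
  exact t4ve_idem_both (t4veR0 O π hπ W) (t4ve_pow_zero O π hπ W hqO)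
    ⟨(e : ↥(TaF L (N' * q * q))), t4ve_mem_zero O π hπ hN' W1 Fr W hqO O' π' C M e⟩ n

/-- **approximate idempotents**: `E₁ ≡ (1,0,0)`, `E₂ ≡ (0,1,0)`, `E₃ ≡ (0,0,1)` modulo `q^n` at
`(O_inf, O_mid, O_0)` -/
theorem t4ve_idem (n : ℕ) :
    ∃ E₁ E₂ E₃ : ↥(t4vInput O π hπ hN' W1 Fr W hqO O' π' C M).Ov,
      ((∃ o ∈ t4vOinf (N' := N') (q := q) O π hπ,
          (E₁ : ↥(TaF L (N' * q * q))) - 1 = t4vQ L N' q ^ n * o) ∧
        (∃ o ∈ t4vOmid O π hπ O' π' C M, (E₁ : ↥(TaF L (N' * q * q))) = t4vQ L N' q ^ n * o) ∧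
        (∃ o ∈ t4vO0 O π hπ W, (E₁ : ↥(TaF L (N' * q * q))) = t4vQ L N' q ^ n * o)) ∧
      ((∃ o ∈ t4vOinf (N' := N') (q := q) O π hπ,
          (E₂ : ↥(TaF L (N' * q * q))) = t4vQ L N' q ^ n * o) ∧
        (∃ o ∈ t4vOmid O π hπ O' π' C M,
          (E₂ : ↥(TaF L (N' * q * q))) - 1 = t4vQ L N' q ^ n * o) ∧
        (∃ o ∈ t4vO0 O π hπ W, (E₂ : ↥(TaF L (N' * q * q))) = t4vQ L N' q ^ n * o)) ∧
      ((∃ o ∈ t4vOinf (N' := N') (q := q) O π hπ,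
          (E₃ : ↥(TaF L (N' * q * q))) = t4vQ L N' q ^ n * o) ∧
        (∃ o ∈ t4vOmid O π hπ O' π' C M, (E₃ : ↥(TaF L (N' * q * q))) = t4vQ L N' q ^ n * o) ∧
        (∃ o ∈ t4vO0 O π hπ W, (E₃ : ↥(TaF L (N' * q * q))) - 1 = t4vQ L N' q ^ n * o)) := by
  have h0 : (0 : LaurentSeries k) ∈ modularFunctionFieldFullC k N' := zero_mem _
  have h1 : (1 : LaurentSeries k) ∈ modularFunctionFieldFullC k N' := one_mem _
  obtain ⟨e₁, a1, a2, a3⟩ := t4ve_crt O π hπ hN' W1 Fr W hqO O' π' C M h1 h0 h0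
  obtain ⟨e₂, b1, b2, b3⟩ := t4ve_crt O π hπ hN' W1 Fr W hqO O' π' C M h0 h1 h0
  obtain ⟨e₃, c1, c2, c3⟩ := t4ve_crt O π hπ hN' W1 Fr W hqO O' π' C M h0 h0 h1
  refine ⟨t4veIdem O π hπ hN' W1 Fr W hqO O' π' C M e₁ n,
    t4veIdem O π hπ hN' W1 Fr W hqO O' π' C M e₂ n,
    t4veIdem O π hπ hN' W1 Fr W hqO O' π' C M e₃ n, ⟨?_, ?_, ?_⟩, ⟨?_, ?_, ?_⟩, ⟨?_, ?_, ?_⟩⟩
  · exact (t4veIdem_inf O π hπ hN' W1 Fr W hqO O' π' C M e₁ n).2 a1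
  · exact (t4veIdem_mid O π hπ hN' W1 Fr W hqO O' π' C M e₁ n).1 a2
  · exact (t4veIdem_zero O π hπ hN' W1 Fr W hqO O' π' C M e₁ n).1 a3
  · exact (t4veIdem_inf O π hπ hN' W1 Fr W hqO O' π' C M e₂ n).1 b1
  · exact (t4veIdem_mid O π hπ hN' W1 Fr W hqO O' π' C M e₂ n).2 b2
  · exact (t4veIdem_zero O π hπ hN' W1 Fr W hqO O' π' C M e₂ n).1 b3
  · exact (t4veIdem_inf O π hπ hN' W1 Fr W hqO O' π' C M e₃ n).1 c1
  · exact (t4veIdem_mid O π hπ hN' W1 Fr W hqO O' π' C M e₃ n).1 c2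
  · exact (t4veIdem_zero O π hπ hN' W1 Fr W hqO O' π' C M e₃ n).2 c3

/-- **(E4) the strong Chinese remainder theorem modulo `q^n`** -/
theorem t4ve_strong_crt (n : ℕ) (ξ₁ ξ₂ ξ₃ : ↥(t4vInput O π hπ hN' W1 Fr W hqO O' π' C M).Ov) :
    ∃ h : ↥(t4vInput O π hπ hN' W1 Fr W hqO O' π' C M).Ov,
      (∃ o ∈ t4vOinf (N' := N') (q := q) O π hπ,
        (h : ↥(TaF L (N' * q * q))) - (ξ₁ : ↥(TaF L (N' * q * q))) = t4vQ L N' q ^ n * o) ∧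
      (∃ o ∈ t4vOmid O π hπ O' π' C M,
        (h : ↥(TaF L (N' * q * q))) - (ξ₂ : ↥(TaF L (N' * q * q))) = t4vQ L N' q ^ n * o) ∧
      (∃ o ∈ t4vO0 O π hπ W,
        (h : ↥(TaF L (N' * q * q))) - (ξ₃ : ↥(TaF L (N' * q * q))) = t4vQ L N' q ^ n * o) := by
  obtain ⟨E₁, E₂, E₃, ⟨a1, a2, a3⟩, ⟨b1, b2, b3⟩, ⟨c1, c2, c3⟩⟩ :=
    t4ve_idem O π hπ hN' W1 Fr W hqO O' π' C M n
  have i1 := t4ve_mem_inf O π hπ hN' W1 Fr W hqO O' π' C M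
  have i2 := t4ve_mem_mid O π hπ hN' W1 Fr W hqO O' π' C M
  have i3 := t4ve_mem_zero O π hπ hN' W1 Fr W hqO O' π' C M
  refine ⟨ξ₁ * E₁ + ξ₂ * E₂ + ξ₃ * E₃, ?_, ?_, ?_⟩
  · exact t4ve_strong_aux (i1 ξ₁) (i1 ξ₂) (i1 ξ₃) a1 b1 c1
  · obtain ⟨o, ho, e⟩ := t4ve_strong_aux (i2 ξ₂) (i2 ξ₁) (i2 ξ₃) b2 a2 c2
    refine ⟨o, ho, ?_⟩
    rw [← e]
    push_cast
    ring
  · obtain ⟨o, ho, e⟩ := t4ve_strong_aux (i3 ξ₃) (i3 ξ₁) (i3 ξ₂) c3 a3 b3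
    refine ⟨o, ho, ?_⟩
    rw [← e]
    push_cast
    ring

/-- an element divisible by `q^n` in the three vertical rings is divisible by `q^n` in `𝒪` -/
theorem t4ve_dvd_Ov {x : ↥(TaF L (N' * q * q))} {n : ℕ}
    (h1 : ∃ o ∈ t4vOinf (N' := N') (q := q) O π hπ, x = t4vQ L N' q ^ n * o)
    (h2 : ∃ o ∈ t4vOmid O π hπ O' π' C M, x = t4vQ L N' q ^ n * o)
    (h3 : ∃ o ∈ t4vO0 O π hπ W, x = t4vQ L N' q ^ n * o) :
    ∃ o ∈ (t4vInput O π hπ hN' W1 Fr W hqO O' π' C M).Ov, x = t4vQ L N' q ^ n * o := by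
  have hQ0 : t4vQ L N' q ^ n ≠ 0 := pow_ne_zero _ t4vQ_ne_zero
  obtain ⟨o1, ho1, e1⟩ := h1
  obtain ⟨o2, ho2, e2⟩ := h2
  obtain ⟨o3, ho3, e3⟩ := h3
  have h12 : o2 = o1 := mul_left_cancel₀ hQ0 (e2.symm.trans e1)
  have h13 : o3 = o1 := mul_left_cancel₀ hQ0 (e3.symm.trans e1)
  refine ⟨o1, ?_, e1⟩
  rw [mem_t4vInput_Ov_iff]
  exact ⟨ho1, h13 ▸ ho3, h12 ▸ ho2⟩

/-- **the element `h` of step C**: given `ξ_V ∈ 𝒪` with `ξ_V ^ m ≡ 1` modulo `q O_V` for the three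
vertical rings, there is `h ∈ 𝒪`, `h ≠ 0`, with `h ≡ ξ_V` modulo `q O_V` and `h ^ m ≡ 1` modulo
`q 𝒪` -/
theorem t4ve_exists_h {m : ℕ} (hm : m ≠ 0)
    (ξ₁ ξ₂ ξ₃ : ↥(t4vInput O π hπ hN' W1 Fr W hqO O' π' C M).Ov)
    (h1 : ∃ o ∈ t4vOinf (N' := N') (q := q) O π hπ,
      (ξ₁ : ↥(TaF L (N' * q * q))) ^ m - 1 = t4vQ L N' q * o)
    (h2 : ∃ o ∈ t4vOmid O π hπ O' π' C M,
      (ξ₂ : ↥(TaF L (N' * q * q))) ^ m - 1 = t4vQ L N' q * o)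
    (h3 : ∃ o ∈ t4vO0 O π hπ W, (ξ₃ : ↥(TaF L (N' * q * q))) ^ m - 1 = t4vQ L N' q * o) :
    ∃ h : ↥(t4vInput O π hπ hN' W1 Fr W hqO O' π' C M).Ov, (h : ↥(TaF L (N' * q * q))) ≠ 0 ∧
      (∃ o ∈ t4vOinf (N' := N') (q := q) O π hπ,
        (h : ↥(TaF L (N' * q * q))) - (ξ₁ : ↥(TaF L (N' * q * q))) = t4vQ L N' q * o) ∧
      (∃ o ∈ t4vOmid O π hπ O' π' C M,
        (h : ↥(TaF L (N' * q * q))) - (ξ₂ : ↥(TaF L (N' * q * q))) = t4vQ L N' q * o) ∧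
      (∃ o ∈ t4vO0 O π hπ W,
        (h : ↥(TaF L (N' * q * q))) - (ξ₃ : ↥(TaF L (N' * q * q))) = t4vQ L N' q * o) ∧
      ∃ o ∈ (t4vInput O π hπ hN' W1 Fr W hqO O' π' C M).Ov,
        (h : ↥(TaF L (N' * q * q))) ^ m - 1 = t4vQ L N' q * o := by
  obtain ⟨h, a1, a2, a3⟩ := t4ve_strong_crt O π hπ hN' W1 Fr W hqO O' π' C M 1 ξ₁ ξ₂ ξ₃
  rw [pow_one] at a1 a2 a3
  have i1 := t4ve_mem_inf O π hπ hN' W1 Fr W hqO O' π' C M
  have i2 := t4ve_mem_mid O π hπ hN' W1 Fr W hqO O' π' C M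
  have i3 := t4ve_mem_zero O π hπ hN' W1 Fr W hqO O' π' C M
  have b1 := t4ve_pow_congr (i1 h) (i1 ξ₁) m a1 h1
  have b2 := t4ve_pow_congr (i2 h) (i2 ξ₂) m a2 h2
  have b3 := t4ve_pow_congr (i3 h) (i3 ξ₃) m a3 h3
  refine ⟨h, ?_, a1, a2, a3, ?_⟩
  · intro h0
    obtain ⟨o, ho, e⟩ := b1
    rw [h0, zero_pow hm, zero_sub] at e
    apply t4vQ_inv_notMem_inf (N' := N') (q := q) O π hπ hqO
    have : (t4vQ L N' q)⁻¹ = -o := by
      have hQ0 : t4vQ L N' q ≠ 0 := t4vQ_ne_zero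
      field_simp
      rw [← e]
      ring
    rw [this]
    exact neg_mem ho
  · have := t4ve_dvd_Ov O π hπ hN' W1 Fr W hqO O' π' C M (n := 1)
      (by rw [pow_one]; exact b1) (by rw [pow_one]; exact b2) (by rw [pow_one]; exact b3)
    rw [pow_one] at this
    exact this

/-! ### Valuation form (the `crt` field of `T4vpData`) -/

include hqO in
theorem t4ve_valuation_Q_inf :
    (t4vOinf (N' := N') (q := q) O π hπ).valuation (t4vQ L N' q) < 1 :=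
  t4ve_valuation_lt_one (t4vQ_mem_inf O π hπ) (t4vQ_inv_notMem_inf O π hπ hqO)

include hqO in
theorem t4ve_valuation_Q_zero : (t4vO0 O π hπ W).valuation (t4vQ L N' q) < 1 :=
  t4ve_valuation_lt_one (t4vQ_mem_zero O π hπ W) (t4vQ_inv_notMem_zero O π hπ W hqO)

theorem t4ve_valuation_Q_mid : (t4vOmid O π hπ O' π' C M).valuation (t4vQ L N' q) < 1 :=
  t4ve_valuation_lt_one (t4vQ_mem_mid O π hπ O' π' C M) (t4vQ_inv_notMem_mid O π hπ O' π' C M)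

/-- weaken the exponent -/
theorem t4ve_le_pow {V : ValuationSubring ↥(TaF L (N' * q * q))} (hQ : t4vQ L N' q ∈ V)
    {x : ↥(TaF L (N' * q * q))} {n : ℕ} (h : ∃ o ∈ V, x = t4vQ L N' q ^ (n + 1) * o) :
    V.valuation x ≤ V.valuation (t4vQ L N' q) ^ n := by
  obtain ⟨o, ho, e⟩ := h
  rw [← map_pow]
  refine t4ve_valuation_le_of_eq ⟨t4vQ L N' q * o, V.mul_mem _ _ hQ ho, ?_⟩
  rw [e, pow_succ]
  ring

include hN' W1 Fr hqO in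
/-- **the `crt` field of `T4vpData`** for `ver = {O_inf, O_mid, O_0}` -/
theorem t4ve_crt_ver :
    ∀ V ∈ ({t4vOinf (N' := N') (q := q) O π hπ, t4vOmid O π hπ O' π' C M, t4vO0 O π hπ W} :
      Set (ValuationSubring ↥(TaF L (N' * q * q)))), ∀ n : ℕ,
      ∃ e : ↥(TaF L (N' * q * q)),
        (∀ V' ∈ ({t4vOinf (N' := N') (q := q) O π hπ, t4vOmid O π hπ O' π' C M,
          t4vO0 O π hπ W} : Set (ValuationSubring ↥(TaF L (N' * q * q)))), e ∈ V') ∧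
        V.valuation e = 1 ∧
        ∀ V' ∈ ({t4vOinf (N' := N') (q := q) O π hπ, t4vOmid O π hπ O' π' C M,
          t4vO0 O π hπ W} : Set (ValuationSubring ↥(TaF L (N' * q * q)))), V' ≠ V →
          V'.valuation e ≤ V'.valuation (t4vQ L N' q) ^ n := by
  intro V hV n
  obtain ⟨E₁, E₂, E₃, ⟨a1, a2, a3⟩, ⟨b1, b2, b3⟩, ⟨c1, c2, c3⟩⟩ :=
    t4ve_idem O π hπ hN' W1 Fr W hqO O' π' C M (n + 1)
  have i1 := t4ve_mem_inf O π hπ hN' W1 Fr W hqO O' π' C M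
  have i2 := t4ve_mem_mid O π hπ hN' W1 Fr W hqO O' π' C M
  have i3 := t4ve_mem_zero O π hπ hN' W1 Fr W hqO O' π' C M
  have q1 := t4vQ_mem_inf (N' := N') (q := q) O π hπ
  have q2 := t4vQ_mem_mid O π hπ O' π' C M
  have q3 := t4vQ_mem_zero (N' := N') (q := q) O π hπ W
  have v1 := t4ve_valuation_Q_inf (N' := N') (q := q) O π hπ hqO
  have v2 := t4ve_valuation_Q_mid O π hπ O' π' C M
  have v3 := t4ve_valuation_Q_zero (N' := N') (q := q) O π hπ W hqO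
  simp only [Set.mem_insert_iff, Set.mem_singleton_iff] at hV
  rcases hV with rfl | rfl | rfl
  · refine ⟨E₁, ?_, t4ve_valuation_eq_one_of_eq v1 a1, ?_⟩
    · intro V' hV'
      simp only [Set.mem_insert_iff, Set.mem_singleton_iff] at hV'
      rcases hV' with rfl | rfl | rfl
      exacts [i1 E₁, i2 E₁, i3 E₁]
    · intro V' hV' hne
      simp only [Set.mem_insert_iff, Set.mem_singleton_iff] at hV'
      rcases hV' with rfl | rfl | rfl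
      · exact absurd rfl hne
      · exact t4ve_le_pow q2 a2
      · exact t4ve_le_pow q3 a3
  · refine ⟨E₂, ?_, t4ve_valuation_eq_one_of_eq v2 b2, ?_⟩
    · intro V' hV'
      simp only [Set.mem_insert_iff, Set.mem_singleton_iff] at hV'
      rcases hV' with rfl | rfl | rfl
      exacts [i1 E₂, i2 E₂, i3 E₂]
    · intro V' hV' hne
      simp only [Set.mem_insert_iff, Set.mem_singleton_iff] at hV'
      rcases hV' with rfl | rfl | rfl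
      · exact t4ve_le_pow q1 b1
      · exact absurd rfl hne
      · exact t4ve_le_pow q3 b3
  · refine ⟨E₃, ?_, t4ve_valuation_eq_one_of_eq v3 c3, ?_⟩
    · intro V' hV'
      simp only [Set.mem_insert_iff, Set.mem_singleton_iff] at hV'
      rcases hV' with rfl | rfl | rfl
      exacts [i1 E₃, i2 E₃, i3 E₃]
    · intro V' hV' hne
      simp only [Set.mem_insert_iff, Set.mem_singleton_iff] at hV'
      rcases hV' with rfl | rfl | rfl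
      · exact t4ve_le_pow q1 c1
      · exact t4ve_le_pow q2 c2
      · exact absurd rfl hne

end Sub

end Fermat.Agent.T4
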