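/-
T4-V2 (lead), part 2: the Atkin–Lehner involution `w_Q` of the function field of `X₀(N)`, `N = N' Q`,
`gcd(Q, N') = 1`, over an algebraically closed field `𝕜 ⊆ ℂ`:
`t4w 𝕜 N N' Q hN hcop : barField 𝕜 N ≃ₐ[𝕜] barField 𝕜 N` with
`t4w (j(q^{d e})) = j(q^{d e'})` for `d ∣ N'`, `e e' = Q`, and `t4w ∘ t4w = id`.
(Generalisation of `Lib/T2/AL/Main.lean`, which treats `Q` prime; we need `Q = q²`.)
-/
import Mathlib
import Fermat.Agent.Lib.T4.Inst.ALBasic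
import Fermat.Agent.Lib.T2.AL.Main

set_option autoImplicit false
set_option linter.unusedSectionVars false
set_option linter.style.haveILetI false
set_option linter.unusedVariables false

namespace Fermat.Agent.T4

open Fermat.Agent.S24Lib Fermat.Agent.T1 Fermat.Agent.T1.KMod Fermat.Agent.T2
open UpperHalfPlane Matrix MatrixGroups ModularCurve HahnSeries
open Fermat.Agent.S22Lib (intGL)

attribute [local instance] charZero_k

section Bezout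

variable (N' Q : ℕ)

theorem t4w_bezout (hcop : Nat.Coprime Q N') :
    (Q : ℤ) * t2wA N' Q - N' * t2wC N' Q = 1 := by
  have h1 := Int.gcd_eq_gcd_ab Q N'
  have h2 : Int.gcd (Q : ℤ) (N' : ℤ) = 1 := by
    rw [Int.gcd_natCast_natCast]
    exact hcop
  rw [h2] at h1
  rw [t2wA, t2wC]
  push_cast at h1
  linarith

end Bezout

section Main

variable (𝕜 : Type) [Field 𝕜] [IsAlgClosed 𝕜] [Algebra 𝕜 ℂ] [Algebra ℚ 𝕜]
variable (N N' Q : ℕ) [NeZero N] (hN : N = N' * Q) (hcop : Nat.Coprime Q N')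

include hN in
theorem t4w_Q_pos : 0 < Q :=
  Nat.pos_of_ne_zero (by rintro rfl; exact NeZero.ne N (by rw [hN, mul_zero]))

include hN in
theorem t4w_N'_pos : 0 < N' :=
  Nat.pos_of_ne_zero (by rintro rfl; exact NeZero.ne N (by rw [hN, zero_mul]))

/-- the Atkin–Lehner matrix as an element of `GL₂(ℝ)⁺` -/
noncomputable def t4wGL : GL (Fin 2) ℝ :=
  intGL (t2wMat N' Q (t2wA N' Q) (t2wC N' Q))
    (t2wMat_det_pos _ _ (t4w_Q_pos N N' Q hN) _ _ (t4w_bezout N' Q hcop))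

theorem t4wGL_det_pos : 0 < (t4wGL N N' Q hN hcop).det.val :=
  Fermat.Agent.S22Lib.intGL_det_pos _ _

/-- precomposition with the Atkin–Lehner matrix on meromorphic functions -/
noncomputable def t4wW : tdmMer →ₐ[ℂ] tdmMer :=
  tdmComp (t4wGL N N' Q hN hcop) (t4wGL_det_pos N N' Q hN hcop)

include hN in
theorem t4w_dvd {d e e' : ℕ} (hd : d ∣ N') (he : e * e' = Q) : d * e ∣ N := by
  rw [hN, ← he]
  exact Nat.mul_dvd_mul hd (Dvd.intro _ rfl)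

include hN in
theorem t4w_dvd' {d e e' : ℕ} (hd : d ∣ N') (he : e * e' = Q) : d * e' ∣ N := by
  rw [hN, ← he]
  exact Nat.mul_dvd_mul hd (Dvd.intro_left _ rfl)

include hN in
/-- every divisor of `N = N' Q` is of the form `d e` with `d ∣ N'`, `e e' = Q` -/
theorem t4w_dvd_cases {D : ℕ} (hD : D ∣ N) :
    ∃ d e e', d ∣ N' ∧ e * e' = Q ∧ D = d * e := by
  rw [hN] at hD
  obtain ⟨d, e, hd, ⟨e', he'⟩, rfl⟩ := (Nat.dvd_mul).mp hD
  exact ⟨d, e, e', hd, he'.symm, rfl⟩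

theorem t4wHolComp {d e e' : ℕ} (hd : d ∣ N') (he : e * e' = Q) :
    tdmHolComp (t4wGL N N' Q hN hcop) (t4wGL_det_pos N N' Q hN hcop)
        (t2wHol 𝕜 N (d * e) (t4w_dvd N N' Q hN hd he))
      = t2wHol 𝕜 N (d * e') (t4w_dvd' N N' Q hN hd he) := by
  apply Subtype.ext
  funext τ
  rw [tdmHolComp_apply, t2wHol_apply, t2wHol_apply]
  have hdpos : 0 < d := Nat.pos_of_ne_zero (by
    rintro rfl
    exact (t4w_N'_pos N N' Q hN).ne' (Nat.eq_zero_of_zero_dvd hd))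
  have hepos : 0 < e := Nat.pos_of_ne_zero (by
    rintro rfl
    exact (t4w_Q_pos N N' Q hN).ne' (by rw [← he, zero_mul]))
  have he'pos : 0 < e' := Nat.pos_of_ne_zero (by
    rintro rfl
    exact (t4w_Q_pos N N' Q hN).ne' (by rw [← he, mul_zero]))
  have h1 : t2wPN N (d * e) (t4w_dvd N N' Q hN hd he)
      = (⟨d, hdpos⟩ : ℕ+) * (⟨e, hepos⟩ : ℕ+) := PNat.eq rfl
  have h2 : t2wPN N (d * e') (t4w_dvd' N N' Q hN hd he)
      = (⟨d, hdpos⟩ : ℕ+) * (⟨e', he'pos⟩ : ℕ+) := PNat.eq rfl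
  rw [h1, h2]
  exact t4w_jGen_comp_dvd Q N' (t4w_Q_pos N N' Q hN) (t4w_N'_pos N N' Q hN) (t2wA N' Q)
    (t2wC N' Q) (t4w_bezout N' Q hcop) ⟨d, hdpos⟩ ⟨e, hepos⟩ ⟨e', he'pos⟩ hd he τ

theorem t4wW_hol {d e e' : ℕ} (hd : d ∣ N') (he : e * e' = Q) :
    t4wW N N' Q hN hcop (tdmOfHol (t2wHol 𝕜 N (d * e) (t4w_dvd N N' Q hN hd he)))
      = tdmOfHol (t2wHol 𝕜 N (d * e') (t4w_dvd' N N' Q hN hd he)) := by
  rw [t4wW, tdmComp_ofHol, t4wHolComp 𝕜 N N' Q hN hcop hd he]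

theorem t4wW_emb_jd {d e e' : ℕ} (hd : d ∣ N') (he : e * e' = Q) :
    t4wW N N' Q hN hcop (t2wEmb 𝕜 N (t2wJd 𝕜 N (d * e) (t4w_dvd N N' Q hN hd he)))
      = t2wEmb 𝕜 N (t2wJd 𝕜 N (d * e') (t4w_dvd' N N' Q hN hd he)) := by
  rw [t2wEmb_jd, t2wEmb_jd, t4wW_hol 𝕜 N N' Q hN hcop hd he]

theorem t4wW_emb_const (c : 𝕜) :
    t4wW N N' Q hN hcop (t2wEmb 𝕜 N (algebraMap 𝕜 _ c)) = t2wEmb 𝕜 N (algebraMap 𝕜 _ c) := by
  rw [t2wEmb_const, AlgHom.commutes]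

/-- the image of the function field is stable under `W_Q` -/
theorem t4w_exists_emb (x : barField 𝕜 N) :
    ∃ y : barField 𝕜 N, t2wEmb 𝕜 N y = t4wW N N' Q hN hcop (t2wEmb 𝕜 N x) := by
  induction x using t2w_induction with
  | hc c => exact ⟨algebraMap 𝕜 _ c, (t4wW_emb_const 𝕜 N N' Q hN hcop c).symm⟩
  | hg D hD =>
    obtain ⟨d, e, e', hd, he, rfl⟩ := t4w_dvd_cases N N' Q hN hD
    exact ⟨_, (t4wW_emb_jd 𝕜 N N' Q hN hcop hd he).symm⟩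
  | hadd x y hx hy =>
    obtain ⟨x', hx'⟩ := hx
    obtain ⟨y', hy'⟩ := hy
    exact ⟨x' + y', by rw [map_add, map_add, map_add, hx', hy']⟩
  | hmul x y hx hy =>
    obtain ⟨x', hx'⟩ := hx
    obtain ⟨y', hy'⟩ := hy
    exact ⟨x' * y', by rw [map_mul, map_mul, map_mul, hx', hy']⟩
  | hinv x hx =>
    obtain ⟨x', hx'⟩ := hx
    exact ⟨x'⁻¹, by rw [map_inv₀, map_inv₀, map_inv₀, hx']⟩

/-- the underlying function of the Atkin–Lehner involution -/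
noncomputable def t4wFun (x : barField 𝕜 N) : barField 𝕜 N :=
  (t4w_exists_emb 𝕜 N N' Q hN hcop x).choose

theorem t2wEmb_t4wFun (x : barField 𝕜 N) :
    t2wEmb 𝕜 N (t4wFun 𝕜 N N' Q hN hcop x) = t4wW N N' Q hN hcop (t2wEmb 𝕜 N x) :=
  (t4w_exists_emb 𝕜 N N' Q hN hcop x).choose_spec

theorem t4wFun_eq_iff (x y : barField 𝕜 N) :
    t4wFun 𝕜 N N' Q hN hcop x = y ↔ t2wEmb 𝕜 N y = t4wW N N' Q hN hcop (t2wEmb 𝕜 N x) := by
  constructor
  · rintro rfl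
    exact t2wEmb_t4wFun 𝕜 N N' Q hN hcop x
  · intro hy
    apply t2wEmb_injective 𝕜 N
    rw [t2wEmb_t4wFun, hy]

/-- the Atkin–Lehner involution as an algebra endomorphism -/
noncomputable def t4wHom : barField 𝕜 N →ₐ[𝕜] barField 𝕜 N where
  toFun := t4wFun 𝕜 N N' Q hN hcop
  map_one' := by rw [t4wFun_eq_iff]; simp
  map_mul' a b := by
    rw [t4wFun_eq_iff, map_mul, map_mul, map_mul, t2wEmb_t4wFun, t2wEmb_t4wFun]
  map_zero' := by rw [t4wFun_eq_iff]; simp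
  map_add' a b := by
    rw [t4wFun_eq_iff, map_add, map_add, map_add, t2wEmb_t4wFun, t2wEmb_t4wFun]
  commutes' c := by
    rw [t4wFun_eq_iff]
    exact (t4wW_emb_const 𝕜 N N' Q hN hcop c).symm

theorem t2wEmb_t4wHom (x : barField 𝕜 N) :
    t2wEmb 𝕜 N (t4wHom 𝕜 N N' Q hN hcop x) = t4wW N N' Q hN hcop (t2wEmb 𝕜 N x) :=
  t2wEmb_t4wFun 𝕜 N N' Q hN hcop x

theorem t4wHom_jd {d e e' : ℕ} (hd : d ∣ N') (he : e * e' = Q) :
    t4wHom 𝕜 N N' Q hN hcop (t2wJd 𝕜 N (d * e) (t4w_dvd N N' Q hN hd he))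
      = t2wJd 𝕜 N (d * e') (t4w_dvd' N N' Q hN hd he) :=
  (t4wFun_eq_iff 𝕜 N N' Q hN hcop _ _).mpr (t4wW_emb_jd 𝕜 N N' Q hN hcop hd he).symm

/-- generators do not depend on the proof of divisibility -/
theorem t4w_jd_congr {D D' : ℕ} (hD : D ∣ N) (hD' : D' ∣ N) (h : D = D') :
    t2wJd 𝕜 N D hD = t2wJd 𝕜 N D' hD' := by
  subst h
  rfl

theorem t4wHom_t4wHom (x : barField 𝕜 N) :
    t4wHom 𝕜 N N' Q hN hcop (t4wHom 𝕜 N N' Q hN hcop x) = x := by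
  have key : ((t4wHom 𝕜 N N' Q hN hcop).comp (t4wHom 𝕜 N N' Q hN hcop) :
      barField 𝕜 N →+* barField 𝕜 N) = RingHom.id _ := by
    apply t2w_ringHom_ext
    · intro c
      simp
    · intro D hD
      obtain ⟨d, e, e', hd, he, rfl⟩ := t4w_dvd_cases N N' Q hN hD
      have he' : e' * e = Q := by rw [mul_comm]; exact he
      show t4wHom 𝕜 N N' Q hN hcop (t4wHom 𝕜 N N' Q hN hcop _) = _
      rw [t4wHom_jd 𝕜 N N' Q hN hcop hd he, t4wHom_jd 𝕜 N N' Q hN hcop hd he']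
      rfl
  exact RingHom.congr_fun key x

/-- **the Atkin–Lehner involution `w_Q`** of the function field of `X₀(N' Q)` over `𝕜` -/
noncomputable def t4w : barField 𝕜 N ≃ₐ[𝕜] barField 𝕜 N :=
  AlgEquiv.ofAlgHom (t4wHom 𝕜 N N' Q hN hcop) (t4wHom 𝕜 N N' Q hN hcop)
    (AlgHom.ext (t4wHom_t4wHom 𝕜 N N' Q hN hcop)) (AlgHom.ext (t4wHom_t4wHom 𝕜 N N' Q hN hcop))

theorem t4w_apply (x : barField 𝕜 N) : t4w 𝕜 N N' Q hN hcop x = t4wHom 𝕜 N N' Q hN hcop x := rfl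

theorem t4w_symm : (t4w 𝕜 N N' Q hN hcop).symm = t4w 𝕜 N N' Q hN hcop := by
  ext x
  rfl

theorem t4w_t4w (x : barField 𝕜 N) : t4w 𝕜 N N' Q hN hcop (t4w 𝕜 N N' Q hN hcop x) = x :=
  t4wHom_t4wHom 𝕜 N N' Q hN hcop x

/-- `w_Q (j(q^{d e})) = j(q^{d e'})` for `d ∣ N'`, `e e' = Q` -/
theorem t4w_jd {d e e' : ℕ} (hd : d ∣ N') (he : e * e' = Q) :
    t4w 𝕜 N N' Q hN hcop (t2wJd 𝕜 N (d * e) (t4w_dvd N N' Q hN hd he))
      = t2wJd 𝕜 N (d * e') (t4w_dvd' N N' Q hN hd he) :=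
  t4wHom_jd 𝕜 N N' Q hN hcop hd he

/-- the analytic characterisation: under the embedding into meromorphic functions on `ℍ`, `w_Q` is
precomposition with the Atkin–Lehner matrix -/
theorem t2wEmb_t4w (x : barField 𝕜 N) :
    t2wEmb 𝕜 N (t4w 𝕜 N N' Q hN hcop x) = t4wW N N' Q hN hcop (t2wEmb 𝕜 N x) :=
  t2wEmb_t4wFun 𝕜 N N' Q hN hcop x

end Main

end Fermat.Agent.T4
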