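/-
T4-V7 (helper2): the hypotheses `T4vwHyp` (reductions of the chart coordinate) for the two charts
`X = j^Q - j` and `X⁻¹`, and **the Chinese remainder theorem `T4vwCrt`** for the three vertical
valuations.

* `t4vwHyp_a0` : `T4vwHyp` for `a0 f`, `f ∈ F'` Gauss-integral with transcendental reduction;
* `t4vwHyp_X`, `t4vwHyp_X_inv` : the two charts (given that `X` is a separating generator);
* `t4vw_val_le_of_decomp` : in a valuation ring with uniformiser `ϖ`, non-units have valuation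
  `≤ v(ϖ)`;
* `t4vwX0O = a0 j - (a1 j)^q ∈ 𝒪` with reductions `(j̄ - Φ²j̄, j̄ - Φ²j̄, 0)`;
* `t4vw_crt : T4vwCrt` from `X_inf = a2 j - (a1 j)^q` `(0,*,*)`, `ϖ = a2 j - a0 j` `(*,0,*)`,
  `X_0` `(*,*,0)`.
-/
import Fermat.Agent.Lib.T4.Inst.PresInst
import Fermat.Agent.Lib.T4.Inst.ValRes
import Fermat.Agent.Lib.T4.Inst.ValChart

set_option autoImplicit false
set_option linter.unusedSectionVars false
set_option linter.unusedVariables false
set_option linter.style.haveILetI false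
set_option synthInstance.maxHeartbeats 400000

open HahnSeries ModularCurve Fermat.Agent.T1 Fermat.Agent.T2 IntermediateField

noncomputable section

namespace Fermat.Agent.T4

/-! ### Non-units in a valuation ring with a uniformiser -/

/-- in a valuation ring with uniformiser `ϖ`, non-units have valuation `≤ v(ϖ)` -/
theorem t4vw_val_le_of_decomp {F : Type*} [Field F] (V : ValuationSubring F) {ϖ : F} (hϖ : ϖ ∈ V)
    (hϖu : ϖ⁻¹ ∉ V)
    (H : ∀ f : F, f ≠ 0 → ∃ (n : ℤ) (u : F), u ∈ V ∧ u⁻¹ ∈ V ∧ f = ϖ ^ n * u) {f : F}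
    (hf : V.valuation f < 1) : V.valuation f ≤ V.valuation ϖ := by
  rcases eq_or_ne f 0 with rfl | hf0
  · rw [map_zero]
    exact zero_le
  obtain ⟨n, u, hu, hui, e⟩ := H f hf0
  have hu0 : u ≠ 0 := by
    rintro rfl
    rw [mul_zero] at e
    exact hf0 e
  have hfV : f ∈ V := (V.valuation_le_one_iff f).mp hf.le
  have hn : 0 ≤ n := t4vs_exponent_nonneg V hϖ hϖu hf0 hfV hu hui e
  obtain ⟨m, rfl⟩ := Int.eq_ofNat_of_zero_le hn
  have hval : V.valuation f = V.valuation ϖ ^ m := by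
    rw [e, map_mul, map_zpow₀, t4vs_valuation_unit V hu0 hu hui, mul_one, zpow_natCast]
  rcases Nat.eq_zero_or_pos m with rfl | hm
  · rw [hval, pow_zero] at hf
    exact absurd hf (lt_irrefl _)
  · obtain ⟨c, rfl⟩ := Nat.exists_eq_succ_of_ne_zero hm.ne'
    rw [hval, pow_succ]
    have h1 : V.valuation ϖ ^ c ≤ 1 := pow_le_one₀ zero_le ((V.valuation_le_one_iff ϖ).mpr hϖ)
    calc V.valuation ϖ ^ c * V.valuation ϖ ≤ 1 * V.valuation ϖ := mul_le_mul_left h1 _
      _ = V.valuation ϖ := one_mul _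

section Hyp

variable {L : Type} [Field L] [Algebra ℚ L] (O : ValuationSubring L) {k : Type*} [Field k]
  (π : ↥O →+* k) [IsDiscreteValuationRing ↥O] (hπ : Function.Surjective π) [IsAlgClosed k]
  {N' q : ℕ} [NeZero N'] [hq : Fact q.Prime] [CharP k q] (hN' : (N' : k) ≠ 0)
  (W1 : T2iAL L N' q) (Fr : T2iFrob k N' q) (W : T4iAL L N' q)
  (hqO : Irreducible ((q : ℕ) : ↥O))
  {L' : Type*} [Field L'] [Algebra L L'] (O' : ValuationSubring L')
  [IsDiscreteValuationRing ↥O'] (π' : ↥O' →+* k) (C : T4iCyc O O' π π' q)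
  (M : T4iMid L L' N' q C.ζ) {Q : ℕ} (hQ : 2 ≤ Q)

attribute [local instance] t2iAlgebra t2i_isScalarTower

/-- `qExpand` preserves transcendence over the constants -/
theorem t4vw_transcendental_qExpand {t : LaurentSeries k} (ht : Transcendental k t) :
    Transcendental k (qExpand k q t) := by
  intro h
  apply ht
  have hinj : Function.Injective (qExpandAlgHomC k q) :=
    (qExpandAlgHomC k q : LaurentSeries k →+* LaurentSeries k).injective
  exact (isAlgebraic_algHom_iff (qExpandAlgHomC k q) hinj).mp h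

include hπ hN' W1 Fr hqO in
/-- **the hypotheses on the coordinate `a0 f`** -/
theorem t4vwHyp_a0 {f : ↥(TaF L N')} (hf : TaGauss O π (f : LaurentSeries L))
    (ht : Transcendental k (taRhoFun O π (f : LaurentSeries L)))
    (hgen : Fermat.Agent.Curve.IsFunctionFieldGen L ↥(TaF L (N' * q * q)) (t4vA0 L N' q f)) :
    T4vwHyp O π W O' π' C M (t4vA0 L N' q f) := by
  have hmem := t4v_a0_mem O π hπ hN' W1 Fr W hqO O' π' C M hf
  obtain ⟨m1, m3, m2⟩ := (mem_t4vInput_Ov O π hπ hN' W1 Fr W hqO O' π' C M _).mp hmem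
  have r1 := t4v_ρ₁_a0 O π hπ hN' W1 Fr W hqO O' π' C M hf
  have r2 := t4v_ρ₂_a0 O π hπ hN' W1 Fr W hqO O' π' C M hf
  have r3 := t4v_ρ₃_a0 O π hπ hN' W1 Fr W hqO O' π' C M hf
  rw [t4vInput_ρ₁] at r1
  rw [t4vInput_ρ₂] at r2
  rw [t4vInput_ρ₃] at r3
  refine ⟨hgen, m1, ?_, m2, ?_, m3, ?_⟩
  · rw [r1]
    exact ht
  · rw [r2]
    exact ht
  · rw [r3]
    exact t4vw_transcendental_qExpand (t4vw_transcendental_qExpand ht)

include hπ hN' W1 Fr hqO hQ in
/-- the chart `X = j^Q - j` -/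
theorem t4vwHyp_X
    (hgen : Fermat.Agent.Curve.IsFunctionFieldGen L ↥(TaF L (N' * q * q)) (t4vX L N' q Q)) :
    T4vwHyp O π W O' π' C M (t4vX L N' q Q) := by
  have hres := t4vX'_res (N' := N') (Q := Q) O π hπ
  rw [taResN_eq_taRhoFun] at hres
  have h := t4vwHyp_a0 O π hπ hN' W1 Fr W hqO O' π' C M (f := t4vX' L N' Q) (t4vX'_mem O π hπ)
    (by
      show Transcendental k (taRhoFun O π ((t4vX' L N' Q : ↥(TaF L N')) : LaurentSeries L))
      rw [hres]
      exact t4v_xbar_transcendental hQ)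
    (by rw [← t4vX_eq]; exact hgen)
  rw [← t4vX_eq] at h
  exact h

include hπ hN' W1 Fr hqO hQ in
/-- the chart `X⁻¹` -/
theorem t4vwHyp_X_inv
    (hgen : Fermat.Agent.Curve.IsFunctionFieldGen L ↥(TaF L (N' * q * q)) (t4vX L N' q Q)) :
    T4vwHyp O π W O' π' C M (t4vX L N' q Q)⁻¹ := by
  have hres := t4vX'_res (N' := N') (Q := Q) O π hπ
  have hmem := t4vX'_mem (N' := N') (Q := Q) O π hπ
  have hmemi := t4vX'_inv_mem (N' := N') (Q := Q) O π hπ hQ
  -- the reduction of the inverse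
  have hinv : taResN O π hπ N' ⟨(t4vX' L N' Q)⁻¹, hmemi⟩ = (jqModC k ^ Q - jqModC k)⁻¹ := by
    have h0 : t4vX' L N' Q ≠ 0 := by
      intro h0
      have h1 : (⟨t4vX' L N' Q, hmem⟩ : ↥(taOv O π hπ N')) = 0 := Subtype.ext h0
      rw [h1, map_zero] at hres
      exact t4v_xbar_ne_zero hQ hres.symm
    have h1 : (⟨(t4vX' L N' Q)⁻¹, hmemi⟩ : ↥(taOv O π hπ N')) * ⟨t4vX' L N' Q, hmem⟩ = 1 :=
      Subtype.ext (inv_mul_cancel₀ h0)
    have h2 := congrArg (taResN O π hπ N') h1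
    rw [map_mul, map_one, hres] at h2
    exact eq_inv_of_mul_eq_one_left h2
  rw [taResN_eq_taRhoFun] at hinv
  have h := t4vwHyp_a0 O π hπ hN' W1 Fr W hqO O' π' C M (f := (t4vX' L N' Q)⁻¹) hmemi
    (by
      show Transcendental k (taRhoFun O π (((t4vX' L N' Q)⁻¹ : ↥(TaF L N')) : LaurentSeries L))
      rw [hinv]
      intro halg
      exact t4v_xbar_transcendental hQ (IsAlgebraic.inv_iff.mp halg))
    (by
      rw [map_inv₀, ← t4vX_eq]
      exact Fermat.Agent.CurveP.isFunctionFieldGen_inv hgen)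
  rw [map_inv₀, ← t4vX_eq] at h
  exact h

end Hyp

/-! ### The Chinese remainder theorem -/

section Crt

variable {L : Type} [Field L] [Algebra ℚ L] (O : ValuationSubring L) {k : Type*} [Field k]
  (π : ↥O →+* k) [IsDiscreteValuationRing ↥O] (hπ : Function.Surjective π) [IsAlgClosed k]
  {N' q : ℕ} [NeZero N'] [hq : Fact q.Prime] [CharP k q] (hN' : (N' : k) ≠ 0)
  (W1 : T2iAL L N' q) (Fr : T2iFrob k N' q) (W : T4iAL L N' q)
  (hqO : Irreducible ((q : ℕ) : ↥O))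
  {L' : Type*} [Field L'] [Algebra L L'] (O' : ValuationSubring L')
  [IsDiscreteValuationRing ↥O'] (π' : ↥O' →+* k) (C : T4iCyc O O' π π' q)
  (M : T4iMid L L' N' q C.ζ)

attribute [local instance] t2iAlgebra t2i_isScalarTower

/-- `X_0 = a0 j - (a1 j) ^ q` as an element of `𝒪` -/
def t4vwX0O : ↥(t4vInput O π hπ hN' W1 Fr W hqO O' π' C M).Ov :=
  ⟨t4vA0 L N' q (taJ N'), t4v_a0_mem O π hπ hN' W1 Fr W hqO O' π' C M (t4vr_taJ_gauss O π)⟩ -
    ⟨t4vA1 L N' q (taJ N'),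
      t4v_a1_mem O π hπ hN' W1 Fr W hqO O' π' C M (t4vr_taJ_gauss O π)⟩ ^ q

theorem t4vw_ρ₃_X0 :
    (t4vInput O π hπ hN' W1 Fr W hqO O' π' C M).ρ₃
      (t4vwX0O O π hπ hN' W1 Fr W hqO O' π' C M) = 0 := by
  rw [t4vwX0O, map_sub, map_pow,
    t4v_ρ₃_a0 O π hπ hN' W1 Fr W hqO O' π' C M (t4vr_taJ_gauss O π),
    t4v_ρ₃_a1 O π hπ hN' W1 Fr W hqO O' π' C M (t4vr_taJ_gauss O π), t4vr_taJ_rho, ← map_pow,
    t2i_jq_pow, sub_self]

theorem t4vw_ρ₁_X0 :
    (t4vInput O π hπ hN' W1 Fr W hqO O' π' C M).ρ₁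
      (t4vwX0O O π hπ hN' W1 Fr W hqO O' π' C M) =
      jqModC k - qExpand k q (qExpand k q (jqModC k)) := by
  rw [t4vwX0O, map_sub, map_pow,
    t4v_ρ₁_a0 O π hπ hN' W1 Fr W hqO O' π' C M (t4vr_taJ_gauss O π),
    t4v_ρ₁_a1 O π hπ hN' W1 Fr W hqO O' π' C M (t4vr_taJ_gauss O π), t4vr_taJ_rho, ← map_pow,
    t2i_jq_pow]

theorem t4vw_ρ₂_X0 :
    (t4vInput O π hπ hN' W1 Fr W hqO O' π' C M).ρ₂
      (t4vwX0O O π hπ hN' W1 Fr W hqO O' π' C M) =
      jqModC k - qExpand k q (qExpand k q (jqModC k)) := by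
  rw [t4vwX0O, map_sub, map_pow,
    t4v_ρ₂_a0 O π hπ hN' W1 Fr W hqO O' π' C M (t4vr_taJ_gauss O π),
    t4v_ρ₂_a1 O π hπ hN' W1 Fr W hqO O' π' C M (t4vr_taJ_gauss O π), t4vr_taJ_rho, ← map_pow,
    t2i_jq_pow]

/-- valuation `1` from membership and a nonvanishing criterion -/
theorem t4vw_val_eq_one {F : Type*} [Field F] (V : ValuationSubring F) {f : F} (hf : f ∈ V)
    (hn : ¬ V.valuation f < 1) : V.valuation f = 1 :=
  le_antisymm ((V.valuation_le_one_iff f).mpr hf) (not_lt.mp hn)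

theorem t4vw_res_ne : jqModC k - qExpand k q (qExpand k q (jqModC k)) ≠ 0 := by
  intro h
  exact t4v_Z_res_ne (q := q) (sub_eq_zero.mp h).symm

include hN' W1 Fr hqO in
/-- **the Chinese remainder theorem for the three vertical valuations** -/
theorem t4vw_crt : T4vwCrt O π hπ W O' π' C M := by
  set I := t4vInput O π hπ hN' W1 Fr W hqO O' π' C M with hI
  set A := t4vrXinfO O π hπ hN' W1 Fr W hqO O' π' C M with hA
  set P := t4vrPiO O π hπ hN' W1 Fr W hqO O' π' C M with hP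
  set X0 := t4vwX0O O π hπ hN' W1 Fr W hqO O' π' C M with hX0
  have hQ : algebraMap L ↥(TaF L (N' * q * q)) ((q : ℕ) : L) = t4vQ L N' q := rfl
  have memO : ∀ f : ↥I.Ov, (f : ↥(TaF L (N' * q * q))) ∈ t4vOinf (N' := N') (q := q) O π hπ ∧
      (f : ↥(TaF L (N' * q * q))) ∈ t4vO0 O π hπ W ∧
      (f : ↥(TaF L (N' * q * q))) ∈ t4vOmid O π hπ O' π' C M := fun f =>
    (mem_t4vInput_Ov_iff O π hπ hN' W1 Fr W hqO O' π' C M _).mp f.2
  -- the nine valuations
  have vInfA : (t4vOinf (N' := N') (q := q) O π hπ).valuation (A : ↥(TaF L (N' * q * q))) ≤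
      (t4vOinf (N' := N') (q := q) O π hπ).valuation (t4vQ L N' q) :=
    t4vw_val_le_of_decomp _ (t4vQ_mem_inf O π hπ) (t4vQ_inv_notMem_inf O π hπ hqO)
      (t4vOinf_exists_zpow O π hπ hqO)
      ((t4vr_ρ₁_eq_zero_iff O π hπ hN' W1 Fr W hqO O' π' C M A).mp
        (t4vr_ρ₁_Xinf O π hπ hN' W1 Fr W hqO O' π' C M))
  have vMidA : (t4vOmid O π hπ O' π' C M).valuation (A : ↥(TaF L (N' * q * q))) = 1 := by
    refine t4vw_val_eq_one _ (memO A).2.2 (fun h => ?_)
    have h1 := (t4vr_ρ₂_eq_zero_iff O π hπ hN' W1 Fr W hqO O' π' C M A).mpr h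
    rw [hA, t4vr_ρ₂_Xinf] at h1
    exact t4vw_res_ne (q := q) h1
  have vZeroA : (t4vO0 O π hπ W).valuation (A : ↥(TaF L (N' * q * q))) = 1 := by
    refine t4vw_val_eq_one _ (memO A).2.1 (fun h => ?_)
    have h1 := (t4vr_ρ₃_eq_zero_iff O π hπ hN' W1 Fr W hqO O' π' C M A).mpr h
    rw [hA, t4vr_ρ₃_Xinf] at h1
    exact t4vw_res_ne (q := q) h1
  have vInfP : (t4vOinf (N' := N') (q := q) O π hπ).valuation (P : ↥(TaF L (N' * q * q))) = 1 :=
    t4vOinf_valuation_pi O π hπ hN' W1 Fr W hqO O' π' C M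
  have vZeroP : (t4vO0 O π hπ W).valuation (P : ↥(TaF L (N' * q * q))) = 1 :=
    t4vO0_valuation_pi O π hπ hN' W1 Fr W hqO O' π' C M
  have vMidP : (t4vOmid O π hπ O' π' C M).valuation (P : ↥(TaF L (N' * q * q))) ^ (q - 1) =
      (t4vOmid O π hπ O' π' C M).valuation (t4vQ L N' q) := by
    obtain ⟨u, hu, hui, e⟩ := t4vQ_mid O π hπ O' π' C M
    have hu0 : u ≠ 0 := by
      rintro rfl
      rw [mul_zero] at e
      exact t4vQ_ne_zero e
    rw [e, map_mul, map_pow, t4vs_valuation_unit _ hu0 hu hui, mul_one]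
    rfl
  have vInfX : (t4vOinf (N' := N') (q := q) O π hπ).valuation (X0 : ↥(TaF L (N' * q * q))) = 1 := by
    refine t4vw_val_eq_one _ (memO X0).1 (fun h => ?_)
    have h1 := (t4vr_ρ₁_eq_zero_iff O π hπ hN' W1 Fr W hqO O' π' C M X0).mpr h
    rw [hX0, t4vw_ρ₁_X0] at h1
    exact t4vw_res_ne (q := q) h1
  have vMidX : (t4vOmid O π hπ O' π' C M).valuation (X0 : ↥(TaF L (N' * q * q))) = 1 := by
    refine t4vw_val_eq_one _ (memO X0).2.2 (fun h => ?_)
    have h1 := (t4vr_ρ₂_eq_zero_iff O π hπ hN' W1 Fr W hqO O' π' C M X0).mpr h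
    rw [hX0, t4vw_ρ₂_X0] at h1
    exact t4vw_res_ne (q := q) h1
  have vZeroX : (t4vO0 O π hπ W).valuation (X0 : ↥(TaF L (N' * q * q))) ≤
      (t4vO0 O π hπ W).valuation (t4vQ L N' q) :=
    t4vw_val_le_of_decomp _ (t4vQ_mem_zero O π hπ W) (t4vQ_inv_notMem_zero O π hπ W hqO)
      (t4vO0_exists_zpow O π hπ W hqO)
      ((t4vr_ρ₃_eq_zero_iff O π hπ hN' W1 Fr W hqO O' π' C M X0).mp
        (t4vw_ρ₃_X0 O π hπ hN' W1 Fr W hqO O' π' C M))
  have hall : ∀ e : ↥I.Ov, ∀ V' ∈ t4vwVer O π hπ W O' π' C M,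
      (e : ↥(TaF L (N' * q * q))) ∈ V' := fun e =>
    (mem_Ov_iff_forall_t4vwVer O π hπ hN' W1 Fr W hqO O' π' C M _).mp e.2
  intro V hV n
  rw [hQ]
  rcases (mem_t4vwVer O π hπ W O' π' C M V).mp hV with rfl | rfl | rfl
  · -- `O_inf`
    refine ⟨(((P ^ (q - 1) * X0) ^ n : ↥I.Ov) : ↥(TaF L (N' * q * q))), hall _, ?_, ?_⟩
    · push_cast
      rw [map_pow, map_mul, map_pow, vInfP, vInfX, one_pow, one_mul, one_pow]
    · intro V' hV' hne
      rcases (mem_t4vwVer O π hπ W O' π' C M V').mp hV' with rfl | rfl | rfl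
      · exact absurd rfl hne
      · push_cast
        rw [map_pow, map_mul, map_pow, vMidP, vMidX, mul_one]
      · push_cast
        rw [map_pow, map_mul, map_pow, vZeroP, one_pow, one_mul]
        exact pow_le_pow_left₀ zero_le vZeroX n
  · -- `O_mid`
    refine ⟨(((A * X0) ^ n : ↥I.Ov) : ↥(TaF L (N' * q * q))), hall _, ?_, ?_⟩
    · push_cast
      rw [map_pow, map_mul, vMidA, vMidX, one_mul, one_pow]
    · intro V' hV' hne
      rcases (mem_t4vwVer O π hπ W O' π' C M V').mp hV' with rfl | rfl | rfl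
      · push_cast
        rw [map_pow, map_mul, vInfX, mul_one]
        exact pow_le_pow_left₀ zero_le vInfA n
      · exact absurd rfl hne
      · push_cast
        rw [map_pow, map_mul, vZeroA, one_mul]
        exact pow_le_pow_left₀ zero_le vZeroX n
  · -- `O_0`
    refine ⟨(((A * P ^ (q - 1)) ^ n : ↥I.Ov) : ↥(TaF L (N' * q * q))), hall _, ?_, ?_⟩
    · push_cast
      rw [map_pow, map_mul, map_pow, vZeroA, vZeroP, one_pow, one_mul, one_pow]
    · intro V' hV' hne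
      rcases (mem_t4vwVer O π hπ W O' π' C M V').mp hV' with rfl | rfl | rfl
      · push_cast
        rw [map_pow, map_mul, map_pow, vInfP, one_pow, mul_one]
        exact pow_le_pow_left₀ zero_le vInfA n
      · push_cast
        rw [map_pow, map_mul, map_pow, vMidP, vMidA, one_mul]
      · exact absurd rfl hne

end Crt

end Fermat.Agent.T4
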