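/-
T4-V2 (lead), part 1: the Atkin–Lehner matrix `W_Q = [[Q a, 1], [N' Q c, Q]]` (`Q a - N' c = 1`) for an
arbitrary `Q` prime to `N'`, acting on ALL the generators `j(d e τ)`, `d ∣ N'`, `e e' = Q`:
`j(d e · W_Q τ) = j(d e' τ)`.  (For `Q = q` prime this is `Lib/T2/AL/Basic.lean`; we need `Q = q²`, where the
middle generators `j(d q τ)` are FIXED.)
-/
import Mathlib
import Fermat.Agent.Lib.T2.AL.Basic

set_option autoImplicit false
set_option linter.unusedSectionVars false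
set_option linter.style.haveILetI false
set_option linter.unusedVariables false

namespace Fermat.Agent.T4

open Fermat.Agent.S24Lib Fermat.Agent.T1 Fermat.Agent.T1.KMod Fermat.Agent.T2
open UpperHalfPlane Matrix MatrixGroups ModularCurve HahnSeries
open Fermat.Agent.S22Lib (intGL)

/-- `diag(d e,1) W_Q = e · γ diag(d e', 1)` with `γ ∈ SL₂(ℤ)`, for `N' = d m`, `Q = e e'` -/
theorem t4w_mat_eq (a c : ℤ) (d m e e' : ℕ)
    (h : ((e * e' : ℕ) : ℤ) * a - (d * m : ℕ) * c = 1) :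
    ∃ γ : SL(2, ℤ), diagMat (d * e) * t2wMat (d * m) (e * e') a c
      = (e : ℤ) • ((γ : Matrix (Fin 2) (Fin 2) ℤ) * diagMat (d * e')) := by
  refine ⟨⟨!![(e : ℤ) * a, d; (m : ℤ) * c, e'], ?_⟩, ?_⟩
  · rw [Matrix.det_fin_two_of]
    push_cast at h
    linear_combination h
  · simp only [diagMat, t2wMat]
    ext i j
    fin_cases i <;> fin_cases j <;>
      simp [Matrix.mul_apply, Fin.sum_univ_two] <;> ring

/-- `j(d e · W_Q τ) = j(d e' τ)` for `N' = d m`, `Q = e e'` -/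
theorem t4w_jGen_comp (a c : ℤ) (d m e e' : ℕ+)
    (h : (((e * e' : ℕ+) : ℕ) : ℤ) * a - ((d * m : ℕ+) : ℕ) * c = 1) (τ : ℍ) :
    S24Lib.jGen (d * e) 1
        (intGL (t2wMat ((d * m : ℕ+) : ℕ) ((e * e' : ℕ+) : ℕ) a c)
          (t2wMat_det_pos _ _ (e * e').pos a c h) • τ)
      = S24Lib.jGen (d * e') 1 τ := by
  have h' : ((((e : ℕ) * (e' : ℕ) : ℕ)) : ℤ) * a - (((d : ℕ) * (m : ℕ) : ℕ)) * c = 1 := by
    simpa using h
  obtain ⟨γ, hγ⟩ := t4w_mat_eq a c d m e e' h'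
  have hpos : 0 < (diagMat ((d * e : ℕ+) : ℕ)
      * t2wMat ((d * m : ℕ+) : ℕ) ((e * e' : ℕ+) : ℕ) a c).det := by
    rw [Matrix.det_mul, diagMat_det, t2wMat_det _ _ _ _ h]
    exact mul_pos (by exact_mod_cast (d * e).pos) (by exact_mod_cast (e * e').pos)
  rw [t2w_jGen_one, t2w_jGen_one, t2w_jMat_comp _ _ _ _ hpos]
  have he : (0 : ℤ) < ((e : ℕ) : ℤ) := by exact_mod_cast e.pos
  have h2 : jMat (diagMat ((d * e : ℕ+) : ℕ)
        * t2wMat ((d * m : ℕ+) : ℕ) ((e * e' : ℕ+) : ℕ) a c) hpos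
      = jMat (((e : ℕ) : ℤ) • ((γ : Matrix (Fin 2) (Fin 2) ℤ) * diagMat ((d * e' : ℕ+) : ℕ)))
          (t2w_det_smul_pos he (det_SL_mul_pos γ (t2w_diagMat_det_pos (d * e')))) :=
    jMat_congr (by simpa only [PNat.mul_coe] using hγ) _ _
  rw [h2, t2w_jMat_smul _ he _ (det_SL_mul_pos γ (t2w_diagMat_det_pos (d * e'))), jMat_SL_mul]

/-- `j(d e · W_Q τ) = j(d e' τ)` for `d ∣ N'`, `e e' = Q`, general form -/
theorem t4w_jGen_comp_dvd (Q N' : ℕ) (hQ : 0 < Q) (hN' : 0 < N') (a c : ℤ)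
    (h : (Q : ℤ) * a - N' * c = 1) (d e e' : ℕ+) (hd : (d : ℕ) ∣ N') (he : (e : ℕ) * e' = Q)
    (τ : ℍ) :
    S24Lib.jGen (d * e) 1 (intGL (t2wMat N' Q a c) (t2wMat_det_pos _ _ hQ a c h) • τ)
      = S24Lib.jGen (d * e') 1 τ := by
  obtain ⟨m, rfl⟩ := hd
  subst he
  have hm : 0 < m := Nat.pos_of_ne_zero (by rintro rfl; simp at hN')
  exact t4w_jGen_comp a c d ⟨m, hm⟩ e e' h τ

end Fermat.Agent.T4
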