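/-
T4-V (helper7): **(Int) for the chart `X⁻¹ = (j^Q - j)⁻¹`** (for the noetherianity of the chart ring
of chart 2), generic DVR level `(L, O, π, k)`; the `X⁻¹`-copies of helper2's `ChartInt.lean`.

Algebra: `u = j⁻¹`, `s = 1 - u^(Q-1)`, `t = s⁻¹`, `v = X⁻¹ = u^Q / s`.
* `t4vci_scale` : `g` integral over `K[v]` ⟹ `s^n g` integral over `K[u]` for some `n`;
* `t4vci_isIntegral_u`, `t4vci_isIntegral_t` : `u` and `t` are integral over `R[v]`
  (`u^Q + v u^(Q-1) - v = 0`, `(t - 1)^Q = v^(Q-1) t`);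
* `t4vci_int_inv` : (Int) for the chart `u` on a subring `𝒪 ∋ s` ⟹ (Int) for the chart `v`;
* **`t4vci_int_level_X_inv`** : (Int) at level `N'` for the chart `(j^Q - j)⁻¹` (from T1's
  `ta_int_inf`), **`t4vci_int_of_level_inv`** : (Int) at a level above `N'` (helper2's tower lemma
  `t4vc_int_tower`).
-/
import Fermat.Agent.Lib.T4.Inst.ChartInt

set_option autoImplicit false
set_option linter.unusedSectionVars false
set_option linter.unusedVariables false
set_option linter.style.haveILetI false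
set_option synthInstance.maxHeartbeats 400000
set_option maxHeartbeats 1000000

open Polynomial

noncomputable section

namespace Fermat.Agent.T4

open T2 (t2c_isIntegral_trans t2d_isIntegral_adjoin_iff)

/-! ### Clearing the denominator -/

section Abs

variable {K F : Type*} [CommRing K] [Field F] [Algebra K F]

/-- `s^n * p(v) ∈ K[u]` when `v * s = u^Q`, `s ∈ K[u]` and `deg p ≤ n` -/
theorem t4vci_scale_mem {u v s : F} {Q : ℕ} (hs : s ∈ Algebra.adjoin K {u}) (hv : v * s = u ^ Q)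
    (p : Polynomial K) {n : ℕ} (hn : p.natDegree ≤ n) :
    s ^ n * aeval v p ∈ Algebra.adjoin K {u} := by
  have hu : u ∈ Algebra.adjoin K {u} := Algebra.self_mem_adjoin_singleton K u
  rw [aeval_eq_sum_range' (Nat.lt_succ_of_le hn), Finset.mul_sum]
  refine Subalgebra.sum_mem _ fun m hm => ?_
  have hm' : m ≤ n := Nat.lt_succ_iff.mp (Finset.mem_range.mp hm)
  have h1 : s ^ n * (p.coeff m • v ^ m) = p.coeff m • (s ^ (n - m) * (u ^ Q) ^ m) := by
    rw [← hv, mul_pow, mul_smul_comm]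
    congr 1
    rw [← mul_assoc, mul_comm (s ^ (n - m)) (v ^ m), mul_assoc, ← pow_add,
      Nat.sub_add_cancel hm', mul_comm]
  rw [h1]
  exact Subalgebra.smul_mem _
    (Subalgebra.mul_mem _ (Subalgebra.pow_mem _ hs _) (Subalgebra.pow_mem _ (Subalgebra.pow_mem _ hu _) _)) _

/-- clearing the denominator `s`: integral over `K[v]`, `v = u^Q / s` ⟹ `s^n g` integral over `K[u]` -/
theorem t4vci_scale {u v s g : F} {Q : ℕ} (hs : s ∈ Algebra.adjoin K {u}) (hv : v * s = u ^ Q)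
    (hg : IsIntegral ↥(Algebra.adjoin K {v}) g) :
    ∃ n : ℕ, IsIntegral ↥(Algebra.adjoin K {u}) (s ^ n * g) := by
  classical
  rw [t2d_isIntegral_adjoin_iff] at hg
  obtain ⟨d, q, hq⟩ := hg
  set n : ℕ := ∑ i : Fin d, (q i).natDegree with hn
  have hle : ∀ i : Fin d, (q i).natDegree ≤ n := fun i =>
    Finset.single_le_sum (f := fun i : Fin d => (q i).natDegree) (fun _ _ => Nat.zero_le _)
      (Finset.mem_univ i)
  have hmem : ∀ i : Fin d, ∃ r : Polynomial K, aeval u r = s ^ n * aeval v (q i) := by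
    intro i
    have h := t4vci_scale_mem hs hv (q i) (hle i)
    rw [Algebra.adjoin_singleton_eq_range_aeval] at h
    exact h
  choose r hr using hmem
  obtain ⟨S, hS⟩ : ∃ S : Polynomial K, aeval u S = s := by
    rw [Algebra.adjoin_singleton_eq_range_aeval] at hs
    exact hs
  refine ⟨n, (t2d_isIntegral_adjoin_iff _ _).mpr
    ⟨d, fun i => r i * S ^ (n * (d - 1 - (i : ℕ))), ?_⟩⟩
  have key : (s ^ n * g) ^ d + ∑ i : Fin d,
      aeval u (r i * S ^ (n * (d - 1 - (i : ℕ)))) * (s ^ n * g) ^ (i : ℕ) =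
      s ^ (n * d) * (g ^ d + ∑ i : Fin d, aeval v (q i) * g ^ (i : ℕ)) := by
    rw [mul_add, Finset.mul_sum, mul_pow, ← pow_mul]
    congr 1
    refine Finset.sum_congr rfl fun i _ => ?_
    rw [map_mul, map_pow, hS, hr, mul_pow, ← pow_mul]
    try rw [← pow_mul]
    have hi : (i : ℕ) < d := i.2
    have hexp : n * d = n + n * (d - 1 - (i : ℕ)) + n * (i : ℕ) := by
      have : d = 1 + (d - 1 - (i : ℕ)) + (i : ℕ) := by omega
      calc n * d = n * (1 + (d - 1 - (i : ℕ)) + (i : ℕ)) := by rw [← this]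
        _ = _ := by ring
    rw [hexp, pow_add, pow_add]
    ring
  rw [key, hq, mul_zero]

end Abs

/-! ### Integrality of `u` and `t` over `R[v]` -/

section Abs2

variable {R F : Type*} [CommRing R] [Field F] [Algebra R F]

/-- `u` is integral over `R[v]` when `v (1 - u^(Q-1)) = u^Q` -/
theorem t4vci_isIntegral_u {u v : F} {Q : ℕ} (hQ : 2 ≤ Q) (hv : v * (1 - u ^ (Q - 1)) = u ^ Q) :
    IsIntegral ↥(Algebra.adjoin R {v}) u := by
  set B := Algebra.adjoin R {v} with hB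
  let vB : ↥B := ⟨v, Algebra.self_mem_adjoin_singleton R v⟩
  refine ⟨X ^ Q - (C vB - C vB * X ^ (Q - 1)), ?_, ?_⟩
  · apply Polynomial.monic_X_pow_sub
    refine lt_of_le_of_lt (Polynomial.degree_sub_le _ _) ?_
    rw [max_lt_iff]
    constructor
    · exact lt_of_le_of_lt Polynomial.degree_C_le (by exact_mod_cast (by omega : 0 < Q))
    · refine lt_of_le_of_lt (Polynomial.degree_C_mul_X_pow_le _ _) ?_
      exact_mod_cast (by omega : Q - 1 < Q)
  · simp only [Polynomial.eval₂_sub, Polynomial.eval₂_pow, Polynomial.eval₂_X, Polynomial.eval₂_C,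
      Polynomial.eval₂_mul]
    show u ^ Q - (v - v * u ^ (Q - 1)) = 0
    rw [← hv]
    ring

/-- `t = (1 - u^(Q-1))⁻¹` is integral over `R[v]` when `v (1 - u^(Q-1)) = u^Q` -/
theorem t4vci_isIntegral_t {u v t : F} {Q : ℕ} (hQ : 2 ≤ Q) (hv : v * (1 - u ^ (Q - 1)) = u ^ Q)
    (ht : t * (1 - u ^ (Q - 1)) = 1) : IsIntegral ↥(Algebra.adjoin R {v}) t := by
  set B := Algebra.adjoin R {v} with hB
  let vB : ↥B := ⟨v, Algebra.self_mem_adjoin_singleton R v⟩
  -- `(t - 1)^Q = v^(Q-1) t`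
  have h1 : t - 1 = t * u ^ (Q - 1) := by
    have : t - t * u ^ (Q - 1) = 1 := by rw [← ht]; ring
    rw [← this]; ring
  have h2 : v = u ^ Q * t := by
    calc v = v * (t * (1 - u ^ (Q - 1))) := by rw [ht, mul_one]
      _ = (v * (1 - u ^ (Q - 1))) * t := by ring
      _ = u ^ Q * t := by rw [hv]
  have h3 : (t - 1) ^ Q = v ^ (Q - 1) * t := by
    rw [h1, h2, mul_pow, mul_pow, ← pow_mul, ← pow_mul, mul_comm (Q - 1) Q]
    have : t ^ Q = t ^ (Q - 1) * t := by
      rw [← pow_succ]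
      congr 1
      omega
    rw [this]
    ring
  refine ⟨(X - 1) ^ Q - C (vB ^ (Q - 1)) * X, ?_, ?_⟩
  · have hm : ((X - 1 : Polynomial ↥B) ^ Q).Monic := by
      have : (X - 1 : Polynomial ↥B) = X - C 1 := by rw [map_one]
      rw [this]
      exact (Polynomial.monic_X_sub_C 1).pow Q
    have hd : ((X - 1 : Polynomial ↥B) ^ Q).degree = Q := by
      have : (X - 1 : Polynomial ↥B) = X - C 1 := by rw [map_one]
      rw [this, Polynomial.degree_pow, Polynomial.degree_X_sub_C]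
      simp
    refine Polynomial.Monic.sub_of_left hm ?_
    rw [hd]
    refine lt_of_le_of_lt (Polynomial.degree_C_mul_X_le _) ?_
    exact_mod_cast (by omega : 1 < Q)
  · simp only [Polynomial.eval₂_sub, Polynomial.eval₂_pow, Polynomial.eval₂_X, Polynomial.eval₂_C,
      Polynomial.eval₂_mul, Polynomial.eval₂_one]
    show (t - 1) ^ Q - (algebraMap ↥B F (vB ^ (Q - 1))) * t = 0
    rw [map_pow]
    show (t - 1) ^ Q - v ^ (Q - 1) * t = 0
    rw [h3, sub_self]

end Abs2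

/-! ### (Int) for the chart `v = u^Q / (1 - u^(Q-1))` from (Int) for the chart `u` -/

section Main

variable {K F : Type*} [Field K] [Field F] [Algebra K F]

/-- **change of chart `u ⇝ v = u^Q / (1 - u^(Q-1))`** for (Int) -/
theorem t4vci_int_inv (A : ValuationSubring K) (Ov : Subring F) {u v t : F} {Q : ℕ} (hQ : 2 ≤ Q)
    (hv : v * (1 - u ^ (Q - 1)) = u ^ Q) (ht : t * (1 - u ^ (Q - 1)) = 1)
    (hsO : 1 - u ^ (Q - 1) ∈ Ov)
    (hIntu : ∀ g ∈ Ov, IsIntegral ↥(Algebra.adjoin K {u}) g →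
      IsIntegral ↥(Algebra.adjoin ↥A {u}) g)
    {g : F} (hg : g ∈ Ov) (hint : IsIntegral ↥(Algebra.adjoin K {v}) g) :
    IsIntegral ↥(Algebra.adjoin ↥A {v}) g := by
  have hsK : 1 - u ^ (Q - 1) ∈ Algebra.adjoin K {u} :=
    Subalgebra.sub_mem _ (Subalgebra.one_mem _)
      (Subalgebra.pow_mem _ (Algebra.self_mem_adjoin_singleton K u) _)
  obtain ⟨n, hn⟩ := t4vci_scale hsK hv hint
  have h1 : IsIntegral ↥(Algebra.adjoin ↥A {u}) ((1 - u ^ (Q - 1)) ^ n * g) :=
    hIntu _ (Ov.mul_mem (Ov.pow_mem hsO n) hg) hn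
  have h2 : IsIntegral ↥(Algebra.adjoin ↥A {v}) ((1 - u ^ (Q - 1)) ^ n * g) :=
    t2c_isIntegral_trans (t4vci_isIntegral_u (R := ↥A) hQ hv) h1
  have h3 : IsIntegral ↥(Algebra.adjoin ↥A {v}) (t ^ n) :=
    (t4vci_isIntegral_t (R := ↥A) hQ hv ht).pow n
  have h4 : g = t ^ n * ((1 - u ^ (Q - 1)) ^ n * g) := by
    rw [← mul_assoc, ← mul_pow, ht, one_pow, one_mul]
  rw [h4]
  exact h3.mul h2

/-- a transcendental element is not a root of `T^Q - T` -/
theorem t4vci_pow_sub_ne_zero {t : F} (ht : Transcendental K t) {Q : ℕ} (hQ : 2 ≤ Q) :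
    t ^ Q - t ≠ 0 := by
  intro h0
  apply ht
  refine ⟨(X : Polynomial K) ^ Q - X, ?_, ?_⟩
  · have hm : ((X : Polynomial K) ^ Q - X).Monic :=
      Polynomial.monic_X_pow_sub (by
        rw [Polynomial.degree_X]
        exact_mod_cast (by omega : 1 < Q))
    exact hm.ne_zero
  · simpa using h0

end Main

/-! ### The modular levels -/

section Level

open Fermat.Agent.T1

variable {L : Type*} [Field L] [Algebra ℚ L] (O : ValuationSubring L)
  {k : Type*} [Field k] (π : ↥O →+* k)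
  [IsDiscreteValuationRing ↥O] (hπ : Function.Surjective π) (N' N : ℕ) [NeZero N'] [NeZero N]

/-- **(Int) at level `N'` for the chart `(j^Q - j)⁻¹`** -/
theorem t4vci_int_level_X_inv (hN' : (N' : k) ≠ 0) {Q : ℕ} (hQ : 2 ≤ Q) {g : ↥(TaF L N')}
    (hg : g ∈ taOv O π hπ N')
    (hint : IsIntegral ↥(Algebra.adjoin L {(taJ (L := L) N' ^ Q - taJ N')⁻¹}) g) :
    IsIntegral ↥(Algebra.adjoin ↥O {(taJ (L := L) N' ^ Q - taJ N')⁻¹}) g := by
  have hX0 : taJ (L := L) N' ^ Q - taJ N' ≠ 0 :=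
    t4vci_pow_sub_ne_zero (ta_transcendental_taJ (L := L) N') hQ
  have hj0 : taJ (L := L) N' ≠ 0 := by
    intro h0
    apply hX0
    rw [h0, zero_pow (by omega), sub_zero]
  set j := taJ (L := L) N' with hj
  -- `X = j^Q (1 - u^(Q-1))`
  have hX : j ^ Q - j = j ^ Q * (1 - j⁻¹ ^ (Q - 1)) := by
    have h1 : j ^ Q * j⁻¹ ^ (Q - 1) = j := by
      have : j ^ Q = j * j ^ (Q - 1) := by
        rw [← pow_succ']
        congr 1
        omega
      rw [this, mul_assoc, ← mul_pow, mul_inv_cancel₀ hj0, one_pow, mul_one]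
    rw [mul_sub, mul_one, h1]
  have hs0 : 1 - j⁻¹ ^ (Q - 1) ≠ 0 := by
    intro h0
    apply hX0
    rw [hX, h0, mul_zero]
  have hv : (j ^ Q - j)⁻¹ * (1 - j⁻¹ ^ (Q - 1)) = j⁻¹ ^ Q := by
    rw [hX, mul_inv, mul_assoc, inv_mul_cancel₀ hs0, mul_one, inv_pow]
  have ht : (1 - j⁻¹ ^ (Q - 1))⁻¹ * (1 - j⁻¹ ^ (Q - 1)) = 1 := inv_mul_cancel₀ hs0
  have hu : j⁻¹ ∈ taOv O π hπ N' := taJ_inv_mem_taOv O π hπ N'
  refine t4vci_int_inv O (taOv O π hπ N').toSubring hQ hv ht ?_ ?_ hg hint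
  · exact Subring.sub_mem _ (Subring.one_mem _) (Subring.pow_mem _ hu _)
  · intro g' hg' h
    exact ta_int_inf O π hπ N' hN' hg' h

/-- **(Int) at a level above `N'` for the chart `(j^Q - j)⁻¹`** -/
theorem t4vci_int_of_level_inv (hN' : (N' : k) ≠ 0) (φ : ↥(TaF L N') →ₐ[L] ↥(TaF L N))
    (hφ : φ (taJ N') = taJ N) {Q : ℕ} (hQ : 2 ≤ Q) {f : ↥(TaF L N)}
    (hf' : ((φ : ↥(TaF L N') →+* ↥(TaF L N)).comp (taOv O π hπ N').subtype).IsIntegralElem f)
    (hf : IsIntegral ↥(Algebra.adjoin L {(taJ (L := L) N ^ Q - taJ N)⁻¹}) f) :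
    IsIntegral ↥(Algebra.adjoin ↥O {(taJ (L := L) N ^ Q - taJ N)⁻¹}) f := by
  letI : Algebra ↥(TaF L N') ↥(TaF L N) := (φ : ↥(TaF L N') →+* ↥(TaF L N)).toAlgebra
  haveI : IsScalarTower L ↥(TaF L N') ↥(TaF L N) :=
    IsScalarTower.of_algebraMap_eq (fun a => (φ.commutes a).symm)
  have hX : algebraMap ↥(TaF L N') ↥(TaF L N) (taJ (L := L) N' ^ Q - taJ N')⁻¹ =
      (taJ (L := L) N ^ Q - taJ N)⁻¹ := by
    show φ (taJ (L := L) N' ^ Q - taJ N')⁻¹ = _
    rw [map_inv₀, map_sub, map_pow, hφ]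
  have key := t4vc_int_tower (K := L) (F' := ↥(TaF L N')) (F := ↥(TaF L N)) O (taOv O π hπ N')
    (taJ (L := L) N' ^ Q - taJ N')⁻¹
    (fun g hg hint => t4vci_int_level_X_inv O π hπ N' hN' hQ hg hint) (f := f) hf'
    (by rw [hX]; exact hf)
  rw [hX] at key
  exact key

end Level

end Fermat.Agent.T4
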