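/-
T4-V (helper3): **the residue field of a closed point of the special fibre is `k`** — abstract part
(Mathlib only).  Prefix `t4vrk`.

`k` algebraically closed, `π : O ↠ k`, `B` a ring with constants `ι : O → B`, `𝔫` a maximal ideal of
`B` containing `ι (ker π)`, `R : B → E` a reduction (`E` a `k`-algebra) with `ker R ⊆ 𝔫`, compatible
with the constants, such that `R (B)` is integral over `k[R y]` for some `y ∈ B`.  Then every element
of `B` is congruent modulo `𝔫` to a constant: `B ⧸ 𝔫` is a field, integral over `k[ȳ]`, hence `ȳ` is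
algebraic over `k` (otherwise `k[X]` would be a field), hence `B ⧸ 𝔫 = k`.
-/
import Mathlib

set_option autoImplicit false
set_option linter.style.haveILetI false

open Polynomial

namespace Fermat.Agent.T4

/-- an element of a field extension of an algebraically closed field, integral over it, is a
constant -/
theorem t4vrk_mem_range_of_isIntegral {k K : Type*} [Field k] [IsAlgClosed k] [Field K]
    [Algebra k K] {x : K} (hx : IsIntegral k x) : ∃ c : k, x = algebraMap k K c := by
  have hdeg := IsAlgClosed.degree_eq_one_of_irreducible k (minpoly.irreducible hx)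
  obtain ⟨b, hb⟩ := minpoly.mem_range_of_degree_eq_one k x hdeg
  exact ⟨b, hb.symm⟩

/-- a field which is integral over `k[y]` (`k` algebraically closed) is `k` -/
theorem t4vrk_field {k K : Type*} [Field k] [IsAlgClosed k] [Field K] [Algebra k K] (y : K)
    (hint : ∀ x : K, ((aeval y : k[X] →ₐ[k] K) : k[X] →+* K).IsIntegralElem x) (x : K) :
    ∃ c : k, x = algebraMap k K c := by
  -- `y` is algebraic over `k`
  have hy : IsIntegral k y := by
    by_contra hny
    have htr : Transcendental k y := fun h => hny (isAlgebraic_iff_isIntegral.mp h)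
    have hinj : Function.Injective (aeval y : k[X] →ₐ[k] K) :=
      transcendental_iff_injective.mp htr
    letI : Algebra k[X] K := ((aeval y : k[X] →ₐ[k] K) : k[X] →+* K).toAlgebra
    haveI : Algebra.IsIntegral k[X] K := ⟨fun x => hint x⟩
    have hf : IsField k[X] := isField_of_isIntegral_of_isField (S := K) hinj (Field.toIsField K)
    exact Polynomial.not_isField k hf
  obtain ⟨c₀, hc₀⟩ := t4vrk_mem_range_of_isIntegral hy
  -- `aeval y = algebraMap ∘ eval c₀`
  have hcomp : ((aeval y : k[X] →ₐ[k] K) : k[X] →+* K) =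
      (algebraMap k K).comp (evalRingHom c₀) := by
    apply Polynomial.ringHom_ext
    · intro a
      simp
    · simp [hc₀]
  obtain ⟨p, hp, hpx⟩ := hint x
  have hx : IsIntegral k x := by
    refine ⟨p.map (evalRingHom c₀), hp.map _, ?_⟩
    rw [eval₂_map, ← hcomp]
    exact hpx
  exact t4vrk_mem_range_of_isIntegral hx

/-- **the residue field of a closed point is `k`** (abstract form) -/
theorem t4vrk_abs {O k B E : Type*} [CommRing O] [Field k] [IsAlgClosed k] [CommRing B]
    [CommRing E] [Algebra k E] (π : O →+* k) (hπ : Function.Surjective π) (ι : O →+* B)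
    (𝔫 : Ideal B) [h𝔫 : 𝔫.IsMaximal] (hπ𝔫 : ∀ c, π c = 0 → ι c ∈ 𝔫)
    (R : B →+* E) (hker : ∀ b, R b = 0 → b ∈ 𝔫) (hR : ∀ c, R (ι c) = algebraMap k E (π c))
    (yB : B) (hint : ∀ b, IsIntegral ↥(Algebra.adjoin k {R yB}) (R b)) (b : B) :
    ∃ c : O, b - ι c ∈ 𝔫 := by
  classical
  letI : Field (B ⧸ 𝔫) := Ideal.Quotient.field 𝔫
  set mk : B →+* B ⧸ 𝔫 := Ideal.Quotient.mk 𝔫 with hmk
  -- the `k`-algebra structure of the residue field
  have hle : RingHom.ker π ≤ RingHom.ker (mk.comp ι) := by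
    intro c hc
    rw [RingHom.mem_ker] at hc ⊢
    rw [RingHom.comp_apply, hmk, Ideal.Quotient.eq_zero_iff_mem]
    exact hπ𝔫 c hc
  set φ : k →+* B ⧸ 𝔫 := RingHom.liftOfSurjective π hπ ⟨mk.comp ι, hle⟩ with hφ
  have hφπ : ∀ c, φ (π c) = mk (ι c) := fun c =>
    RingHom.liftOfRightInverse_comp_apply π _ _ ⟨mk.comp ι, hle⟩ c
  letI : Algebra k (B ⧸ 𝔫) := φ.toAlgebra
  have halg : ∀ c : k, algebraMap k (B ⧸ 𝔫) c = φ c := fun _ => rfl
  -- the polynomial ring `O[X]` acting on `B` and on `E`
  set g : O[X] →+* B := eval₂RingHom ι yB with hg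
  set u : E := R yB with hu
  have hRg : ∀ G : O[X], R (g G) = aeval u (G.map π) := by
    intro G
    rw [hg, coe_eval₂RingHom, hom_eval₂, aeval_def, eval₂_map]
    congr 1
    ext c
    exact hR c
  -- the surjection `O[X] → k[u]`
  set θ : O[X] →+* ↥(Algebra.adjoin k {u}) :=
    (R.comp g).codRestrict (Algebra.adjoin k {u}) (fun G => by
      rw [RingHom.comp_apply, hRg]
      exact aeval_mem_adjoin_singleton k u) with hθ
  have hθsurj : Function.Surjective θ := by
    rintro ⟨a, ha⟩
    rw [Algebra.adjoin_singleton_eq_range_aeval] at ha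
    obtain ⟨g₀, rfl⟩ := ha
    obtain ⟨G, rfl⟩ := Polynomial.map_surjective π hπ g₀
    refine ⟨G, Subtype.ext ?_⟩
    show R (g G) = _
    rw [hRg]
    rfl
  have hθc : (algebraMap ↥(Algebra.adjoin k {u}) E).comp θ = R.comp g := by
    ext G <;> rfl
  -- every element of the residue field is integral over `O[X]`
  have hint1 : ∀ b : B, (mk.comp g).IsIntegralElem (mk b) := by
    intro b
    obtain ⟨p₀, hp₀, hpb⟩ := hint b
    have hl : p₀ ∈ Polynomial.lifts θ := by
      rw [Polynomial.lifts_iff_coeff_lifts]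
      intro i
      exact hθsurj _
    obtain ⟨p, hp, -, hpm⟩ := Polynomial.lifts_and_natDegree_eq_and_monic hl hp₀
    refine ⟨p, hpm, ?_⟩
    have h1 : R (eval₂ g b p) = 0 := by
      rw [hom_eval₂, ← hθc, ← eval₂_map, hp]
      exact hpb
    rw [← hom_eval₂, hmk, Ideal.Quotient.eq_zero_iff_mem]
    exact hker _ h1
  -- ... hence over `k[X]`, via `X ↦ ȳ`
  have hcomp : mk.comp g =
      ((aeval (mk yB) : k[X] →ₐ[k] B ⧸ 𝔫) : k[X] →+* B ⧸ 𝔫).comp (mapRingHom π) := by
    apply Polynomial.ringHom_ext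
    · intro a
      rw [RingHom.comp_apply, RingHom.comp_apply, hg, coe_eval₂RingHom, eval₂_C, coe_mapRingHom,
        map_C]
      show mk (ι a) = aeval (mk yB) (C (π a))
      rw [aeval_C, halg, hφπ]
    · rw [RingHom.comp_apply, RingHom.comp_apply, hg, coe_eval₂RingHom, eval₂_X, coe_mapRingHom,
        map_X]
      show mk yB = aeval (mk yB) X
      rw [aeval_X]
  have hint2 : ∀ x : B ⧸ 𝔫,
      ((aeval (mk yB) : k[X] →ₐ[k] B ⧸ 𝔫) : k[X] →+* B ⧸ 𝔫).IsIntegralElem x := by
    intro x
    obtain ⟨b, rfl⟩ := Ideal.Quotient.mk_surjective x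
    obtain ⟨p, hp, hpb⟩ := hint1 b
    refine ⟨p.map (mapRingHom π), hp.map _, ?_⟩
    rw [eval₂_map, ← hcomp]
    exact hpb
  obtain ⟨cb, hcb⟩ := t4vrk_field (mk yB) hint2 (mk b)
  obtain ⟨c, rfl⟩ := hπ cb
  refine ⟨c, ?_⟩
  rw [← Ideal.Quotient.eq, ← hmk, hcb, halg, hφπ]

end Fermat.Agent.T4
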