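/-
T4-V (helper3): **the residue field of a closed point of the special fibre of a chart is `k`** — the
instance.  Prefix `t4vrk`.

`P` a presentation of the chart ring `B = IntCl(L[a0 y₀]) ∩ 𝒪` (dictionary `hB`, valuation rings
`hvals`), `G : T4vmGood … y₀` the good reduction of the chart `y₀` at level `N'`, `𝔫` a maximal ideal
of `B` containing `q`.  Then every `b ∈ B` is congruent modulo `𝔫` to a constant of `O`:

* `t4vrk_res` : literally the hypothesis `hres` of `t4rt_hk_of_res` (`Reg/TopChart2.lean`).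

Proof: some vertical valuation ring `V ∈ {O_inf, O_mid, O_0}` passes through `𝔫`; the reduction
`R_V : B → E'` has kernel the centre of `V` (contained in `𝔫`), and `R_V (B)` is integral over
`k[R_V (a0 y₀)]` (`t4vm_int_R1/_R2/_R3`; at `O_0`, `R_V (a0 y₀) = Φ² ȳ = ȳ ^ (q²)`); conclude with
the abstract lemma `t4vrk_abs`.
-/
import Fermat.Agent.Lib.T4.Inst.ChartResKAbs
import Fermat.Agent.Lib.T4.Inst.ChartSm
import Fermat.Agent.Lib.T4.Reg.TopChart2

set_option autoImplicit false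
set_option linter.unusedSectionVars false
set_option linter.unusedVariables false
set_option linter.style.haveILetI false
set_option synthInstance.maxHeartbeats 400000

open HahnSeries ModularCurve Fermat.Agent.T1 Fermat.Agent.T2 IntermediateField

noncomputable section

namespace Fermat.Agent.T4

section Inst

attribute [local instance] t2iAlgebra t2i_isScalarTower

variable {L : Type} [Field L] [Algebra ℚ L] (O : ValuationSubring L) {k : Type*} [Field k]
  (π : ↥O →+* k) [IsDiscreteValuationRing ↥O] (hπ : Function.Surjective π) [IsAlgClosed k]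
  {N' q : ℕ} [NeZero N'] [hq : Fact q.Prime] [CharP k q] (hN' : (N' : k) ≠ 0)
  (W1 : T2iAL L N' q) (Fr : T2iFrob k N' q) (W : T4iAL L N' q)
  (hqO : Irreducible ((q : ℕ) : ↥O))
  {L' : Type*} [Field L'] [Algebra L L'] (O' : ValuationSubring L')
  [IsDiscreteValuationRing ↥O'] (π' : ↥O' →+* k) (C : T4iCyc O O' π π' q)
  (M : T4iMid L L' N' q C.ζ)
  {y0 : ↥(TaF L N')} (G : T4vmGood O π hπ hN' Fr y0)
  {y : ↥(TaF L (N' * q * q))} (P : T4Pres ↥(TaF L (N' * q * q)))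
  (hB : ∀ f, f ∈ P.B ↔ f ∈ t2Int (K := L) (t4vA0 L N' q y0) ∧
    f ∈ (t4vInput O π hπ hN' W1 Fr W hqO O' π' C M).Ov)
  (hvals : P.vals = t4vpHor L y ∪ t4vwVer O π hπ W O' π' C M)

/-- the constants of `O` in the chart ring -/
def t4vrkIota : ↥O →+* ↥P.B :=
  ((algebraMap L ↥(TaF L (N' * q * q))).comp O.subtype).codRestrict P.B
    (fun c => t4rt_const_mem_B O π hπ hN' W1 Fr W hqO O' π' C M hvals c)

theorem coe_t4vrkIota (c : ↥O) :
    ((t4vrkIota O π hπ hN' W1 Fr W hqO O' π' C M P hvals c : ↥P.B) : ↥(TaF L (N' * q * q))) =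
      algebraMap L ↥(TaF L (N' * q * q)) (c : L) := rfl

/-- the chart coordinate as an element of the chart ring -/
def t4vrkY : ↥P.B :=
  ⟨t4vA0 L N' q y0, t4vm_a0_mem_B W1 W hqO O' π' C M P hB ⟨y0, G.mem⟩ (t2Int_self y0)⟩

/-- the reduction of a constant of level `N'` -/
theorem t4vrk_t2iRes_const (c : ↥O) :
    t2iRes O π hπ N' hN' ⟨algebraMap L ↥(TaF L N') (c : L), algebraMap_mem_taOv O π hπ N' c⟩ =
      algebraMap k ↥(modularFunctionFieldFullC k N') (π c) := by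
  apply Subtype.ext
  rw [coe_t2iRes, taResN_algebraMap, ← ta_algebraMap_eq_C]
  rfl

/-- a constant, as `a0` of a constant of level `N'` -/
theorem t4vrk_const_eq (c : ↥O) :
    (Subring.inclusion (t4vm_B_le W1 W hqO O' π' C M P hB)
      (t4vrkIota O π hπ hN' W1 Fr W hqO O' π' C M P hvals c)) =
      t4veA0 O π hπ hN' W1 Fr W hqO O' π' C M
        ⟨algebraMap L ↥(TaF L N') (c : L), algebraMap_mem_taOv O π hπ N' c⟩ := by
  apply Subtype.ext
  show algebraMap L ↥(TaF L (N' * q * q)) (c : L) =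
    t4vA0 L N' q (algebraMap L ↥(TaF L N') (c : L))
  rw [AlgHom.commutes]

/-- the chart coordinate, as `a0` of the chart coordinate of level `N'` -/
theorem t4vrk_Y_eq :
    (Subring.inclusion (t4vm_B_le W1 W hqO O' π' C M P hB)
      (t4vrkY O π hπ hN' W1 Fr W hqO O' π' C M G P hB)) =
      t4veA0 O π hπ hN' W1 Fr W hqO O' π' C M ⟨y0, G.mem⟩ := rfl

include hvals in
/-- the kernel of `π` goes into every prime containing `q` -/
theorem t4vrk_ker (𝔫 : Ideal P.B)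
    (hQ : (⟨t4vQ L N' q, t4rt_Q_mem_B hvals⟩ : P.B) ∈ 𝔫) (c : ↥O) (hc : π c = 0) :
    t4vrkIota O π hπ hN' W1 Fr W hqO O' π' C M P hvals c ∈ 𝔫 := by
  obtain ⟨c', hc'⟩ := (ta_pi_eq_zero_iff hπ hqO c).mp hc
  have h2 : t4vrkIota O π hπ hN' W1 Fr W hqO O' π' C M P hvals c =
      t4vrkIota O π hπ hN' W1 Fr W hqO O' π' C M P hvals c' *
        ⟨t4vQ L N' q, t4rt_Q_mem_B hvals⟩ := by
    have e : (c : L) = (c' : L) * ((q : ℕ) : L) := by
      rw [hc', mul_comm]
      rfl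
    apply Subtype.ext
    show algebraMap L ↥(TaF L (N' * q * q)) (c : L) =
      algebraMap L ↥(TaF L (N' * q * q)) (c' : L) * t4vQ L N' q
    rw [t4vQ, ← map_mul, e]
  rw [h2]
  exact 𝔫.mul_mem_left _ hQ

/-- `y` is integral over `k[y ^ n]` -/
theorem t4vrk_isIntegral_pow {K E : Type*} [CommRing K] [CommRing E] [Algebra K E] (yb : E) {n : ℕ}
    (hn : n ≠ 0) : IsIntegral ↥(Algebra.adjoin K {yb ^ n}) yb := by
  set a : ↥(Algebra.adjoin K {yb ^ n}) := ⟨yb ^ n, Algebra.self_mem_adjoin_singleton K _⟩ with ha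
  refine ⟨Polynomial.X ^ n - Polynomial.C a, Polynomial.monic_X_pow_sub_C a hn, ?_⟩
  rw [Polynomial.eval₂_sub, Polynomial.eval₂_pow, Polynomial.eval₂_X, Polynomial.eval₂_C]
  show yb ^ n - yb ^ n = 0
  exact sub_self _

include hπ G hB hvals in
/-- **the residue field of a closed point of the special fibre of a chart is `k`**: every element of
the chart ring is congruent to a constant of `O` modulo a maximal ideal containing `q` (= `hres` of
`t4rt_hk_of_res`) -/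
theorem t4vrk_res (𝔫 : Ideal P.B) [h𝔫 : 𝔫.IsMaximal]
    (hQ : (⟨t4vQ L N' q, t4rt_Q_mem_B hvals⟩ : P.B) ∈ 𝔫) (b : P.B) :
    ∃ c : ↥O, b - ⟨algebraMap L ↥(TaF L (N' * q * q)) (c : L),
      t4rt_const_mem_B O π hπ hN' W1 Fr W hqO O' π' C M hvals c⟩ ∈ 𝔫 := by
  have hQ0 : (((⟨t4vQ L N' q, t4rt_Q_mem_B hvals⟩ : P.B)) : ↥(TaF L (N' * q * q))) ≠ 0 :=
    t4vQ_ne_zero
  obtain ⟨V, hV, hVQ⟩ := P.exists_through_of_mem 𝔫 hQ hQ0
  have hVv : V ∈ P.vert (t4vQ L N' q) := ⟨hV.1, hVQ⟩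
  rw [t4rt_vert hqO hvals] at hVv
  have hle := t4vm_B_le W1 W hqO O' π' C M P hB
  rcases (mem_t4vwVer O π hπ W O' π' C M V).mp hVv with rfl | rfl | rfl
  · -- `O_inf`
    have hy : ((t4vmR1 O π hπ hN' W1 Fr W hqO O' π' C M).comp (Subring.inclusion hle))
        (t4vrkY O π hπ hN' W1 Fr W hqO O' π' C M G P hB) = G.yb :=
      t4vm_R1_A0 O π hπ hN' W1 Fr W hqO O' π' C M ⟨y0, G.mem⟩
    refine t4vrk_abs π hπ (t4vrkIota O π hπ hN' W1 Fr W hqO O' π' C M P hvals) 𝔫
      (t4vrk_ker O π hπ hN' W1 Fr W hqO O' π' C M P hvals 𝔫 hQ)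
      ((t4vmR1 O π hπ hN' W1 Fr W hqO O' π' C M).comp (Subring.inclusion hle)) ?_ ?_
      (t4vrkY O π hπ hN' W1 Fr W hqO O' π' C M G P hB) ?_ b
    · intro b hb
      refine hV.2 b ((t4vr_ρ₁_eq_zero_iff O π hπ hN' W1 Fr W hqO O' π' C M
        ⟨(b : ↥(TaF L (N' * q * q))), hle b.2⟩).mp ?_)
      exact congrArg (fun t : ↥(modularFunctionFieldFullC k N') => (t : LaurentSeries k)) hb
    · intro c
      show t4vmR1 O π hπ hN' W1 Fr W hqO O' π' C M (Subring.inclusion hle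
        (t4vrkIota O π hπ hN' W1 Fr W hqO O' π' C M P hvals c)) = _
      rw [t4vrk_const_eq O π hπ hN' W1 Fr W hqO O' π' C M P hB hvals c, t4vm_R1_A0,
        t4vrk_t2iRes_const]
    · intro b
      rw [hy]
      exact t4vm_int_R1 O π hπ hN' W1 Fr W hqO O' π' C M _ G.int (hle b.2) ((hB _).mp b.2).1
  · -- `O_mid`
    have hy : ((t4vmR2 O π hπ hN' W1 Fr W hqO O' π' C M).comp (Subring.inclusion hle))
        (t4vrkY O π hπ hN' W1 Fr W hqO O' π' C M G P hB) = G.yb :=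
      t4vm_R2_A0 O π hπ hN' W1 Fr W hqO O' π' C M ⟨y0, G.mem⟩
    refine t4vrk_abs π hπ (t4vrkIota O π hπ hN' W1 Fr W hqO O' π' C M P hvals) 𝔫
      (t4vrk_ker O π hπ hN' W1 Fr W hqO O' π' C M P hvals 𝔫 hQ)
      ((t4vmR2 O π hπ hN' W1 Fr W hqO O' π' C M).comp (Subring.inclusion hle)) ?_ ?_
      (t4vrkY O π hπ hN' W1 Fr W hqO O' π' C M G P hB) ?_ b
    · intro b hb
      refine hV.2 b ((t4vr_ρ₂_eq_zero_iff O π hπ hN' W1 Fr W hqO O' π' C M
        ⟨(b : ↥(TaF L (N' * q * q))), hle b.2⟩).mp ?_)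
      exact congrArg (fun t : ↥(modularFunctionFieldFullC k N') => (t : LaurentSeries k)) hb
    · intro c
      show t4vmR2 O π hπ hN' W1 Fr W hqO O' π' C M (Subring.inclusion hle
        (t4vrkIota O π hπ hN' W1 Fr W hqO O' π' C M P hvals c)) = _
      rw [t4vrk_const_eq O π hπ hN' W1 Fr W hqO O' π' C M P hB hvals c, t4vm_R2_A0,
        t4vrk_t2iRes_const]
    · intro b
      rw [hy]
      exact t4vm_int_R2 O π hπ hN' W1 Fr W hqO O' π' C M _ G.int (hle b.2) ((hB _).mp b.2).1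
  · -- `O_0`
    have hy : ((t4vmR3 O π hπ hN' W1 Fr W hqO O' π' C M).comp (Subring.inclusion hle))
        (t4vrkY O π hπ hN' W1 Fr W hqO O' π' C M G P hB) = G.yb ^ (q * q) :=
      (t4vm_R3_A0 O π hπ hN' W1 Fr W hqO O' π' C M ⟨y0, G.mem⟩).trans G.frob
    refine t4vrk_abs π hπ (t4vrkIota O π hπ hN' W1 Fr W hqO O' π' C M P hvals) 𝔫
      (t4vrk_ker O π hπ hN' W1 Fr W hqO O' π' C M P hvals 𝔫 hQ)
      ((t4vmR3 O π hπ hN' W1 Fr W hqO O' π' C M).comp (Subring.inclusion hle)) ?_ ?_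
      (t4vrkY O π hπ hN' W1 Fr W hqO O' π' C M G P hB) ?_ b
    · intro b hb
      refine hV.2 b ((t4vr_ρ₃_eq_zero_iff O π hπ hN' W1 Fr W hqO O' π' C M
        ⟨(b : ↥(TaF L (N' * q * q))), hle b.2⟩).mp ?_)
      exact congrArg (fun t : ↥(modularFunctionFieldFullC k N') => (t : LaurentSeries k)) hb
    · intro c
      show t4vmR3 O π hπ hN' W1 Fr W hqO O' π' C M (Subring.inclusion hle
        (t4vrkIota O π hπ hN' W1 Fr W hqO O' π' C M P hvals c)) = _
      rw [t4vrk_const_eq O π hπ hN' W1 Fr W hqO O' π' C M P hB hvals c, t4vm_R3_A0,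
        t4vrk_t2iRes_const, t4vmPhi2_algebraMap]
    · intro b
      rw [hy]
      refine t2c_isIntegral_trans
        (t4vrk_isIntegral_pow (K := k) G.yb (Nat.mul_ne_zero hq.out.ne_zero hq.out.ne_zero)) ?_
      exact t4vm_int_R3 O π hπ hN' W1 Fr W hqO O' π' C M _ G.int (hle b.2) ((hB _).mp b.2).1
        G.phi_mem

end Inst

end Fermat.Agent.T4
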