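/-
T4-V0 (helper8): **the cyclotomic level data at the levels `tbFix 𝔓 ⊤ ⊆ tbFix 𝔓 H'`**, `H' = t4cyH 𝔓 ζ`
the stabiliser of a primitive `p`-th root of unity `ζ` in the inertia group:
`t4iCycFix 𝔓 hζ : T4iCyc (tbFixO 𝔓 ⊤) (tbFixO 𝔓 H') (tbFixRes 𝔓 ⊤) (tbFixRes 𝔓 H') 𝔓.p`
(algebra structure `t4cyAlgebra 𝔓 le_top`), and `t4cy_exists_zeta`.  The uniformiser of `O_⊤` is `p`
(`t4cy_irreducible_p`, in `CycVal.lean`).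
-/
import Fermat.Agent.Lib.T4.Inst.CycVal
import Fermat.Agent.Lib.T4.Inst.Mid

set_option autoImplicit false
set_option linter.style.haveILetI false
set_option linter.unusedSectionVars false

namespace Fermat.Agent.T4

noncomputable section

open Fermat.Agent.T1 Fermat.Agent.TW Fermat.Agent.S05Lib

local notation "Qb" => AlgebraicClosure ℚ
local notation "GQ" => (AlgebraicClosure ℚ ≃ₐ[ℚ] AlgebraicClosure ℚ)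

variable (𝔓 : FFPlace) {ζ : Qb}

/-- there is a primitive `p`-th root of unity in `ℚ̄` -/
theorem t4cy_exists_zeta : ∃ ζ : Qb, IsPrimitiveRoot ζ 𝔓.p := by
  haveI : NeZero 𝔓.p := ⟨𝔓.hp.ne_zero⟩
  haveI : NeZero ((𝔓.p : ℕ) : Qb) := ⟨𝔓.p_ne_zero⟩
  exact HasEnoughRootsOfUnity.exists_primitiveRoot Qb 𝔓.p

/-- `ζ` as an element of `L_{H'}` -/
def t4cyZeta (ζ : Qb) : ↥(tbFix 𝔓 (t4cyH 𝔓 ζ)) := ⟨ζ, t4cy_mem_tbFix 𝔓 ζ⟩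

@[simp] theorem coe_t4cyZeta (ζ : Qb) : ((t4cyZeta 𝔓 ζ : ↥(tbFix 𝔓 (t4cyH 𝔓 ζ))) : Qb) = ζ := rfl

theorem t4cyZeta_isPrimitiveRoot (hζ : IsPrimitiveRoot ζ 𝔓.p) :
    IsPrimitiveRoot (t4cyZeta 𝔓 ζ) 𝔓.p :=
  IsPrimitiveRoot.of_map_of_injective
    (f := algebraMap ↥(tbFix 𝔓 (t4cyH 𝔓 ζ)) Qb) hζ (algebraMap ↥(tbFix 𝔓 (t4cyH 𝔓 ζ)) Qb).injective

theorem t4cyZeta_ne_zero (hζ : IsPrimitiveRoot ζ 𝔓.p) : t4cyZeta 𝔓 ζ ≠ 0 :=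
  (t4cyZeta_isPrimitiveRoot 𝔓 hζ).ne_zero 𝔓.hp.ne_zero

/-- `ζ` as a unit of `L_{H'}` -/
def t4cyZetaU (hζ : IsPrimitiveRoot ζ 𝔓.p) : (↥(tbFix 𝔓 (t4cyH 𝔓 ζ)))ˣ := Units.mk0 (t4cyZeta 𝔓 ζ) (t4cyZeta_ne_zero 𝔓 hζ)

/-- `λ = 1 - ζ ∈ O_{H'}` -/
def t4cyLam (ζ : Qb) (h0 : 𝔓.v.Ge ζ 0) : ↥(tbFixO 𝔓 (t4cyH 𝔓 ζ)) :=
  ⟨1 - t4cyZeta 𝔓 ζ, by
    rw [mem_tbFixO]
    show 𝔓.v.Ge ((1 : Qb) - ζ) 0
    exact QVal.is_one.ge.sub h0⟩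

/-- an inertia element with `σ ζ = ζ ^ b` -/
theorem t4cy_exists_pow (hζ : IsPrimitiveRoot ζ 𝔓.p) (b : ℕ) (hb : ¬ 𝔓.p ∣ b) : ∃ σ : 𝔓.I, ((σ : 𝔓.I) : GQ) ζ = ζ ^ b := by
  have hμ : IsPrimitiveRoot (ζ ^ b) 𝔓.p :=
    hζ.pow_of_coprime b ((Nat.Prime.coprime_iff_not_dvd 𝔓.hp).mpr hb).symm
  obtain ⟨σ, hσ, h⟩ := t4cy_exists_inertia 𝔓 hζ hμ
  exact ⟨⟨σ, hσ⟩, h⟩

open Classical in
/-- a choice of inertia elements `σ_b`, `σ_b ζ = ζ ^ b` -/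
def t4cySigma (hζ : IsPrimitiveRoot ζ 𝔓.p) (b : ℕ) : 𝔓.I :=
  if hb : ¬ 𝔓.p ∣ b then (t4cy_exists_pow 𝔓 hζ b hb).choose else 1

theorem t4cySigma_apply (hζ : IsPrimitiveRoot ζ 𝔓.p) (b : ℕ) (hb : ¬ 𝔓.p ∣ b) :
    ((t4cySigma 𝔓 hζ b : 𝔓.I) : GQ) ζ = ζ ^ b := by
  unfold t4cySigma
  rw [dif_pos hb]
  exact (t4cy_exists_pow 𝔓 hζ b hb).choose_spec

/-- **the cyclotomic level data above the inertia level** -/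
def t4iCycFix (hζ : IsPrimitiveRoot ζ 𝔓.p) :
    letI := t4cyAlgebra 𝔓 (le_top : t4cyH 𝔓 ζ ≤ ⊤)
    T4iCyc (tbFixO 𝔓 (⊤ : Subgroup 𝔓.I)) (tbFixO 𝔓 (t4cyH 𝔓 ζ)) (tbFixRes 𝔓 (⊤ : Subgroup 𝔓.I))
      (tbFixRes 𝔓 (t4cyH 𝔓 ζ)) 𝔓.p :=
  letI := t4cyAlgebra 𝔓 (le_top : t4cyH 𝔓 ζ ≤ ⊤)
  haveI := t4cyH_normal 𝔓 hζ
  { ζ := t4cyZetaU 𝔓 hζ
    ζ_pow := by
      apply Units.ext
      rw [Units.val_pow_eq_pow_val, Units.val_one]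
      exact (t4cyZeta_isPrimitiveRoot 𝔓 hζ).pow_eq_one
    ζ_ne := by
      intro h
      have := congrArg Units.val h
      exact (t4cyZeta_isPrimitiveRoot 𝔓 hζ).ne_one 𝔓.hp.one_lt this
    map_mem := fun a => (t4cyInc_mem_tbFixO 𝔓 le_top _).mpr a.2
    π_map := fun a => rfl
    lam := t4cyLam 𝔓 ζ (𝔓.is_zero_of_pow_eq_one 𝔓.hp.pos hζ.pow_eq_one).ge
    lam_eq := rfl
    unif := t4cy_irreducible_lam 𝔓 hζ _ rfl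
    τ := fun b => t4cyTau 𝔓 le_top (t4cySigma 𝔓 hζ b) (Subgroup.mem_top _)
    τ_ζ := fun b hb => by
      apply Subtype.ext
      show ((t4cySigma 𝔓 hζ b : 𝔓.I) : GQ) ζ = _
      rw [t4cySigma_apply 𝔓 hζ b hb]
      rfl
    τ_mem := fun b x hx => (t4cyTau_mem_tbFixO 𝔓 le_top _ _ x).mpr hx
    π_τ := fun b x => tbFixRes_t4cyTauO 𝔓 le_top (t4cySigma 𝔓 hζ b) (Subgroup.mem_top _) x }

end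

end Fermat.Agent.T4
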