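/-
T4-V3' (lead), part 1: the matrix `γ₀ = [[1, 0], [N' q C, 1]]` (`N' b C + q u = 1`) and its effect on the
generators `j(Dτ)`, `D ∣ N' q q`:
* `j(D · γ₀ τ) = j(D τ)` for `D ∣ N' q`;
* `j(d q q · γ₀ τ) = j(d (τ + b / q))` for `d ∣ N'`,
together with the `q_N`-expansion of the latter (`= Σ c_n ζ^{d n} 𝔮^{d n}`, `ζ = exp(2π i b / q)`).
This is the `q`-expansion at the cusp `1/q` of `X₀(N' q²)` ("`ι_mid`").
-/
import Mathlib
import Fermat.Agent.Lib.T2.AL.Field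
import Fermat.Agent.Lib.T4.Inst.Series

set_option autoImplicit false
set_option linter.unusedSectionVars false
set_option linter.style.haveILetI false
set_option linter.unusedVariables false

namespace Fermat.Agent.T4

open Fermat.Agent.S24Lib Fermat.Agent.T1 Fermat.Agent.T1.KMod Fermat.Agent.T2
open UpperHalfPlane Matrix MatrixGroups ModularCurve HahnSeries
open Fermat.Agent.S22Lib (intGL)
open Fermat.Agent.ES (IsQLaurentable qLaurent)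

/-- the matrix `γ₀ = [[1, 0], [N' q C, 1]]` -/
def t4mGam (N' q : ℕ) (C : ℤ) : SL(2, ℤ) :=
  ⟨!![1, 0; (N' : ℤ) * q * C, 1], by rw [Matrix.det_fin_two_of]; ring⟩

theorem coe_t4mGam (N' q : ℕ) (C : ℤ) :
    ((t4mGam N' q C : SL(2, ℤ)) : Matrix (Fin 2) (Fin 2) ℤ) = !![1, 0; (N' : ℤ) * q * C, 1] := rfl

theorem t4m_mat_low (D m : ℕ) (C : ℤ) :
    diagMat D * !![1, 0; (D : ℤ) * m * C, 1] = !![1, 0; (m : ℤ) * C, 1] * diagMat D := by
  simp only [diagMat]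
  ext i j
  fin_cases i <;> fin_cases j <;>
    simp [Matrix.mul_apply, Fin.sum_univ_two] <;> ring

theorem t4m_mat_mid (d m q : ℕ) (b C u : ℤ) (h : ((d * m : ℕ) : ℤ) * b * C + q * u = 1) :
    diagMat (d * q * q) * !![1, 0; ((d * m : ℕ) : ℤ) * q * C, 1]
      = !![(q : ℤ), -((d : ℤ) * b); (m : ℤ) * C, u] * !![(d : ℤ) * q, (d : ℤ) * b; 0, q] := by
  simp only [diagMat]
  push_cast at h
  ext i j
  fin_cases i <;> fin_cases j
  · simp [Matrix.mul_apply, Fin.sum_univ_two]; ring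
  · simp [Matrix.mul_apply, Fin.sum_univ_two]; ring
  · simp [Matrix.mul_apply, Fin.sum_univ_two]; ring
  · simp [Matrix.mul_apply, Fin.sum_univ_two]; linear_combination -h

/-- `j(D · γ₀ τ) = j(D τ)` for `D ∣ N' q` -/
theorem t4m_jGen_low (N' q : ℕ) (C : ℤ) (D : ℕ+) (hD : (D : ℕ) ∣ N' * q) :
    S24Lib.jGen D (t4mGam N' q C) = S24Lib.jGen D 1 := by
  obtain ⟨m, hm⟩ := hD
  let γ' : SL(2, ℤ) := ⟨!![1, 0; (m : ℤ) * C, 1], by rw [Matrix.det_fin_two_of]; ring⟩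
  have hmat : diagMat D * ((t4mGam N' q C : SL(2, ℤ)) : Matrix (Fin 2) (Fin 2) ℤ)
      = (γ' : Matrix (Fin 2) (Fin 2) ℤ) * diagMat D := by
    have h1 : ((t4mGam N' q C : SL(2, ℤ)) : Matrix (Fin 2) (Fin 2) ℤ)
        = !![1, 0; ((D : ℕ) : ℤ) * m * C, 1] := by
      rw [coe_t4mGam]
      have : (N' : ℤ) * q = ((D : ℕ) : ℤ) * m := by exact_mod_cast hm
      rw [this]
    rw [h1]
    exact t4m_mat_low D m C
  rw [t2w_jGen_one, S24Lib.jGen,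
    jMat_congr hmat _ (det_SL_mul_pos γ' (t2w_diagMat_det_pos D)), jMat_SL_mul]

theorem t4m_upper_det_pos (d q : ℕ) (hd : 0 < d) (hq : 0 < q) (b : ℤ) :
    0 < (!![(d : ℤ) * q, (d : ℤ) * b; 0, q] : Matrix (Fin 2) (Fin 2) ℤ).det := by
  rw [Matrix.det_fin_two_of, mul_zero, sub_zero]
  have h1 : (0 : ℤ) < d := by exact_mod_cast hd
  have h2 : (0 : ℤ) < q := by exact_mod_cast hq
  positivity

/-- `j(d q q · γ₀ τ) = j(d (τ + b / q))` for `d ∣ N'` -/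
theorem t4m_jGen_mid (N' q : ℕ) (hq : 0 < q) (b C u : ℤ) (h : (N' : ℤ) * b * C + q * u = 1)
    (d : ℕ+) (hd : (d : ℕ) ∣ N') :
    S24Lib.jGen (d * ⟨q, hq⟩ * ⟨q, hq⟩) (t4mGam N' q C)
      = jMat !![((d : ℕ) : ℤ) * q, ((d : ℕ) : ℤ) * b; 0, q] (t4m_upper_det_pos d q d.pos hq b) := by
  obtain ⟨m, hm⟩ := hd
  have h' : (((d : ℕ) * m : ℕ) : ℤ) * b * C + q * u = 1 := by
    rw [← hm]; exact h
  let γ' : SL(2, ℤ) := ⟨!![(q : ℤ), -(((d : ℕ) : ℤ) * b); (m : ℤ) * C, u], by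
    rw [Matrix.det_fin_two_of]
    push_cast at h'
    linear_combination h'⟩
  have hmat : diagMat ((d * ⟨q, hq⟩ * ⟨q, hq⟩ : ℕ+) : ℕ)
        * ((t4mGam N' q C : SL(2, ℤ)) : Matrix (Fin 2) (Fin 2) ℤ)
      = (γ' : Matrix (Fin 2) (Fin 2) ℤ) * !![((d : ℕ) : ℤ) * q, ((d : ℕ) : ℤ) * b; 0, q] := by
    have h1 : ((t4mGam N' q C : SL(2, ℤ)) : Matrix (Fin 2) (Fin 2) ℤ)
        = !![1, 0; (((d : ℕ) * m : ℕ) : ℤ) * q * C, 1] := by
      rw [coe_t4mGam, hm]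
    rw [h1]
    exact t4m_mat_mid d m q b C u h'
  rw [S24Lib.jGen, jMat_congr hmat _
    (det_SL_mul_pos γ' (t4m_upper_det_pos d q d.pos hq b)), jMat_SL_mul]

/-- the `q_N`-expansion of `τ ↦ j(d (τ + b / q))` -/
theorem t4m_qLaurent_mid (N : ℕ) [NeZero N] (d q : ℕ) (hd : 0 < d) (hq : 0 < q) (b : ℤ) (m : ℤ) :
    (qLaurent N (jMat !![(d : ℤ) * q, (d : ℤ) * b; 0, q] (t4m_upper_det_pos d q hd hq b))).coeff m
      = if ((N * d : ℕ) : ℤ) ∣ m then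
          Complex.exp (2 * Real.pi * Complex.I * ((d : ℤ) * b : ℤ) / (q : ℤ)) ^ (m / ((N * d : ℕ) : ℤ))
            * (jqModC ℂ).coeff (m / ((N * d : ℕ) : ℤ))
        else 0 := by
  have ha : (0 : ℤ) < (d : ℤ) * q := by
    have h1 : (0 : ℤ) < d := by exact_mod_cast hd
    have h2 : (0 : ℤ) < q := by exact_mod_cast hq
    positivity
  have hq' : (0 : ℤ) < (q : ℤ) := by exact_mod_cast hq
  have he : (((N * d : ℕ)) : ℤ) * (q : ℤ) = N * ((d : ℤ) * q) := by push_cast; ring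
  exact (qLaurent_jFun_comp_upper ((d : ℤ) * q) ((d : ℤ) * b) q ha hq'
    (t4m_upper_det_pos d q hd hq b) N (N * d) he).2 m

end Fermat.Agent.T4
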