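/-
T4-V3' (lead), part 2: the embedding `ι_mid` ("`q`-expansion at the cusp `1/q`") of the function field of
`X₀(N' q q)` over an algebraically closed field `𝕜 ⊆ ℂ`:
`t4mHom : barField 𝕜 (N' * q * q) →ₐ[𝕜] LaurentSeries 𝕜` with
`j(𝔮^D) ↦ j(𝔮^D)` for `D ∣ N' q` and `j(𝔮^{d q q}) ↦ j((z𝔮)^d)` for `d ∣ N'` (`z` a primitive `q`-th root
of unity).  Construction: `modFieldQL ∘ modRep γ₀⁻¹ ∘ modIso` (precomposition with `γ₀ ∈ SL₂(ℤ)` followed by the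
`q_N`-expansion at `∞`); the values descend from `LaurentSeries ℂ` (in `𝔮^{1/N}`) to `LaurentSeries 𝕜`.
-/
import Mathlib
import Fermat.Agent.Lib.T4.Inst.MidEx1
import Fermat.Agent.Lib.T4.Inst.ALMain

set_option autoImplicit false
set_option linter.unusedSectionVars false
set_option linter.style.haveILetI false
set_option linter.unusedVariables false

namespace Fermat.Agent.T4

open Fermat.Agent.S24Lib Fermat.Agent.T1 Fermat.Agent.T1.KMod Fermat.Agent.T2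
open UpperHalfPlane Matrix MatrixGroups ModularCurve HahnSeries
open Fermat.Agent.S22Lib (intGL)
open Fermat.Agent.ES (IsQLaurentable qLaurent)

attribute [local instance] charZero_k

section Main

variable (𝕜 : Type) [Field 𝕜] [IsAlgClosed 𝕜] [Algebra 𝕜 ℂ] [Algebra ℚ 𝕜]
variable (N : ℕ) [NeZero N] (γ : SL(2, ℤ))

/-- precomposition with `γ` followed by the `q_N`-expansion at `∞` -/
noncomputable def t4mC : barField 𝕜 N →+* LaurentSeries ℂ :=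
  (modFieldQL 𝕜 N).comp
    (((modRep 𝕜 N γ⁻¹ : ModField 𝕜 N ≃ₐ[𝕜] ModField 𝕜 N) : ModField 𝕜 N →+* ModField 𝕜 N).comp
      ((algebraMap (anField 𝕜 N) (ModField 𝕜 N)).comp
        ((modIso 𝕜 N : barField 𝕜 N ≃ₐ[𝕜] anField 𝕜 N) : barField 𝕜 N →+* anField 𝕜 N)))

theorem t4mC_apply (x : barField 𝕜 N) :
    t4mC 𝕜 N γ x
      = modFieldQL 𝕜 N (modRep 𝕜 N γ⁻¹ ((modIso 𝕜 N x : anField 𝕜 N) : ModField 𝕜 N)) := rfl

theorem t4mC_const (c : 𝕜) :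
    t4mC 𝕜 N γ (algebraMap 𝕜 (barField 𝕜 N) c) = HahnSeries.C ((algebraMap 𝕜 ℂ) c) := by
  rw [t4mC_apply, AlgEquiv.commutes]
  have h1 : (((algebraMap 𝕜 (anField 𝕜 N)) c : anField 𝕜 N) : ModField 𝕜 N)
      = algebraMap 𝕜 (ModField 𝕜 N) c := rfl
  rw [h1, AlgEquiv.commutes, modFieldQL_algebraMap_const 𝕜]

theorem t4mC_jd (D : ℕ) (hD : D ∣ N) :
    t4mC 𝕜 N γ (t2wJd 𝕜 N D hD) = qLaurent N (S24Lib.jGen (t2wPN N D hD) γ) := by
  rw [t4mC_apply, t2w_modIso_jd, modRep_jGenL 𝕜, one_mul, inv_inv, KMod.jGenL,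
    modFieldQL_algebraMap 𝕜, modRingQL_apply 𝕜]
  rfl

theorem t4m_barQLHom_jd (D : ℕ) [NeZero D] :
    barQLHom 𝕜 N (qExpand 𝕜 D (jqModC 𝕜)) = qExpand ℂ N (qExpand ℂ D (jqModC ℂ)) := by
  rw [barQLHom_apply 𝕜, coeffMap_qExpand, coeffMap_jqModC]

theorem t4m_qLaurent_jGen_one (D : ℕ) (hD : D ∣ N) :
    qLaurent N (S24Lib.jGen (t2wPN N D hD) 1)
      = qExpand ℂ N (qExpand ℂ (t2wPN N D hD) (jqModC ℂ)) := by
  have h := modRingQL_jGenR_one ℂ N (t2wPN_dvd N D hD)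
  rw [modRingQL_apply ℂ] at h
  exact h

end Main

section Mid

variable (𝕜 : Type) [Field 𝕜] [IsAlgClosed 𝕜] [Algebra 𝕜 ℂ] [Algebra ℚ 𝕜]
variable (N' q : ℕ) [NeZero N'] [NeZero q]
variable (b C u : ℤ) (h : (N' : ℤ) * b * C + q * u = 1)
variable (z : 𝕜ˣ) (hz : algebraMap 𝕜 ℂ (z : 𝕜) = Complex.exp (2 * Real.pi * Complex.I * b / (q : ℤ)))

theorem t4m_dvd_low {D : ℕ} (hD : D ∣ N' * q) : D ∣ N' * q * q := hD.mul_right q

theorem t4m_dvd_mid {d : ℕ} (hd : d ∣ N') : d * q * q ∣ N' * q * q :=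
  Nat.mul_dvd_mul (Nat.mul_dvd_mul hd dvd_rfl) dvd_rfl

/-- `D ∣ N' q`: the generator `j(𝔮^D)` is fixed -/
theorem t4mC_jd_low (D : ℕ) [NeZero D] (hD : D ∣ N' * q) :
    t4mC 𝕜 (N' * q * q) (t4mGam N' q C) (t2wJd 𝕜 (N' * q * q) D (t4m_dvd_low N' q hD))
      = barQLHom 𝕜 (N' * q * q) (qExpand 𝕜 D (jqModC 𝕜)) := by
  rw [t4mC_jd, t4m_jGen_low N' q C (t2wPN (N' * q * q) D (t4m_dvd_low N' q hD)) hD,
    t4m_qLaurent_jGen_one, t4m_barQLHom_jd]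
  rfl

include h hz in
/-- `d ∣ N'`: the generator `j(𝔮^{d q q})` goes to `j((z𝔮)^d)` -/
theorem t4mC_jd_mid (d : ℕ) [NeZero d] (hd : d ∣ N') :
    t4mC 𝕜 (N' * q * q) (t4mGam N' q C) (t2wJd 𝕜 (N' * q * q) (d * q * q) (t4m_dvd_mid N' q hd))
      = barQLHom 𝕜 (N' * q * q) (t4vSig z (qExpand 𝕜 d (jqModC 𝕜))) := by
  have hq : 0 < q := Nat.pos_of_ne_zero (NeZero.ne q)
  have hd0 : 0 < d := Nat.pos_of_ne_zero (NeZero.ne d)
  rw [t4mC_jd]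
  have key : S24Lib.jGen (t2wPN (N' * q * q) (d * q * q) (t4m_dvd_mid N' q hd)) (t4mGam N' q C)
      = jMat !![(d : ℤ) * q, (d : ℤ) * b; 0, q] (t4m_upper_det_pos d q hd0 hq b) := by
    have h1 := t4m_jGen_mid N' q hq b C u h ⟨d, hd0⟩ hd
    refine Eq.trans ?_ h1
    congr 1
  rw [key]
  have hN0 : ((N' * q * q : ℕ) : ℤ) ≠ 0 := by exact_mod_cast NeZero.ne (N' * q * q)
  have hd0' : ((d : ℕ) : ℤ) ≠ 0 := by exact_mod_cast NeZero.ne d
  ext m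
  rw [t4m_qLaurent_mid (N' * q * q) d q hd0 hq b m, barQLHom_apply 𝕜]
  by_cases hNm : ((N' * q * q : ℕ) : ℤ) ∣ m
  · obtain ⟨k, rfl⟩ := hNm
    rw [qExpand_coeff_mul, coeffMap_coeff, t4vSig_coeff]
    by_cases hdk : (d : ℤ) ∣ k
    · obtain ⟨l, rfl⟩ := hdk
      have hdvd : (((N' * q * q) * d : ℕ) : ℤ) ∣ ((N' * q * q : ℕ) : ℤ) * ((d : ℤ) * l) :=
        ⟨l, by push_cast; ring⟩
      have hdiv : ((N' * q * q : ℕ) : ℤ) * ((d : ℤ) * l) / (((N' * q * q) * d : ℕ) : ℤ) = l := by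
        have : ((N' * q * q : ℕ) : ℤ) * ((d : ℤ) * l) = (((N' * q * q) * d : ℕ) : ℤ) * l := by
          push_cast; ring
        rw [this]
        exact Int.mul_ediv_cancel_left l (by
          exact_mod_cast (Nat.mul_ne_zero (NeZero.ne (N' * q * q)) (NeZero.ne d)))
      rw [if_pos hdvd, hdiv, qExpand_coeff_mul, map_mul, Units.val_zpow_eq_zpow_val, map_zpow₀, hz]
      have hj : (jqModC ℂ).coeff l = algebraMap 𝕜 ℂ ((jqModC 𝕜).coeff l) := by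
        rw [← coeffMap_jqModC (algebraMap 𝕜 ℂ), coeffMap_coeff]
      rw [hj]
      congr 1
      rw [← Complex.exp_int_mul, ← Complex.exp_int_mul]
      congr 1
      push_cast
      ring
    · rw [qExpand_coeff_of_not_dvd d _ hdk, mul_zero, map_zero, if_neg]
      rintro ⟨l, hl⟩
      apply hdk
      refine ⟨l, ?_⟩
      have : ((N' * q * q : ℕ) : ℤ) * k = ((N' * q * q : ℕ) : ℤ) * ((d : ℤ) * l) := by
        rw [hl]; push_cast; ring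
      exact mul_left_cancel₀ hN0 this
  · rw [qExpand_coeff_of_not_dvd _ _ hNm, if_neg]
    rintro ⟨l, hl⟩
    exact hNm ⟨(d : ℤ) * l, by rw [hl]; push_cast; ring⟩

end Mid

end Fermat.Agent.T4
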