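/-
T4-V3' (lead), part 3: the embedding `ι_mid` over an algebraically closed field `𝕜 ⊆ ℂ` as an algebra
homomorphism `t4mHom … : barField 𝕜 (N' * q * q) →ₐ[𝕜] LaurentSeries 𝕜`, its values on the three families of
generators and on the images of the three degeneracy maps `a0 = α∘α`, `a1 = α∘β`, `a2 = β∘β`:
`ι (a0 f) = f`, `ι (a1 f) = f(𝔮^q)`, `ι (a2 f) = f(z𝔮)`.
-/
import Mathlib
import Fermat.Agent.Lib.T4.Inst.MidEx2

set_option autoImplicit false
set_option linter.unusedSectionVars false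
set_option linter.style.haveILetI false
set_option linter.unusedVariables false

namespace Fermat.Agent.T4

open Fermat.Agent.S24Lib Fermat.Agent.T1 Fermat.Agent.T1.KMod Fermat.Agent.T2
open UpperHalfPlane Matrix MatrixGroups ModularCurve HahnSeries
open Fermat.Agent.S22Lib (intGL)
open Fermat.Agent.ES (IsQLaurentable qLaurent)

attribute [local instance] charZero_k

/-- the divisors of `N' q q` (`q` prime): `D ∣ N' q` or `D = d q q` with `d ∣ N'` -/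
theorem t4m_dvd_cases (N' q : ℕ) (hq : q.Prime) {D : ℕ} (hD : D ∣ N' * q * q) :
    D ∣ N' * q ∨ ∃ d, d ∣ N' ∧ D = d * q * q := by
  rw [mul_assoc] at hD
  obtain ⟨d, e, hd, he, rfl⟩ := (Nat.dvd_mul).mp hD
  have he' : e ∣ q ^ 2 := by rwa [pow_two]
  obtain ⟨m, hm, rfl⟩ := (Nat.dvd_prime_pow hq).mp he'
  interval_cases m
  · left
    rw [pow_zero, mul_one]
    exact hd.mul_right q
  · left
    rw [pow_one]
    exact Nat.mul_dvd_mul hd dvd_rfl
  · right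
    exact ⟨d, hd, by ring⟩

section Hom

variable (𝕜 : Type) [Field 𝕜] [IsAlgClosed 𝕜] [Algebra 𝕜 ℂ] [Algebra ℚ 𝕜]
variable (N' q : ℕ) [NeZero N'] [NeZero q] (hq : q.Prime)
variable (b C u : ℤ) (h : (N' : ℤ) * b * C + q * u = 1)
variable (z : 𝕜ˣ) (hz : algebraMap 𝕜 ℂ (z : 𝕜) = Complex.exp (2 * Real.pi * Complex.I * b / (q : ℤ)))

include hq h hz in
/-- the values of `t4mC` are `q_N`-expansions of Laurent series over `𝕜` in `𝔮` -/
theorem t4m_exists (x : barField 𝕜 (N' * q * q)) :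
    ∃ s : LaurentSeries 𝕜, barQLHom 𝕜 (N' * q * q) s
      = t4mC 𝕜 (N' * q * q) (t4mGam N' q C) x := by
  induction x using t2w_induction with
  | hc c => exact ⟨algebraMap 𝕜 _ c, by rw [barQLHom_algebraMap 𝕜, t4mC_const]⟩
  | hg D hD =>
    rcases t4m_dvd_cases N' q hq hD with hD' | ⟨d, hd, rfl⟩
    · haveI : NeZero D := t2w_neZero_of_dvd _ hD
      exact ⟨_, (t4mC_jd_low 𝕜 N' q C D hD').symm⟩
    · haveI : NeZero d := t2w_neZero_of_dvd _ hd
      exact ⟨_, (t4mC_jd_mid 𝕜 N' q b C u h z hz d hd).symm⟩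
  | hadd x y hx hy =>
    obtain ⟨x', hx'⟩ := hx
    obtain ⟨y', hy'⟩ := hy
    exact ⟨x' + y', by rw [map_add, map_add, hx', hy']⟩
  | hmul x y hx hy =>
    obtain ⟨x', hx'⟩ := hx
    obtain ⟨y', hy'⟩ := hy
    exact ⟨x' * y', by rw [map_mul, map_mul, hx', hy']⟩
  | hinv x hx =>
    obtain ⟨x', hx'⟩ := hx
    exact ⟨x'⁻¹, by rw [map_inv₀, map_inv₀, hx']⟩

/-- the underlying function of `ι_mid` -/
noncomputable def t4mFun (x : barField 𝕜 (N' * q * q)) : LaurentSeries 𝕜 :=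
  (t4m_exists 𝕜 N' q hq b C u h z hz x).choose

theorem barQLHom_t4mFun (x : barField 𝕜 (N' * q * q)) :
    barQLHom 𝕜 (N' * q * q) (t4mFun 𝕜 N' q hq b C u h z hz x)
      = t4mC 𝕜 (N' * q * q) (t4mGam N' q C) x :=
  (t4m_exists 𝕜 N' q hq b C u h z hz x).choose_spec

theorem t4mFun_eq_iff (x : barField 𝕜 (N' * q * q)) (s : LaurentSeries 𝕜) :
    t4mFun 𝕜 N' q hq b C u h z hz x = s
      ↔ barQLHom 𝕜 (N' * q * q) s = t4mC 𝕜 (N' * q * q) (t4mGam N' q C) x := by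
  constructor
  · rintro rfl
    exact barQLHom_t4mFun 𝕜 N' q hq b C u h z hz x
  · intro hs
    apply barQLHom_injective 𝕜 (N' * q * q)
    rw [barQLHom_t4mFun, hs]

/-- **`ι_mid`** over `𝕜` (with explicit Bezout data) -/
noncomputable def t4mHom : barField 𝕜 (N' * q * q) →ₐ[𝕜] LaurentSeries 𝕜 where
  toFun := t4mFun 𝕜 N' q hq b C u h z hz
  map_one' := by rw [t4mFun_eq_iff]; simp
  map_mul' x y := by
    rw [t4mFun_eq_iff, map_mul, map_mul, barQLHom_t4mFun, barQLHom_t4mFun]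
  map_zero' := by rw [t4mFun_eq_iff]; simp
  map_add' x y := by
    rw [t4mFun_eq_iff, map_add, map_add, barQLHom_t4mFun, barQLHom_t4mFun]
  commutes' c := by
    rw [t4mFun_eq_iff, barQLHom_algebraMap 𝕜, t4mC_const]

theorem barQLHom_t4mHom (x : barField 𝕜 (N' * q * q)) :
    barQLHom 𝕜 (N' * q * q) (t4mHom 𝕜 N' q hq b C u h z hz x)
      = t4mC 𝕜 (N' * q * q) (t4mGam N' q C) x :=
  barQLHom_t4mFun 𝕜 N' q hq b C u h z hz x

theorem t4mHom_jd_low (D : ℕ) [NeZero D] (hD : D ∣ N' * q) :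
    t4mHom 𝕜 N' q hq b C u h z hz (t2wJd 𝕜 (N' * q * q) D (t4m_dvd_low N' q hD))
      = qExpand 𝕜 D (jqModC 𝕜) :=
  (t4mFun_eq_iff 𝕜 N' q hq b C u h z hz _ _).mpr (t4mC_jd_low 𝕜 N' q C D hD).symm

theorem t4mHom_jd_mid (d : ℕ) [NeZero d] (hd : d ∣ N') :
    t4mHom 𝕜 N' q hq b C u h z hz (t2wJd 𝕜 (N' * q * q) (d * q * q) (t4m_dvd_mid N' q hd))
      = t4vSig z (qExpand 𝕜 d (jqModC 𝕜)) :=
  (t4mFun_eq_iff 𝕜 N' q hq b C u h z hz _ _).mpr (t4mC_jd_mid 𝕜 N' q b C u h z hz d hd).symm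

end Hom

end Fermat.Agent.T4
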