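/-
T4-V3' (lead), part 4: `ι_mid` on the images of the three degeneracy maps `a0 = α∘α`, `a1 = α∘β`, `a2 = β∘β`
(`barField 𝕜 N' → barField 𝕜 (N' * q * q)`):  `ι (a0 f) = f`, `ι (a1 f) = f(𝔮^q)`, `ι (a2 f) = f(z𝔮)`;
uniqueness of a ring homomorphism with these properties; the version `t4m` attached to an arbitrary primitive
`q`-th root of unity `z ∈ 𝕜`.
-/
import Mathlib
import Fermat.Agent.Lib.T4.Inst.MidEx3
import Fermat.Prelude.Def_ModularCurve_HeckeOperator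

set_option autoImplicit false
set_option linter.unusedSectionVars false
set_option linter.style.haveILetI false
set_option linter.unusedVariables false

namespace Fermat.Agent.T4

open Fermat.Agent.S24Lib Fermat.Agent.T1 Fermat.Agent.T1.KMod Fermat.Agent.T2
open UpperHalfPlane Matrix MatrixGroups ModularCurve HahnSeries

attribute [local instance] charZero_k

section Gens

variable (𝕜 : Type) [Field 𝕜] [Algebra ℚ 𝕜] (N' q : ℕ) [NeZero N'] [NeZero q]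

/-- `a0 (j(𝔮^d)) = j(𝔮^d)` -/
theorem t4m_aa_jd (d : ℕ) (hd : d ∣ N') :
    heckeAlphaBar 𝕜 (N' * q) q (heckeAlphaBar 𝕜 N' q (t2wJd 𝕜 N' d hd))
      = t2wJd 𝕜 (N' * q * q) d (t4m_dvd_low N' q (hd.mul_right q)) := by
  haveI : NeZero d := t2w_neZero_of_dvd N' hd
  apply Subtype.ext
  rw [coe_heckeAlphaBar, coe_heckeAlphaBar, coe_t2wJd _ N' d hd, coe_t2wJd _ _ d]

/-- `a1 (j(𝔮^d)) = j(𝔮^{q d})` -/
theorem t4m_ab_jd (d : ℕ) (hd : d ∣ N') :
    heckeAlphaBar 𝕜 (N' * q) q (heckeBetaBar 𝕜 N' q (t2wJd 𝕜 N' d hd))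
      = t2wJd 𝕜 (N' * q * q) (q * d)
          (t4m_dvd_low N' q (by rw [mul_comm]; exact Nat.mul_dvd_mul hd dvd_rfl)) := by
  haveI : NeZero d := t2w_neZero_of_dvd N' hd
  haveI : NeZero (q * d) := ⟨Nat.mul_ne_zero (NeZero.ne q) (NeZero.ne d)⟩
  apply Subtype.ext
  rw [coe_heckeAlphaBar, coe_heckeBetaBar, coe_t2wJd _ N' d hd, coe_t2wJd _ _ (q * d),
    qExpand_qExpand]

/-- `a2 (j(𝔮^d)) = j(𝔮^{d q q})` -/
theorem t4m_bb_jd (d : ℕ) (hd : d ∣ N') :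
    heckeBetaBar 𝕜 (N' * q) q (heckeBetaBar 𝕜 N' q (t2wJd 𝕜 N' d hd))
      = t2wJd 𝕜 (N' * q * q) (d * q * q) (t4m_dvd_mid N' q hd) := by
  haveI : NeZero d := t2w_neZero_of_dvd N' hd
  haveI : NeZero (d * q * q) :=
    ⟨Nat.mul_ne_zero (Nat.mul_ne_zero (NeZero.ne d) (NeZero.ne q)) (NeZero.ne q)⟩
  apply Subtype.ext
  rw [coe_heckeBetaBar, coe_heckeBetaBar, coe_t2wJd _ N' d hd, coe_t2wJd _ _ (d * q * q),
    qExpand_qExpand, qExpand_qExpand]
  exact qExpand_congr (by ring) _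

end Gens

section Degen

variable (𝕜 : Type) [Field 𝕜] [IsAlgClosed 𝕜] [Algebra 𝕜 ℂ] [Algebra ℚ 𝕜]
variable (N' q : ℕ) [NeZero N'] [NeZero q] (hq : q.Prime)
variable (b C u : ℤ) (h : (N' : ℤ) * b * C + q * u = 1)
variable (z : 𝕜ˣ) (hz : algebraMap 𝕜 ℂ (z : 𝕜) = Complex.exp (2 * Real.pi * Complex.I * b / (q : ℤ)))

/-- `ι (a0 f) = f` -/
theorem t4mHom_aa (f : barField 𝕜 N') :
    t4mHom 𝕜 N' q hq b C u h z hz (heckeAlphaBar 𝕜 (N' * q) q (heckeAlphaBar 𝕜 N' q f))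
      = (f : LaurentSeries 𝕜) := by
  have key : ((t4mHom 𝕜 N' q hq b C u h z hz : barField 𝕜 (N' * q * q) →+* LaurentSeries 𝕜).comp
        (((heckeAlphaBar 𝕜 (N' * q) q).comp (heckeAlphaBar 𝕜 N' q) :
            barField 𝕜 N' →ₐ[𝕜] barField 𝕜 (N' * q * q)) :
          barField 𝕜 N' →+* barField 𝕜 (N' * q * q)))
      = algebraMap (barField 𝕜 N') (LaurentSeries 𝕜) := by
    apply t2w_ringHom_ext
    · intro c
      show t4mHom 𝕜 N' q hq b C u h z hz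
        (heckeAlphaBar 𝕜 (N' * q) q (heckeAlphaBar 𝕜 N' q (algebraMap 𝕜 _ c))) = _
      rw [AlgHom.commutes, AlgHom.commutes, AlgHom.commutes]
      rfl
    · intro d hd
      haveI : NeZero d := t2w_neZero_of_dvd N' hd
      show t4mHom 𝕜 N' q hq b C u h z hz
        (heckeAlphaBar 𝕜 (N' * q) q (heckeAlphaBar 𝕜 N' q (t2wJd 𝕜 N' d hd))) = _
      rw [t4m_aa_jd, t4mHom_jd_low 𝕜 N' q hq b C u h z hz d (hd.mul_right q)]
      rfl
  exact RingHom.congr_fun key f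

/-- `ι (a1 f) = f(𝔮^q)` -/
theorem t4mHom_ab (f : barField 𝕜 N') :
    t4mHom 𝕜 N' q hq b C u h z hz (heckeAlphaBar 𝕜 (N' * q) q (heckeBetaBar 𝕜 N' q f))
      = qExpand 𝕜 q (f : LaurentSeries 𝕜) := by
  have key : ((t4mHom 𝕜 N' q hq b C u h z hz : barField 𝕜 (N' * q * q) →+* LaurentSeries 𝕜).comp
        (((heckeAlphaBar 𝕜 (N' * q) q).comp (heckeBetaBar 𝕜 N' q) :
            barField 𝕜 N' →ₐ[𝕜] barField 𝕜 (N' * q * q)) :
          barField 𝕜 N' →+* barField 𝕜 (N' * q * q)))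
      = (qExpand 𝕜 q).comp (algebraMap (barField 𝕜 N') (LaurentSeries 𝕜)) := by
    apply t2w_ringHom_ext
    · intro c
      show t4mHom 𝕜 N' q hq b C u h z hz
        (heckeAlphaBar 𝕜 (N' * q) q (heckeBetaBar 𝕜 N' q (algebraMap 𝕜 _ c)))
          = qExpand 𝕜 q (algebraMap (barField 𝕜 N') (LaurentSeries 𝕜) (algebraMap 𝕜 _ c))
      rw [AlgHom.commutes, AlgHom.commutes, AlgHom.commutes,
        ← IsScalarTower.algebraMap_apply 𝕜 (barField 𝕜 N') (LaurentSeries 𝕜),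
        algebraMap_laurentSeries_eq_single, qExpand_single, mul_zero]
    · intro d hd
      haveI : NeZero d := t2w_neZero_of_dvd N' hd
      haveI : NeZero (q * d) := ⟨Nat.mul_ne_zero (NeZero.ne q) (NeZero.ne d)⟩
      show t4mHom 𝕜 N' q hq b C u h z hz
        (heckeAlphaBar 𝕜 (N' * q) q (heckeBetaBar 𝕜 N' q (t2wJd 𝕜 N' d hd)))
          = qExpand 𝕜 q ((t2wJd 𝕜 N' d hd : barField 𝕜 N') : LaurentSeries 𝕜)
      rw [t4m_ab_jd, t4mHom_jd_low 𝕜 N' q hq b C u h z hz (q * d)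
        (by rw [mul_comm]; exact Nat.mul_dvd_mul hd dvd_rfl), coe_t2wJd _ N' d hd,
        qExpand_qExpand]
  exact RingHom.congr_fun key f

/-- `ι (a2 f) = f(z𝔮)` -/
theorem t4mHom_bb (f : barField 𝕜 N') :
    t4mHom 𝕜 N' q hq b C u h z hz (heckeBetaBar 𝕜 (N' * q) q (heckeBetaBar 𝕜 N' q f))
      = t4vSig z (f : LaurentSeries 𝕜) := by
  have key : ((t4mHom 𝕜 N' q hq b C u h z hz : barField 𝕜 (N' * q * q) →+* LaurentSeries 𝕜).comp
        (((heckeBetaBar 𝕜 (N' * q) q).comp (heckeBetaBar 𝕜 N' q) :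
            barField 𝕜 N' →ₐ[𝕜] barField 𝕜 (N' * q * q)) :
          barField 𝕜 N' →+* barField 𝕜 (N' * q * q)))
      = (t4vSig z).comp (algebraMap (barField 𝕜 N') (LaurentSeries 𝕜)) := by
    apply t2w_ringHom_ext
    · intro c
      show t4mHom 𝕜 N' q hq b C u h z hz
        (heckeBetaBar 𝕜 (N' * q) q (heckeBetaBar 𝕜 N' q (algebraMap 𝕜 _ c)))
          = t4vSig z (algebraMap (barField 𝕜 N') (LaurentSeries 𝕜) (algebraMap 𝕜 _ c))
      rw [AlgHom.commutes, AlgHom.commutes, AlgHom.commutes,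
        ← IsScalarTower.algebraMap_apply 𝕜 (barField 𝕜 N') (LaurentSeries 𝕜),
        algebraMap_laurentSeries_eq_single]
      ext n
      rw [t4vSig_coeff]
      by_cases hn : n = 0
      · subst hn
        simp
      · rw [HahnSeries.coeff_single_of_ne hn, mul_zero]
    · intro d hd
      haveI : NeZero d := t2w_neZero_of_dvd N' hd
      show t4mHom 𝕜 N' q hq b C u h z hz
        (heckeBetaBar 𝕜 (N' * q) q (heckeBetaBar 𝕜 N' q (t2wJd 𝕜 N' d hd)))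
          = t4vSig z ((t2wJd 𝕜 N' d hd : barField 𝕜 N') : LaurentSeries 𝕜)
      rw [t4m_bb_jd, t4mHom_jd_mid 𝕜 N' q hq b C u h z hz d hd, coe_t2wJd _ N' d hd]
  exact RingHom.congr_fun key f

end Degen

end Fermat.Agent.T4
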