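/-
T4-V5 (helper7), abstract part: norm formulas over a discrete valuation ring.

`R` a DVR, `S` a Dedekind domain, finite and torsion free over `R` (so `S` has finitely many primes,
all over the maximal ideal of `R`).  Generalising `Lib/T3/Hecke/NormVal.lean` (helper5), which
treats residue degree one:

* `t4vn_valuation_norm`: `v_R (N f) = ∏_Q v_Q(f) ^ f(Q|𝔪)` for `f ≠ 0` in the fraction field.
* `t4vn_norm_quot`: norms commute with reduction modulo an ideal of the base (finite free algebras).
* `t4vn_norm_residue`: the same with abstract residue maps `ρR : R → κ`, `ρS : S → κ'`,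
  `ker ρS = (ker ρR) S` (one unramified prime above).
* `t4vn_norm_of_pow_eq`: in a purely inseparable extension of degree `q`, `N z = c` if `z ^ q = c`.
* `t4vn_residue_norm_one_add`: `N (1 + y) ≡ 1` for `y` in the Jacobson radical.
* `t4vn_residue_norm_deg_one`: all residue degrees one, infinite residue field:
  `x ≡ c Q mod Q` for all `Q` implies `N x ≡ ∏_Q (c Q) ^ e(Q)`.
-/
import Mathlib
import Fermat.Agent.Lib.T3.Hecke.NormVal
import Fermat.Agent.Lib.T3.Hecke.NormValue

set_option autoImplicit false
set_option linter.unusedSectionVars false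
set_option linter.style.haveILetI false

namespace Fermat.Agent.T4

open IsDedekindDomain WithZero Polynomial TensorProduct Fermat.Agent.T3

section Val

variable {R S : Type*} [CommRing R] [IsDomain R] [IsDiscreteValuationRing R]
  [CommRing S] [IsDedekindDomain S] [Algebra R S] [Module.Finite R S] [Module.IsTorsionFree R S]
  [Fintype (HeightOneSpectrum S)] [PerfectField (FractionRing R)]

/-- valuation of the integral norm of a nonzero element, arbitrary residue degrees -/
theorem t4vn_intValuation_intNorm (s : S) (hs : s ≠ 0) :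
    (t3hMax R).intValuation (Algebra.intNorm R S s)
      = ∏ Q : HeightOneSpectrum S, Q.intValuation s ^ (Q.asIdeal.inertiaDeg R) := by
  classical
  haveI : IsPrincipalIdealRing S := t3h_isPrincipalIdealRing_of_fintype S
  induction s using UniqueFactorizationMonoid.induction_on_prime with
  | h₁ => exact absurd rfl hs
  | h₂ u hu =>
    have h1 : IsUnit (Algebra.intNorm R S u) := hu.map _
    rw [HeightOneSpectrum.intValuation_eq_one_iff.mpr]
    · symm
      apply Finset.prod_eq_one
      intro Q _
      rw [HeightOneSpectrum.intValuation_eq_one_iff.mpr, one_pow]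
      intro hmem
      exact Q.isPrime.ne_top (Ideal.eq_top_of_isUnit_mem _ hmem hu)
    · intro hmem
      exact (t3hMax R).isPrime.ne_top (Ideal.eq_top_of_isUnit_mem _ hmem h1)
  | h₃ a p ha hp ih =>
    have ih' := ih ha
    rw [map_mul, map_mul]
    simp_rw [map_mul, mul_pow]
    rw [Finset.prod_mul_distrib, ih']
    congr 1
    -- the prime case
    have hp0 : p ≠ 0 := hp.ne_zero
    let Q₀ : HeightOneSpectrum S :=
      ⟨Ideal.span {p}, (Ideal.span_singleton_prime hp0).mpr hp, by
        rw [ne_eq, Ideal.span_singleton_eq_bot]; exact hp0⟩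
    haveI hlo : Q₀.asIdeal.LiesOver (IsLocalRing.maximalIdeal R) := t3h_liesOver_maximalIdeal Q₀
    haveI hQmax : Q₀.asIdeal.IsMaximal := Q₀.isMaximal
    obtain ⟨t, ht⟩ := IsDiscreteValuationRing.exists_irreducible R
    have htm : IsLocalRing.maximalIdeal R = Ideal.span {t} := ht.maximalIdeal_eq
    have ht0 : t ≠ 0 := ht.ne_zero
    set f := Q₀.asIdeal.inertiaDeg R with hf
    have hrel : Ideal.relNorm R Q₀.asIdeal = IsLocalRing.maximalIdeal R ^ f :=
      Ideal.relNorm_eq_pow_of_isMaximal Q₀.asIdeal (IsLocalRing.maximalIdeal R)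
    have hrel' : Ideal.span {Algebra.intNorm R S p} = Ideal.span {t ^ f} := by
      rw [← Ideal.relNorm_singleton, ← Ideal.span_singleton_pow, ← htm]
      exact hrel
    have hval : (t3hMax R).intValuation (Algebra.intNorm R S p)
        = (t3hMax R).intValuation (t ^ f) := by
      obtain ⟨u, hu⟩ := Ideal.span_singleton_eq_span_singleton.mp hrel'
      rw [← hu, map_mul]
      have : (t3hMax R).intValuation (u : R) = 1 := by
        rw [HeightOneSpectrum.intValuation_eq_one_iff]
        intro hmem
        exact (t3hMax R).isPrime.ne_top (Ideal.eq_top_of_isUnit_mem _ hmem u.isUnit)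
      rw [this, mul_one]
    rw [hval, map_pow,
      HeightOneSpectrum.intValuation_singleton _ ht0 (by rw [t3hMax_asIdeal, htm])]
    rw [Finset.prod_eq_single Q₀]
    · rw [HeightOneSpectrum.intValuation_singleton _ hp0 rfl]
    · intro Q _ hQ
      rw [HeightOneSpectrum.intValuation_eq_one_iff.mpr, one_pow]
      intro hmem
      apply hQ
      have hle : Q₀.asIdeal ≤ Q.asIdeal := by
        show Ideal.span {p} ≤ Q.asIdeal
        rw [Ideal.span_le, Set.singleton_subset_iff]
        exact hmem
      exact (HeightOneSpectrum.ext (hQmax.eq_of_le Q.isPrime.ne_top hle)).symm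
    · intro h
      exact absurd (Finset.mem_univ _) h

variable {F F' : Type*} [Field F] [Field F'] [Algebra R F] [IsFractionRing R F] [Algebra F F']
  [FiniteDimensional F F'] [Algebra S F'] [Algebra R F'] [IsScalarTower R S F']
  [IsScalarTower R F F'] [IsFractionRing S F'] [IsIntegralClosure S R F']

/-- valuation of the norm of an element of `S`, arbitrary residue degrees -/
theorem t4vn_valuation_norm_algebraMap (s : S) (hs : s ≠ 0) :
    (t3hMax R).valuation F (Algebra.norm F (algebraMap S F' s))
      = ∏ Q : HeightOneSpectrum S,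
          Q.valuation F' (algebraMap S F' s) ^ (Q.asIdeal.inertiaDeg R) := by
  rw [← Algebra.algebraMap_intNorm (A := R) (B := S), HeightOneSpectrum.valuation_of_algebraMap,
    t4vn_intValuation_intNorm s hs]
  exact Finset.prod_congr rfl fun Q _ => by rw [HeightOneSpectrum.valuation_of_algebraMap Q s]

/-- **valuation of a norm**: `v_R (N f) = ∏_Q v_Q(f) ^ f(Q)` -/
theorem t4vn_valuation_norm (f : F') (hf : f ≠ 0) :
    (t3hMax R).valuation F (Algebra.norm F f)
      = ∏ Q : HeightOneSpectrum S, Q.valuation F' f ^ (Q.asIdeal.inertiaDeg R) := by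
  obtain ⟨a, b, hb, rfl⟩ := IsFractionRing.div_surjective (A := S) f
  have hb0 : b ≠ 0 := nonZeroDivisors.ne_zero hb
  have ha0 : a ≠ 0 := by
    rintro rfl
    apply hf
    rw [map_zero, zero_div]
  have hbF : algebraMap S F' b ≠ 0 := by
    rwa [ne_eq, IsFractionRing.to_map_eq_zero_iff]
  have hmul : algebraMap S F' a / algebraMap S F' b * algebraMap S F' b = algebraMap S F' a :=
    div_mul_cancel₀ _ hbF
  have h1 : (t3hMax R).valuation F (Algebra.norm F (algebraMap S F' a / algebraMap S F' b))
      * (t3hMax R).valuation F (Algebra.norm F (algebraMap S F' b))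
      = (t3hMax R).valuation F (Algebra.norm F (algebraMap S F' a)) := by
    rw [← map_mul, ← map_mul, hmul]
  have h2 : (∏ Q : HeightOneSpectrum S,
        Q.valuation F' (algebraMap S F' a / algebraMap S F' b) ^ (Q.asIdeal.inertiaDeg R))
      * (∏ Q : HeightOneSpectrum S,
        Q.valuation F' (algebraMap S F' b) ^ (Q.asIdeal.inertiaDeg R))
      = ∏ Q : HeightOneSpectrum S,
        Q.valuation F' (algebraMap S F' a) ^ (Q.asIdeal.inertiaDeg R) := by
    rw [← Finset.prod_mul_distrib]
    refine Finset.prod_congr rfl fun Q _ => ?_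
    rw [← mul_pow, ← map_mul, hmul]
  rw [t4vn_valuation_norm_algebraMap a ha0, t4vn_valuation_norm_algebraMap b hb0,
    ← h2] at h1
  have hne : ∏ Q : HeightOneSpectrum S,
      Q.valuation F' (algebraMap S F' b) ^ (Q.asIdeal.inertiaDeg R) ≠ 0 := by
    rw [Finset.prod_ne_zero_iff]
    intro Q _
    exact pow_ne_zero _ ((Valuation.ne_zero_iff _).mpr hbF)
  exact mul_right_cancel₀ hne h1

end Val

section Quot

/-- **norms commute with reduction modulo an ideal of the base ring** -/
theorem t4vn_norm_quot {R S : Type*} [CommRing R] [CommRing S] [Algebra R S] [Module.Free R S]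
    [Module.Finite R S] (I : Ideal R) (x : S) :
    Algebra.norm (R ⧸ I) (Ideal.Quotient.mk (I.map (algebraMap R S)) x)
      = Ideal.Quotient.mk I (Algebra.norm R x) := by
  rw [← Algebra.norm_eq_of_algEquiv (Algebra.TensorProduct.quotIdealMapEquivQuotTensor S I),
    Algebra.TensorProduct.quotIdealMapEquivQuotTensor_mk, Algebra.norm_apply,
    ← Algebra.baseChange_lmul, LinearMap.det_baseChange, ← Algebra.norm_apply]
  rfl

/-- **norms commute with residue maps** when the residue ring of `S` is `S ⧸ 𝔪 S` -/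
theorem t4vn_norm_residue {R S κ κ' : Type*} [CommRing R] [CommRing S] [Algebra R S]
    [Module.Free R S] [Module.Finite R S] [CommRing κ] [CommRing κ'] [Algebra κ κ']
    (ρR : R →+* κ) (ρS : S →+* κ') (hρR : Function.Surjective ρR) (hρS : Function.Surjective ρS)
    (hker : RingHom.ker ρS = (RingHom.ker ρR).map (algebraMap R S))
    (hcomp : ∀ r, ρS (algebraMap R S r) = algebraMap κ κ' (ρR r)) (x : S) :
    ρR (Algebra.norm R x) = Algebra.norm κ (ρS x) := by
  set I := RingHom.ker ρR with hI
  let e₁ : (R ⧸ I) ≃+* κ := RingHom.quotientKerEquivOfSurjective hρR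
  let e₂ : (S ⧸ I.map (algebraMap R S)) ≃+* κ' :=
    (Ideal.quotEquivOfEq hker.symm).trans (RingHom.quotientKerEquivOfSurjective hρS)
  have he : RingHom.comp (algebraMap κ κ') (e₁ : (R ⧸ I) →+* κ)
      = RingHom.comp (e₂ : (S ⧸ I.map (algebraMap R S)) →+* κ')
          (algebraMap (R ⧸ I) (S ⧸ I.map (algebraMap R S))) := by
    apply Ideal.Quotient.ringHom_ext
    ext r
    simp only [RingHom.coe_comp, RingHom.coe_coe, Function.comp_apply]
    show algebraMap κ κ' (ρR r) = ρS (algebraMap R S r)
    exact (hcomp r).symm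
  have h := Algebra.norm_eq_of_equiv_equiv e₁ e₂ he (Ideal.Quotient.mk _ x)
  rw [t4vn_norm_quot] at h
  have h2 := congrArg e₁ h
  rw [RingEquiv.apply_symm_apply] at h2
  exact h2

/-- the norm of a purely inseparable extension of degree `q`: `N z = c` if `z ^ q = c` -/
theorem t4vn_norm_of_pow_eq {κ κ' : Type*} [Field κ] [Field κ'] [Algebra κ κ'] (q : ℕ)
    [hq : Fact q.Prime] [CharP κ q] (hrank : Module.finrank κ κ' = q) (z : κ') (c : κ)
    (hz : z ^ q = algebraMap κ κ' c) : Algebra.norm κ z = c := by
  have h1 : Algebra.norm κ z ^ q = c ^ q := by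
    rw [← map_pow, hz, Algebra.norm_algebraMap, hrank]
  exact frobenius_inj κ q h1

/-- the norm of `1 + z`, `z` nilpotent, in a finite free algebra over a domain, is `1` -/
theorem t4vn_norm_one_add_nilpotent {κ A : Type*} [CommRing κ] [IsDomain κ] [CommRing A]
    [Algebra κ A] [Module.Finite κ A] [Module.Free κ A] (z : A) (hz : IsNilpotent z) :
    Algebra.norm κ (1 + z) = 1 := by
  have hnil : IsNilpotent (Algebra.lmul κ A (-z)) := (hz.neg).map (Algebra.lmul κ A)
  have h1 := LinearMap.eval_charpoly (Algebra.lmul κ A (-z)) 1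
  rw [hnil.charpoly_eq_X_pow_finrank, eval_pow, eval_X, one_pow] at h1
  rw [Algebra.norm_apply, h1]
  congr 1
  ext y
  simp

end Quot

section Res

variable {R S : Type*} [CommRing R] [IsDomain R] [IsDiscreteValuationRing R]
  [CommRing S] [IsDedekindDomain S] [Algebra R S] [Module.Finite R S] [Module.IsTorsionFree R S]
  [Fintype (HeightOneSpectrum S)]

theorem t4vn_residue_norm_one_add (y : S) (hy : ∀ Q : HeightOneSpectrum S, y ∈ Q.asIdeal) :
    IsLocalRing.residue R (Algebra.norm R (1 + y)) = 1 := by
  set 𝔪 := IsLocalRing.maximalIdeal R with h𝔪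
  have hq := t4vn_norm_quot (R := R) (S := S) 𝔪 (1 + y)
  show Ideal.Quotient.mk 𝔪 (Algebra.norm R (1 + y)) = 1
  rw [← hq, map_add, map_one]
  haveI : 𝔪.IsMaximal := IsLocalRing.maximalIdeal.isMaximal R
  letI : Field (R ⧸ 𝔪) := Ideal.Quotient.field 𝔪
  haveI : Module.Free (R ⧸ 𝔪) (S ⧸ 𝔪.map (algebraMap R S)) := Module.Free.of_divisionRing _ _
  apply t4vn_norm_one_add_nilpotent
  -- `y` lies in the radical of `𝔪 S`
  have hne : 𝔪.map (algebraMap R S) ≠ ⊥ := by
    intro h0
    have hinj : Function.Injective (algebraMap R S) := FaithfulSMul.algebraMap_injective R S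
    have := (Ideal.map_eq_bot_iff_of_injective hinj).mp h0
    exact (t3hMax R).ne_bot this
  have hrad : y ∈ (𝔪.map (algebraMap R S)).radical := by
    rw [Ideal.radical_eq_sInf, Ideal.mem_sInf]
    rintro P ⟨hle, hP⟩
    have hPne : P ≠ ⊥ := fun h0 => hne (le_bot_iff.mp (h0 ▸ hle))
    exact hy ⟨P, hP, hPne⟩
  obtain ⟨n, hn⟩ := hrad
  refine ⟨n, ?_⟩
  rw [← map_pow, Ideal.Quotient.eq_zero_iff_mem]
  exact hn

variable [PerfectField (FractionRing R)]

/-- **the residue of a norm, residue degrees one, infinite residue field**: if `x` has the value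
`c Q` at every prime `Q` of `S`, then `N x ≡ ∏_Q (c Q) ^ (e Q)` -/
theorem t4vn_residue_norm_deg_one [Infinite (IsLocalRing.ResidueField R)]
    (hdeg : ∀ Q : HeightOneSpectrum S, Q.asIdeal.inertiaDeg R = 1) {t : R}
    (ht : IsLocalRing.maximalIdeal R = Ideal.span {t}) (e : HeightOneSpectrum S → ℕ)
    (hte : ∀ Q : HeightOneSpectrum S, Q.intValuation (algebraMap R S t) = exp (-(e Q : ℤ)))
    (x : S) (c : HeightOneSpectrum S → R)
    (hx : ∀ Q : HeightOneSpectrum S, x - algebraMap R S (c Q) ∈ Q.asIdeal) :
    IsLocalRing.residue R (Algebra.norm R x) = ∏ Q, IsLocalRing.residue R (c Q) ^ e Q := by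
  classical
  have hepos := t3h_e_pos ht e hte
  by_cases hcase : ∃ Q₀ : HeightOneSpectrum S, c Q₀ ∈ IsLocalRing.maximalIdeal R
  · obtain ⟨Q₀, hQ₀⟩ := hcase
    have hxQ : x ∈ Q₀.asIdeal := by
      have := Ideal.add_mem _ (hx Q₀) (t3h_algebraMap_mem Q₀ hQ₀)
      rwa [sub_add_cancel] at this
    have h1 := t3h_norm_mem_pow hdeg x (fun Q => if Q = Q₀ then 1 else 0) (fun Q => by
      split_ifs with h
      · rw [h, pow_one]; exact hxQ
      · rw [pow_zero, Ideal.one_eq_top]; trivial)
    rw [Finset.sum_ite_eq' Finset.univ Q₀, if_pos (Finset.mem_univ _), pow_one,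
      ← IsLocalRing.residue_eq_zero_iff] at h1
    rw [h1]
    symm
    apply Finset.prod_eq_zero (Finset.mem_univ Q₀)
    rw [(IsLocalRing.residue_eq_zero_iff _).mpr hQ₀, zero_pow (hepos Q₀).ne']
  · push Not at hcase
    -- strong approximation of the values
    obtain ⟨xs, hxs⟩ := IsDedekindDomain.exists_forall_sub_mem_ideal
      (s := (Finset.univ : Finset (HeightOneSpectrum S))) (fun Q => Q.asIdeal) e
      (fun Q _ => Ideal.prime_of_isPrime Q.ne_bot Q.isPrime)
      (fun Q _ Q' _ h h' => h (HeightOneSpectrum.ext h'))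
      (fun Q => algebraMap R S (c Q))
    have hxs' : ∀ Q : HeightOneSpectrum S, xs - algebraMap R S (c Q) ∈ Q.asIdeal ^ e Q :=
      fun Q => hxs Q (Finset.mem_univ Q)
    have hxsQ : ∀ Q : HeightOneSpectrum S, xs - algebraMap R S (c Q) ∈ Q.asIdeal :=
      fun Q => Ideal.pow_le_self (hepos Q).ne' (hxs' Q)
    have hnot : ∀ Q : HeightOneSpectrum S, xs ∉ Q.asIdeal := by
      intro Q hmem
      apply t3h_algebraMap_notMem Q (hcase Q)
      have := Ideal.sub_mem _ hmem (hxsQ Q)
      rwa [sub_sub_cancel] at this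
    have hNunit : IsUnit (Algebra.norm R xs) := by
      have := t3h_norm_notMem hdeg xs hnot
      rwa [IsLocalRing.mem_maximalIdeal, mem_nonunits_iff, not_not] at this
    rw [Algebra.norm_apply, ← LinearMap.isUnit_iff_isUnit_det] at hNunit
    obtain ⟨φ, hφ⟩ := hNunit
    set u : S := (φ⁻¹ : (S →ₗ[R] S)ˣ).val 1 with hu
    have hxu : xs * u = 1 := by
      have h1 : (φ.val * (φ⁻¹ : (S →ₗ[R] S)ˣ).val) 1 = 1 := by
        rw [Units.mul_inv]; rfl
      rw [Module.End.mul_apply, hφ] at h1
      exact h1
    set y : S := u * (x - xs) with hy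
    have hyQ : ∀ Q : HeightOneSpectrum S, y ∈ Q.asIdeal := by
      intro Q
      apply Ideal.mul_mem_left
      have := Ideal.sub_mem _ (hx Q) (hxsQ Q)
      rwa [sub_sub_sub_cancel_right] at this
    have hfac : x = xs * (1 + y) := by
      rw [hy, mul_add, mul_one, ← mul_assoc, hxu, one_mul]; ring
    rw [hfac, map_mul, map_mul, t4vn_residue_norm_one_add y hyQ, mul_one,
      t3h_residue_norm_strong hdeg ht e hte xs c hxs']

end Res

end Fermat.Agent.T4
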