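/-
T4-V5 (helper7), valuation-subring form of the norm formulas.

`K ⊆ L` a finite separable extension, `R` a discrete valuation subring of `K`, `V i` (`i : ι`,
finite) the discrete valuation subrings of `L` over `R` (complete family: an element lying in all
`V i` is integral over `R`).  The primes of the integral closure `S` of `R` in `L` are the centres
of the `V i`, and the formulas of `NormAbs.lean` read

* `t4vn_val_norm`: `v_R (N y) = ∏ i, v_i(y) ^ f i`;
* `t4vn_sum_e_mul_f`: `∑ i, e i * f i = [L : K]`;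
-/
import Mathlib
import Fermat.Agent.Lib.T4.Inst.NormAbs

set_option autoImplicit false
set_option linter.unusedSectionVars false
set_option linter.style.haveILetI false

namespace Fermat.Agent.T4

open IsDedekindDomain WithZero Fermat.Agent.T3

section Basic

variable {L : Type*} [Field L]

/-- two equivalent valuations with values in `ℤᵐ⁰`, both attaining `exp (-1)`, are equal -/
theorem t4vn_eq_of_isEquiv (v w : Valuation L ℤᵐ⁰) (h : v.IsEquiv w)
    (hv : ∃ π, v π = exp (-1 : ℤ)) (hw : ∃ π, w π = exp (-1 : ℤ)) : v = w := by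
  have h1 : ∀ {x : L}, v x = 1 ↔ w x = 1 := Valuation.isEquiv_iff_val_eq_one.mp h
  have hlt : ∀ {x : L}, v x < 1 ↔ w x < 1 := Valuation.isEquiv_iff_val_lt_one.mp h
  obtain ⟨π, hπ⟩ := hw
  obtain ⟨ϖ, hϖv⟩ := hv
  have hone : (1 : ℤᵐ⁰) = exp (0 : ℤ) := exp_zero.symm
  have hπ0 : π ≠ 0 := by
    intro h0
    rw [h0, map_zero] at hπ
    exact (exp_ne_zero).symm hπ
  have hϖ0 : ϖ ≠ 0 := by
    intro h0
    rw [h0, map_zero] at hϖv
    exact (exp_ne_zero).symm hϖv
  have hπv : v π = exp (-1 : ℤ) := by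
    have hπlt : v π < 1 := hlt.mpr (by rw [hπ, hone, exp_lt_exp]; norm_num)
    have hϖlt : w ϖ < 1 := hlt.mp (by rw [hϖv, hone, exp_lt_exp]; norm_num)
    have h2 : w ϖ ≤ w π := by
      rw [hπ]
      have hne : w ϖ ≠ 0 := (Valuation.ne_zero_iff _).mpr hϖ0
      rw [← exp_log hne] at hϖlt ⊢
      rw [hone, exp_lt_exp] at hϖlt
      rw [exp_le_exp]
      omega
    have h3 : v ϖ ≤ v π := (h _ _).mpr h2
    have hne : v π ≠ 0 := (Valuation.ne_zero_iff _).mpr hπ0
    rw [← exp_log hne] at hπlt h3 ⊢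
    rw [hone, exp_lt_exp] at hπlt
    rw [hϖv, exp_le_exp] at h3
    congr 1
    omega
  ext f
  rcases eq_or_ne f 0 with rfl | hf
  · simp
  have hne : w f ≠ 0 := (Valuation.ne_zero_iff _).mpr hf
  set n : ℤ := -(log (w f)) with hn
  have hwf : w f = exp (-n) := by rw [hn, neg_neg, exp_log hne]
  have h4 : w (f * π ^ (-n)) = 1 := by
    rw [map_mul, map_zpow₀, hπ, hwf, ← exp_zsmul, ← exp_add]
    simp
  have h5 : v (f * π ^ (-n)) = 1 := h1.mpr h4
  rw [map_mul, map_zpow₀, hπv, ← exp_zsmul] at h5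
  rw [hwf]
  have h6 : v f = v f * exp ((-n) • (-1 : ℤ)) * exp (-n) := by
    rw [mul_assoc, ← exp_add]
    simp
  rw [h6, h5, one_mul]

variable (W : ValuationSubring L) [IsDiscreteValuationRing W]

/-- the normalised valuation of a discrete valuation subring -/
noncomputable def t4vnVal : Valuation L ℤᵐ⁰ := (t3hMax ↥W).valuation L

theorem t4vnVal_coe (a : ↥W) : t4vnVal W (a : L) = (t3hMax ↥W).intValuation a :=
  (t3hMax ↥W).valuation_of_algebraMap (K := L) a

theorem t4vnVal_lt_one_of_mem_maximalIdeal {a : ↥W} (ha : a ∈ IsLocalRing.maximalIdeal ↥W) :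
    t4vnVal W (a : L) < 1 := by
  rw [t4vnVal_coe, HeightOneSpectrum.intValuation_lt_one_iff_mem]
  exact ha

theorem t4vnVal_le_one_iff (f : L) : t4vnVal W f ≤ 1 ↔ f ∈ W := by
  constructor
  · intro hle
    by_contra hf
    have hinv : f⁻¹ ∈ W := (W.mem_or_inv_mem f).resolve_left hf
    have hnu : (⟨f⁻¹, hinv⟩ : ↥W) ∈ IsLocalRing.maximalIdeal ↥W := by
      rw [IsLocalRing.mem_maximalIdeal, mem_nonunits_iff]
      intro hu
      apply hf
      obtain ⟨b, hb⟩ := isUnit_iff_exists_inv.mp hu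
      have h1 : f⁻¹ * (b : L) = 1 := by
        have := congrArg Subtype.val hb
        simpa using this
      have hf0 : f ≠ 0 := by
        rintro rfl
        simp at h1
      have h2 : (b : L) = f := by
        field_simp at h1
        exact h1
      rw [← h2]
      exact b.2
    have hlt := t4vnVal_lt_one_of_mem_maximalIdeal W hnu
    have hf0 : f ≠ 0 := by
      rintro rfl
      exact hf W.zero_mem
    have hmul : t4vnVal W f * t4vnVal W f⁻¹ = 1 := by
      rw [← map_mul, mul_inv_cancel₀ hf0, map_one]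
    have : t4vnVal W f * t4vnVal W f⁻¹ < 1 := by
      calc t4vnVal W f * t4vnVal W f⁻¹ ≤ 1 * t4vnVal W f⁻¹ := mul_le_mul_left hle _
        _ = t4vnVal W f⁻¹ := one_mul _
        _ < 1 := hlt
    rw [hmul] at this
    exact lt_irrefl _ this
  · intro hf
    exact (t3hMax ↥W).valuation_le_one (K := L) ⟨f, hf⟩

theorem t4vnVal_isEquiv : (t4vnVal W).IsEquiv W.valuation := by
  rw [Valuation.isEquiv_iff_val_le_one]
  intro x
  rw [t4vnVal_le_one_iff, ← W.valuation_le_one_iff]

theorem t4vnVal_eq_one_iff (f : L) : t4vnVal W f = 1 ↔ W.valuation f = 1 :=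
  Valuation.isEquiv_iff_val_eq_one.mp (t4vnVal_isEquiv W)

theorem t4vnVal_lt_one_iff (f : L) : t4vnVal W f < 1 ↔ W.valuation f < 1 :=
  Valuation.isEquiv_iff_val_lt_one.mp (t4vnVal_isEquiv W)

theorem t4vnVal_exists_uniformizer : ∃ π : L, t4vnVal W π = exp (-1 : ℤ) :=
  (t3hMax ↥W).valuation_exists_uniformizer L

/-- an element of normalised valuation `exp (-1)` generates the maximal ideal -/
theorem t4vn_maximalIdeal_eq_span {π : L} (hπ : t4vnVal W π = exp (-1 : ℤ)) :
    ∃ h : π ∈ W, IsLocalRing.maximalIdeal ↥W = Ideal.span {(⟨π, h⟩ : ↥W)} := by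
  have hone : (1 : ℤᵐ⁰) = exp (0 : ℤ) := exp_zero.symm
  have hmem : π ∈ W := by
    rw [← t4vnVal_le_one_iff, hπ, hone, exp_le_exp]
    norm_num
  refine ⟨hmem, ?_⟩
  set ϖ : ↥W := ⟨π, hmem⟩ with hϖ
  have hval : (t3hMax ↥W).intValuation ϖ = exp (-1 : ℤ) := by
    rw [← t4vnVal_coe]
    exact hπ
  have hϖ0 : ϖ ≠ 0 := by
    intro h0
    rw [h0, map_zero] at hval
    exact (exp_ne_zero).symm hval
  obtain ⟨t, ht⟩ := IsDiscreteValuationRing.exists_irreducible ↥W
  obtain ⟨n, hn⟩ := IsDiscreteValuationRing.associated_pow_irreducible hϖ0 ht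
  have htval : (t3hMax ↥W).intValuation t = exp (-1 : ℤ) :=
    HeightOneSpectrum.intValuation_singleton _ ht.ne_zero
      (by rw [t3hMax_asIdeal, ht.maximalIdeal_eq])
  obtain ⟨u, hu⟩ := hn
  have huval : (t3hMax ↥W).intValuation (u : ↥W) = 1 := by
    rw [HeightOneSpectrum.intValuation_eq_one_iff]
    intro hmem'
    exact (t3hMax ↥W).isPrime.ne_top (Ideal.eq_top_of_isUnit_mem _ hmem' u.isUnit)
  have h1 : (t3hMax ↥W).intValuation (t ^ n) = exp (-1 : ℤ) := by
    rw [← hu, map_mul, huval, mul_one, hval]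
  rw [map_pow, htval, ← exp_nsmul] at h1
  have h2 := exp_injective h1
  have hn1 : n = 1 := by
    simp only [nsmul_eq_mul, mul_neg, mul_one, neg_inj] at h2
    exact_mod_cast h2
  rw [ht.maximalIdeal_eq]
  symm
  rw [Ideal.span_singleton_eq_span_singleton]
  refine ⟨u, ?_⟩
  rw [hu, hn1, pow_one]

end Basic

section Ext

variable {K L : Type*} [Field K] [Field L] [Algebra K L] [FiniteDimensional K L] [CharZero K]
  (R : ValuationSubring K) [IsDiscreteValuationRing R]

/-- the integral closure of `R` in `L` -/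
abbrev t4vnS (L : Type*) [Field L] [Algebra K L] (R : ValuationSubring K) : Subalgebra ↥R L :=
  integralClosure ↥R L

theorem t4vnS_isDedekindDomain : IsDedekindDomain (t4vnS L R) :=
  integralClosure.isDedekindDomain ↥R K L

theorem t4vnS_isFractionRing : IsFractionRing (t4vnS L R) L :=
  integralClosure.isFractionRing_of_finite_extension K L

theorem t4vnS_moduleFinite : Module.Finite ↥R (t4vnS L R) :=
  IsIntegralClosure.finite ↥R K L (t4vnS L R)

theorem t4vnR_faithfulSMul : FaithfulSMul ↥R L := by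
  rw [faithfulSMul_iff_algebraMap_injective, IsScalarTower.algebraMap_eq ↥R K L]
  exact (algebraMap K L).injective.comp (IsFractionRing.injective ↥R K)

theorem t4vnR_isTorsionFree : Module.IsTorsionFree ↥R L :=
  haveI := t4vnR_faithfulSMul (L := L) R
  FaithfulSMul.to_isTorsionFree ↥R L

theorem t4vnS_isTorsionFree : Module.IsTorsionFree ↥R (t4vnS L R) :=
  haveI := t4vnR_isTorsionFree (L := L) R
  Subalgebra.instIsTorsionFree _

theorem t4vnR_perfectField : PerfectField (FractionRing ↥R) := by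
  haveI : CharZero ↥R := (algebraMap ↥R K).charZero
  haveI : CharZero (FractionRing ↥R) :=
    charZero_of_injective_algebraMap (IsFractionRing.injective ↥R _)
  infer_instance

attribute [local instance] t4vnS_isDedekindDomain t4vnS_isFractionRing t4vnS_moduleFinite
  t4vnS_isTorsionFree t4vnR_perfectField

@[reducible] noncomputable def t4vnS_fintype : Fintype (HeightOneSpectrum (t4vnS L R)) :=
  haveI := t3h_finite_heightOneSpectrum ↥R (t4vnS L R)
  Fintype.ofFinite _

attribute [local instance] t4vnS_fintype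

variable (W : ValuationSubring L) [IsDiscreteValuationRing W]

variable {R} in
/-- the integral closure of `R` lies in every valuation subring of `L` containing `R` -/
theorem t4vnS_le (hW : ∀ r : ↥R, algebraMap ↥R L r ∈ W) (b : t4vnS L R) : (b : L) ∈ W := by
  obtain ⟨p, hmonic, hp⟩ := b.2
  let φ : ↥R →+* ↥W := (algebraMap ↥R L).codRestrict W.toSubring hW
  have hint : IsIntegral ↥W (b : L) := by
    refine ⟨p.map φ, hmonic.map φ, ?_⟩
    rw [Polynomial.eval₂_map]
    exact hp
  obtain ⟨g, hg⟩ := IsIntegrallyClosed.isIntegral_iff.mp hint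
  rw [← hg]
  exact g.2

/-- the centre on the integral closure of a discrete valuation subring containing `R` -/
noncomputable def t4vnCentre (hW : ∀ r : ↥R, algebraMap ↥R L r ∈ W) :
    HeightOneSpectrum (t4vnS L R) where
  asIdeal := Ideal.comap ((algebraMap (t4vnS L R) L).codRestrict W.toSubring (t4vnS_le W hW))
    (IsLocalRing.maximalIdeal ↥W)
  isPrime := Ideal.comap_isPrime _ _
  ne_bot := by
    -- a uniformizer of `W` is a quotient of elements of `S`
    obtain ⟨ϖ, hϖ⟩ := IsDiscreteValuationRing.exists_irreducible ↥W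
    have hϖ0 : (ϖ : L) ≠ 0 := by
      intro h0
      exact hϖ.ne_zero (Subtype.ext h0)
    obtain ⟨a, b, hb, hab⟩ := IsFractionRing.div_surjective (A := t4vnS L R) (ϖ : L)
    have hb0 : b ≠ 0 := nonZeroDivisors.ne_zero hb
    have hbL : (b : L) ≠ 0 := fun h0 => hb0 (Subtype.ext h0)
    have ha0 : a ≠ 0 := by
      rintro rfl
      rw [map_zero, zero_div] at hab
      exact hϖ0 hab.symm
    intro hbot
    apply ha0
    have hmem : a ∈ Ideal.comap
        ((algebraMap (t4vnS L R) L).codRestrict W.toSubring (t4vnS_le W hW))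
        (IsLocalRing.maximalIdeal ↥W) := by
      rw [Ideal.mem_comap]
      have heq : (algebraMap (t4vnS L R) L).codRestrict W.toSubring (t4vnS_le W hW) a
          = ϖ * (algebraMap (t4vnS L R) L).codRestrict W.toSubring (t4vnS_le W hW) b := by
        apply Subtype.ext
        show (a : L) = (ϖ : L) * (b : L)
        rw [← hab]
        show (a : L) = (a : L) / (b : L) * (b : L)
        rw [div_mul_cancel₀ _ hbL]
      rw [heq]
      apply Ideal.mul_mem_right
      rw [hϖ.maximalIdeal_eq]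
      exact Ideal.mem_span_singleton_self ϖ
    rw [hbot] at hmem
    exact hmem

theorem t4vn_mem_centre_iff (hW : ∀ r : ↥R, algebraMap ↥R L r ∈ W) (b : t4vnS L R) :
    b ∈ (t4vnCentre R W hW).asIdeal ↔ W.valuation (b : L) < 1 := by
  show b ∈ Ideal.comap _ _ ↔ _
  rw [Ideal.mem_comap, W.valuation_lt_one_iff]
  rfl

theorem t4vn_valuation_eq_one_of_notMem (hW : ∀ r : ↥R, algebraMap ↥R L r ∈ W) {d : t4vnS L R}
    (hd : d ∉ (t4vnCentre R W hW).asIdeal) : W.valuation (d : L) = 1 := by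
  rw [t4vn_mem_centre_iff, not_lt] at hd
  exact le_antisymm ((W.valuation_le_one_iff _).mpr (t4vnS_le W hW d)) hd

theorem t4vnCentre_valuation_le_one_iff (hW : ∀ r : ↥R, algebraMap ↥R L r ∈ W) (x : L) :
    (t4vnCentre R W hW).valuation L x ≤ 1 ↔ x ∈ W := by
  have key : ∀ y : L, (t4vnCentre R W hW).valuation L y ≤ 1 →
      ∃ (n : t4vnS L R) (d : t4vnS L R), d ∉ (t4vnCentre R W hW).asIdeal ∧
        y * (d : L) = (n : L) := by
    intro y hy
    obtain ⟨n, d, hnd⟩ := (t4vnCentre R W hW).exists_primeCompl_mul_eq_of_integer y hy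
    exact ⟨n, d, d.2, hnd⟩
  constructor
  · intro hx
    obtain ⟨n, d, hd, hnd⟩ := key x hx
    have hd1 := t4vn_valuation_eq_one_of_notMem R W hW hd
    rw [← W.valuation_le_one_iff]
    have h1 : W.valuation x * W.valuation (d : L) = W.valuation (n : L) := by
      rw [← map_mul, hnd]
    rw [hd1, mul_one] at h1
    rw [h1, W.valuation_le_one_iff]
    exact t4vnS_le W hW n
  · intro hx
    by_contra hgt
    rw [not_le] at hgt
    have hx0 : x ≠ 0 := by
      rintro rfl
      rw [map_zero] at hgt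
      exact not_lt_zero hgt
    have hinv : (t4vnCentre R W hW).valuation L x⁻¹ < 1 := by
      rw [map_inv₀]
      exact inv_lt_one_of_one_lt₀ hgt
    obtain ⟨n, d, hd, hnd⟩ := key x⁻¹ hinv.le
    have hd1 := t4vn_valuation_eq_one_of_notMem R W hW hd
    have hdQ : (t4vnCentre R W hW).valuation L (d : L) = 1 := by
      have := (t4vnCentre R W hW).valuation_eq_one_iff_notMem (K := L) (r := d)
      exact this.mpr hd
    have hnQ : (t4vnCentre R W hW).valuation L (n : L) < 1 := by
      have : (n : L) = x⁻¹ * (d : L) := hnd.symm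
      rw [this, map_mul, hdQ, mul_one]
      exact hinv
    have hnmem : n ∈ (t4vnCentre R W hW).asIdeal :=
      ((t4vnCentre R W hW).valuation_lt_one_iff_mem (K := L) n).mp hnQ
    rw [t4vn_mem_centre_iff] at hnmem
    have h1 : W.valuation x⁻¹ * W.valuation (d : L) = W.valuation (n : L) := by
      rw [← map_mul, hnd]
    rw [hd1, mul_one] at h1
    have h2 : W.valuation x⁻¹ < 1 := h1 ▸ hnmem
    have h3 : W.valuation x ≤ 1 := (W.valuation_le_one_iff x).mpr hx
    have h4 : W.valuation x * W.valuation x⁻¹ = 1 := by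
      rw [← map_mul, mul_inv_cancel₀ hx0, map_one]
    have h5 : W.valuation x * W.valuation x⁻¹ < 1 := by
      calc W.valuation x * W.valuation x⁻¹ ≤ 1 * W.valuation x⁻¹ := mul_le_mul_left h3 _
        _ = W.valuation x⁻¹ := one_mul _
        _ < 1 := h2
    rw [h4] at h5
    exact lt_irrefl _ h5

/-- **the valuation of the centre of `W` is the normalised valuation of `W`** -/
theorem t4vnCentre_valuation (hW : ∀ r : ↥R, algebraMap ↥R L r ∈ W) :
    (t4vnCentre R W hW).valuation L = t4vnVal W := by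
  apply t4vn_eq_of_isEquiv
  · rw [Valuation.isEquiv_iff_val_le_one]
    intro x
    rw [t4vnCentre_valuation_le_one_iff, t4vnVal_le_one_iff]
  · exact (t4vnCentre R W hW).valuation_exists_uniformizer L
  · exact t4vnVal_exists_uniformizer W

end Ext

section Family

variable {K L : Type*} [Field K] [Field L] [Algebra K L] [FiniteDimensional K L] [CharZero K]

/-- a complete finite family of discrete valuation subrings of `L` over the discrete valuation
subring `R` of `K` -/
structure T4vnFam (R : ValuationSubring K) (ι : Type*) (L : Type*) [Field L] [Algebra K L] where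
  /-- the valuation subrings -/
  V : ι → ValuationSubring L
  dvr : ∀ i, IsDiscreteValuationRing ↥(V i)
  inj : Function.Injective V
  le : ∀ i, ∀ r : ↥R, algebraMap ↥R L r ∈ V i
  compl : ∀ x : L, (∀ i, x ∈ V i) → IsIntegral ↥R x

attribute [instance] T4vnFam.dvr

variable {R : ValuationSubring K} [IsDiscreteValuationRing R] {ι : Type*}
  (𝒱 : T4vnFam R ι L)

attribute [local instance] t4vnS_isDedekindDomain t4vnS_isFractionRing t4vnS_moduleFinite
  t4vnS_isTorsionFree t4vnR_perfectField t4vnS_fintype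

/-- the norm of an element of `L` integral over `R` -/
theorem t4vn_algebraMap_norm (x' : t4vnS L R) :
    algebraMap ↥R K (Algebra.norm ↥R x') = Algebra.norm K (x' : L) := by
  rw [← Algebra.intNorm_eq_norm, Algebra.algebraMap_intNorm (L := L)]
  rfl

namespace T4vnFam

/-- the prime of the integral closure attached to a member of the family -/
noncomputable def centre (i : ι) : HeightOneSpectrum (t4vnS L R) :=
  t4vnCentre R (𝒱.V i) (𝒱.le i)

theorem centre_valuation (i : ι) : (𝒱.centre i).valuation L = t4vnVal (𝒱.V i) :=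
  t4vnCentre_valuation R (𝒱.V i) (𝒱.le i)

theorem centre_injective : Function.Injective 𝒱.centre := by
  intro i j hij
  apply 𝒱.inj
  ext x
  rw [← t4vnVal_le_one_iff, ← t4vnVal_le_one_iff, ← 𝒱.centre_valuation, ← 𝒱.centre_valuation, hij]

theorem centre_surjective : Function.Surjective 𝒱.centre := by
  intro Q
  by_contra hcon
  push Not at hcon
  haveI : IsPrincipalIdealRing (t4vnS L R) := t3h_isPrincipalIdealRing_of_fintype _
  obtain ⟨s, hs⟩ := (IsPrincipalIdealRing.principal Q.asIdeal).principal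
  have hsQ : s ∈ Q.asIdeal := by rw [hs]; exact Ideal.mem_span_singleton_self s
  have hs0 : s ≠ 0 := by
    rintro rfl
    apply Q.ne_bot
    rw [hs]
    simp
  have hsL : (s : L) ≠ 0 := fun h0 => hs0 (Subtype.ext h0)
  have hnot : ∀ i, s ∉ (𝒱.centre i).asIdeal := by
    intro i hmem
    apply hcon i
    have hle : Q.asIdeal ≤ (𝒱.centre i).asIdeal := by
      rw [hs, Ideal.submodule_span_eq, Ideal.span_le, Set.singleton_subset_iff]
      exact hmem
    exact (HeightOneSpectrum.ext (Q.isMaximal.eq_of_le (𝒱.centre i).isPrime.ne_top hle)).symm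
  have hinv : ∀ i, (s : L)⁻¹ ∈ 𝒱.V i := by
    intro i
    have h1 := t4vn_valuation_eq_one_of_notMem R (𝒱.V i) (𝒱.le i) (hnot i)
    rw [← (𝒱.V i).valuation_le_one_iff, map_inv₀, h1, inv_one]
  have hint : IsIntegral ↥R (s : L)⁻¹ := 𝒱.compl _ hinv
  let t : t4vnS L R := ⟨(s : L)⁻¹, hint⟩
  have hst : s * t = 1 := by
    apply Subtype.ext
    show (s : L) * (s : L)⁻¹ = 1
    exact mul_inv_cancel₀ hsL
  apply Q.isPrime.ne_top
  rw [Ideal.eq_top_iff_one, ← hst]
  exact Ideal.mul_mem_right _ _ hsQ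

/-- the members of the family are the primes of the integral closure -/
noncomputable def equiv : ι ≃ HeightOneSpectrum (t4vnS L R) :=
  Equiv.ofBijective 𝒱.centre ⟨𝒱.centre_injective, 𝒱.centre_surjective⟩

/-- the residue degree of a member of the family -/
noncomputable def f (i : ι) : ℕ := (𝒱.centre i).asIdeal.inertiaDeg ↥R

theorem f_pos (i : ι) : 0 < 𝒱.f i := by
  haveI : (𝒱.centre i).asIdeal.IsPrime := (𝒱.centre i).isPrime
  exact Ideal.inertiaDeg_pos (𝒱.centre i).asIdeal ↥R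

variable [Fintype ι]

/-- **valuation of a norm**, valuation subring form: `v_R (N y) = ∏ i, v_i(y) ^ f i` -/
theorem val_norm (y : L) (hy : y ≠ 0) :
    t4vnVal R (Algebra.norm K y) = ∏ i, t4vnVal (𝒱.V i) y ^ 𝒱.f i := by
  have h := t4vn_valuation_norm (R := ↥R) (S := t4vnS L R) (F := K) (F' := L) y hy
  rw [show t4vnVal R = (t3hMax ↥R).valuation K from rfl, h,
    ← Fintype.prod_equiv 𝒱.equiv (fun i => t4vnVal (𝒱.V i) y ^ 𝒱.f i)
      (fun Q => Q.valuation L y ^ Q.asIdeal.inertiaDeg ↥R)]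
  intro i
  show _ = (𝒱.centre i).valuation L y ^ _
  rw [𝒱.centre_valuation]
  rfl

/-- **the fundamental identity** `∑ e f = n`, valuation subring form -/
theorem sum_e_mul_f {π : K} (hπ : t4vnVal R π = exp (-1 : ℤ)) (e : ι → ℕ)
    (he : ∀ i, t4vnVal (𝒱.V i) (algebraMap K L π) = exp (-(e i : ℤ))) :
    ∑ i, e i * 𝒱.f i = Module.finrank K L := by
  have hπ0 : π ≠ 0 := by
    rintro rfl
    rw [map_zero] at hπ
    exact (exp_ne_zero).symm hπ
  have hπL : algebraMap K L π ≠ 0 := by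
    rwa [ne_eq, map_eq_zero]
  have h := 𝒱.val_norm (algebraMap K L π) hπL
  rw [Algebra.norm_algebraMap, map_pow, hπ, ← exp_nsmul] at h
  simp_rw [he, ← exp_nsmul] at h
  have h2 : ∀ i, exp (𝒱.f i • -(e i : ℤ)) = exp (-((e i * 𝒱.f i : ℕ) : ℤ)) := by
    intro i
    congr 1
    push_cast
    simp only [nsmul_eq_mul]
    ring
  simp_rw [h2] at h
  rw [t3h_prod_exp] at h
  have h3 := exp_injective h
  simp only [nsmul_eq_mul, mul_neg, mul_one, neg_inj] at h3
  exact_mod_cast h3.symm

/-- the uniformiser of `R` lies in the centre of every member -/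
theorem val_algebraMap_lt_one {π : K} (hπ : t4vnVal R π = exp (-1 : ℤ)) (i : ι) :
    t4vnVal (𝒱.V i) (algebraMap K L π) < 1 := by
  obtain ⟨hmem, hmax⟩ := t4vn_maximalIdeal_eq_span R hπ
  have h1 : (⟨π, hmem⟩ : ↥R) ∈ IsLocalRing.maximalIdeal ↥R := by
    rw [hmax]; exact Ideal.mem_span_singleton_self _
  have h2 := t3h_algebraMap_mem (𝒱.centre i) h1
  rw [← HeightOneSpectrum.valuation_lt_one_iff_mem (K := L), 𝒱.centre_valuation] at h2
  exact h2

theorem e_pos {π : K} (hπ : t4vnVal R π = exp (-1 : ℤ)) (e : ι → ℕ)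
    (he : ∀ i, t4vnVal (𝒱.V i) (algebraMap K L π) = exp (-(e i : ℤ))) (i : ι) : 0 < e i := by
  have h := 𝒱.val_algebraMap_lt_one hπ i
  rw [he, ← exp_zero, exp_lt_exp] at h
  omega

/-- if `∑ e = n` then all residue degrees are one -/
theorem f_eq_one_of_sum {π : K} (hπ : t4vnVal R π = exp (-1 : ℤ)) (e : ι → ℕ)
    (he : ∀ i, t4vnVal (𝒱.V i) (algebraMap K L π) = exp (-(e i : ℤ)))
    (hsum : ∑ i, e i = Module.finrank K L) (i : ι) : 𝒱.f i = 1 := by
  have h1 := 𝒱.sum_e_mul_f hπ e he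
  rw [← hsum] at h1
  have hle : ∀ j ∈ Finset.univ, e j ≤ e j * 𝒱.f j := fun j _ =>
    Nat.le_mul_of_pos_right _ (𝒱.f_pos j)
  have h2 := (Finset.sum_eq_sum_iff_of_le hle).mp h1.symm i (Finset.mem_univ i)
  have hpos := 𝒱.e_pos hπ e he i
  have h3 : e i * 1 = e i * 𝒱.f i := by rw [mul_one]; exact h2
  exact (Nat.eq_of_mul_eq_mul_left hpos h3).symm

theorem equiv_apply (i : ι) : 𝒱.equiv i = 𝒱.centre i := rfl

/-- **residue of a norm, all residue degrees one** (`∑ e = n`), valuation subring form: if `x`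
has the value `c i ∈ R` at `V i` for all `i`, then `N x ≡ ∏ i, (c i) ^ e i` -/
theorem res_norm_deg_one {κ : Type*} [Field κ] [Infinite κ] (ρ : ↥R →+* κ)
    (hρ : Function.Surjective ρ) {π : K} (hπ : t4vnVal R π = exp (-1 : ℤ)) (e : ι → ℕ)
    (he : ∀ i, t4vnVal (𝒱.V i) (algebraMap K L π) = exp (-(e i : ℤ)))
    (hsum : ∑ i, e i = Module.finrank K L) (x : L) (hx : ∀ i, x ∈ 𝒱.V i) (c : ι → ↥R)
    (hc : ∀ i, (𝒱.V i).valuation (x - algebraMap ↥R L (c i)) < 1) :
    ∃ h : Algebra.norm K x ∈ R, ρ ⟨_, h⟩ = ∏ i, ρ (c i) ^ e i := by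
  classical
  have hker : ∀ r : ↥R, ρ r = 0 ↔ r ∈ IsLocalRing.maximalIdeal ↥R := by
    intro r
    have hmax : (RingHom.ker ρ).IsMaximal := RingHom.ker_isMaximal_of_surjective ρ hρ
    rw [← IsLocalRing.eq_maximalIdeal hmax, RingHom.mem_ker]
  haveI : Infinite (IsLocalRing.ResidueField ↥R) := by
    let g : IsLocalRing.ResidueField ↥R →+* κ :=
      Ideal.Quotient.lift _ ρ (fun a ha => (hker a).mpr ha)
    have hg : Function.Surjective g := by
      intro z
      obtain ⟨r, rfl⟩ := hρ z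
      exact ⟨IsLocalRing.residue _ r, rfl⟩
    exact Infinite.of_surjective g hg
  set x' : t4vnS L R := ⟨x, 𝒱.compl x hx⟩ with hx'
  obtain ⟨hπmem, hπmax⟩ := t4vn_maximalIdeal_eq_span R hπ
  have hdeg : ∀ Q : HeightOneSpectrum (t4vnS L R), Q.asIdeal.inertiaDeg ↥R = 1 := by
    intro Q
    obtain ⟨i, rfl⟩ := 𝒱.centre_surjective Q
    exact 𝒱.f_eq_one_of_sum hπ e he hsum i
  have hte : ∀ Q : HeightOneSpectrum (t4vnS L R),
      Q.intValuation (algebraMap ↥R (t4vnS L R) ⟨π, hπmem⟩)
        = exp (-((e (𝒱.equiv.symm Q) : ℕ) : ℤ)) := by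
    intro Q
    obtain ⟨i, rfl⟩ := 𝒱.equiv.surjective Q
    rw [Equiv.symm_apply_apply, ← HeightOneSpectrum.valuation_of_algebraMap (K := L),
      equiv_apply, 𝒱.centre_valuation, ← he i]
    rfl
  have hxc : ∀ Q : HeightOneSpectrum (t4vnS L R),
      x' - algebraMap ↥R (t4vnS L R) (c (𝒱.equiv.symm Q)) ∈ Q.asIdeal := by
    intro Q
    obtain ⟨i, rfl⟩ := 𝒱.equiv.surjective Q
    rw [Equiv.symm_apply_apply, equiv_apply, centre, t4vn_mem_centre_iff]
    exact hc i
  have key := t4vn_residue_norm_deg_one (R := ↥R) (S := t4vnS L R) hdeg hπmax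
    (fun Q => e (𝒱.equiv.symm Q)) hte x' (fun Q => c (𝒱.equiv.symm Q)) hxc
  have hN := t4vn_algebraMap_norm x'
  have hmem : Algebra.norm K x ∈ R := by
    have : Algebra.norm K x = ((Algebra.norm ↥R x' : ↥R) : K) := hN.symm
    rw [this]
    exact (Algebra.norm ↥R x').2
  refine ⟨hmem, ?_⟩
  have heq : (⟨Algebra.norm K x, hmem⟩ : ↥R) = Algebra.norm ↥R x' := Subtype.ext hN.symm
  rw [heq]
  have hprod : IsLocalRing.residue ↥R (Algebra.norm ↥R x')
      = IsLocalRing.residue ↥R (∏ Q, c (𝒱.equiv.symm Q) ^ e (𝒱.equiv.symm Q)) := by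
    rw [key, map_prod]
    simp_rw [map_pow]
  have hsub : Algebra.norm ↥R x' - ∏ Q, c (𝒱.equiv.symm Q) ^ e (𝒱.equiv.symm Q)
      ∈ IsLocalRing.maximalIdeal ↥R := by
    rw [← IsLocalRing.residue_eq_zero_iff, map_sub, hprod, sub_self]
  have h0 := (hker _).mpr hsub
  rw [map_sub, sub_eq_zero] at h0
  rw [h0, map_prod]
  simp_rw [map_pow]
  exact Fintype.prod_equiv 𝒱.equiv.symm _ _ (fun Q => rfl)

section Unram

variable [Unique ι]

theorem isIntegral_of_mem_default {y : L} (hy : y ∈ 𝒱.V default) : IsIntegral ↥R y :=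
  𝒱.compl y (fun i => by rw [Unique.eq_default i]; exact hy)

/-- the inclusion of the integral closure in the unique valuation subring above `R` -/
noncomputable def toDefault : t4vnS L R →+* ↥(𝒱.V default) :=
  (algebraMap (t4vnS L R) L).codRestrict (𝒱.V default).toSubring
    (t4vnS_le (𝒱.V default) (𝒱.le default))

theorem coe_toDefault (s : t4vnS L R) : ((𝒱.toDefault s : ↥(𝒱.V default)) : L) = (s : L) := rfl

theorem toDefault_surjective : Function.Surjective 𝒱.toDefault := by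
  intro w
  exact ⟨⟨(w : L), 𝒱.isIntegral_of_mem_default w.2⟩, Subtype.ext rfl⟩

/-- **residue of a norm, one unramified valuation above**: `N x ≡ N_{κ'/κ} (x mod 𝔪)` -/
theorem res_norm_unram {κ κ' : Type*} [Field κ] [Field κ'] [Algebra κ κ'] (ρ : ↥R →+* κ)
    (hρ : Function.Surjective ρ) (ρ' : ↥(𝒱.V default) →+* κ') (hρ' : Function.Surjective ρ')
    (hcomp : ∀ r : ↥R, ρ' ⟨algebraMap ↥R L r, 𝒱.le default r⟩ = algebraMap κ κ' (ρ r))
    {π : K} (hπ : t4vnVal R π = exp (-1 : ℤ))
    (he : t4vnVal (𝒱.V default) (algebraMap K L π) = exp (-1 : ℤ))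
    (x : L) (hx : x ∈ 𝒱.V default) :
    ∃ h : Algebra.norm K x ∈ R, ρ ⟨_, h⟩ = Algebra.norm κ (ρ' ⟨x, hx⟩) := by
  classical
  have hkerρ : RingHom.ker ρ = IsLocalRing.maximalIdeal ↥R :=
    IsLocalRing.eq_maximalIdeal (RingHom.ker_isMaximal_of_surjective ρ hρ)
  have hkerρ' : RingHom.ker ρ' = IsLocalRing.maximalIdeal ↥(𝒱.V default) :=
    IsLocalRing.eq_maximalIdeal (RingHom.ker_isMaximal_of_surjective ρ' hρ')
  obtain ⟨hπmem, hπmax⟩ := t4vn_maximalIdeal_eq_span R hπ
  obtain ⟨hπmem', hπmax'⟩ := t4vn_maximalIdeal_eq_span (𝒱.V default) he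
  set x' : t4vnS L R := ⟨x, 𝒱.isIntegral_of_mem_default hx⟩ with hx'
  set ρS : t4vnS L R →+* κ' := ρ'.comp 𝒱.toDefault with hρS
  have hρSsurj : Function.Surjective ρS := hρ'.comp 𝒱.toDefault_surjective
  have hker : RingHom.ker ρS = (RingHom.ker ρ).map (algebraMap ↥R (t4vnS L R)) := by
    rw [hkerρ, hπmax, Ideal.map_span, Set.image_singleton]
    ext s
    rw [RingHom.mem_ker, hρS, RingHom.comp_apply, ← RingHom.mem_ker, hkerρ', hπmax',
      Ideal.mem_span_singleton', Ideal.mem_span_singleton']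
    constructor
    · rintro ⟨w, hw⟩
      refine ⟨⟨(w : L), 𝒱.isIntegral_of_mem_default w.2⟩, ?_⟩
      apply Subtype.ext
      have := congrArg (Subtype.val) hw
      exact this
    · rintro ⟨t, ht⟩
      refine ⟨𝒱.toDefault t, ?_⟩
      apply Subtype.ext
      have := congrArg (Subtype.val) ht
      exact this
  have hcompS : ∀ r : ↥R, ρS (algebraMap ↥R (t4vnS L R) r) = algebraMap κ κ' (ρ r) := by
    intro r
    rw [← hcomp r]
    rfl
  have key := t4vn_norm_residue (R := ↥R) (S := t4vnS L R) ρ ρS hρ hρSsurj hker hcompS x'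
  have hN := t4vn_algebraMap_norm x'
  have hmem : Algebra.norm K x ∈ R := by
    have : Algebra.norm K x = ((Algebra.norm ↥R x' : ↥R) : K) := hN.symm
    rw [this]
    exact (Algebra.norm ↥R x').2
  refine ⟨hmem, ?_⟩
  have heq : (⟨Algebra.norm K x, hmem⟩ : ↥R) = Algebra.norm ↥R x' := Subtype.ext hN.symm
  rw [heq, key]
  rfl

/-- **the residue degree of the unique unramified valuation above is the degree** -/
theorem finrank_residue_unram {κ κ' : Type*} [Field κ] [Field κ'] [Algebra κ κ'] (ρ : ↥R →+* κ)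
    (hρ : Function.Surjective ρ) (ρ' : ↥(𝒱.V default) →+* κ') (hρ' : Function.Surjective ρ')
    (hcomp : ∀ r : ↥R, ρ' ⟨algebraMap ↥R L r, 𝒱.le default r⟩ = algebraMap κ κ' (ρ r))
    {π : K} (hπ : t4vnVal R π = exp (-1 : ℤ))
    (he : t4vnVal (𝒱.V default) (algebraMap K L π) = exp (-1 : ℤ)) :
    Module.finrank κ κ' = Module.finrank K L := by
  classical
  have hkerρ : RingHom.ker ρ = IsLocalRing.maximalIdeal ↥R :=
    IsLocalRing.eq_maximalIdeal (RingHom.ker_isMaximal_of_surjective ρ hρ)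
  have hkerρ' : RingHom.ker ρ' = IsLocalRing.maximalIdeal ↥(𝒱.V default) :=
    IsLocalRing.eq_maximalIdeal (RingHom.ker_isMaximal_of_surjective ρ' hρ')
  -- `f = n`
  have hf : 𝒱.f default = Module.finrank K L := by
    have h := 𝒱.sum_e_mul_f hπ (fun _ => 1) (fun i => by
      rw [Unique.eq_default i]; exact_mod_cast he)
    rw [Fintype.sum_unique, one_mul] at h
    exact h
  set Q := 𝒱.centre default with hQ
  haveI hlo : Q.asIdeal.LiesOver (IsLocalRing.maximalIdeal ↥R) := t3h_liesOver_maximalIdeal Q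
  haveI hQmax : Q.asIdeal.IsMaximal := Q.isMaximal
  rw [← hf, f, Ideal.inertiaDeg_eq_of_isMaximal (IsLocalRing.maximalIdeal ↥R) Q.asIdeal]
  symm
  set ρS : t4vnS L R →+* κ' := ρ'.comp 𝒱.toDefault with hρS
  have hρSsurj : Function.Surjective ρS := hρ'.comp 𝒱.toDefault_surjective
  have hkerS : RingHom.ker ρS = Q.asIdeal := by
    ext s
    rw [RingHom.mem_ker, hρS, RingHom.comp_apply, ← RingHom.mem_ker, hkerρ']
    rfl
  let e₁ : (↥R ⧸ IsLocalRing.maximalIdeal ↥R) ≃+* κ :=
    (Ideal.quotEquivOfEq hkerρ.symm).trans (RingHom.quotientKerEquivOfSurjective hρ)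
  let e₂ : (t4vnS L R ⧸ Q.asIdeal) ≃+* κ' :=
    (Ideal.quotEquivOfEq hkerS.symm).trans (RingHom.quotientKerEquivOfSurjective hρSsurj)
  apply Algebra.finrank_eq_of_equiv_equiv e₁ e₂
  apply Ideal.Quotient.ringHom_ext
  ext r
  simp only [RingHom.coe_comp, Function.comp_apply, RingEquiv.toRingHom_eq_coe, RingHom.coe_coe]
  rw [Ideal.Quotient.algebraMap_mk_of_liesOver]
  show algebraMap κ κ' (ρ r) = ρS (algebraMap ↥R (t4vnS L R) r)
  rw [← hcomp r]
  rfl

/-- **residue of a norm, one unramified valuation above with purely inseparable residue extension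
of degree `q = [L : K]`**: `N x ≡ (x mod 𝔪) ^ q` ("Frobenius norm") -/
theorem res_norm_frob {κ κ' : Type*} [Field κ] [Field κ'] [Algebra κ κ'] (ρ : ↥R →+* κ)
    (hρ : Function.Surjective ρ) (ρ' : ↥(𝒱.V default) →+* κ') (hρ' : Function.Surjective ρ')
    (hcomp : ∀ r : ↥R, ρ' ⟨algebraMap ↥R L r, 𝒱.le default r⟩ = algebraMap κ κ' (ρ r))
    {π : K} (hπ : t4vnVal R π = exp (-1 : ℤ))
    (he : t4vnVal (𝒱.V default) (algebraMap K L π) = exp (-1 : ℤ))
    (q : ℕ) [Fact q.Prime] [CharP κ q] (hq : Module.finrank K L = q)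
    (hins : ∀ z : κ', ∃ c : κ, z ^ q = algebraMap κ κ' c)
    (x : L) (hx : x ∈ 𝒱.V default) :
    ∃ h : Algebra.norm K x ∈ R, algebraMap κ κ' (ρ ⟨_, h⟩) = ρ' ⟨x, hx⟩ ^ q := by
  obtain ⟨h, hN⟩ := 𝒱.res_norm_unram ρ hρ ρ' hρ' hcomp hπ he x hx
  refine ⟨h, ?_⟩
  obtain ⟨c, hc⟩ := hins (ρ' ⟨x, hx⟩)
  have hrank : Module.finrank κ κ' = q := by
    rw [𝒱.finrank_residue_unram ρ hρ ρ' hρ' hcomp hπ he, hq]
  rw [hN, t4vn_norm_of_pow_eq q hrank _ c hc, hc]

end Unram

end T4vnFam

end Family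

end Fermat.Agent.T4
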